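import Fermat.Agent.LT.Desc.RightD

/-!
# Existence of `(V, χ)`-equivariant eigenfunctions

`EigF.exists_eqV` : from a non-zero eigenfunction `f₀` on `X_∞ × D U₀`, spherical outside `S`, to a
non-zero eigenfunction with the same eigenvalues, `(V, χ)`-equivariant at `S`, on `X_∞ × D U` for
every sufficiently small level `U` (maximal outside `S`).
-/

set_option autoImplicit false
set_option linter.unusedSectionVars false

noncomputable section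

open Matrix NumberField MeasureTheory IsDedekindDomain WithZero HeightOneSpectrum
open scoped WithZero Topology

namespace Fermat.Agent.LT.Desc

open H3 Lvl Loc Adapt Kap

variable {F : Type*} [Field F] [NumberField F] [IsTotallyComplex F]

namespace EigF

variable {S : Finset (HeightOneSpectrum (𝓞 F))}
  {a : HeightOneSpectrum (𝓞 F) → ℂ} {h : InfinitePlace F → (ℝ → ℂ) → ℂ}
  {U₀ : Lev F} {f₀ : Xi F × D U₀ → ℂ}

theorem toKap_ne_zero (hcl : CFT.Global.ClTrivial S) (h₀ : EigF U₀ S a h f₀)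
    (hne : ∃ z, f₀ z ≠ 0) : ∃ p, toKap S U₀ f₀ p ≠ 0 := by
  by_contra hcon
  push Not at hcon
  obtain ⟨z, hz⟩ := hne
  exact hz ((forall_toKap hcl h₀.offS h₀.inv (fun c => c = 0)).mpr hcon z)

theorem ne_zero_of_toKap {U : Lev F} {f : Xi F × D U → ℂ} (hne : ∃ p, toKap S U f p ≠ 0) :
    ∃ z, f z ≠ 0 := by
  obtain ⟨p, hp⟩ := hne
  exact ⟨_, hp⟩

variable [IsPrincipalIdealRing (OS S)] [Nontrivial (Rf S)]
  {θ : AddChar (Rinf F × Rf S) Circle} {lam : OS S → ℂ} {wi : Xi F → ℂ}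

/-- the Kirillov function of a non-zero element of `W` does not vanish -/
theorem exists_wh_ne_zero (hθ : SelfDual (OS S) θ) {ψ : Sp (Xi F) (Rf S) → ℂ}
    (hψ : InW (OS S) θ lam wi ψ) (hne : ∃ p, ψ p ≠ 0) :
    ∃ (z : Xi F) (a₁ : (Rf S)ˣ), wh (OS S) θ ψ 1 (⟨z, dg a₁ 1⟩ : Sp (Xi F) (Rf S)) ≠ 0 := by
  by_contra hcon
  push Not at hcon
  obtain ⟨p, hp⟩ := hne
  exact hp (S_eq_zero_of_kappa hθ hψ hcon p)

theorem exists_ne_zero_of_wh {ψ : Sp (Xi F) (Rf S) → ℂ} {b : OS S} {x : Sp (Xi F) (Rf S)}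
    (hne : wh (OS S) θ ψ b x ≠ 0) : ∃ p, ψ p ≠ 0 := by
  by_contra hcon
  push Not at hcon
  apply hne
  have h1 : ψ = fun x => (0 : ℂ) * ψ x := by
    funext p
    rw [hcon p, mul_zero]
  rw [h1, wh_smul_fun, zero_mul]

/-- **Existence of arbitrarily small types `(V, χ)` with a non-zero `(V, χ)`-equivariant
eigenfunction.** -/
theorem exists_eqV (hcl : CFT.Global.ClTrivial S) (hθ : SelfDual (OS S) θ)
    (B : FBase (Ri := Rinf F) (Rf := Rf S) θ) (h₀ : EigF U₀ S a h f₀)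
    (hW : InW (OS S) θ lam wi (toKap S U₀ f₀)) (hne : ∃ z, f₀ z ≠ 0)
    {nb : Set (Rf S)} (hnb : nb ∈ 𝓝 (0 : Rf S)) (n₀ : ℕ) :
    ∃ (m k M : ℕ) (hadm : B.Adm (B.N ^ m) (B.N ^ k) (B.N ^ M)), n₀ ≤ m ∧ n₀ ≤ k - m ∧ m ≤ k ∧
      n₀ ≤ M ∧ m ≤ M ∧
      (∀ x ∈ (B.dat _ _ _ hadm).α, x ∈ nb) ∧ (∀ x ∈ (B.dat _ _ _ hadm).β, x ∈ nb) ∧
      (∀ x ∈ (B.dat _ _ _ hadm).γ, x ∈ nb) ∧
      ∃ n₁ : ℕ, ∀ U : Lev F,
        (∀ v ∉ S, U.U v = GLO (Valued.v : Valuation (v.adicCompletion F) ℤᵐ⁰)) →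
        (∀ v ∈ S, U.U v ≤ Kn (Valued.v : Valuation (v.adicCompletion F) ℤᵐ⁰) (exp (-(n₁ : ℤ)))) →
        ∃ f : Xi F × D U → ℂ, EigF U S a h f ∧ (∃ z, f z ≠ 0) ∧
          EqV (B.dat _ _ _ hadm) (toKap S U f) ∧ InW (OS S) θ lam wi (toKap S U f) := by
  obtain ⟨z, a₁, hz⟩ := exists_wh_ne_zero hθ hW (h₀.toKap_ne_zero hcl hne)
  obtain ⟨m, k, M, hadm, h1, h2, h3, h4, h5, hα, hβ, hγ, ψ, hψ, hV, hwh⟩ :=
    B.exists_small hθ hW a₁ hnb n₀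
  obtain ⟨n₁, hn₁⟩ := h₀.exists_rspan hψ
  refine ⟨m, k, M, hadm, h1, h2, h3, h4, h5, hα, hβ, hγ, n₁, fun U hU hUS => ?_⟩
  obtain ⟨f, hf, hfψ⟩ := hn₁ U hU hUS
  refine ⟨f, hf, ne_zero_of_toKap (S := S) ?_, ?_, ?_⟩
  · rw [hfψ]
    refine exists_ne_zero_of_wh (θ := θ) (b := 1)
      (x := (⟨z, dg (B.N ^ k)⁻¹ 1⟩ : Sp (Xi F) (Rf S))) ?_
    rw [hwh]
    exact hz
  · rw [hfψ]
    exact hV
  · rw [hfψ]
    exact hW.of_mem_rspan hθ hψ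

end EigF

end Fermat.Agent.LT.Desc

end
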