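import Fermat.Agent.LT.Desc.PosD
import Fermat.Agent.LT.Desc.Phi
import Fermat.Agent.LT.Kappa.LevTau
import Mathlib.NumberTheory.NumberField.Discriminant.Different

/-!
# The type `(V, χ)` at the places dividing `N`

`S` = the set of places of `L` dividing `N`, `discr L ∣ N`, `δ = 1`.

* `TypeOK hS D a₀`: everything which is used about the pair `(V, χ)`;
* `typeOK_fbN`: it holds for helper31's family;
* `EigF.exists_type`: from a non-zero eigenfunction `f₀`, a type (as small as one likes) and, for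
  every small level, a non-zero eigenfunction of this type with the same eigenvalues.
-/

set_option autoImplicit false
set_option linter.unusedSectionVars false

noncomputable section

open Matrix NumberField IsDedekindDomain HeightOneSpectrum WithZero
open scoped WithZero Topology

namespace Fermat.Agent.LT.Desc

open Lvl Ext Kap Adapt H3 Loc
open Fermat.Agent.LT.Chr hiding Rf

section Places

variable {L : Type*} [Field L] [NumberField L] {N : ℕ} {S : Finset (HeightOneSpectrum (𝓞 L))}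

theorem mem_of_dvd_different (hd : NumberField.discr L ∣ (N : ℤ))
    (hS : ∀ v, v ∈ S ↔ (N : 𝓞 L) ∈ v.asIdeal) (v : HeightOneSpectrum (𝓞 L))
    (hv : v.asIdeal ∣ differentIdeal ℤ (𝓞 L)) : v ∈ S := by
  rw [hS]
  have h1 : ((differentIdeal ℤ (𝓞 L)).absNorm : 𝓞 L) ∈ v.asIdeal :=
    Ideal.dvd_iff_le.mp hv (Ideal.absNorm_mem _)
  rw [NumberField.absNorm_differentIdeal (K := L)] at h1
  obtain ⟨c, hc⟩ := Int.natAbs_dvd_natAbs.mpr hd
  rw [Int.natAbs_natCast] at hc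
  rw [hc, Nat.cast_mul]
  exact v.asIdeal.mul_mem_right _ h1

theorem selfDual_of_discr [IsTotallyComplex L] (hd : NumberField.discr L ∣ (N : ℤ))
    (hS : ∀ v, v ∈ S ↔ (N : 𝓞 L) ∈ v.asIdeal) :
    SelfDual (OS S) (A := Rinf L × Rf S) (thetaA S (1 : L)) :=
  selfDual_A_one S (mem_of_dvd_different hd hS)

theorem nonempty_of_one_lt (hN : 1 < N) (hS : ∀ v, v ∈ S ↔ (N : 𝓞 L) ∈ v.asIdeal) :
    S.Nonempty := by
  have h1 : ¬ IsUnit (N : 𝓞 L) := by
    intro h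
    have h2 : IsUnit (algebraMap ℤ (𝓞 L) (N : ℤ)) := by simpa using h
    have hl : IsLocalHom (algebraMap ℤ (𝓞 L)) := Algebra.IsIntegral.isLocalHom ℤ (𝓞 L)
    have h3 : IsUnit (N : ℤ) := hl.map_nonunit _ h2
    rw [Int.isUnit_iff] at h3
    omega
  obtain ⟨M, hM, hNM⟩ := exists_max_ideal_of_mem_nonunits h1
  have hne : M ≠ ⊥ := by
    rintro rfl
    rw [Ideal.mem_bot, Nat.cast_eq_zero] at hNM
    omega
  exact ⟨⟨M, hM.isPrime, hne⟩, (hS _).mpr hNM⟩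

theorem valuation_natCast_lt (hS : ∀ v, v ∈ S ↔ (N : 𝓞 L) ∈ v.asIdeal) :
    ∀ v ∈ S, v.valuation L (((N : 𝓞 L) : 𝓞 L) : L) < 1 := fun v hv =>
  (valuation_lt_one_iff_mem (K := L) v (N : 𝓞 L)).mpr ((hS v).mp hv)

variable {G : Type*} [Group G] [MulSemiringAction G L]

theorem smul_natCast_coe (g : G) (N : ℕ) : g • (((N : 𝓞 L) : 𝓞 L) : L) = ((N : 𝓞 L) : L) := by
  have h1 : (((N : 𝓞 L) : 𝓞 L) : L) = (N : L) := map_natCast (algebraMap (𝓞 L) L) N
  rw [h1]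
  exact map_natCast (MulSemiringAction.toRingHom G L g) N

theorem sStable_of_mem (G : Type*) [Group G] [MulSemiringAction G L]
    (hS : ∀ v, v ∈ S ↔ (N : 𝓞 L) ∈ v.asIdeal) : SStable G S := by
  intro g v hv
  rw [hS, ← valuation_lt_one_iff_mem (K := L)]
  have h1 := valuation_natCast_lt hS v hv
  have h2 := valuation_smul (R := 𝓞 L) g v (((N : 𝓞 L) : 𝓞 L) : L)
  rw [smul_natCast_coe g N] at h2
  exact h2.trans_lt h1

end Places

section Types

variable {L : Type*} [Field L] [NumberField L] {S : Finset (HeightOneSpectrum (𝓞 L))}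
  {G : Type*} [Group G] [MulSemiringAction G L]

/-- Everything which is used about the pair `(V, χ)` at the places of `S`. -/
structure TypeOK [IsTotallyComplex L] (hG : SStable G S) (T : TyDat (Rf S)) (a₀ : (Rf S)ˣ) :
    Prop where
  kap : KapOK S (1 : L) T a₀
  stab : ∀ g : G, (tauDat hG g (smul_one g : g • (1 : L) = 1)).Stab T a₀
  prod : T.IsProd
  tst : TStable G (T.loc prod)
  le : ∃ n₀ : ℕ, ∀ (v : S) (n : ℕ), n₀ ≤ n →
    Kn (vF v.1) (exp (-(n : ℤ))) ≤ (T.loc prod v).Vk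

variable {N : ℕ}

/-- helper31's family for `N` and `δ = 1`. -/
def fbN (hN0 : N ≠ 0) (hS : ∀ v, v ∈ S ↔ (N : 𝓞 L) ∈ v.asIdeal) :
    FBase (Ri := Rinf L) (Rf := Rf S) (thetaA S (1 : L)) :=
  fbase1 S (N := (N : 𝓞 L)) (Nat.cast_ne_zero.mpr hN0) (valuation_natCast_lt hS)

/-- **The family is of this kind.** -/
theorem typeOK_fbN [IsTotallyComplex L] (hN0 : N ≠ 0) (hN1 : 1 < N)
    (hS : ∀ v, v ∈ S ↔ (N : 𝓞 L) ∈ v.asIdeal) (hd : NumberField.discr L ∣ (N : ℤ))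
    (hcl : CFT.Global.ClTrivial S) {m k M : ℕ}
    (hadm : (fbN hN0 hS).Adm ((fbN hN0 hS).N ^ m) ((fbN hN0 hS).N ^ k) ((fbN hN0 hS).N ^ M)) :
    TypeOK (sStable_of_mem G hS) ((fbN hN0 hS).dat _ _ _ hadm) ((fbN hN0 hS).N ^ k)⁻¹ where
  kap :=
    { cl := hcl
      ne := nonempty_of_one_lt hN1 hS
      δ0 := one_ne_zero
      dual := selfDual_of_discr hd hS
      compat := hadm.compat }
  stab g := stab_fbase (sStable_of_mem G hS) g (smul_one g) one_ne_zero (one_mem_condF S)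
    (Nat.cast_ne_zero.mpr hN0) (valuation_natCast_lt hS) (smul_natCast_coe g N) hadm
  prod := FBase.isProd_dat inj_one_mem_Of hadm
  tst := tStable_fbase (sStable_of_mem G hS) (fun g => smul_one g) one_ne_zero (one_mem_condF S)
    (Nat.cast_ne_zero.mpr hN0) (valuation_natCast_lt hS) (fun g => smul_natCast_coe g N) hadm
  le := FBase.exists_Kn_le inj_one_mem_Of hadm

theorem setOf_lt_mem_nhds (r : HeightOneSpectrum (𝓞 L) → ℕ) :
    {x : Rf S | ∀ v : S, Valued.v (x v) < exp (-(r v.1 : ℤ))} ∈ 𝓝 (0 : Rf S) := by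
  have : {x : Rf S | ∀ v : S, Valued.v (x v) < exp (-(r v.1 : ℤ))} =
      Set.univ.pi fun v : S => {y : v.1.adicCompletion L | Valued.v (y - 0) < exp (-(r v.1 : ℤ))} := by
    ext x
    simp
  rw [this]
  refine (isOpen_set_pi Set.finite_univ fun v _ =>
    isOpen_ball v.1 0 exp_ne_zero).mem_nhds ?_
  intro v _
  simp

variable [IsTotallyComplex L] {a : HeightOneSpectrum (𝓞 L) → ℂ}
  {h : InfinitePlace L → (ℝ → ℂ) → ℂ} {U₀ : Lev L} {f₀ : Xi L × D U₀ → ℂ}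

/-- **Existence of the type.** `r v` prescribes the radius of `V` at `v`. -/
theorem EigF.exists_type (G : Type*) [Group G] [MulSemiringAction G L] (h₀ : EigF U₀ S a h f₀)
    (hne : ∃ z, f₀ z ≠ 0) (hN1 : 1 < N) (hS : ∀ v, v ∈ S ↔ (N : 𝓞 L) ∈ v.asIdeal)
    (hd : NumberField.discr L ∣ (N : ℤ)) (hcl : CFT.Global.ClTrivial S)
    (r : HeightOneSpectrum (𝓞 L) → ℕ) (hr : ∀ v ∈ S, r v ≠ 0) :
    ∃ (T : TyDat (Rf S)) (a₀ : (Rf S)ˣ) (hT : TypeOK (sStable_of_mem G hS) T a₀),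
      (∀ v : S, (T.loc hT.prod v).Small (vF v.1) (exp (-(r v.1 : ℤ)))) ∧
      ∃ n₁ : ℕ, (∀ U : Lev L, (∀ v ∈ S, U.U v ≤ Kn (vF v) (exp (-(n₁ : ℤ)))) →
          LevOK U (T.loc hT.prod)) ∧
        ∀ U : Lev L, (∀ v ∉ S, U.U v = GLO (vF v)) →
          (∀ v ∈ S, U.U v ≤ Kn (vF v) (exp (-(n₁ : ℤ)))) →
          ∃ f : Xi L × D U → ℂ, EigF U S a h f ∧ (∃ z, f z ≠ 0) ∧ EqV T (toKap S U f) := by
  have hpid : IsPrincipalIdealRing (OS S) := isPrincipalIdealRing_OS S hcl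
  have hnt : Nontrivial (Rf S) := nontrivial_Rf S (nonempty_of_one_lt hN1 hS)
  have hN0 : N ≠ 0 := by omega
  have hθ := selfDual_of_discr (S := S) hd hS
  obtain ⟨m, k, M, hadm, -, -, -, -, -, hα, hβ, hγ, n₁, hn₁⟩ :=
    h₀.exists_eqV hcl hθ (fbN hN0 hS) (h₀.inW_nuOf one_ne_zero hθ) hne (setOf_lt_mem_nhds r) 0
  have hT : TypeOK (sStable_of_mem G hS) ((fbN hN0 hS).dat _ _ _ hadm) ((fbN hN0 hS).N ^ k)⁻¹ :=
    typeOK_fbN hN0 hN1 hS hd hcl hadm
  have hsm : ∀ v : S, (((fbN hN0 hS).dat _ _ _ hadm).loc hT.prod v).Small (vF v.1)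
      (exp (-(r v.1 : ℤ))) := fun v =>
    small_loc hT.prod (exp_neg_lt_one (hr v.1 v.2)) (fun x hx => (hα x hx v).le)
      (fun x hx => (hβ x hx v).le) (fun x hx => (hγ x hx v).le)
  obtain ⟨n₀, hn₀⟩ := hT.le
  have hanti : ∀ (v : HeightOneSpectrum (𝓞 L)) (n : ℕ), n ≤ max n₀ n₁ →
      Kn (vF v) (exp (-((max n₀ n₁ : ℕ) : ℤ))) ≤ Kn (vF v) (exp (-(n : ℤ))) := by
    intro v n hn
    refine Kn_mono ?_
    rw [exp_le_exp]
    omega
  refine ⟨_, _, hT, hsm, max n₀ n₁, fun U hU => ⟨fun v => ⟨_, hsm v⟩, fun v => ?_⟩,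
    fun U hU hU' => ?_⟩
  · exact ((hU v.1 v.2).trans (hanti v.1 n₀ (le_max_left _ _))).trans (hn₀ v n₀ le_rfl)
  · obtain ⟨f, hf, hf0, hfV, -⟩ := hn₁ U hU fun v hv =>
      (hU' v hv).trans (hanti v n₁ (le_max_right _ _))
    exact ⟨f, hf, hf0, hfV⟩

end Types

end Fermat.Agent.LT.Desc

end
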