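import Fermat.Agent.LT.Desc.Inp
import Fermat.Agent.LT.Desc.KapInst
import Fermat.Agent.LT.Tower.StepT

/-!
# The arithmetic input of the descent from the tower of fields

`Inp.exists_of_tSys`; `IsForm.mono`.
-/

set_option autoImplicit false
set_option linter.unusedSectionVars false

noncomputable section

open NumberField IsDedekindDomain HeightOneSpectrum

namespace Fermat.Agent.LT.Desc

open Fermat.Agent.CFT.SUnits (aboveS mem_aboveS)

local notation "Qbar" => AlgebraicClosure ℚ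
local notation "Γℚ" => (AlgebraicClosure ℚ ≃ₐ[ℚ] AlgebraicClosure ℚ)
local notation "G3" => Matrix.GeneralLinearGroup (Fin 2) (ZMod 3)

/-- A form for a set of bad places is one for every larger finite set. -/
theorem isForm_mono {F : Type*} [Field F] [NumberField F] [IsTotallyComplex F] {U : Lvl.Lev F}
    {S S' : Set (HeightOneSpectrum (𝓞 F))} {a : HeightOneSpectrum (𝓞 F) → ℝ}
    {f : Xi F × Lvl.D U → ℂ} (h : IsForm F U S a f) (hS : S ⊆ S') (hf : S'.Finite) :
    IsForm F U S' a f :=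
  ⟨hf, fun v hv => h.lev v fun h' => hv (hS h'), h.cont, h.inv, h.bdd, h.cusp,
    fun v hv => h.hecke v fun h' => hv (hS h'), h.radial, h.ne⟩

/-- **The arithmetic input from the tower.** -/
theorem Inp.exists_of_tSys {ρ : Γℚ →* G3} {T : Tower.TowerFields ρ} {N : ℕ}
    {x : HeightOneSpectrum (𝓞 T.L) → ℝ} (hT : TSys T N x) :
    ∃ I : Inp T.K T.L, I.x = x ∧ (∀ v, v ∈ I.S ↔ v ∈ bad T.K N) ∧
      ∀ w, w ∈ aboveS T.L I.S ↔ w ∈ bad T.L N := by
  classical
  have hfin := Tower.finite_places T.K hT.N_ne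
  have hS : ∀ v, v ∈ hfin.toFinset ↔ v ∈ bad T.K N := fun v => hfin.mem_toFinset
  have hSL : ∀ w, w ∈ aboveS T.L hfin.toFinset ↔ w ∈ bad T.L N := fun w => by
    rw [mem_aboveS, hS]
    exact Tower.mem_bad_under w
  obtain ⟨w₀, hw₀, hp, hd, hx⟩ := hT.exists_u (bad T.L N) (Tower.finite_places T.L hT.N_ne)
  have hN1 : 1 < N := by
    obtain ⟨k, hk⟩ := hT.six_dvd
    have := hT.N_ne
    rcases Nat.eq_zero_or_pos k with rfl | h
    · omega
    · omega
  have hd' : NumberField.discr T.L ∣ (N : ℤ) :=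
    (NumberField.discr_dvd_discr T.L T.M).trans (Int.natAbs_dvd.mp (Int.natCast_dvd_natCast.mpr hT.discr))
  refine ⟨{
    τ := T.θ
    orderOf_τ := T.orderOf_θ
    finrank_eq := T.finrank_KL
    finrank_K := T.finrank_K
    ζ := T.ζ
    hζ := T.hζ
    c := T.c₃
    α := T.γ
    hα := T.γ_pow
    adjoin_α := T.adjoin_γ
    S := hfin.toFinset
    ne := nonempty_of_one_lt hN1 hS
    clK := hT.clK _ hS
    clL := hT.clL _ hSL
    N := N
    N_ne := hT.N_ne
    N_mem := fun v hv => (hS v).mp hv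
    diff := fun w hw => mem_of_dvd_different hd' hSL w hw
    unr := fun w hw => hT.unr w fun h => hw ((hSL w).mpr h)
    three := fun v hv h3 => hv ((hS v).mpr (Tower.natCast_mem_of_dvd
      ((Dvd.intro_left 2 rfl : 3 ∣ 6).trans hT.six_dvd) h3))
    ordc := fun v hv => by
      obtain ⟨p, hp, hpv⟩ := Tower.Fr.exists_prime_mem v
      exact (hT.good p hp (Tower.not_dvd_of_notMem_bad (fun h => hv ((hS v).mpr h)) hpv)).ord_c
        v hpv
    x := x
    inv := fun w w' hw h => hT.inv w w' (fun h' => hw ((hSL w).mpr h')) h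
    w₀ := w₀
    w₀_notMem := fun h => hw₀ ((hSL w₀).mp h)
    w₀_prime := hp
    w₀_deg := hd
    x_w₀ := hx }, rfl, hS, hSL⟩

end Fermat.Agent.LT.Desc

end
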