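import Fermat.Agent.LT.Desc.Core
import Fermat.Agent.LT.Desc.TowerInp

/-!
# Step B: the descent
-/

set_option autoImplicit false
set_option linter.unusedSectionVars false

noncomputable section

open NumberField IsDedekindDomain HeightOneSpectrum

namespace Fermat.Agent.LT.Desc

open Fermat.Agent.CFT.SUnits (aboveS mem_aboveS)

local notation "Γℚ" => (AlgebraicClosure ℚ ≃ₐ[ℚ] AlgebraicClosure ℚ)
local notation "G3" => Matrix.GeneralLinearGroup (Fin 2) (ZMod 3)

/-- **Step B.** -/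
theorem stepB (ρ : Γℚ →* G3) : StepB ρ := by
  intro T N x U f hT hf
  obtain ⟨I, rfl, hS, hSL⟩ := Inp.exists_of_tSys hT
  have hset : ((aboveS T.L I.S : Finset (HeightOneSpectrum (𝓞 T.L))) :
      Set (HeightOneSpectrum (𝓞 T.L))) = bad T.L N := Set.ext fun w => by
    rw [Finset.mem_coe]
    exact hSL w
  obtain ⟨UK, a, g, hg, ha⟩ := Inp.core hT I rfl hS (hset ▸ hf)
  have hq : (I.q : 𝓞 T.K) ∈ I.u.asIdeal := by
    rw [I.q_eq]
    exact Ideal.absNorm_mem _
  have hq0 : I.q ≠ 0 := I.w₀_prime.ne_zero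
  have hNq : N * I.q ≠ 0 := mul_ne_zero hT.N_ne hq0
  refine ⟨N * I.q, a, UK, g, dvd_mul_right _ _, hNq, ?_, fun w hw hd => ?_⟩
  · refine isForm_mono hg ?_ (Tower.finite_places T.K hNq)
    intro v hv
    rcases Set.mem_insert_iff.mp hv with rfl | hv
    · change ((N * I.q : ℕ) : 𝓞 T.K) ∈ I.u.asIdeal
      rw [Nat.cast_mul]
      exact Ideal.mul_mem_left _ _ hq
    · change ((N * I.q : ℕ) : 𝓞 T.K) ∈ v.asIdeal
      rw [Nat.cast_mul]
      exact Ideal.mul_mem_right _ _ ((hS v).mp hv)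
  · have h1 : w ∉ aboveS T.L I.S := fun h => hw (by
      change ((N * I.q : ℕ) : 𝓞 T.L) ∈ w.asIdeal
      rw [Nat.cast_mul]
      exact Ideal.mul_mem_right _ _ ((hSL w).mp h))
    refine ha w h1 (fun hu => hw ?_) hd
    refine (Tower.mem_bad_under (F := T.K) w).mp ?_
    change ((N * I.q : ℕ) : 𝓞 T.K) ∈ (w.under (𝓞 T.K)).asIdeal
    rw [← under_eq_under, hu, Nat.cast_mul]
    exact Ideal.mul_mem_left _ _ hq

end Fermat.Agent.LT.Desc

end
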