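import Fermat.Agent.LT.Steps
import Fermat.Agent.LT.Level.Std
import Fermat.Agent.LT.MatchSplit
import Fermat.Agent.LT.Kappa.InstTau

/-!
# The arithmetic input of the descent

`Inp K L`: a cyclic cubic extension `L / K` with the finite set `S` of bad places of `K`, the
system of eigenvalues `x` and the auxiliary place `w₀`; `Inp.exists_of_tSys`: it is supplied by the
tower of fields.
-/

set_option autoImplicit false
set_option linter.unusedSectionVars false

noncomputable section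

open Matrix NumberField IsDedekindDomain WithZero HeightOneSpectrum
open scoped WithZero Topology Pointwise

namespace Fermat.Agent.LT.Desc

open Fermat.Agent.CFT.SUnits (aboveS mem_aboveS)
open Fermat.Agent.CFT.Global (ClTrivial)
open Fermat.Agent.LT.Ext

section Split

variable {K L : Type*} [Field K] [Field L] [NumberField K] [NumberField L] [Algebra K L]
  (G : Type*) [Group G] [Finite G] [MulSemiringAction G L] [IsGaloisGroup G K L]

instance perfectField_residueField {F : Type*} [Field F] [NumberField F]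
    (v : HeightOneSpectrum (𝓞 F)) : PerfectField v.asIdeal.ResidueField := by
  have : Finite (𝓞 F ⧸ v.asIdeal) := v.asIdeal.finiteQuotientOfFreeOfNeBot v.ne_bot
  have : v.asIdeal.IsMaximal := v.isMaximal
  have h := Ideal.bijective_algebraMap_quotient_residueField v.asIdeal
  have : Finite v.asIdeal.ResidueField := Finite.of_surjective _ h.2
  infer_instance

/-- A place unramified and of degree one over `K` has a trivial decomposition group. -/
theorem stabilizer_eq_bot_of_deg {w : HeightOneSpectrum (𝓞 L)}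
    (he : (w.under (𝓞 K)).asIdeal.ramificationIdx' w.asIdeal = 1)
    (hf : Ideal.absNorm w.asIdeal = Ideal.absNorm (w.under (𝓞 K)).asIdeal) :
    MulAction.stabilizer G w = ⊥ := by
  set v : HeightOneSpectrum (𝓞 K) := w.under (𝓞 K) with hv
  have hlo : w.asIdeal.LiesOver v.asIdeal := ⟨rfl⟩
  have hvm : v.asIdeal.IsMaximal := v.isMaximal
  have hwm : w.asIdeal.IsMaximal := w.isMaximal
  have h1 : Nat.card (MulAction.stabilizer G w.asIdeal) = 1 := by
    rw [Ideal.card_stabilizer_eq (G := G) v.asIdeal w.asIdeal,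
      Ideal.ramificationIdxIn_eq_ramificationIdx v.asIdeal w.asIdeal G,
      Ideal.inertiaDegIn_eq_inertiaDeg v.asIdeal w.asIdeal G,
      ← Ideal.ramificationIdx'_eq_ramificationIdx v.asIdeal w.asIdeal v.ne_bot, he, one_mul,
      ← Ideal.inertiaDeg'_eq_inertiaDeg v.asIdeal w.asIdeal]
    have h2 := Ideal.absNorm_eq_pow_inertiaDeg'_of_liesOver w.asIdeal v.asIdeal v.isPrime v.ne_bot
    rw [hf] at h2
    have h3 : 1 < Ideal.absNorm v.asIdeal := NumberField.HeightOneSpectrum.one_lt_absNorm v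
    have h6 : Ideal.absNorm v.asIdeal ^ 1 = Ideal.absNorm v.asIdeal ^
        (v.asIdeal.inertiaDeg' w.asIdeal) := by rw [pow_one]; exact h2
    exact (Nat.pow_right_injective h3 h6).symm
  have h2 : MulAction.stabilizer G w.asIdeal = ⊥ := by
    have h3 := Nat.card_eq_one_iff_unique.mp h1
    exact (Subgroup.eq_bot_iff_card _).mpr h1
  refine eq_bot_iff.mpr fun g hg => ?_
  rw [← h2]
  rw [MulAction.mem_stabilizer_iff] at hg ⊢
  rw [← asIdeal_smul, hg]

end Split

section Cyc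

variable {K L : Type*} [Field K] [Field L] [Algebra K L] [FiniteDimensional K L] [IsGalois K L]

theorem cyc3_of_orderOf {τ : L ≃ₐ[K] L} (hτ : orderOf τ = 3) (h3 : Module.finrank K L = 3) :
    Fermat.Agent.LT.Cyc3 τ where
  cube x := by
    have h1 : τ ^ 3 = 1 := by rw [← hτ]; exact pow_orderOf_eq_one τ
    have h2 := DFunLike.congr_fun h1 x
    simpa [pow_succ] using h2
  fix x hx := by
    refine (IsGalois.mem_range_algebraMap_iff_fixed x).mpr fun g => ?_
    have h1 : Nat.card (Subgroup.zpowers τ) = Nat.card (L ≃ₐ[K] L) := by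
      rw [Nat.card_zpowers, hτ, IsGalois.card_aut_eq_finrank, h3]
    have h2 : g ∈ Subgroup.zpowers τ := by
      rw [Subgroup.eq_top_of_card_eq _ h1]
      exact Subgroup.mem_top g
    have h3 : ∀ g ∈ Subgroup.zpowers τ, g x = x := by
      intro g hg
      have h4 : Subgroup.zpowers τ ≤ MulAction.stabilizer (L ≃ₐ[K] L) x :=
        (Subgroup.zpowers_le).mpr hx
      exact h4 hg
    exact h3 g h2
  ne := by
    by_contra h
    push Not at h
    have h1 : τ = 1 := by
      ext x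
      exact h x
    rw [h1, orderOf_one] at hτ
    omega

end Cyc

section Inp

variable (K L : Type) [Field K] [Field L] [NumberField K] [NumberField L] [Algebra K L]
  [IsTotallyComplex K] [IsTotallyComplex L] [IsGalois K L]

/-- **The arithmetic input of the descent.** -/
structure Inp where
  /-- the generator of the Galois group -/
  τ : L ≃ₐ[K] L
  orderOf_τ : orderOf τ = 3
  finrank_eq : Module.finrank K L = 3
  finrank_K : Module.finrank ℚ K = 2
  /-- a cube root of unity -/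
  ζ : K
  hζ : IsPrimitiveRoot ζ 3
  /-- `L = K (∛c)` -/
  c : Kˣ
  /-- `∛c` -/
  α : L
  hα : α ^ 3 = algebraMap K L c
  adjoin_α : IntermediateField.adjoin K {α} = ⊤
  /-- the bad places -/
  S : Finset (HeightOneSpectrum (𝓞 K))
  ne : S.Nonempty
  clK : ClTrivial S
  clL : ClTrivial (aboveS L S)
  /-- an integer divisible by the bad places -/
  N : ℕ
  N_ne : N ≠ 0
  N_mem : ∀ v ∈ S, (N : 𝓞 K) ∈ v.asIdeal
  diff : ∀ w : HeightOneSpectrum (𝓞 L), w.asIdeal ∣ differentIdeal ℤ (𝓞 L) → w ∈ aboveS L S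
  unr : ∀ w : HeightOneSpectrum (𝓞 L), w ∉ aboveS L S →
    (w.under (𝓞 K)).asIdeal.ramificationIdx' w.asIdeal = 1
  three : ∀ v : HeightOneSpectrum (𝓞 K), v ∉ S → ((3 : ℕ) : 𝓞 K) ∉ v.asIdeal
  ordc : ∀ v : HeightOneSpectrum (𝓞 K), v ∉ S → CFT.SUnits.ord v c = 0
  /-- the eigenvalues -/
  x : HeightOneSpectrum (𝓞 L) → ℝ
  inv : ∀ w w' : HeightOneSpectrum (𝓞 L), w ∉ aboveS L S →
    w'.under (𝓞 K) = w.under (𝓞 K) → x w' = x w
  /-- the auxiliary place -/
  w₀ : HeightOneSpectrum (𝓞 L)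
  w₀_notMem : w₀ ∉ aboveS L S
  w₀_prime : (Ideal.absNorm w₀.asIdeal).Prime
  w₀_deg : Ideal.absNorm w₀.asIdeal = Ideal.absNorm (w₀.under (𝓞 K)).asIdeal
  x_w₀ : x w₀ = 0

variable {K L}

namespace Inp

variable (I : Inp K L)

theorem under_smul (g : L ≃ₐ[K] L) (w : HeightOneSpectrum (𝓞 L)) :
    (g • w).under (𝓞 K) = w.under (𝓞 K) := Lvl.under_smul_gal g w

theorem smul_mem_iff (g : L ≃ₐ[K] L) (w : HeightOneSpectrum (𝓞 L)) :
    g • w ∈ aboveS L I.S ↔ w ∈ aboveS L I.S := by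
  rw [mem_aboveS, mem_aboveS]
  have h : Fermat.Agent.CFT.SUnits.under K (g • w) = Fermat.Agent.CFT.SUnits.under K w :=
    Lvl.under_smul_gal g w
  rw [h]

theorem sstable : Kap.SStable (L ≃ₐ[K] L) (aboveS L I.S) := fun g w hw =>
  (I.smul_mem_iff g w).mpr hw

theorem ne_above : (aboveS L I.S).Nonempty := by
  obtain ⟨v, hv⟩ := I.ne
  obtain ⟨w, hw⟩ := Fermat.Agent.CFT.SUnits.under_surjective (K := K) (L := L) v
  exact ⟨w, (mem_aboveS _ w).mpr (by rw [hw]; exact hv)⟩

theorem N_mem_above (w : HeightOneSpectrum (𝓞 L)) (hw : w ∈ aboveS L I.S) :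
    ((I.N : ℕ) : 𝓞 L) ∈ w.asIdeal := by
  have h1 := I.N_mem _ ((mem_aboveS _ w).mp hw)
  have h2 : algebraMap (𝓞 K) (𝓞 L) ((I.N : ℕ) : 𝓞 K) ∈ w.asIdeal := h1
  rwa [map_natCast] at h2

/-- the eigenvalues are invariant -/
theorem x_smul (g : L ≃ₐ[K] L) {w : HeightOneSpectrum (𝓞 L)} (hw : w ∉ aboveS L I.S) :
    I.x (g • w) = I.x w := I.inv w (g • w) hw (under_smul g w)

/-- the auxiliary place of `K` -/
def u : HeightOneSpectrum (𝓞 K) := Fermat.Agent.CFT.SUnits.under K I.w₀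

theorem u_notMem : I.u ∉ I.S := fun h => I.w₀_notMem ((mem_aboveS _ _).mpr h)

theorem stab_of_deg {w : HeightOneSpectrum (𝓞 L)} (hw : w ∉ aboveS L I.S)
    (hf : Ideal.absNorm w.asIdeal = Ideal.absNorm (w.under (𝓞 K)).asIdeal) :
    MulAction.stabilizer (L ≃ₐ[K] L) w = ⊥ :=
  stabilizer_eq_bot_of_deg (L ≃ₐ[K] L) (I.unr w hw) hf

theorem stab_w₀ : MulAction.stabilizer (L ≃ₐ[K] L) I.w₀ = ⊥ := I.stab_of_deg I.w₀_notMem I.w₀_deg

theorem x_smul_w₀ (g : L ≃ₐ[K] L) : I.x (g • I.w₀) = 0 := by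
  rw [I.x_smul g I.w₀_notMem, I.x_w₀]

include I in
theorem card_gal : Nat.card (L ≃ₐ[K] L) = 3 := by
  rw [IsGalois.card_aut_eq_finrank, I.finrank_eq]

theorem cyc3 : Fermat.Agent.LT.Cyc3 I.τ := cyc3_of_orderOf I.orderOf_τ I.finrank_eq

theorem isThree : Ext.IsThree I.τ := isThree_of_cyc3 I.cyc3

theorem τ_ne_one : I.τ ≠ 1 := I.isThree.ne_one

theorem τ_smul_w₀ : I.τ • I.w₀ ≠ I.w₀ := fun h => I.τ_ne_one (by
  have h1 : I.τ ∈ MulAction.stabilizer (L ≃ₐ[K] L) I.w₀ := h
  rw [I.stab_w₀] at h1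
  exact Subgroup.mem_bot.mp h1)

theorem stab_above_u (w : HeightOneSpectrum (𝓞 L))
    (hw : Fermat.Agent.CFT.SUnits.under K w = I.u) : MulAction.stabilizer (L ≃ₐ[K] L) w = ⊥ := by
  have h0 : I.w₀.asIdeal.LiesOver I.u.asIdeal := ⟨rfl⟩
  have h1 : w.asIdeal.LiesOver I.u.asIdeal := ⟨by rw [← hw]; rfl⟩
  exact Ext.stabilizer_above_eq_bot (G := L ≃ₐ[K] L) (w₀ := (⟨I.w₀, h0⟩ : Ext.Above L I.u))
    I.stab_w₀ (⟨w, h1⟩ : Ext.Above L I.u)

/-- the residue characteristic of the auxiliary place -/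
def q : ℕ := Ideal.absNorm I.w₀.asIdeal

theorem q_eq : I.q = Ideal.absNorm I.u.asIdeal := I.w₀_deg

end Inp

end Inp

end Fermat.Agent.LT.Desc

end
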