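import Fermat.Agent.LT.Auto.Sym
import Fermat.Agent.LT.Auto.CuspSp

/-!
# Glue: `muXD volume D` and `muZ F D`

The two measures are equal by definition; the instances and the cuspidal subspace for the
first one.
-/

set_option autoImplicit false

noncomputable section

open MeasureTheory ENNReal NumberField Matrix
open scoped InnerProductSpace ComplexConjugate

namespace Fermat.Agent.LT.Desc

variable {F : Type*} [Field F] [NumberField F] {D : Type*} [MeasurableSpace D]
  [MeasurableSingletonClass D] [Countable D]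

omit [MeasurableSingletonClass D] [Countable D] in
theorem muXD_eq_muZ : muXD (volume : Measure (Xi F)) D = muZ F D := rfl

section Inst

variable [MulAction (GL (Fin 2) F) D] [TrivScalar F D]

instance instSMulInvariantMuXD :
    SMulInvariantMeasure (PG F) (Xi F × D) (muXD (volume : Measure (Xi F)) D) :=
  inferInstanceAs (SMulInvariantMeasure (PG F) (Xi F × D) (muZ F D))

end Inst

section Level

variable [MulAction (GL (Fin 2) F) D] [IsLevel F D]

omit [MeasurableSpace D] [MeasurableSingletonClass D] [Countable D] in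
variable (F D) in
/-- The hypothesis on the orbits. -/
theorem exists_orbits : ∃ T : Finset D, ∀ d, ∃ g : PG F, g • d ∈ T := by
  obtain ⟨T, hT⟩ := IsLevel.finite_orbits (F := F) (D := D)
  refine ⟨T, fun d => ?_⟩
  obtain ⟨g, hg⟩ := hT d
  exact ⟨QuotientGroup.mk g, by rwa [pg_smul]⟩

variable [IsTotallyComplex F] {w : Xi F × D → ℝ≥0∞}

/-- The cuspidal subspace in the notation of `LT/Auto`. -/
def cuspX (hw : IsWeight (PG F) w) :
    Submodule ℂ (Lp ℂ 2 ((muXD (volume : Measure (Xi F)) D).withDensity w)) := cuspL2 hw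

variable {hw : IsWeight (PG F) w}

theorem cuspX_le : cuspX hw ≤ autL2 (PG F) ((muXD (volume : Measure (Xi F)) D).withDensity w) :=
  cuspL2_le

theorem coe_mem_cuspX {f : autL2 (PG F) ((muXD (volume : Measure (Xi F)) D).withDensity w)} :
    (f : Lp ℂ 2 ((muXD (volume : Measure (Xi F)) D).withDensity w)) ∈ cuspX hw ↔
      IsCusp (arep f) :=
  coe_mem_cuspL2

theorem mem_cuspX_iff_of_ae {f : Lp ℂ 2 ((muXD (volume : Measure (Xi F)) D).withDensity w)}
    {f₀ : Xi F × D → ℂ} (hm : Measurable f₀) (hinv : ∀ (g : PG F) z, f₀ (g • z) = f₀ z)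
    (hae : f =ᵐ[(muXD (volume : Measure (Xi F)) D).withDensity w] f₀) :
    f ∈ cuspX hw ↔ IsCusp f₀ :=
  mem_cuspL2_iff_of_ae hm hinv hae

theorem isClosed_cuspX (hw : IsWeight (PG F) w) :
    IsClosed (cuspX hw : Set (Lp ℂ 2 ((muXD (volume : Measure (Xi F)) D).withDensity w))) :=
  isClosed_cuspL2 hw

instance (hw : IsWeight (PG F) w) : CompleteSpace (cuspX hw) :=
  (isClosed_cuspX hw).completeSpace_coe

end Level

end Fermat.Agent.LT.Desc
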