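import Fermat.Agent.LT.Desc.TauCusp
import Fermat.Agent.LT.Desc.Mu
import Fermat.Agent.LT.Auto.Rep

/-!
# `τ` on stable subspaces

* abstract: `T` on `W` with `T * ρ m = ρ (θ m) * T`, `T† = T'`; `mainPart J` is stable under `T`
  if `J` is stable;
* `resL_mul`, `resL_hom`: the restriction `resL` of helper29 is multiplicative;
* `tauL_mem_cuspX`: `τ` preserves the cuspidal subspace.
-/

set_option autoImplicit false
set_option linter.unusedSectionVars false

noncomputable section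

open MeasureTheory ENNReal NumberField Matrix
open scoped InnerProductSpace ComplexConjugate

namespace Fermat.Agent.LT.Desc

/-! ### Abstract -/

section Abs

variable {E : Type*} [NormedAddCommGroup E] [InnerProductSpace ℂ E] {W V : Submodule ℂ E}

/-- `V ≤ W` is stable under `T`. -/
def StabOp (hV : V ≤ W) (T : W →L[ℂ] W) : Prop := ∀ v (hv : v ∈ V), (T ⟨v, hV hv⟩ : E) ∈ V

theorem resL_mul (hV : V ≤ W) {T S : W →L[ℂ] W} (hT : StabOp hV T) (hS : StabOp hV S)
    (hTS : StabOp hV (T * S)) : resL hV (T * S) hTS = resL hV T hT * resL hV S hS := by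
  ext v
  rfl

theorem StabOp.mul {hV : V ≤ W} {T S : W →L[ℂ] W} (hT : StabOp hV T) (hS : StabOp hV S) :
    StabOp hV (T * S) := fun v hv => hT _ (hS v hv)

theorem resL_congr (hV : V ≤ W) {T S : W →L[ℂ] W} (hT : StabOp hV T) (hS : StabOp hV S)
    (h : T = S) : resL hV T hT = resL hV S hS := by
  subst h
  rfl

theorem resL_one (hV : V ≤ W) (h1 : StabOp hV (1 : W →L[ℂ] W)) : resL hV 1 h1 = 1 := by
  ext v
  rfl

theorem norm_resL (hV : V ≤ W) {T : W →L[ℂ] W} (hT : StabOp hV T) (hn : ∀ v, ‖T v‖ = ‖v‖)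
    (v : V) : ‖resL hV T hT v‖ = ‖v‖ := hn ⟨v, hV v.2⟩

theorem adjoint_resL [CompleteSpace W] [CompleteSpace V] (hV : V ≤ W) {T T' : W →L[ℂ] W}
    (hT : StabOp hV T) (hT' : StabOp hV T') (hadj : ContinuousLinearMap.adjoint T = T') :
    ContinuousLinearMap.adjoint (resL hV T hT) = resL hV T' hT' := by
  symm
  rw [ContinuousLinearMap.eq_adjoint_iff]
  intro x y
  rw [Submodule.coe_inner, Submodule.coe_inner, coe_resL, coe_resL]
  subst hadj
  exact ContinuousLinearMap.adjoint_inner_left T ⟨y, hV y.2⟩ ⟨x, hV x.2⟩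

variable {M : Type*} [Monoid M] {ρ : M →* (W →L[ℂ] W)}

/-- **Intertwining on a stable subspace.** -/
theorem resL_mul_hom (h : StabRep ρ V) {T : W →L[ℂ] W} (hT : StabOp h.le T) {m m' : M}
    (hm : T * ρ m = ρ m' * T) : resL h.le T hT * h.hom m = h.hom m' * resL h.le T hT := by
  have h1 : StabOp h.le (ρ m) := h.stab m
  have h2 : StabOp h.le (ρ m') := h.stab m'
  have e1 : resL h.le T hT * h.hom m = resL h.le (T * ρ m) (hT.mul h1) :=
    (resL_mul h.le hT h1 _).symm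
  have e2 : h.hom m' * resL h.le T hT = resL h.le (ρ m' * T) (h2.mul hT) :=
    (resL_mul h.le h2 hT _).symm
  rw [e1, e2]
  exact resL_congr h.le _ _ hm

variable [CompleteSpace W]

/-- **The main part is stable under `τ`.** -/
theorem stabOp_mainPart (h : StabRep ρ V) {J : Set M} {T T' : W →L[ℂ] W}
    (hadj : ContinuousLinearMap.adjoint T' = T) (hT : StabOp h.le T) (hT' : StabOp h.le T')
    (hJ : ∀ j ∈ J, ∃ j' ∈ J, ρ j * T' = T' * ρ j') :
    StabOp ((h.mainPart_le J).trans h.le) T := by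
  intro v hv
  rw [h.mem_mainPart] at hv ⊢
  refine ⟨hT v hv.1, fun u hu => ?_⟩
  obtain ⟨hu1, hu2⟩ := hu
  have h1 := ContinuousLinearMap.adjoint_inner_right T' ⟨u, h.le hu1⟩ ⟨v, h.le hv.1⟩
  rw [hadj] at h1
  have h2 : (T' ⟨u, h.le hu1⟩ : E) ∈ h.kerPart J := by
    refine ⟨hT' u hu1, fun j hj => ?_⟩
    obtain ⟨j', hj', hjj⟩ := hJ j hj
    have h3 : (ρ j * T') ⟨u, h.le hu1⟩ = (T' * ρ j') ⟨u, h.le hu1⟩ := by rw [hjj]
    have h4 : ρ j (T' ⟨u, h.le hu1⟩) = T' (ρ j' ⟨u, h.le hu1⟩) := h3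
    rw [hu2 j' hj', map_zero] at h4
    exact h4
  exact h1.trans (hv.2 _ h2)

end Abs

/-! ### `τ` on the cuspidal subspace -/

section Cusp

variable {F : Type*} [Field F] [NumberField F] [IsTotallyComplex F] {D : Type*}
  [MeasurableSpace D] [MeasurableSingletonClass D] [Countable D] [MulAction (GL (Fin 2) F) D]
  [IsLevel F D] {w : Xi F × D → ℝ≥0∞} {hw : IsWeight (PG F) w}

theorem pg_of_gl {τ : F ≃+* F} {tD : D → D}
    (h : ∀ (g : PG F) d, tD (g • d) = PG.tau τ g • tD d) (g : GL (Fin 2) F) (d : D) :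
    tD (g • d) = GeneralLinearGroup.map (n := Fin 2) (τ : F →+* F) g • tD d := by
  have h1 := h (QuotientGroup.mk g) d
  rwa [PG.tau_mk, pg_smul, pg_smul] at h1

/-- **`τ` preserves the cuspidal subspace.** -/
theorem tauL_mem_cuspX {τ : F ≃+* F} {tD : D ≃ D}
    (h : ∀ (g : PG F) d, tD (g • d) = PG.tau τ g • tD d) :
    StabOp (cuspX_le (hw := hw)) ((tauHyp_tauZE h).tauL hw) := by
  intro v hv
  have hc : IsCusp (arep ⟨v, cuspX_le hv⟩) := coe_mem_cuspX.mp hv
  refine coe_mem_cuspX.mpr ?_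
  refine IsCusp.congr_ae (f := fun z : Xi F × D =>
    arep (⟨v, cuspX_le hv⟩ : autL2 (PG F) _) (Xi.tau τ z.1, tD z.2)) ?_ ?_
  · exact ((tauHyp_tauZE h).tauL_ae hw _).symm
  · refine isCusp_comp (pg_of_gl h) (measurable_arep _) (fun g z => ?_) hc
    exact arep_smul (⟨v, cuspX_le hv⟩ : autL2 (PG F) _) (QuotientGroup.mk g) z

end Cusp

end Fermat.Agent.LT.Desc
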