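import Fermat.Agent.LT.Auto.Sym
import Fermat.Agent.LT.Auto.CuspSp
import Fermat.Agent.LT.Red.Local
import Fermat.Agent.LT.Red.OpK
import Fermat.Agent.LT.H3.Spherical
import Fermat.Agent.LT.H3.Pi
import Fermat.Agent.LT.Red.Sup

/-!
# The regular representative of an eigenvector (S4e)

`IsRegRep f F` : `F` is measurable, invariant, continuous in `x` for every `d`, and represents `f`.

* `IsRegRep.unique` : two regular representatives are equal everywhere;
* `IsRegRep.opD`, `IsRegRep.opF` : regular representatives of the images of `f` under Hecke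
  operators and full kernels; hence the eigen equations at every point;
* `exists_isRegRep` : an eigenvector of an operator `R(k ⊗ a)` with a non-zero eigenvalue has a
  regular representative.
-/

set_option autoImplicit false
set_option linter.unusedSectionVars false

noncomputable section

open MeasureTheory ENNReal ProbabilityTheory NumberField

namespace Fermat.Agent.LT.Desc

section Abs

variable {G X D : Type*} [Group G] [MulAction G X] [MulAction G D] [TopologicalSpace X]
  [MeasurableSpace X] [MeasurableSpace D] [MeasurableSingletonClass D] [Countable D]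
  {mX : Measure X} [SFinite mX] {w : X × D → ℝ≥0∞}

/-- `F` is the regular representative of `f`. -/
structure IsRegRep (f : autL2 G ((muXD mX D).withDensity w)) (F : X × D → ℂ) : Prop where
  meas : Measurable F
  inv : ∀ (g : G) (z : X × D), F (g • z) = F z
  cont : ∀ d, Continuous fun x => F (x, d)
  ae : arep f =ᵐ[muXD mX D] F

/-- Almost everywhere equality on `X × D` holds almost everywhere on every slice. -/
theorem ae_slice_of_ae {E : Type*} {A B : X × D → E} (h : A =ᵐ[muXD mX D] B) (d : D) :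
    (fun x => A (x, d)) =ᵐ[mX] fun x => B (x, d) := by
  have h1 := Measure.ae_ae_of_ae_prod h
  filter_upwards [h1] with x hx
  rw [Measure.ae_count_iff] at hx
  exact hx d

/-- Functions which are continuous in `x` and agree almost everywhere are equal. -/
theorem eq_of_ae_eq [mX.IsOpenPosMeasure] {A B : X × D → ℂ}
    (hA : ∀ d, Continuous fun x => A (x, d)) (hB : ∀ d, Continuous fun x => B (x, d))
    (h : A =ᵐ[muXD mX D] B) : A = B := by
  funext z
  exact congrFun ((Continuous.ae_eq_iff_eq mX (hA z.2) (hB z.2)).1 (ae_slice_of_ae h z.2)) z.1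

/-- A bound which holds almost everywhere holds everywhere. -/
theorem norm_le_of_ae_norm_le [mX.IsOpenPosMeasure] {A : X × D → ℂ}
    (hA : ∀ d, Continuous fun x => A (x, d)) {B : ℝ} (h : ∀ᵐ z ∂muXD mX D, ‖A z‖ ≤ B)
    (z : X × D) : ‖A z‖ ≤ B := by
  by_contra hz
  rw [not_le] at hz
  have ho : IsOpen {x : X | B < ‖A (x, z.2)‖} := isOpen_lt continuous_const (hA z.2).norm
  have h1 : ∀ᵐ x ∂mX, ‖A (x, z.2)‖ ≤ B := by
    have h2 := Measure.ae_ae_of_ae_prod h
    filter_upwards [h2] with x hx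
    rw [Measure.ae_count_iff] at hx
    exact hx z.2
  have h3 : mX {x : X | B < ‖A (x, z.2)‖} = 0 := by
    rw [ae_iff] at h1
    convert h1 using 3
    ext x
    simp
  exact (ho.measure_pos mX ⟨z.1, hz⟩).ne' h3

variable {f f' : autL2 G ((muXD mX D).withDensity w)} {F F' : X × D → ℂ}

theorem IsRegRep.aeν (hF : IsRegRep f F) : arep f =ᵐ[(muXD mX D).withDensity w] F :=
  (withDensity_ac _ _).ae_eq hF.ae

theorem IsRegRep.coe_ae (hF : IsRegRep f F) :
    (f : Lp ℂ 2 ((muXD mX D).withDensity w)) =ᵐ[(muXD mX D).withDensity w] F :=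
  (coeFn_ae_arep f).trans hF.aeν

theorem IsRegRep.memLp (hF : IsRegRep f F) : MemLp F 2 ((muXD mX D).withDensity w) :=
  (memLp_congr_ae hF.aeν).mp (memLp_arep f)

/-- The vector is determined by its regular representative. -/
theorem IsRegRep.eq (hF : IsRegRep f F) (hF' : IsRegRep f' F) : f = f' :=
  autL2_ext (hF.aeν.trans hF'.aeν.symm)

/-- **Uniqueness.** -/
theorem IsRegRep.unique [mX.IsOpenPosMeasure] (hF : IsRegRep f F) (hF' : IsRegRep f F') :
    F = F' :=
  eq_of_ae_eq hF.cont hF'.cont (hF.ae.symm.trans hF'.ae)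

theorem IsRegRep.bdd [mX.IsOpenPosMeasure] (hF : IsRegRep f F) {B : ℝ}
    (h : ∀ᵐ z ∂muXD mX D, ‖arep f z‖ ≤ B) (z : X × D) : ‖F z‖ ≤ B := by
  refine norm_le_of_ae_norm_le (mX := mX) hF.cont ?_ z
  filter_upwards [h, hF.ae] with z h1 h2
  rwa [← h2]

variable [MeasurableConstSMul G (X × D)] [SMulInvariantMeasure G (X × D) (muXD mX D)] [Countable G]

/-- A function with the four properties, for the measure of a weight. -/
theorem IsRegRep.of_aeν (hw : IsWeight G w) (hm : Measurable F)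
    (hi : ∀ (g : G) (z : X × D), F (g • z) = F z) (hc : ∀ d, Continuous fun x => F (x, d))
    (h : arep f =ᵐ[(muXD mX D).withDensity w] F) : IsRegRep f F where
  meas := hm
  inv := hi
  cont := hc
  ae := hw.ae_eq_of_inv (measurable_arep f) hm (arep_smul f) hi h

/-- The class of a nice function. -/
theorem isRegRep_autMk (hw : IsWeight G w) (hm : Measurable F)
    (hi : ∀ (g : G) (z : X × D), F (g • z) = F z) (hc : ∀ d, Continuous fun x => F (x, d))
    (hL : MemLp F 2 ((muXD mX D).withDensity w)) : IsRegRep (autMk F hm hi hL) F :=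
  IsRegRep.of_aeν hw hm hi hc (arep_autMk F hm hi hL)

theorem IsRegRep.csmul (hw : IsWeight G w) (hF : IsRegRep f F) (c : ℂ) :
    IsRegRep (c • f) fun z => c * F z := by
  refine IsRegRep.of_aeν hw (hF.meas.const_mul c) (fun g z => by rw [hF.inv])
    (fun d => continuous_const.mul (hF.cont d)) ?_
  filter_upwards [arep_csmul c f, hF.aeν] with z h1 h2
  rw [h1, Pi.smul_apply, h2, smul_eq_mul]

theorem IsRegRep.add (hw : IsWeight G w) (hF : IsRegRep f F) (hF' : IsRegRep f' F') :
    IsRegRep (f + f') fun z => F z + F' z := by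
  refine IsRegRep.of_aeν hw (hF.meas.add hF'.meas) (fun g z => by rw [hF.inv, hF'.inv])
    (fun d => (hF.cont d).add (hF'.cont d)) ?_
  filter_upwards [arep_add f f', hF.aeν, hF'.aeν] with z h1 h2 h3
  rw [h1, Pi.add_apply, h2, h3]

theorem isRegRep_zero (hw : IsWeight G w) :
    IsRegRep (0 : autL2 G ((muXD mX D).withDensity w)) fun _ => 0 := by
  refine IsRegRep.of_aeν hw measurable_const (fun g z => rfl) (fun d => continuous_const) ?_
  have h1 := coeFn_ae_arep (0 : autL2 G ((muXD mX D).withDensity w))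
  have h2 : ((0 : autL2 G ((muXD mX D).withDensity w)) : Lp ℂ 2 ((muXD mX D).withDensity w))
      =ᵐ[(muXD mX D).withDensity w] 0 := Lp.coeFn_zero _ _ _
  filter_upwards [h1, h2] with z h3 h4
  rw [← h3, h4, Pi.zero_apply]

/-- A non-zero vector has a non-zero regular representative. -/
theorem IsRegRep.exists_ne_zero (hw : IsWeight G w) (hF : IsRegRep f F) (h0 : f ≠ 0) :
    ∃ z, F z ≠ 0 := by
  by_contra h
  push Not at h
  have h1 : F = fun _ => 0 := funext h
  subst h1
  exact h0 (hF.eq (isRegRep_zero hw))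

/-! ### Hecke operators -/

section Disc

variable (hT : ∃ T : Finset D, ∀ d, ∃ g : G, g • d ∈ T) (hw : IsWeight G w)

theorem tsum_ker_eq_sum (a : HK G D) (F : X × D → ℂ) (x : X) (d : D) :
    ∑' d', a.ker d d' * F (x, d') =
      ∑ d' ∈ (a.finite_row d).toFinset, a.ker d d' * F (x, d') := by
  refine tsum_eq_sum fun d' hd' => ?_
  rw [Set.Finite.mem_toFinset, Set.mem_ofPred_eq, not_not] at hd'
  rw [hd', zero_mul]

/-- The regular representative of the image under a Hecke operator. -/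
theorem IsRegRep.opD (hF : IsRegRep f F) (a : HK G D) :
    IsRegRep (opD hT hw a f) fun z => ∑' d', a.ker z.2 d' * F (z.1, d') where
  meas := by
    refine measurable_from_prod_countable_left fun d => ?_
    simp only [tsum_ker_eq_sum]
    exact Finset.measurable_fun_sum _ fun d' _ =>
      (hF.meas.comp measurable_prodMk_right).const_mul _
  inv g z := by
    rw [← (MulAction.toPerm g).tsum_eq]
    refine tsum_congr fun d' => ?_
    rw [MulAction.toPerm_apply, Prod.smul_snd, a.ker_smul_smul, Prod.smul_fst,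
      show ((g • z.1, g • d') : X × D) = g • (z.1, d') from rfl, hF.inv]
  cont d := by
    simp only [tsum_ker_eq_sum]
    exact continuous_finsetSum _ fun d' _ => continuous_const.mul (hF.cont d')
  ae := opD_ae hT hw a f hF.meas hF.inv hF.aeν

/-- **The eigen equation of a Hecke operator, at every point.** -/
theorem IsRegRep.opD_eq [mX.IsOpenPosMeasure] (hF : IsRegRep f F) {a : HK G D} {c : ℂ}
    (h : Fermat.Agent.LT.opD hT hw a f = c • f) (z : X × D) :
    ∑' d', a.ker z.2 d' * F (z.1, d') = c * F z :=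
  congrFun ((h ▸ hF.opD hT hw a).unique (hF.csmul hw c)) z

/-- The same for `HK.act`. -/
theorem IsRegRep.act_eq [mX.IsOpenPosMeasure] (hF : IsRegRep f F) {a : HK G D} {c : ℂ}
    (h : Fermat.Agent.LT.opD hT hw a f = c • f) (x : X) (d : D) :
    a.act (fun d' => F (x, d')) d = c * F (x, d) := by
  rw [HK.act_apply_tsum]
  exact hF.opD_eq hT hw h (x, d)

/-- Conversely, an eigen equation at almost every point is an eigen equation in `L²`. -/
theorem IsRegRep.opD_eq_of_act (hF : IsRegRep f F) {a : HK G D} {c : ℂ}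
    (h : ∀ x d, a.act (fun d' => F (x, d')) d = c * F (x, d)) :
    Fermat.Agent.LT.opD hT hw a f = c • f := by
  refine (hF.opD hT hw a).eq ?_
  have h1 : (fun z : X × D => ∑' d', a.ker z.2 d' * F (z.1, d')) = fun z => c * F z := by
    funext z
    have h2 := h z.1 z.2
    rw [HK.act_apply_tsum] at h2
    exact h2
  rw [h1]
  exact hF.csmul hw c

end Disc

/-! ### Full kernels -/

section Full

variable {𝒦 : Type*} [Mul 𝒦] (κ : KerSg G mX 𝒦)
variable (hT : ∃ T : Finset D, ∀ d, ∃ g : G, g • d ∈ T) (hw : IsWeight G w)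

/-- Operators `R(k ⊗ 1)` with continuous output. -/
theorem isRegRep_opF_one (k : 𝒦) (f : autL2 G ((muXD mX D).withDensity w)) {F : X × D → ℂ}
    (hF : Measurable F) (hi : ∀ (g : G) (z : X × D), F (g • z) = F z)
    (hfF : arep f =ᵐ[(muXD mX D).withDensity w] F)
    (hc : ∀ d, Continuous fun x => ∫ x', κ.kap k x x' * F (x', d) ∂mX) :
    IsRegRep (opF κ hT hw k (1 : HK G D) f)
      fun z => ∫ x', κ.kap k z.1 x' * F (x', z.2) ∂mX := by
  obtain ⟨C, hC⟩ := kerHyp_sker κ hT k (1 : HK G D)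
  have h1 : (fun z : X × D => ∫ x', κ.kap k z.1 x' * F (x', z.2) ∂mX) =
      kop (Kernel.const (X × D) (muXD mX D)) (sker κ k (1 : HK G D)) F := by
    funext z
    rw [← integral_sker_one κ k F z]
    unfold kop
    rw [Kernel.const_apply]
  refine ⟨?_, ?_, hc, opF_one_ae κ hT hw k f hF hi hfF⟩
  · rw [h1]
    exact measurable_kop hC.meas hF
  · intro g z
    have h2 := kop_smul hC hF hi g z
    rw [← h1] at h2
    exact h2

theorem isRegRep_opF (k : 𝒦) (a : HK G D) (f : autL2 G ((muXD mX D).withDensity w))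
    {F : X × D → ℂ} (hF : Measurable F) (hi : ∀ (g : G) (z : X × D), F (g • z) = F z)
    (hfF : arep f =ᵐ[(muXD mX D).withDensity w] F)
    (hc : ∀ d, Continuous fun x => ∫ x', κ.kap k x x' * F (x', d) ∂mX) :
    IsRegRep (opF κ hT hw k a f)
      fun z => ∑' d', a.ker z.2 d' * ∫ x', κ.kap k z.1 x' * F (x', d') ∂mX := by
  have h1 := (isRegRep_opF_one κ hT hw k f hF hi hfF hc).opD hT hw a
  have h2 : Fermat.Agent.LT.opD hT hw a (opF κ hT hw k (1 : HK G D) f) = opF κ hT hw k a f := by
    rw [opF_eq_opD_mul κ hT hw k a]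
    rfl
  rw [h2] at h1
  exact h1

end Full

end Abs

/-! ### The space `X_∞ × D` -/

section Conc

open H3 Red

variable {F : Type*} [Field F] [NumberField F] {D : Type*} [MeasurableSpace D]
  [MeasurableSingletonClass D] [Countable D] [MulAction (GL (Fin 2) F) D]

instance isOpenPosMeasure_Xi : (volume : Measure (Xi F)).IsOpenPosMeasure :=
  inferInstanceAs (Measure.pi fun _ : InfinitePlace F => (volume : Measure H3)).IsOpenPosMeasure

instance smulInvariantMeasure_muXD [TrivScalar F D] :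
    SMulInvariantMeasure (PG F) (Xi F × D) (muXD (volume : Measure (Xi F)) D) :=
  inferInstanceAs (SMulInvariantMeasure (PG F) (Xi F × D) (muZ F D))

/-- A level has finitely many orbits under `PGL₂(F)`. -/
theorem exists_finset_orbits (F D : Type*) [Field F] [NumberField F] [MulAction (GL (Fin 2) F) D]
    [IsLevel F D] : ∃ T : Finset D, ∀ d, ∃ g : PG F, g • d ∈ T := by
  obtain ⟨T, hT⟩ := IsLevel.finite_orbits (F := F) (D := D)
  refine ⟨T, fun d => ?_⟩
  obtain ⟨g, hg⟩ := hT d
  exact ⟨QuotientGroup.mk g, hg⟩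

/-- Continuous, bounded kernels of bounded support on `X_∞`. -/
structure IsCBKer (κ : Xi F → Xi F → ℂ) : Prop where
  cont : Continuous (Function.uncurry κ)
  supp : ∃ R : ℝ, ∀ x x', κ x x' ≠ 0 → ∀ w, cu (x w) (x' w) ≤ R
  bdd : ∃ Λ : ℝ, ∀ x x', ‖κ x x'‖ ≤ Λ

theorem IsCBKer.continuous_integral {κ : Xi F → Xi F → ℂ} (h : IsCBKer κ) {f : Xi F → ℂ}
    (hf : Measurable f) (hl : LocallyIntegrable f) : Continuous fun x => ∫ x', κ x x' * f x' := by
  obtain ⟨R, hR⟩ := h.supp
  obtain ⟨Λ, hΛ⟩ := h.bdd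
  exact continuous_integral_ker hR hΛ h.cont hf hl

theorem exists_bound_isKer {k : ℝ → ℂ} (hk : IsKer k) : ∃ Λ : ℝ, 0 ≤ Λ ∧ ∀ t, 1 ≤ t → ‖k t‖ ≤ Λ := by
  obtain ⟨hc, C, hC⟩ := hk
  obtain ⟨Λ, hΛ⟩ := (isCompact_Icc (a := (1 : ℝ)) (b := C)).exists_bound_of_continuousOn
    hc.continuousOn
  refine ⟨max Λ 0, le_max_right _ _, fun t ht => ?_⟩
  by_cases htC : t ≤ C
  · exact (hΛ t ⟨ht, htC⟩).trans (le_max_left _ _)
  · rw [hC t (not_le.1 htC).le, norm_zero]
    exact le_max_right _ _

/-- Product kernels. -/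
theorem isCBKer_pk {k : InfinitePlace F → ℝ → ℂ} (hk : ∀ w, IsKer (k w)) :
    IsCBKer (F := F) fun x x' => pk k x x' := by
  choose C hC using fun w => (hk w).2
  choose Λ hΛ hb using fun w => exists_bound_isKer (hk w)
  refine ⟨continuous_pk fun w => (hk w).1, ⟨∑ w, |C w|, fun x x' h w => ?_⟩,
    ⟨∏ w, Λ w, fun x x' => ?_⟩⟩
  · by_contra hlt
    rw [not_le] at hlt
    refine h (Finset.prod_eq_zero (Finset.mem_univ w) (hC w _ ?_))
    have h1 : |C w| ≤ ∑ w, |C w| :=
      Finset.single_le_sum (f := fun w => |C w|) (fun _ _ => abs_nonneg _) (Finset.mem_univ w)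
    exact (le_abs_self _).trans (h1.trans hlt.le)
  · unfold pk
    rw [norm_prod]
    exact Finset.prod_le_prod (fun _ _ => norm_nonneg _) fun w _ => hb w _ (one_le_cu _ _)

section Space

variable [IsTotallyComplex F] [IsLevel F D] {w : Xi F × D → ℝ≥0∞}
  {f : autL2 (PG F) ((muXD (volume : Measure (Xi F)) D).withDensity w)} {F₀ F₁ : Xi F × D → ℂ}

theorem locallyIntegrable_arep (hw : IsWeight (PG F) w)
    (f : autL2 (PG F) ((muXD (volume : Measure (Xi F)) D).withDensity w)) (d : D) :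
    LocallyIntegrable fun x => arep f (x, d) :=
  locallyIntegrable_of_memLp hw (measurable_arep f)
    (fun g z => arep_smul f (QuotientGroup.mk g : PG F) z) (memLp_arep f) d

theorem IsRegRep.inv_gl (hF : IsRegRep f F₀) (g : GL (Fin 2) F) (z : Xi F × D) :
    F₀ (g • z) = F₀ z := hF.inv (QuotientGroup.mk g : PG F) z

theorem IsRegRep.locInt (hF : IsRegRep f F₀) (d : D) : LocallyIntegrable fun x => F₀ (x, d) :=
  (hF.cont d).locallyIntegrable

section Op

variable {𝒦 : Type*} [Mul 𝒦] (κ : KerSg (PG F) (volume : Measure (Xi F)) 𝒦)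
variable (hT : ∃ T : Finset D, ∀ d, ∃ g : PG F, g • d ∈ T) (hw : IsWeight (PG F) w)

/-- The image of any vector under `R(k ⊗ a)` has a regular representative. -/
theorem isRegRep_opF_arep {k : 𝒦} (hk : IsCBKer (κ.kap k)) (a : HK (PG F) D)
    (f : autL2 (PG F) ((muXD (volume : Measure (Xi F)) D).withDensity w)) :
    IsRegRep (opF κ hT hw k a f)
      fun z => ∑' d', a.ker z.2 d' * ∫ x', κ.kap k z.1 x' * arep f (x', d') :=
  isRegRep_opF κ hT hw k a f (measurable_arep f) (arep_smul f) Filter.EventuallyEq.rfl fun d =>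
    hk.continuous_integral ((measurable_arep f).comp measurable_prodMk_right)
      (locallyIntegrable_arep hw f d)

/-- **Existence of the regular representative**, with the formula. -/
theorem isRegRep_of_eigen {k : 𝒦} (hk : IsCBKer (κ.kap k)) {a : HK (PG F) D} {h : ℂ} (h0 : h ≠ 0)
    (he : opF κ hT hw k a f = h • f) :
    IsRegRep f fun z => h⁻¹ * ∑' d', a.ker z.2 d' * ∫ x', κ.kap k z.1 x' * arep f (x', d') := by
  have h1 := (isRegRep_opF_arep κ hT hw hk a f).csmul hw h⁻¹
  rw [he, inv_smul_smul₀ h0] at h1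
  exact h1

/-- **Existence of the regular representative.** -/
theorem exists_isRegRep {k : 𝒦} (hk : IsCBKer (κ.kap k)) {a : HK (PG F) D} {h : ℂ} (h0 : h ≠ 0)
    (he : opF κ hT hw k a f = h • f) : ∃ F₀, IsRegRep f F₀ :=
  ⟨_, isRegRep_of_eigen κ hT hw hk h0 he⟩

/-- The image of a regular vector under `R(k ⊗ a)`. -/
theorem IsRegRep.opF (hF : IsRegRep f F₀) {k : 𝒦} (hk : IsCBKer (κ.kap k)) (a : HK (PG F) D) :
    IsRegRep (opF κ hT hw k a f)
      fun z => ∑' d', a.ker z.2 d' * ∫ x', κ.kap k z.1 x' * F₀ (x', d') :=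
  isRegRep_opF κ hT hw k a f hF.meas hF.inv hF.aeν fun d =>
    hk.continuous_integral (hF.meas.comp measurable_prodMk_right) (hF.locInt d)

theorem IsRegRep.opF_one (hF : IsRegRep f F₀) {k : 𝒦} (hk : IsCBKer (κ.kap k)) :
    IsRegRep (Fermat.Agent.LT.opF κ hT hw k (1 : HK (PG F) D) f) (opK (κ.kap k) F₀) :=
  isRegRep_opF_one κ hT hw k f hF.meas hF.inv hF.aeν fun d =>
    hk.continuous_integral (hF.meas.comp measurable_prodMk_right) (hF.locInt d)

/-- **The eigen equation of `R(k ⊗ a)`, at every point.** -/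
theorem IsRegRep.opF_eq (hF : IsRegRep f F₀) {k : 𝒦} (hk : IsCBKer (κ.kap k))
    {a : HK (PG F) D} {c : ℂ} (h : Fermat.Agent.LT.opF κ hT hw k a f = c • f) (z : Xi F × D) :
    ∑' d', a.ker z.2 d' * ∫ x', κ.kap k z.1 x' * F₀ (x', d') = c * F₀ z :=
  congrFun ((h ▸ hF.opF κ hT hw hk a).unique (hF.csmul hw c)) z

/-- **The eigen equation of `R(k)`, at every point.** -/
theorem IsRegRep.opK_eq (hF : IsRegRep f F₀) {k : 𝒦} (hk : IsCBKer (κ.kap k)) {c : ℂ}
    (h : Fermat.Agent.LT.opF κ hT hw k (1 : HK (PG F) D) f = c • f) (z : Xi F × D) :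
    opK (κ.kap k) F₀ z = c * F₀ z :=
  congrFun ((h ▸ hF.opF_one κ hT hw hk).unique (hF.csmul hw c)) z

/-- Conversely, a pointwise eigen equation is an eigen equation in `L²`. -/
theorem IsRegRep.opF_eq_of_opK (hF : IsRegRep f F₀) {k : 𝒦} (hk : IsCBKer (κ.kap k)) {c : ℂ}
    (h : ∀ z, opK (κ.kap k) F₀ z = c * F₀ z) :
    Fermat.Agent.LT.opF κ hT hw k (1 : HK (PG F) D) f = c • f := by
  refine (hF.opF_one κ hT hw hk).eq ?_
  rw [show opK (κ.kap k) F₀ = fun z => c * F₀ z from funext h]
  exact hF.csmul hw c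

end Op

/-! ### Cuspidality and boundedness -/

theorem IsRegRep.isCusp_iff (hF : IsRegRep f F₀) : IsCusp F₀ ↔ IsCusp (arep f) :=
  (isCusp_congr_ae hF.ae).symm

theorem IsRegRep.mem_cuspL2_iff (hF : IsRegRep f F₀) (hw : IsWeight (PG F) w) :
    f.1 ∈ cuspL2 hw ↔ IsCusp F₀ :=
  mem_cuspL2_iff_of_ae hF.meas hF.inv hF.coe_ae

theorem IsRegRep.nice (hF : IsRegRep f F₀) (hc : IsCusp F₀) : Nice F₀ where
  meas := hF.meas
  inv := hF.inv_gl
  cusp := hc
  loc := hF.locInt

/-- **Boundedness** of the regular representative of a cuspidal eigenvector. -/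
theorem exists_bound_of_opK {F₀ : Xi F × D → ℂ} [DiscreteMeasurableSpace D]
    (hw : IsWeight (PG F) w) (hN : Nice F₀) (hL : MemLp F₀ 2 ((muZ F D).withDensity w))
    {κ : Xi F → Xi F → ℂ} (hκ : IsCKer F D κ) {h : ℂ} (h0 : h ≠ 0)
    (he : ∀ z, opK κ F₀ z = h * F₀ z) : ∃ B : ℝ, ∀ z, ‖F₀ z‖ ≤ B := by
  set n := Fintype.card (InfinitePlace F) with hn
  obtain ⟨C, hC, hb⟩ := exists_sup_le (F := F) (D := D) (List.replicate n κ)
    (fun κ' h' => by rw [List.eq_of_mem_replicate h']; exact hκ) hκ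
    (by rw [List.length_replicate])
  have hop : ∀ (c : ℂ), opK κ (fun z => c * F₀ z) = fun z => h * (c * F₀ z) := by
    intro c
    funext z
    have h1 := he z
    unfold opK at h1 ⊢
    simp_rw [mul_left_comm (κ _ _) c]
    rw [integral_const_mul, h1]
    ring
  have hfold : ∀ m : ℕ, (List.replicate m κ).foldr opK (opK κ F₀) =
      fun z => h ^ (m + 1) * F₀ z := by
    intro m
    induction m with
    | zero =>
      funext z
      simp only [List.replicate_zero, List.foldr_nil, zero_add, pow_one]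
      exact he z
    | succ m ih =>
      rw [List.replicate_succ, List.foldr_cons, ih, hop]
      funext z
      ring
  refine ⟨‖h ^ (n + 1)‖⁻¹ * (C * (eLpNorm F₀ 2 ((muZ F D).withDensity w)).toReal), fun z => ?_⟩
  have h1 := hb w hw F₀ hN hL z
  rw [hfold, norm_mul] at h1
  have h2 : 0 < ‖h ^ (n + 1)‖ := norm_pos_iff.2 (pow_ne_zero _ h0)
  rw [← div_eq_inv_mul, le_div_iff₀ h2, mul_comm]
  exact h1

theorem IsRegRep.exists_bound (hF : IsRegRep f F₀) (hw : IsWeight (PG F) w) (hc : IsCusp F₀)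
    {κ : Xi F → Xi F → ℂ} (hκ : IsCKer F D κ) {h : ℂ} (h0 : h ≠ 0)
    (he : ∀ z, opK κ F₀ z = h * F₀ z) : ∃ B : ℝ, ∀ z, ‖F₀ z‖ ≤ B :=
  exists_bound_of_opK hw (hF.nice hc) hF.memLp hκ h0 he

end Space

end Conc

end Fermat.Agent.LT.Desc
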