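import Fermat.Agent.LT.Iso.Bridge

/-!
# Positivity: the diagonal of `e₀ e₁ e₂ S τ` on a `τ`-stable system is `0` or `1`
-/

set_option autoImplicit false
set_option linter.unusedSectionVars false

noncomputable section

open Module
open scoped InnerProductSpace

namespace Fermat.Agent.LT.Iso.SideL

open Fermat.Agent.LT Fermat.Agent.LT.Iso

variable {H : Type*} [NormedAddCommGroup H] [InnerProductSpace ℂ H] [CompleteSpace H]
  {I : Type*} {q : ℝ} (L : SideL q H I)

/-- the projection onto the spherical `(V, χ)`-vectors -/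
def P : H →L[ℂ] H := L.e 0 * L.e 1 * L.e 2 * L.S

theorem P_def : L.P = L.e 0 * L.e 1 * L.e 2 * L.S := rfl

theorem P_mul_P (hS : L.S * L.S = L.S) : L.P * L.P = L.P := by
  have h01 := L.ee 0 1 (by decide)
  have h02 := L.ee 0 2 (by decide)
  have h12 := L.ee 1 2 (by decide)
  have e0 := (L.rel 0).e_sq
  have e1 := (L.rel 1).e_sq
  have e2 := (L.rel 2).e_sq
  have s0 := L.Se 0
  have s1 := L.Se 1
  have s2 := L.Se 2
  set a := L.e 0
  set b := L.e 1
  set c := L.e 2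
  set s := L.S
  calc L.P * L.P = a * b * c * (s * a) * b * c * s := by rw [P_def]; noncomm_ring
    _ = a * b * (c * a) * (s * b) * c * s := by rw [s0]; noncomm_ring
    _ = a * (b * a) * c * b * (s * c) * s := by rw [← h02, s1]; noncomm_ring
    _ = (a * a) * b * (c * b) * c * (s * s) := by rw [← h01, s2]; noncomm_ring
    _ = a * (b * b) * (c * c) * s := by rw [e0, ← h12, hS]; noncomm_ring
    _ = L.P := by rw [e1, e2, P_def]

theorem P_mul_τ (hSτ : L.S * L.τ = L.τ * L.S) : L.P * L.τ = L.τ * L.P := by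
  have h01 := L.ee 0 1 (by decide)
  have h02 := L.ee 0 2 (by decide)
  have t0 : L.τ * L.e 0 = L.e 1 * L.τ := L.τe 0
  have t1 : L.τ * L.e 1 = L.e 2 * L.τ := L.τe 1
  have t2 : L.τ * L.e 2 = L.e 0 * L.τ := L.τe 2
  set a := L.e 0
  set b := L.e 1
  set c := L.e 2
  set s := L.S
  symm
  calc L.τ * L.P = (L.τ * a) * b * c * s := by rw [P_def]; noncomm_ring
    _ = b * (L.τ * b) * c * s := by rw [t0]; noncomm_ring
    _ = b * c * (L.τ * c) * s := by rw [t1]; noncomm_ring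
    _ = b * (c * a) * (L.τ * s) := by rw [t2]; noncomm_ring
    _ = (b * a) * c * s * L.τ := by rw [← h02, ← hSτ]; noncomm_ring
    _ = L.P * L.τ := by rw [← h01, P_def]

theorem P_mem {χ : I → ℝ} {v : H} (hv : v ∈ jointEig L.A χ) : L.P v ∈ jointEig L.A χ := by
  refine mem_jointEig_of_commute (fun i => ?_) hv
  have h0 := L.Ae i 0
  have h1 := L.Ae i 1
  have h2 := L.Ae i 2
  have hs := L.AS i
  rw [P_def]
  calc L.A i * (L.e 0 * L.e 1 * L.e 2 * L.S) = (L.A i * L.e 0) * L.e 1 * L.e 2 * L.S := by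
        noncomm_ring
    _ = L.e 0 * (L.A i * L.e 1) * L.e 2 * L.S := by rw [h0]; noncomm_ring
    _ = L.e 0 * L.e 1 * (L.A i * L.e 2) * L.S := by rw [h1]; noncomm_ring
    _ = L.e 0 * L.e 1 * L.e 2 * (L.A i * L.S) := by rw [h2]; noncomm_ring
    _ = L.e 0 * L.e 1 * L.e 2 * L.S * L.A i := by rw [hs]; noncomm_ring

/-- **Positivity.** -/
theorem diag_eq_zero_or_one (hS : L.S * L.S = L.S) (hSτ : L.S * L.τ = L.τ * L.S) {χ : I → ℝ}
    (hline : ∀ v ∈ jointEig L.A χ, ∀ w ∈ jointEig L.A χ, L.P v = v → L.P w = w → v ≠ 0 →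
      ∃ c : ℂ, w = c • v)
    (hτ : ∀ v ∈ jointEig L.A χ, L.P v = v → L.τ v = v) :
    ((¬ ∃ v ∈ jointEig L.A χ, v ≠ 0 ∧ L.P v = v) ∧
      L.diag.diag (L.e 0 * L.e 1 * L.e 2 * (L.S * L.τ)) χ = 0) ∨
    ((∃ v ∈ jointEig L.A χ, v ≠ 0 ∧ L.P v = v) ∧
      L.diag.diag (L.e 0 * L.e 1 * L.e 2 * (L.S * L.τ)) χ = 1) := by
  classical
  haveI := L.diag.fin χ
  have hPP : ∀ v, L.P (L.P v) = L.P v := fun v =>
    congrArg (fun S : H →L[ℂ] H => S v) (L.P_mul_P hS)
  have hPτ : ∀ v, L.P (L.τ v) = L.τ (L.P v) := fun v =>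
    congrArg (fun S : H →L[ℂ] H => S v) (L.P_mul_τ hSτ)
  -- on the piece the operator is `P`
  have hT : ∀ v ∈ jointEig L.A χ, (L.e 0 * L.e 1 * L.e 2 * (L.S * L.τ)) v = L.P v := by
    intro v hv
    have h1 : (L.e 0 * L.e 1 * L.e 2 * (L.S * L.τ)) v = L.P (L.τ v) := rfl
    rw [h1, hPτ, hτ _ (L.P_mem hv) (hPP v)]
  have hT' : ∀ v ∈ jointEig L.A χ,
      (L.e 0 * L.e 1 * L.e 2 * (L.S * L.τ)) v ∈ jointEig L.A χ := fun v hv => by
    rw [hT v hv]; exact L.P_mem hv
  rw [L.diag.diag_eq_trace hT']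
  have hP' : ∀ v ∈ jointEig L.A χ, L.P v ∈ jointEig L.A χ := fun v hv => L.P_mem hv
  set f : Module.End ℂ (jointEig L.A χ) := rs L.P hP' with hf
  have hfe : ((L.e 0 * L.e 1 * L.e 2 * (L.S * L.τ) : H →L[ℂ] H) : H →ₗ[ℂ] H).restrict hT' = f := by
    apply LinearMap.ext
    intro v
    apply Subtype.ext
    exact hT v v.2
  rw [hfe]
  have hff : ∀ v, f (f v) = f v := fun v => Subtype.ext (hPP v)
  have hproj : LinearMap.IsProj (LinearMap.range f) f :=
    { map_mem := fun v => ⟨v, rfl⟩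
      map_id := by rintro _ ⟨v, rfl⟩; exact hff v }
  have htr : LinearMap.trace ℂ (jointEig L.A χ) f = (finrank ℂ (LinearMap.range f) : ℂ) :=
    hproj.trace
  have hle : finrank ℂ (LinearMap.range f) ≤ 1 := by
    by_cases h0 : ∃ v : LinearMap.range f, v ≠ 0
    · obtain ⟨⟨v, hv⟩, hv0⟩ := h0
      have hfv : f v = v := hproj.map_id v hv
      refine finrank_le_one ⟨v, hv⟩ fun w => ?_
      obtain ⟨w, hw⟩ := w
      have hfw : f w = w := hproj.map_id w hw
      obtain ⟨c, hc⟩ := hline v v.2 w w.2 (congrArg Subtype.val hfv) (congrArg Subtype.val hfw)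
        (fun h => hv0 (by ext1; ext1; exact h))
      exact ⟨c, by ext1; ext1; exact hc.symm⟩
    · push Not at h0
      haveI : Subsingleton (LinearMap.range f) := ⟨fun a b => by rw [h0 a, h0 b]⟩
      rw [finrank_zero_of_subsingleton]
      exact Nat.zero_le _
  by_cases hex : ∃ v ∈ jointEig L.A χ, v ≠ 0 ∧ L.P v = v
  · right
    refine ⟨hex, ?_⟩
    obtain ⟨v, hv, hv0, hPv⟩ := hex
    have h1 : finrank ℂ (LinearMap.range f) ≠ 0 := by
      intro h0
      have h2 : LinearMap.range f = ⊥ := Submodule.finrank_eq_zero.mp h0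
      have h3 : f ⟨v, hv⟩ ∈ LinearMap.range f := ⟨_, rfl⟩
      rw [h2, Submodule.mem_bot] at h3
      have h4 : f ⟨v, hv⟩ = ⟨v, hv⟩ := Subtype.ext hPv
      rw [h4] at h3
      exact hv0 (congrArg Subtype.val h3)
    rw [htr]
    have : finrank ℂ (LinearMap.range f) = 1 := by omega
    rw [this, Nat.cast_one]
  · left
    refine ⟨hex, ?_⟩
    rw [htr]
    have : finrank ℂ (LinearMap.range f) = 0 := by
      rw [Submodule.finrank_eq_zero, eq_bot_iff]
      rintro v hv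
      rw [Submodule.mem_bot]
      by_contra hv0
      exact hex ⟨v, v.2, fun h => hv0 (Subtype.ext h), congrArg Subtype.val (hproj.map_id v hv)⟩
    rw [this, Nat.cast_zero]

end Fermat.Agent.LT.Iso.SideL
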