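import Fermat.Agent.LT.HK.Place
import Fermat.Agent.LT.LevDown

/-!
# The letters at one place and the Galois action on `D U`

`g • w = w'` : `(eAt w').ker (g x) (g y) = (eAt w).ker x y`, and the same for `wAt`, `tAt`.
-/

set_option autoImplicit false

open Matrix NumberField IsDedekindDomain
open scoped WithZero Pointwise

noncomputable section

namespace Fermat.Agent.LT.Desc

open Fermat.Agent.LT.Ext Fermat.Agent.LT.Lvl Fermat.Agent.LT.HK Fermat.Agent.LT.Iwa

variable {L : Type*} [Field L] [NumberField L] {G : Type*} [Group G] [MulSemiringAction G L]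

/-- the isomorphism `L_w → L_w'` for `g w = w'` -/
def extE {g : G} {w w' : HeightOneSpectrum (𝓞 L)} (h : g • w = w') :
    w.adicCompletion L ≃+* w'.adicCompletion L :=
  have h' : g⁻¹ • w' = w := by rw [← h, inv_smul_smul]
  RingEquiv.ofRingHom (compat_of_smul_eq (L := L) h).ext (compat_of_smul_eq (L := L) h').ext
    (by
      have h3 : (g * g⁻¹) • w' = w' := by rw [mul_inv_cancel, one_smul]
      rw [ext_comp_smul h' h h3]
      have key : ∀ (k : G) (hk : k = 1) (h3 : k • w' = w'),
          (compat_of_smul_eq (L := L) h3).ext = RingHom.id _ := by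
        rintro k rfl h3
        exact ext_one_smul h3
      exact key _ (mul_inv_cancel g) h3)
    (by
      have h3 : (g⁻¹ * g) • w = w := by rw [inv_mul_cancel, one_smul]
      rw [ext_comp_smul h h' h3]
      have key : ∀ (k : G) (hk : k = 1) (h3 : k • w = w),
          (compat_of_smul_eq (L := L) h3).ext = RingHom.id _ := by
        rintro k rfl h3
        exact ext_one_smul h3
      exact key _ (inv_mul_cancel g) h3)

theorem extE_apply {g : G} {w w' : HeightOneSpectrum (𝓞 L)} (h : g • w = w')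
    (x : w.adicCompletion L) : extE h x = (compat_of_smul_eq (L := L) h).ext x := rfl

theorem vF_extE {g : G} {w w' : HeightOneSpectrum (𝓞 L)} (h : g • w = w')
    (x : w.adicCompletion L) : vF w' (extE h x) = vF w x := by
  rw [extE_apply, valued_ext_smul h, pow_one]

theorem gf_extE {g : G} {w w' : HeightOneSpectrum (𝓞 L)} (h : g • w = w')
    (x : GL (Fin 2) (w.adicCompletion L)) : gf (extE h) x = glExt h x := by
  apply Units.ext
  ext i j
  rfl

variable {U : Lev L} (hU : GStable G U.U)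

theorem dvMap_injective {g : G} {w w' : HeightOneSpectrum (𝓞 L)} (h : g • w = w') :
    Function.Injective (dvMap hU h) := by
  have h' : g⁻¹ • w' = w := by rw [← h, inv_smul_smul]
  have h3 : (g⁻¹ * g) • w = w := by rw [inv_mul_cancel, one_smul]
  have key : ∀ (k : G) (hk : k = 1) (h3 : k • w = w), dvMap hU h3 = id := by
    rintro k rfl h3
    funext x
    exact dvMap_id hU h3 x
  refine Function.LeftInverse.injective (g := dvMap hU h') fun x => ?_
  rw [dvMap_dvMap hU h h' h3, key _ (inv_mul_cancel g) h3]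
  rfl

/-- A kernel at one place, under the Galois action. -/
theorem ker_atPl_tauD {g : G} {w w' : HeightOneSpectrum (𝓞 L)} (h : g • w = w') {a : LocH U w}
    {a' : LocH U w'} (haa : ∀ p r : Dv U w, a'.ker (dvMap hU h p) (dvMap hU h r) = a.ker p r)
    (x y : D U) :
    (atPl U w' a').ker (tauD hU g x) (tauD hU g y) = (atPl U w a).ker x y := by
  classical
  rw [ker_atPl, ker_atPl]
  have h1 : (∀ z ≠ w', tauD hU g x z = tauD hU g y z) ↔ ∀ z ≠ w, x z = y z := by
    constructor
    · intro h1 z hz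
      have h2 := h1 (g • z) fun h3 => hz (smul_left_cancel g (h3.trans h.symm))
      rw [tauD_apply hU g x rfl, tauD_apply hU g y rfl] at h2
      exact dvMap_injective hU rfl h2
    · intro h1 z hz
      have h3 : g • (g⁻¹ • z) = z := smul_inv_smul g z
      rw [tauD_apply hU g x h3, tauD_apply hU g y h3, h1 (g⁻¹ • z) fun h4 => hz (by
        rw [← h3, h4, h])]
  rw [tauD_apply hU g x h, tauD_apply hU g y h, haa]
  simp only [h1]

/-- The map of the cosets is the lift of the isomorphism of the completions. -/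
theorem dvMap_castCos {g : G} {w w' : HeightOneSpectrum (𝓞 L)} (h : g • w = w')
    {H : Subgroup (GL (Fin 2) (w.adicCompletion L))}
    {H' : Subgroup (GL (Fin 2) (w'.adicCompletion L))} (hH : U.U w = H) (hH' : U.U w' = H')
    (x : GL (Fin 2) (w.adicCompletion L)) :
    castCos hH' (dvMap hU h ((castCos hH).symm (Cos.mk H x))) =
      Cos.mk H' (gf (extE h) x) := by
  rw [castCos_symm_mk, gf_extE]
  change castCos hH' (Cos.mk (U.U w') (glExt h x)) = _
  rw [castCos_mk]

section At

variable {g : G} {w w' : HeightOneSpectrum (𝓞 L)} (h : g • w = w')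

include h in
theorem ker_iwAt_tauD (hw : U.U w = Iw (vF w)) (hw' : U.U w' = Iw (vF w'))
    {a : HK (GL (Fin 2) (w.adicCompletion L)) (Cos (Iw (vF w)))}
    {a' : HK (GL (Fin 2) (w'.adicCompletion L)) (Cos (Iw (vF w')))}
    (haa : ∀ φ : Cos (Iw (vF w)) → Cos (Iw (vF w')), IsLift (extE h) φ →
      ∀ p r, a'.ker (φ p) (φ r) = a.ker p r) (x y : D U) :
    (iwAt hw' a').ker (tauD hU g x) (tauD hU g y) = (iwAt hw a).ker x y := by
  rw [iwAt_apply, iwAt_apply]
  refine ker_atPl_tauD hU h (fun p r => ?_) x y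
  rw [ker_castHK', ker_castHK']
  obtain ⟨p, rfl⟩ := (castCos hw.symm).surjective p
  obtain ⟨r, rfl⟩ := (castCos hw.symm).surjective r
  rw [Equiv.symm_apply_apply, Equiv.symm_apply_apply]
  exact haa (fun p => (castCos hw'.symm).symm (dvMap hU h (castCos hw.symm p)))
    (fun x => dvMap_castCos hU h hw hw' x) p r

include h in
theorem ker_spAt_tauD (hw : U.U w = GLO (vF w)) (hw' : U.U w' = GLO (vF w'))
    {a : HK (GL (Fin 2) (w.adicCompletion L)) (Cos (GLO (vF w)))}
    {a' : HK (GL (Fin 2) (w'.adicCompletion L)) (Cos (GLO (vF w')))}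
    (haa : ∀ φ : Cos (GLO (vF w)) → Cos (GLO (vF w')), IsLift (extE h) φ →
      ∀ p r, a'.ker (φ p) (φ r) = a.ker p r) (x y : D U) :
    (spAt hw' a').ker (tauD hU g x) (tauD hU g y) = (spAt hw a).ker x y := by
  rw [spAt_apply, spAt_apply]
  refine ker_atPl_tauD hU h (fun p r => ?_) x y
  rw [ker_castHK', ker_castHK']
  obtain ⟨p, rfl⟩ := (castCos hw.symm).surjective p
  obtain ⟨r, rfl⟩ := (castCos hw.symm).surjective r
  rw [Equiv.symm_apply_apply, Equiv.symm_apply_apply]
  exact haa (fun p => (castCos hw'.symm).symm (dvMap hU h (castCos hw.symm p)))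
    (fun x => dvMap_castCos hU h hw hw' x) p r

include h in
theorem ker_eAt_tauD (hw : U.U w = Iw (vF w)) (hw' : U.U w' = Iw (vF w')) (𝔡 : Datum (vF w))
    (𝔡' : Datum (vF w')) (x y : D U) :
    (eAt hw' 𝔡').ker (tauD hU g x) (tauD hU g y) = (eAt hw 𝔡).ker x y :=
  ker_iwAt_tauD hU h hw hw' (fun _ hφ p r => Datum.ker_eH_lift 𝔡 (vF_extE h) 𝔡' hφ p r) x y

include h in
theorem ker_wAt_tauD (hw : U.U w = Iw (vF w)) (hw' : U.U w' = Iw (vF w')) (𝔡 : Datum (vF w))
    (𝔡' : Datum (vF w')) (x y : D U) :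
    (wAt hw' 𝔡').ker (tauD hU g x) (tauD hU g y) = (wAt hw 𝔡).ker x y :=
  ker_iwAt_tauD hU h hw hw' (fun _ hφ p r => Datum.ker_wH_lift 𝔡 (vF_extE h) 𝔡' hφ p r) x y

include h in
theorem ker_tAt_tauD (hw : U.U w = GLO (vF w)) (hw' : U.U w' = GLO (vF w')) (𝔡 : Datum (vF w))
    (𝔡' : Datum (vF w')) (x y : D U) :
    (tAt hw' 𝔡').ker (tauD hU g x) (tauD hU g y) = (tAt hw 𝔡).ker x y :=
  ker_spAt_tauD hU h hw hw' (fun _ hφ p r => Datum.ker_tH_lift 𝔡 (vF_extE h) 𝔡' hφ p r) x y

end At

end Fermat.Agent.LT.Desc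

end
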