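import Fermat.Agent.LT.Desc.Sides
import Fermat.Agent.LT.Desc.TauAt
import Fermat.Agent.LT.Desc.Pos
import Fermat.Agent.LT.IwaDatum

/-!
# The descent theorem

* `Iso.CoreL.descent` : the isolation theorem with multiplicity one;
* `SetL τ U`, `SetK UK` : the places `u_j` over `u` and the bad Hecke kernel `s`;
* `SetL.let`, `SetK.let` : the Hecke letters `T_w`, `e_j`, `w_j`, `s`;
* `EigL`, `EigK` : joint eigenvectors;
* `descent` : from a joint eigenvector over `L` to a joint eigenvector over `K`.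
-/

set_option autoImplicit false
set_option linter.unusedSectionVars false

noncomputable section

open Filter Topology Module
open scoped InnerProductSpace

namespace Fermat.Agent.LT.Iso

open Fermat.Agent.LT

variable {H : Type*} [NormedAddCommGroup H] [InnerProductSpace ℂ H] [CompleteSpace H]
  {I κ : Type*} {H' : Type*} [NormedAddCommGroup H'] [InnerProductSpace ℂ H'] [CompleteSpace H']
  {I' : Type*} {q : ℝ}

theorem SideL.P_apply_eq_iff (L : SideL q H I) (hS : L.S * L.S = L.S) (v : H) :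
    L.P v = v ↔ (∀ j, L.e j v = v) ∧ L.S v = v := by
  have h01 := L.ee 0 1 (by decide)
  have h02 := L.ee 0 2 (by decide)
  have h12 := L.ee 1 2 (by decide)
  have e0 := (L.rel 0).e_sq
  have e1 := (L.rel 1).e_sq
  have e2 := (L.rel 2).e_sq
  have s0 := L.Se 0
  have s1 := L.Se 1
  have s2 := L.Se 2
  constructor
  · intro h
    have key : ∀ T : H →L[ℂ] H, T * L.P = L.P → T v = v := by
      intro T hT
      have h1 := congrArg (fun S : H →L[ℂ] H => S v) hT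
      change T (L.P v) = L.P v at h1
      rwa [h] at h1
    have k0 : L.e 0 * L.P = L.P := by
      rw [SideL.P_def, ← mul_assoc, ← mul_assoc, ← mul_assoc, e0]
    have k1 : L.e 1 * L.P = L.P := by
      rw [SideL.P_def, ← mul_assoc, ← mul_assoc, ← mul_assoc, ← h01, mul_assoc (L.e 0), e1]
    have k2 : L.e 2 * L.P = L.P := by
      rw [SideL.P_def, ← mul_assoc, ← mul_assoc, ← mul_assoc, ← h02, mul_assoc (L.e 0), ← h12,
        ← mul_assoc, mul_assoc (L.e 0 * L.e 1), e2]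
    have k3 : L.S * L.P = L.P := by
      rw [SideL.P_def, ← mul_assoc, ← mul_assoc, ← mul_assoc, s0, mul_assoc (L.e 0), s1,
        ← mul_assoc, mul_assoc (L.e 0 * L.e 1), s2, ← mul_assoc, mul_assoc _ L.S, hS]
    refine ⟨fun j => ?_, key _ k3⟩
    fin_cases j
    · exact key _ k0
    · exact key _ k1
    · exact key _ k2
  · rintro ⟨he, hs⟩
    change L.e 0 (L.e 1 (L.e 2 (L.S v))) = v
    rw [hs, he, he, he]

/-- **The isolation theorem with multiplicity one.** -/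
theorem CoreL.descent (hq : 0 < q) (L : CoreL q H I) (K : CoreK q H' I')
    (a : κ → I) (a' : κ → I') (P : List κ →₀ ℂ)
    (t0 : L.diag.Tr (evW L.A a P * (L.S * L.τ)))
    (t1 : L.diag.Tr (evW L.A a P * (opU (q : ℂ) (L.e 0) (L.w 0) * (L.S * L.τ))))
    (t0' : K.diag.Tr (evW K.A a' P * K.S))
    (t1' : K.diag.Tr (evW K.A a' P * (opU (q : ℂ) K.e K.w * K.S)))
    (HT : ∀ l : List κ, ∃ n₀ : ℕ, ∀ n, n₀ ≤ n →
      L.diag.tr ((l.map fun k => L.A (a k)).prod *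
        (evW L.A a P * (opU (q : ℂ) (L.e 0) (L.w 0) ^ n * (L.S * L.τ)))) =
      K.diag.tr ((l.map fun k => K.A (a' k)).prod *
        (evW K.A a' P * (opU (q : ℂ) K.e K.w ^ n * K.S))))
    {y : κ → ℝ} (hP : evN y P ≠ 0) (hS : L.S * L.S = L.S) (hSτ : L.S * L.τ = L.τ * L.S)
    (hline : ∀ χ : I → ℝ, (∀ i, χ (L.σ i) = χ i) → χ (L.c 0) = 0 → (∀ k, χ (a k) = y k) →
      ∀ v ∈ jointEig L.A χ, ∀ w ∈ jointEig L.A χ, (∀ j, L.e j v = v) → L.S v = v →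
      (∀ j, L.e j w = w) → L.S w = w → v ≠ 0 → ∃ c : ℂ, w = c • v)
    (hτ : ∀ χ : I → ℝ, (∀ i, χ (L.σ i) = χ i) → χ (L.c 0) = 0 → (∀ k, χ (a k) = y k) →
      ∀ v ∈ jointEig L.A χ, (∀ j, L.e j v = v) → L.S v = v → L.τ v = v)
    {χ₀ : I → ℝ} (h₀σ : ∀ i, χ₀ (L.σ i) = χ₀ i) (h₀c : χ₀ (L.c 0) = 0)
    (h₀y : ∀ k, χ₀ (a k) = y k) {v₀ : H} (hv₀ : v₀ ∈ jointEig L.A χ₀) (h0 : v₀ ≠ 0)
    (h0e : ∀ j, L.e j v₀ = v₀) (h0S : L.S v₀ = v₀) :
    ∃ χ' : I' → ℝ, χ' K.c = 0 ∧ (∀ k, χ' (a' k) = y k) ∧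
      ∃ v ∈ jointEig K.A χ', v ≠ 0 ∧ K.e v = v := by
  have key : ∀ χ : I → ℝ, (∀ i, χ (L.σ i) = χ i) → χ (L.c 0) = 0 → (∀ k, χ (a k) = y k) →
      ((¬ ∃ v ∈ jointEig L.A χ, v ≠ 0 ∧ (L.toSideL a P).P v = v) ∧
        L.diag.diag (L.e 0 * L.e 1 * L.e 2 * (L.S * L.τ)) χ = 0) ∨
      ((∃ v ∈ jointEig L.A χ, v ≠ 0 ∧ (L.toSideL a P).P v = v) ∧
        L.diag.diag (L.e 0 * L.e 1 * L.e 2 * (L.S * L.τ)) χ = 1) := by
    intro χ h1 h2 h3
    refine (L.toSideL a P).diag_eq_zero_or_one hS hSτ (χ := χ) ?_ ?_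
    · intro v hv w hw hPv hPw hv0
      obtain ⟨hev, hsv⟩ := ((L.toSideL a P).P_apply_eq_iff hS v).1 hPv
      obtain ⟨hew, hsw⟩ := ((L.toSideL a P).P_apply_eq_iff hS w).1 hPw
      exact hline χ h1 h2 h3 v hv w hw hev hsv hew hsw hv0
    · intro v hv hPv
      obtain ⟨hev, hsv⟩ := ((L.toSideL a P).P_apply_eq_iff hS v).1 hPv
      exact hτ χ h1 h2 h3 v hv hev hsv
  refine L.exists_eigenvector hq K a a' P t0 t1 t0' t1' HT hP ?_ h₀σ h₀c h₀y ?_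
  · intro χ h1 _ h2 h3
    rcases key χ h1 h2 h3 with ⟨_, h⟩ | ⟨_, h⟩
    · exact ⟨0, le_rfl, by rw [h, Complex.ofReal_zero]⟩
    · exact ⟨1, zero_le_one, by rw [h, Complex.ofReal_one]⟩
  · rcases key χ₀ h₀σ h₀c h₀y with ⟨h, _⟩ | ⟨_, h⟩
    · exact absurd ⟨v₀, hv₀, h0, ((L.toSideL a P).P_apply_eq_iff hS v₀).2 ⟨h0e, h0S⟩⟩ h
    · rw [h]
      exact one_ne_zero

end Fermat.Agent.LT.Iso

namespace Fermat.Agent.LT.Desc

open Fermat.Agent.LT.Ext Fermat.Agent.LT.Lvl Fermat.Agent.LT.HK Fermat.Agent.LT.Iwa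
open Fermat.Agent.LT.Iso Fermat.Agent.CFT.SUnits
open Matrix NumberField IsDedekindDomain
open scoped WithZero Pointwise

/-! ### The letters -/

section Iw

theorem Iw_ne_GLO {F : Type*} [Field F] {Γ₀ : Type*} [LinearOrderedCommGroupWithZero Γ₀]
    (v : Valuation F Γ₀) : Iw v ≠ GLO v := by
  intro h
  have h1 : (gl2 0 1 1 0 (by simp) : GL (Fin 2) F) ∈ GLO v := by
    rw [mem_GLO_iff_isHyper]
    refine ⟨fun i j => ?_, ?_⟩
    · fin_cases i <;> fin_cases j <;> simp [gl2]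
    · simp [gl2, Matrix.det_fin_two]
  rw [← h, mem_Iw] at h1
  have h2 := h1.h11
  simp [gl2] at h2

end Iw

/-- The good places of a level. -/
abbrev GoodPl {F : Type*} [Field F] [NumberField F] (U : Lev F) : Type _ :=
  {w : HeightOneSpectrum (𝓞 F) // U.U w = GLO (vF w)}

variable {K L : Type*} [Field K] [NumberField K] [Field L] [NumberField L] [Algebra K L]

/-- Data over `L`: the three places above `u`, of Iwahori level, and the Hecke kernel at the bad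
places. -/
structure SetL (τ : L ≃ₐ[K] L) (U : Lev L) where
  hU : GStable (L ≃ₐ[K] L) U.U
  u : Fin 3 → HeightOneSpectrum (𝓞 L)
  step : ∀ j, τ • u j = u (j + 1)
  inj : Function.Injective u
  iw : ∀ j, U.U (u j) = Iw (vF (u j))
  s : HK (PG L) (D U)
  s_good : ∀ w, U.U w = GLO (vF w) → ∀ a : LocH U w, Commute s (atPl U w a)
  s_u : ∀ (j : Fin 3) (a : LocH U (u j)), Commute s (atPl U (u j) a)

/-- Data over `K`. -/
structure SetK (UK : Lev K) where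
  u : HeightOneSpectrum (𝓞 K)
  iw : UK.U u = Iw (vF u)
  s : HK (PG K) (D UK)
  s_good : ∀ w, UK.U w = GLO (vF w) → ∀ a : LocH UK w, Commute s (atPl UK w a)
  s_u : ∀ a : LocH UK u, Commute s (atPl UK u a)

namespace SetL

variable {τ : L ≃ₐ[K] L} {U : Lev L} (X : SetL τ U)

/-- `q = N u` -/
def q : ℝ := Ideal.absNorm (X.u 0).asIdeal

theorem ne_u {w : HeightOneSpectrum (𝓞 L)} (hw : U.U w = GLO (vF w)) (j : Fin 3) :
    X.u j ≠ w := by
  rintro rfl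
  exact Iw_ne_GLO _ ((X.iw j).symm.trans hw)

/-- The letters over `L`. -/
def lett : LetL X.q (HK (PG L) (D U)) (GoodPl U) where
  t w := tAt w.2 (datum w.1)
  e j := eAt (X.iw j) (datum (X.u j))
  w j := wAt (X.iw j) (datum (X.u j))
  s := X.s
  rel j := iwaRelAt (X.iw j) (datum (X.u j))
  tt i j := commute_tAt i.2 j.2 _ _
  te i j := (commute_iwAt_spAt (X.iw j) (X.ne_u i.2 j) i.2 _ _).symm
  tw i j := (commute_iwAt_spAt (X.iw j) (X.ne_u i.2 j) i.2 _ _).symm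
  ts i := by
    rw [tAt, spAt_apply]
    exact (X.s_good _ i.2 _).symm
  ee i j h := commute_iwAt_iwAt (X.iw i) (fun h' => h (X.inj h')) (X.iw j) _ _
  ew i j h := commute_iwAt_iwAt (X.iw i) (fun h' => h (X.inj h')) (X.iw j) _ _
  ww i j h := commute_iwAt_iwAt (X.iw i) (fun h' => h (X.inj h')) (X.iw j) _ _
  se j := by
    rw [eAt, iwAt_apply]
    exact X.s_u j _
  sw j := by
    rw [wAt, iwAt_apply]
    exact X.s_u j _

theorem opU_lett : opU (X.q : ℂ) (X.lett.e 0) (X.lett.w 0) = uAt (X.iw 0) (datum (X.u 0)) := by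
  rw [uAt_eq, q_datum]
  rfl

end SetL

namespace SetK

variable {UK : Lev K} (Y : SetK UK)

theorem ne_u {w : HeightOneSpectrum (𝓞 K)} (hw : UK.U w = GLO (vF w)) : Y.u ≠ w := by
  rintro rfl
  exact Iw_ne_GLO _ (Y.iw.symm.trans hw)

/-- The letters over `K`. -/
def lett (q : ℝ) : LetK q (HK (PG K) (D UK)) (GoodPl UK) where
  t w := tAt w.2 (datum w.1)
  e := eAt Y.iw (datum Y.u)
  w := wAt Y.iw (datum Y.u)
  s := Y.s
  rel := iwaRelAt Y.iw (datum Y.u)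
  tt i j := commute_tAt i.2 j.2 _ _
  te i := (commute_iwAt_spAt Y.iw (Y.ne_u i.2) i.2 _ _).symm
  tw i := (commute_iwAt_spAt Y.iw (Y.ne_u i.2) i.2 _ _).symm
  ts i := by
    rw [tAt, spAt_apply]
    exact (Y.s_good _ i.2 _).symm
  se := by
    rw [eAt, iwAt_apply]
    exact Y.s_u _
  sw := by
    rw [wAt, iwAt_apply]
    exact Y.s_u _

theorem opU_lett {q : ℝ} (hq : q = Ideal.absNorm Y.u.asIdeal) :
    opU (q : ℂ) (Y.lett q).e (Y.lett q).w = uAt Y.iw (datum Y.u) := by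
  subst hq
  rw [uAt_eq, q_datum]
  rfl

end SetK

/-! ### The Galois action on the good places -/

section Perm

variable {τ : L ≃ₐ[K] L} {U : Lev L}

theorem good_smul (hU : GStable (L ≃ₐ[K] L) U.U) (g : L ≃ₐ[K] L) {w : HeightOneSpectrum (𝓞 L)}
    (hw : U.U w = GLO (vF w)) : U.U (g • w) = GLO (vF (g • w)) := by
  ext x
  obtain ⟨y, rfl⟩ := (glExt_bijective (L := L) (G := L ≃ₐ[K] L) (g := g) (w := w) rfl).2 x
  have h1 : glExt (rfl : g • w = g • w) y ∈ U.U (g • w) ↔ y ∈ U.U w :=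
    ⟨fun h => hU.comap_le rfl h, fun h => hU g w (g • w) rfl h⟩
  exact h1.trans ((by rw [hw]) : y ∈ U.U w ↔ y ∈ GLO (vF w)) |>.trans
    (mem_GLO_glExt_iff (L := L) (G := L ≃ₐ[K] L) (g := g) rfl y).symm

/-- The permutation of the good places. -/
def goodPerm (hU : GStable (L ≃ₐ[K] L) U.U) (g : L ≃ₐ[K] L) : Equiv.Perm (GoodPl U) where
  toFun w := ⟨g • w.1, good_smul hU g w.2⟩
  invFun w := ⟨g⁻¹ • w.1, good_smul hU g⁻¹ w.2⟩
  left_inv w := Subtype.ext (inv_smul_smul g w.1)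
  right_inv w := Subtype.ext (smul_inv_smul g w.1)

theorem absNorm_smul_place (g : L ≃ₐ[K] L) (w : HeightOneSpectrum (𝓞 L)) :
    Ideal.absNorm (g • w).asIdeal = Ideal.absNorm w.asIdeal := by
  have e : (𝓞 L ⧸ w.asIdeal) ≃+* (𝓞 L ⧸ (g • w).asIdeal) :=
    Ideal.quotientEquiv _ _ (MulSemiringAction.toRingEquiv (L ≃ₐ[K] L) (𝓞 L) g) rfl
  rw [Ideal.absNorm_apply, Ideal.absNorm_apply, Submodule.cardQuot_apply,
    Submodule.cardQuot_apply]
  exact (Nat.card_congr e.toEquiv).symm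

end Perm

namespace SetL

variable {τ : L ≃ₐ[K] L} {U : Lev L} (X : SetL τ U)

theorem absNorm_u (j : Fin 3) : Ideal.absNorm (X.u j).asIdeal = Ideal.absNorm (X.u 0).asIdeal := by
  have h : ∀ j, Ideal.absNorm (X.u (j + 1)).asIdeal = Ideal.absNorm (X.u j).asIdeal := fun j => by
    rw [← X.step j, absNorm_smul_place]
  fin_cases j
  · rfl
  · exact h 0
  · exact (h 1).trans (h 0)

theorem opC_lett (j : Fin 3) :
    opC (X.q : ℂ) (X.lett.e j) (X.lett.w j) = cAt (X.iw j) (datum (X.u j)) := by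
  rw [cAt_eq, q_datum, X.absNorm_u j]
  rfl

end SetL

theorem SetK.opC_lett {UK : Lev K} (Y : SetK UK) {q : ℝ} (hq : q = Ideal.absNorm Y.u.asIdeal) :
    opC (q : ℂ) (Y.lett q).e (Y.lett q).w = cAt Y.iw (datum Y.u) := by
  subst hq
  rw [cAt_eq, q_datum]
  rfl

/-! ### Eigenvectors -/

section Eig

variable {τ : L ≃ₐ[K] L} {U : Lev L} (X : SetL τ U) {UK : Lev K} (Y : SetK UK)
  {𝒦 𝒦' : Type*} [CommSemigroup 𝒦] [CommSemigroup 𝒦'] {𝒦₀ 𝒦₀' : Type*} (k : 𝒦₀ → 𝒦)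
  (k' : 𝒦₀' → 𝒦') {H : Type*} [NormedAddCommGroup H] [InnerProductSpace ℂ H] [CompleteSpace H]
  {H' : Type*} [NormedAddCommGroup H'] [InnerProductSpace ℂ H'] [CompleteSpace H']
  (ρ : SymRep 𝒦 (HK (PG L) (D U)) H) (ρ' : SymRep 𝒦' (HK (PG K) (D UK)) H')

/-- Joint eigenvectors over `L`, spherical at the `u_j` with `T_{u_j} = 0`, fixed by `s`. -/
structure EigL (lam : HeightOneSpectrum (𝓞 L) → ℝ) (yk : 𝒦₀ → ℝ) (v : H) : Prop where
  t : ∀ w (hw : U.U w = GLO (vF w)), ρ.R (1, tAt hw (datum w)) v = (lam w : ℂ) • v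
  c : ∀ j, ρ.R (1, cAt (X.iw j) (datum (X.u j))) v = 0
  k : ∀ x, ρ.R ((k x : WithOne 𝒦), 1) v = (yk x : ℂ) • v
  e : ∀ j, ρ.R (1, eAt (X.iw j) (datum (X.u j))) v = v
  s : ρ.R (1, X.s) v = v

/-- Joint eigenvectors over `K`, spherical at `u` with `T_u = 0`. -/
structure EigK (lam : HeightOneSpectrum (𝓞 K) → ℝ) (yk : 𝒦₀' → ℝ) (v : H') : Prop where
  t : ∀ w (hw : UK.U w = GLO (vF w)), ρ'.R (1, tAt hw (datum w)) v = (lam w : ℂ) • v
  c : ρ'.R (1, cAt Y.iw (datum Y.u)) v = 0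
  k : ∀ x, ρ'.R ((k' x : WithOne 𝒦'), 1) v = (yk x : ℂ) • v
  e : ρ'.R (1, eAt Y.iw (datum Y.u)) v = v

/-- The operator `f ↦ f ∘ τ⁻¹`. -/
structure TauOp where
  T : H →L[ℂ] H
  σk : Equiv.Perm 𝒦₀
  hk : ∀ b b' : HK (PG L) (D U),
    (∀ d d', b'.ker (tauD X.hU τ d) (tauD X.hU τ d') = b.ker d d') →
      T * ρ.R (1, b) = ρ.R (1, b') * T
  full : ∀ x, T * ρ.R ((k x : WithOne 𝒦), 1) = ρ.R ((k (σk x) : WithOne 𝒦), 1) * T

variable {X k ρ}

/-- The compatibility of the letters with the Galois automorphism. -/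
def TauOp.tau (T : TauOp X k ρ) : X.lett.Tau k ρ where
  T := T.T
  σ := goodPerm X.hU τ
  σk := T.σk
  t w := T.hk _ _ fun d d' => ker_tAt_tauD X.hU rfl w.2 (good_smul X.hU τ w.2) _ _ d d'
  e j := T.hk _ _ fun d d' => ker_eAt_tauD X.hU (X.step j) (X.iw j) (X.iw (j + 1)) _ _ d d'
  w j := T.hk _ _ fun d d' => ker_wAt_tauD X.hU (X.step j) (X.iw j) (X.iw (j + 1)) _ _ d d'
  k := T.full

/-! ### Common letters -/

variable (τ U) in
/-- The common Hecke letters: the good places `w` of `L` moved by `τ` (so `w` is over a split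
place). -/
abbrev WPl : Type _ := {w : GoodPl U // τ • w.1 ≠ w.1}

/-- the letters in the family over `L` -/
def aL : WPl τ U ⊕ 𝒦₀ → GoodPl U ⊕ (Fin 3 ⊕ 𝒦₀)
  | .inl w => .inl w.1
  | .inr x => .inr (.inr x)

/-- the letters in the family over `K` -/
def aK (hdown : ∀ w : HeightOneSpectrum (𝓞 L), U.U w = GLO (vF w) →
    UK.U (under K w) = GLO (vF (under K w))) (tI : 𝒦₀ → 𝒦₀') :
    WPl τ U ⊕ 𝒦₀ → GoodPl UK ⊕ (Unit ⊕ 𝒦₀')
  | .inl w => .inl ⟨under K w.1.1, hdown w.1.1 w.1.2⟩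
  | .inr x => .inr (.inr (tI x))

variable (X k) in
/-- the symbol of a word over `L` -/
def symL (l : List (WPl τ U ⊕ 𝒦₀)) : WithOne 𝒦 × HK (PG L) (D U) := X.lett.symW k aL l

/-- the symbol of a word over `K` -/
def symK (q : ℝ) (hdown : ∀ w : HeightOneSpectrum (𝓞 L), U.U w = GLO (vF w) →
    UK.U (under K w) = GLO (vF (under K w))) (tI : 𝒦₀ → 𝒦₀') (l : List (WPl τ U ⊕ 𝒦₀)) :
    WithOne 𝒦' × HK (PG K) (D UK) := (Y.lett q).symW k' (aK hdown tI) l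

variable (X k ρ) in
/-- `P(letters) * word l * Uⁿ * s` over `L` -/
def opWL (P : List (WPl τ U ⊕ 𝒦₀) →₀ ℂ) (l : List (WPl τ U ⊕ 𝒦₀)) (n : ℕ) : H →L[ℂ] H :=
  P.sum fun m c => c • ρ.R (symL X k (l ++ m) * (1, uAt (X.iw 0) (datum (X.u 0)) ^ n * X.s))

/-- `P(letters) * word l * Uⁿ * s` over `K` -/
def opWK (q : ℝ) (hdown : ∀ w : HeightOneSpectrum (𝓞 L), U.U w = GLO (vF w) →
    UK.U (under K w) = GLO (vF (under K w))) (tI : 𝒦₀ → 𝒦₀')
    (P : List (WPl τ U ⊕ 𝒦₀) →₀ ℂ) (l : List (WPl τ U ⊕ 𝒦₀)) (n : ℕ) : H' →L[ℂ] H' :=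
  P.sum fun m c => c • ρ'.R (symK Y k' q hdown tI (l ++ m) *
    (1, uAt Y.iw (datum Y.u) ^ n * Y.s))

/-- The eigenvalues of the common letters. -/
def yLet (lam : HeightOneSpectrum (𝓞 L) → ℝ) (yk : 𝒦₀ → ℝ) : WPl τ U ⊕ 𝒦₀ → ℝ
  | .inl w => lam w.1.1
  | .inr x => yk x

open Classical in
/-- the function on the places given by a system of eigenvalues -/
def lamOf (χ : GoodPl U ⊕ (Fin 3 ⊕ 𝒦₀) → ℝ) (w : HeightOneSpectrum (𝓞 L)) : ℝ :=
  if hw : U.U w = GLO (vF w) then χ (.inl ⟨w, hw⟩) else 0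

theorem lamOf_good (χ : GoodPl U ⊕ (Fin 3 ⊕ 𝒦₀) → ℝ) {w : HeightOneSpectrum (𝓞 L)}
    (hw : U.U w = GLO (vF w)) : lamOf χ w = χ (.inl ⟨w, hw⟩) := dif_pos hw

open Classical in
/-- the function on the places given by a system of eigenvalues -/
def lamOfK (χ : GoodPl UK ⊕ (Unit ⊕ 𝒦₀') → ℝ) (w : HeightOneSpectrum (𝓞 K)) : ℝ :=
  if hw : UK.U w = GLO (vF w) then χ (.inl ⟨w, hw⟩) else 0

theorem lamOfK_good (χ : GoodPl UK ⊕ (Unit ⊕ 𝒦₀') → ℝ) {w : HeightOneSpectrum (𝓞 K)}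
    (hw : UK.U w = GLO (vF w)) : lamOfK χ w = χ (.inl ⟨w, hw⟩) := dif_pos hw

/-- **The descent theorem.** -/
theorem descent
    -- the two sides
    (hdown : ∀ w : HeightOneSpectrum (𝓞 L), U.U w = GLO (vF w) →
      UK.U (under K w) = GLO (vF (under K w)))
    (hYX : Ideal.absNorm Y.u.asIdeal = Ideal.absNorm (X.u 0).asIdeal)
    (T : TauOp X k ρ) (tI : 𝒦₀ → 𝒦₀')
    (diag : IsDiag fun i => ρ.R (X.lett.sym k i))
    (diag' : IsDiag fun i => ρ'.R ((Y.lett X.q).sym k' i))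
    -- the comparison of the traces
    (P : List (WPl τ U ⊕ 𝒦₀) →₀ ℂ)
    (t : ∀ n, diag.Tr (opWL X k ρ P [] n * T.T))
    (t' : ∀ n, diag'.Tr (opWK Y k' ρ' X.q hdown tI P [] n))
    (HT : ∀ l : List (WPl τ U ⊕ 𝒦₀), ∃ n₀ : ℕ, ∀ n, n₀ ≤ n →
      diag.tr (opWL X k ρ P l n * T.T) = diag'.tr (opWK Y k' ρ' X.q hdown tI P l n))
    -- the bad places
    (hs : X.s * X.s = X.s)
    (hsτ : ∀ d d', X.s.ker (tauD X.hU τ d) (tauD X.hU τ d') = X.s.ker d d')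
    -- the system of eigenvalues
    {lam : HeightOneSpectrum (𝓞 L) → ℝ} (hlam : ∀ w, lam (τ • w) = lam w)
    {yk : 𝒦₀ → ℝ} (hyk : ∀ x, yk (T.σk x) = yk x) (hP : evN (yLet (τ := τ) (U := U) lam yk) P ≠ 0)
    -- multiplicity one
    (hline : ∀ lam' : HeightOneSpectrum (𝓞 L) → ℝ, (∀ w, lam' (τ • w) = lam' w) →
      (∀ w, U.U w = GLO (vF w) → τ • w ≠ w → lam' w = lam w) →
      ∀ v v' : H, EigL X k ρ lam' yk v → EigL X k ρ lam' yk v' → v ≠ 0 → ∃ c : ℂ, v' = c • v)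
    (hτ : ∀ lam' : HeightOneSpectrum (𝓞 L) → ℝ, (∀ w, lam' (τ • w) = lam' w) →
      (∀ w, U.U w = GLO (vF w) → τ • w ≠ w → lam' w = lam w) →
      ∀ v : H, EigL X k ρ lam' yk v → T.T v = v)
    -- existence over `L`
    {v₀ : H} (hv₀ : EigL X k ρ lam yk v₀) (h0 : v₀ ≠ 0)
    -- cube roots
    {zk : 𝒦₀' → ℝ} (cube : ∀ x' : 𝒦₀', ∃ x : 𝒦₀,
      k' (tI x) = k' x' * k' x' * k' x' ∧ yk x = zk x' ^ 3) :
    ∃ (a : HeightOneSpectrum (𝓞 K) → ℝ) (v' : H'), v' ≠ 0 ∧ EigK Y k' ρ' a zk v' ∧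
      ∀ w, U.U w = GLO (vF w) → τ • w ≠ w → a (under K w) = lam w := by
  have hq : (0 : ℝ) < X.q := by
    have h1 : Ideal.absNorm (X.u 0).asIdeal ≠ 0 := by
      rw [Ne, Ideal.absNorm_eq_zero_iff]
      exact (X.u 0).ne_bot
    exact Nat.cast_pos.2 (Nat.pos_of_ne_zero h1)
  have hqY : X.q = Ideal.absNorm Y.u.asIdeal := by rw [hYX]; rfl
  set cL := X.lett.core k ρ T.tau diag with hcL
  set cK := (Y.lett X.q).core k' ρ' diag' with hcK
  -- the operators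
  have eL : ∀ l n, (l.map fun c => cL.A (aL c)).prod * (evW cL.A aL P *
      (opU (X.q : ℂ) (cL.e 0) (cL.w 0) ^ n * (cL.S * cL.τ))) = opWL X k ρ P l n * T.T := by
    intro l n
    rw [hcL, X.lett.word_eq k ρ T.tau diag aL P l n]
    unfold opWL symL
    rw [← X.opU_lett]
    rfl
  have eK : ∀ l n, (l.map fun c => cK.A (aK hdown tI c)).prod * (evW cK.A (aK hdown tI) P *
      (opU (X.q : ℂ) cK.e cK.w ^ n * cK.S)) = opWK Y k' ρ' X.q hdown tI P l n := by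
    intro l n
    rw [hcK, (Y.lett X.q).word_eq k' ρ' diag' (aK hdown tI) P l n]
    unfold opWK symK
    rw [← Y.opU_lett hqY]
    rfl
  have hSτ : cL.S * cL.τ = cL.τ * cL.S := (T.hk _ _ hsτ).symm
  have hS : cL.S * cL.S = cL.S := by
    change ρ.R (1, X.s) * ρ.R (1, X.s) = ρ.R (1, X.s)
    rw [← map_mul, Prod.mk_mul_mk, one_mul, hs]
  -- systems and vectors
  have hc : ∀ χ : GoodPl U ⊕ (Fin 3 ⊕ 𝒦₀) → ℝ, (∀ i, χ (cL.σ i) = χ i) → χ (cL.c 0) = 0 →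
      ∀ j, χ (.inr (.inl j)) = 0 := by
    intro χ h1 h2 j
    have h3 : ∀ j : Fin 3, χ (.inr (.inl (j + 1))) = χ (.inr (.inl j)) := fun j => h1 (.inr (.inl j))
    have h4 : χ (.inr (.inl 0)) = 0 := h2
    fin_cases j
    · exact h4
    · exact (h3 0).trans h4
    · exact (h3 1).trans ((h3 0).trans h4)
  have hlamOf : ∀ χ : GoodPl U ⊕ (Fin 3 ⊕ 𝒦₀) → ℝ, (∀ i, χ (cL.σ i) = χ i) →
      ∀ w, lamOf χ (τ • w) = lamOf χ w := by
    intro χ h1 w
    by_cases hw : U.U w = GLO (vF w)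
    · rw [lamOf_good χ hw, lamOf_good χ (good_smul X.hU τ hw)]
      exact h1 (.inl ⟨w, hw⟩)
    · have hw' : ¬ U.U (τ • w) = GLO (vF (τ • w)) := by
        intro h
        have h2 := good_smul X.hU τ⁻¹ h
        rw [inv_smul_smul] at h2
        exact hw h2
      rw [lamOf, lamOf, dif_neg hw, dif_neg hw']
  have hEig : ∀ χ : GoodPl U ⊕ (Fin 3 ⊕ 𝒦₀) → ℝ, (∀ i, χ (cL.σ i) = χ i) → χ (cL.c 0) = 0 →
      (∀ c : WPl τ U ⊕ 𝒦₀, χ (aL c) = yLet lam yk c) → ∀ v ∈ jointEig cL.A χ,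
      (∀ j, cL.e j v = v) →
      cL.S v = v → EigL X k ρ (lamOf χ) yk v := by
    intro χ h1 h2 h3 v hv he hs
    refine ⟨fun w hw => ?_, fun j => ?_, fun x => ?_, he, hs⟩
    · rw [lamOf_good χ hw]
      exact hv (.inl ⟨w, hw⟩)
    · have h4 : ρ.R (1, opC (X.q : ℂ) (X.lett.e j) (X.lett.w j)) v =
          ((χ (.inr (.inl j)) : ℝ) : ℂ) • v := hv (.inr (.inl j))
      rw [X.opC_lett j, hc χ h1 h2 j, Complex.ofReal_zero, zero_smul] at h4
      exact h4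
    · have h4 : ρ.R ((k x : WithOne 𝒦), 1) v = ((χ (.inr (.inr x)) : ℝ) : ℂ) • v :=
        hv (.inr (.inr x))
      have h5 : χ (.inr (.inr x)) = yk x := h3 (.inr x)
      rw [h5] at h4
      exact h4
  have hlam' : ∀ χ : GoodPl U ⊕ (Fin 3 ⊕ 𝒦₀) → ℝ,
      (∀ c : WPl τ U ⊕ 𝒦₀, χ (aL c) = yLet lam yk c) →
      ∀ w, U.U w = GLO (vF w) → τ • w ≠ w → lamOf χ w = lam w := by
    intro χ h3 w hw hw'
    rw [lamOf_good χ hw]
    exact h3 (.inl ⟨⟨w, hw⟩, hw'⟩)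
  -- the system over `L`
  let χ₀ : GoodPl U ⊕ (Fin 3 ⊕ 𝒦₀) → ℝ :=
    Sum.elim (fun w => lam w.1) (Sum.elim (fun _ => 0) yk)
  have hχ₀ : v₀ ∈ jointEig cL.A χ₀ := by
    rintro (w | j | x)
    · exact hv₀.t w.1 w.2
    · have h4 : ρ.R (1, opC (X.q : ℂ) (X.lett.e j) (X.lett.w j)) v₀ = 0 := by
        rw [X.opC_lett j]
        exact hv₀.c j
      change ρ.R (1, opC (X.q : ℂ) (X.lett.e j) (X.lett.w j)) v₀ = ((0 : ℝ) : ℂ) • v₀
      rw [h4, Complex.ofReal_zero, zero_smul]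
    · exact hv₀.k x
  obtain ⟨χ', hχc, hχy, v', hv', hv'0, hv'e⟩ := cL.descent hq cK aL (aK hdown tI) P
    (by
      have h := t 0
      rw [← eL [] 0, List.map_nil, List.prod_nil, one_mul, pow_zero, one_mul] at h
      exact h)
    (by
      have h := t 1
      rw [← eL [] 1, List.map_nil, List.prod_nil, one_mul, pow_one] at h
      exact h)
    (by
      have h := t' 0
      rw [← eK [] 0, List.map_nil, List.prod_nil, one_mul, pow_zero, one_mul] at h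
      exact h)
    (by
      have h := t' 1
      rw [← eK [] 1, List.map_nil, List.prod_nil, one_mul, pow_one] at h
      exact h)
    (by
      intro l
      obtain ⟨n₀, hn₀⟩ := HT l
      refine ⟨n₀, fun n hn => ?_⟩
      have h1 := hn₀ n hn
      rw [← eL l n, ← eK l n] at h1
      exact h1)
    (y := yLet lam yk) hP hS hSτ
    (fun χ h1 h2 h3 v hv w hw hev hsv hew hsw hv0 =>
      hline (lamOf χ) (hlamOf χ h1) (hlam' χ h3) v w (hEig χ h1 h2 h3 v hv hev hsv)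
        (hEig χ h1 h2 h3 w hw hew hsw) hv0)
    (fun χ h1 h2 h3 v hv hev hsv =>
      hτ (lamOf χ) (hlamOf χ h1) (hlam' χ h3) v (hEig χ h1 h2 h3 v hv hev hsv))
    (χ₀ := χ₀)
    (by
      rintro (w | j | x)
      · exact hlam w.1
      · rfl
      · exact hyk x)
    rfl
    (by
      rintro (w | x)
      · rfl
      · rfl)
    hχ₀ h0 hv₀.e hv₀.s
  -- the result
  refine ⟨lamOfK χ', v', hv'0, ⟨fun w hw => ?_, ?_, fun x' => ?_, hv'e⟩, fun w hw hw' => ?_⟩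
  · rw [lamOfK_good χ' hw]
    exact hv' (.inl ⟨w, hw⟩)
  · have h4 : ρ'.R (1, opC (X.q : ℂ) (Y.lett X.q).e (Y.lett X.q).w) v' =
        ((χ' (.inr (.inl ())) : ℝ) : ℂ) • v' := hv' (.inr (.inl ()))
    have h5 : χ' (.inr (.inl ())) = 0 := hχc
    rw [Y.opC_lett hqY, h5, Complex.ofReal_zero, zero_smul] at h4
    exact h4
  · obtain ⟨x, hx1, hx2⟩ := cube x'
    have h1 : ρ'.R ((k' x' : WithOne 𝒦'), 1) v' = ((χ' (.inr (.inr x')) : ℝ) : ℂ) • v' :=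
      hv' (.inr (.inr x'))
    have h2 : ρ'.R ((k' (tI x) : WithOne 𝒦'), 1) v' =
        ((χ' (.inr (.inr (tI x))) : ℝ) : ℂ) • v' := hv' (.inr (.inr (tI x)))
    have h3 : χ' (.inr (.inr (tI x))) = zk x' ^ 3 := (hχy (.inr x)).trans hx2
    have h4 : ρ'.R ((k' (tI x) : WithOne 𝒦'), 1) = ρ'.R ((k' x' : WithOne 𝒦'), 1) *
        ρ'.R ((k' x' : WithOne 𝒦'), 1) * ρ'.R ((k' x' : WithOne 𝒦'), 1) := by
      rw [← map_mul, ← map_mul, hx1, Prod.mk_mul_mk, Prod.mk_mul_mk, one_mul, one_mul,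
        WithOne.coe_mul, WithOne.coe_mul]
    set c : ℝ := χ' (.inr (.inr x')) with hc'
    have h5 : ρ'.R ((k' (tI x) : WithOne 𝒦'), 1) v' = (((c ^ 3 : ℝ)) : ℂ) • v' := by
      rw [h4]
      change ρ'.R ((k' x' : WithOne 𝒦'), 1) (ρ'.R ((k' x' : WithOne 𝒦'), 1)
        (ρ'.R ((k' x' : WithOne 𝒦'), 1) v')) = _
      rw [h1, map_smul, h1, map_smul, map_smul, h1, smul_smul, smul_smul, Complex.ofReal_pow,
        pow_three, mul_assoc]
    rw [h2, h3] at h5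
    have h6 : ((zk x' ^ 3 : ℝ) : ℂ) = ((c ^ 3 : ℝ) : ℂ) := smul_left_injective ℂ hv'0 h5
    have h7 : zk x' ^ 3 = c ^ 3 := Complex.ofReal_injective h6
    have h8 : zk x' = c := (Odd.strictMono_pow (R := ℝ) (by decide : Odd 3)).injective h7
    rw [h8]
    exact h1
  · rw [lamOfK_good χ' (hdown w hw)]
    exact hχy (.inl ⟨⟨w, hw⟩, hw'⟩)

end Eig

end Fermat.Agent.LT.Desc

end
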