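import Fermat.Agent.LT.Desc.EigF
import Fermat.Agent.LT.Adapt.Cusp
import Fermat.Agent.LT.Adapt.Hecke

/-!
# From `EigF` to the space `InW` of the theory of `κ`
-/

set_option autoImplicit false
set_option linter.unusedSectionVars false

noncomputable section

open Matrix NumberField MeasureTheory IsDedekindDomain WithZero
open scoped WithZero Topology FourierTransform

namespace Fermat.Agent.LT.Desc

open H3 Lvl Kap Adapt Loc
open Fermat.Agent.LT.Chr hiding Rf

variable {F : Type*} [Field F] [NumberField F] [IsTotallyComplex F]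

omit [NumberField F] [IsTotallyComplex F] in
/-- the action of `N(F_∞)` on `X_∞` -/
theorem uAct_inf : @UAct (InfinitePlace F) (actInf (F := F)) := by
  intro t x w
  have h1 := inf_smul_apply (F := F) (nn t : GL (Fin 2) (Rinf F)) x w
  rw [Kap.map_nn] at h1
  exact h1

theorem e2_eq_fc (c z : ℂ) : e2 c z = (𝐞 (2 * (c * z).re) : ℂ) := by
  rw [e2, Real.fourierChar_apply]
  congr 1
  push_cast
  ring

variable (S : Finset (HeightOneSpectrum (𝓞 F)))

theorem ch_thetaA_one (δ : F) (t : Rinf F) :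
    ch (thetaA S δ) (algebraMap (OS S) (Rinf F × Rf S) 1) (t, 0) =
      ∏ w : InfinitePlace F, e2 (w.embedding δ) (t w) := by
  rw [map_one]
  show ((thetaA S δ (1 * (t, 0)) : Circle) : ℂ) = _
  rw [one_mul, thetaA_inl]
  simp only [e2_eq_fc]
  have h : ∀ (s : Finset (InfinitePlace F)) (r : InfinitePlace F → ℝ),
      ((𝐞 (∑ w ∈ s, r w) : Circle) : ℂ) = ∏ w ∈ s, (𝐞 (r w) : ℂ) := by
    intro s r
    induction s using Finset.cons_induction with
    | empty => simp
    | cons w s hw ih =>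
      rw [Finset.sum_cons, Finset.prod_cons, AddChar.map_add_eq_mul, Circle.coe_mul, ih]
  exact h _ _

/-- `lam` takes the value `a v` at the generators of the ideal of `v`. -/
def IsLam (a : HeightOneSpectrum (𝓞 F) → ℂ) (lam : OS S → ℂ) : Prop :=
  ∀ (p : OS S) (v : HeightOneSpectrum (𝓞 F)) (hv : v ∉ S),
    placeIdeal v hv = Ideal.span {p} → lam p = a v

theorem isLam_lamS (a : HeightOneSpectrum (𝓞 F) → ℂ) : IsLam S a (lamS S a) :=
  fun _ _ _ h => lamS_eq h

variable {S}

namespace EigF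

variable {U : Lev F} {a : HeightOneSpectrum (𝓞 F) → ℂ} {h : InfinitePlace F → (ℝ → ℂ) → ℂ}
  {f : Xi F × D U → ℂ}

/-- The line at infinity. -/
theorem line (hf : EigF U S a h f) {δ : F} (hδ : δ ≠ 0) (hθ : SelfDual (OS S) (thetaA S δ))
    {ν : InfinitePlace F → ℂ}
    (hν : ∀ (w : InfinitePlace F) (f : H3 → ℂ), H3.IsEig f (h w) → H3.IsEig f (sph (ν w)))
    (g : GL (Fin 2) (Rf S)) :
    ∃ c : ℂ, ∀ z, wh (OS S) (thetaA S δ) (toKap S U f) 1 (⟨z, g⟩ : Sp (Xi F) (Rf S)) =
      c * wiP ν δ z := by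
  classical
  letI : MulAction (GL (Fin 2) (InfinitePlace F → ℂ)) (InfinitePlace F → H3) := actInf (F := F)
  obtain ⟨M, hM⟩ := hf.bdd
  exact exists_wh_eq (ι := InfinitePlace F) (ν := ν) (c := fun w => w.embedding δ) uAct_inf hθ
    (isAut_toKap hf.offS hf.inv hf.cont) smooth_toKap (fun g => hf.cont (jS S U g))
    (M := M) (fun x => hM _)
    (fun w g z => hν w _ (hf.isEig w z (jS S U g))) (fun w => (map_ne_zero _).mpr hδ)
    (fun t => ch_thetaA_one S δ t) g

/-- **The function on `X_∞ × GL₂(R_f)` belongs to the space of the theory of `κ`.** -/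
theorem inW_of_isEig (hf : EigF U S a h f) {δ : F} (hδ : δ ≠ 0)
    (hθ : SelfDual (OS S) (thetaA S δ)) {ν : InfinitePlace F → ℂ}
    (hν : ∀ (w : InfinitePlace F) (f : H3 → ℂ), H3.IsEig f (h w) → H3.IsEig f (sph (ν w)))
    {lam : OS S → ℂ} (heig : IsEig (A := Rinf F × Rf S) (OS S) lam (toKap S U f)) :
    InW (OS S) (thetaA S δ) lam (wiP ν δ) (toKap S U f) where
  aut := isAut_toKap hf.offS hf.inv hf.cont
  eig := heig
  cusp p := wh_zero_toKap hf.offS hf.inv hf.cont hf.cusp _ p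
  smooth := smooth_toKap
  line g := hf.line hδ hθ hν g

theorem isEig_lamS [IsPrincipalIdealRing (OS S)] (hf : EigF U S a h f) :
    Kap.IsEig (A := Rinf F × Rf S) (OS S) (lamS S a) (toKap S U f) :=
  isEig_toKap hf.offS hf.inv hf.hecke

theorem isEig_lam [IsPrincipalIdealRing (OS S)] (hf : EigF U S a h f) {lam : OS S → ℂ}
    (hlam : IsLam S a lam) : Kap.IsEig (A := Rinf F × Rf S) (OS S) lam (toKap S U f) := by
  intro p hp
  obtain ⟨u, R, hu, hR, h1⟩ := hf.isEig_lamS p hp
  obtain ⟨v, hv, h2⟩ := exists_place hp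
  refine ⟨u, R, hu, hR, fun x => ?_⟩
  rw [h1, hlam p v hv h2, isLam_lamS S a p v hv h2]

/-- **The function on `X_∞ × GL₂(R_f)` belongs to the space of the theory of `κ`.** -/
theorem inW [IsPrincipalIdealRing (OS S)] (hf : EigF U S a h f) {δ : F} (hδ : δ ≠ 0)
    (hθ : SelfDual (OS S) (thetaA S δ)) {ν : InfinitePlace F → ℂ}
    (hν : ∀ (w : InfinitePlace F) (f : H3 → ℂ), H3.IsEig f (h w) → H3.IsEig f (sph (ν w))) :
    InW (OS S) (thetaA S δ) (lamS S a) (wiP ν δ) (toKap S U f) :=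
  hf.inW_of_isEig hδ hθ hν hf.isEig_lamS

end EigF

end Fermat.Agent.LT.Desc

end
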