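import Fermat.Agent.LT.Desc.TauRep
import Fermat.Agent.LT.Auto.Diag
import Fermat.Agent.LT.Tr.SymKer

/-!
# `τ` on the main part of the cuspidal subspace

* `symTau φ hDs : Symb G D 𝒦 → Symb G D 𝒦`, the transported symbol;
* `TauHyp.tauL_mul_symOp'`, `TauHyp.symOp_mul_tauL_symm`;
* `TauHyp.stabOp_main`: `τ` preserves `mainPart (fullS G D 𝒦)`;
* `kinfTau τ : Kinf F → Kinf F`, `ker_kinfTau`.
-/

set_option autoImplicit false
set_option linter.unusedSectionVars false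

noncomputable section

open MeasureTheory ENNReal NumberField Matrix
open scoped InnerProductSpace ComplexConjugate

namespace Fermat.Agent.LT.Desc

section Sym

variable {G X D : Type*} [Group G] [MulAction G X] [MulAction G D] {𝒦 : Type*}
  {tD : D ≃ D} {σ : G ≃* G}

/-- The transported symbol. -/
def symTau (φ : 𝒦 → 𝒦) (hDs : ∀ (g : G) d, tD (g • d) = σ g • tD d) (s : Symb G D 𝒦) :
    Symb G D 𝒦 := (Option.map φ s.1, tauHK hDs s.2)

theorem symTau_one_left (φ : 𝒦 → 𝒦) (hDs : ∀ (g : G) d, tD (g • d) = σ g • tD d) (a : HK G D) :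
    symTau φ hDs (1, a) = (1, tauHK hDs a) := rfl

theorem symTau_coe (φ : 𝒦 → 𝒦) (hDs : ∀ (g : G) d, tD (g • d) = σ g • tD d) (k : 𝒦)
    (a : HK G D) : symTau φ hDs ((k : WithOne 𝒦), a) = (((φ k : 𝒦) : WithOne 𝒦), tauHK hDs a) :=
  rfl

variable [MeasurableSpace X] [MeasurableSpace D] [MeasurableSingletonClass D] [Countable D]
  {mX : Measure X} [SFinite mX] {tX : X ≃ᵐ X}
  [MeasurableConstSMul G (X × D)] [SMulInvariantMeasure G (X × D) (muXD mX D)] [Countable G]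
  {w : X × D → ℝ≥0∞} {hT : ∃ T : Finset D, ∀ d, ∃ g : G, g • d ∈ T} {hw : IsWeight G w}
  [Semigroup 𝒦] {κ : KerSg G mX 𝒦} {φ : 𝒦 → 𝒦}

theorem symTau_mem_fullS (hDs : ∀ (g : G) d, tD (g • d) = σ g • tD d) {s : Symb G D 𝒦}
    (hs : s ∈ fullS G D 𝒦) : symTau φ hDs s ∈ fullS G D 𝒦 := by
  obtain ⟨k, a, rfl⟩ := exists_of_mem_fullS hs
  exact coe_mem_fullS _ _

/-- `τ ∘ op s = op (s^t) ∘ τ` -/
theorem TauHyp.tauL_mul_symOp' (h : TauHyp G (muXD mX D) (TauHyp.tProd tX tD) σ)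
    (hDs : ∀ (g : G) d, tD (g • d) = σ g • tD d)
    (hφ : ∀ k x x', κ.kap (φ k) x x' = κ.kap k (tX x) (tX x')) (s : Symb G D 𝒦) :
    h.tauL hw * symOp κ hT hw s = symOp κ hT hw (symTau φ hDs s) * h.tauL hw :=
  h.tauL_mul_symOp hT hw κ hφ s.1 fun _ _ => ker_tauHK hDs _ _ _

/-- `op s ∘ τ⁻¹ = τ⁻¹ ∘ op (s^t)` -/
theorem TauHyp.symOp_mul_tauL_symm (h : TauHyp G (muXD mX D) (TauHyp.tProd tX tD) σ)
    (hDs : ∀ (g : G) d, tD (g • d) = σ g • tD d)
    (hφ : ∀ k x x', κ.kap (φ k) x x' = κ.kap k (tX x) (tX x')) (s : Symb G D 𝒦) :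
    symOp κ hT hw s * h.symm.tauL hw = h.symm.tauL hw * symOp κ hT hw (symTau φ hDs s) := by
  have h1 := h.tauL_mul_symOp' (κ := κ) (hT := hT) (hw := hw) hDs hφ s
  have h2 : h.symm.tauL hw * h.tauL hw = 1 := h.tauL_symm_tauL hw
  have h3 : h.tauL hw * h.symm.tauL hw = 1 := h.tauL_tauL_symm hw
  calc symOp κ hT hw s * h.symm.tauL hw
      = (h.symm.tauL hw * h.tauL hw) * symOp κ hT hw s * h.symm.tauL hw := by rw [h2, one_mul]
    _ = h.symm.tauL hw * (h.tauL hw * symOp κ hT hw s) * h.symm.tauL hw := by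
        simp only [mul_assoc]
    _ = h.symm.tauL hw * symOp κ hT hw (symTau φ hDs s) * (h.tauL hw * h.symm.tauL hw) := by
        rw [h1]; simp only [mul_assoc]
    _ = h.symm.tauL hw * symOp κ hT hw (symTau φ hDs s) := by rw [h3, mul_one]

variable {𝒞 : Submodule ℂ (Lp ℂ 2 ((muXD mX D).withDensity w))}

/-- **`τ` preserves the main part.** -/
theorem TauHyp.stabOp_main (h : TauHyp G (muXD mX D) (TauHyp.tProd tX tD) σ)
    (hDs : ∀ (g : G) d, tD (g • d) = σ g • tD d)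
    (hφ : ∀ k x x', κ.kap (φ k) x x' = κ.kap k (tX x) (tX x'))
    (hst : StabRep (symOp κ hT hw) 𝒞) (h1 : StabOp hst.le (h.tauL hw))
    (h2 : StabOp hst.le (h.symm.tauL hw)) :
    StabOp ((hst.mainPart_le (fullS G D 𝒦)).trans hst.le) (h.tauL hw) := by
  refine stabOp_mainPart hst (T' := h.symm.tauL hw) ?_ h1 h2 fun j hj => ?_
  · rw [h.symm.adjoint_tauL]
    exact TauHyp.tauL_congr _ _ hw fun z => rfl
  · exact ⟨symTau φ hDs j, symTau_mem_fullS hDs hj, h.symOp_mul_tauL_symm hDs hφ j⟩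

end Sym

/-! ### The kernels at infinity -/

section Kinf

open Fermat.Agent.LT.Tr H3

variable {F : Type*} [Field F]

/-- The transported kernel at infinity. -/
def kinfTau (τ : F ≃+* F) (k : Kinf F) : Kinf F := fun w => k ((Xi.placePerm τ).symm w)

theorem kinfTau_apply (τ : F ≃+* F) (k : Kinf F) (w : InfinitePlace F) :
    kinfTau τ k w = k (w.comap (τ.symm : F →+* F)) := rfl

theorem kinfTau_mul (τ : F ≃+* F) (k l : Kinf F) :
    kinfTau τ (k * l) = kinfTau τ k * kinfTau τ l := rfl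

theorem kinfTau_star (τ : F ≃+* F) (k : Kinf F) : kinfTau τ (star k) = star (kinfTau τ k) := rfl

theorem kinfTau_symm_kinfTau (τ : F ≃+* F) (k : Kinf F) : kinfTau τ.symm (kinfTau τ k) = k := by
  funext w
  change k ((Xi.placePerm τ).symm ((Xi.placePerm τ.symm).symm w)) = k w
  congr 1
  exact (Xi.placePerm τ).symm_apply_apply w

variable [NumberField F]

theorem ker_kinfTau (τ : F ≃+* F) (k : Kinf F) (x x' : Xi F) :
    (kinfTau τ k).ker x x' = k.ker (Xi.tau τ x) (Xi.tau τ x') := by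
  rw [Kinf.ker_def, Kinf.ker_def, ← (Xi.placePerm τ).prod_comp]
  refine Finset.prod_congr rfl fun w _ => ?_
  rw [Xi.cu_tau]
  change (k ((Xi.placePerm τ).symm (Xi.placePerm τ w))).fn _ = _
  rw [Equiv.symm_apply_apply]
  rfl

end Kinf

/-! ### The restriction of `τ` to a stable subspace -/

section Res

variable {G Z : Type*} [Group G] [MeasurableSpace Z] [MulAction G Z] {μ : Measure Z}
  {t : Z ≃ᵐ Z} {σ : G ≃* G} {w : Z → ℝ≥0∞} [MeasurableConstSMul G Z]
  [SMulInvariantMeasure G Z μ] [Countable G] {hw : IsWeight G w}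
  {V : Submodule ℂ (Lp ℂ 2 (μ.withDensity w))}

/-- `τ` on a stable subspace. -/
def TauHyp.res (h : TauHyp G μ t σ) (hle : V ≤ autL2 G (μ.withDensity w))
    (hV : StabOp hle (h.tauL hw)) : V →L[ℂ] V := resL hle (h.tauL hw) hV

theorem TauHyp.coe_res (h : TauHyp G μ t σ) (hle : V ≤ autL2 G (μ.withDensity w))
    (hV : StabOp hle (h.tauL hw)) (v : V) :
    ((h.res hle hV v : V) : Lp ℂ 2 (μ.withDensity w)) = h.tauL hw ⟨v, hle v.2⟩ := rfl

theorem TauHyp.res_ae (h : TauHyp G μ t σ) (hle : V ≤ autL2 G (μ.withDensity w))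
    (hV : StabOp hle (h.tauL hw)) (v : V) :
    arep (⟨(h.res hle hV v : V), hle (h.res hle hV v).2⟩ : autL2 G (μ.withDensity w)) =ᵐ[μ]
      fun z => arep (⟨v, hle v.2⟩ : autL2 G (μ.withDensity w)) (t z) :=
  h.tauL_ae hw ⟨v, hle v.2⟩

theorem TauHyp.norm_res (h : TauHyp G μ t σ) (hle : V ≤ autL2 G (μ.withDensity w))
    (hV : StabOp hle (h.tauL hw)) (v : V) : ‖h.res hle hV v‖ = ‖v‖ :=
  h.norm_tauL hw ⟨v, hle v.2⟩

theorem TauHyp.inner_res (h : TauHyp G μ t σ) (hle : V ≤ autL2 G (μ.withDensity w))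
    (hV : StabOp hle (h.tauL hw)) (v v' : V) :
    ⟪h.res hle hV v, h.res hle hV v'⟫_ℂ = ⟪v, v'⟫_ℂ :=
  h.inner_tauL hw ⟨v, hle v.2⟩ ⟨v', hle v'.2⟩

theorem TauHyp.adjoint_res [CompleteSpace V] (h : TauHyp G μ t σ)
    (hle : V ≤ autL2 G (μ.withDensity w)) (hV : StabOp hle (h.tauL hw))
    (hV' : StabOp hle (h.symm.tauL hw)) :
    ContinuousLinearMap.adjoint (h.res hle hV) = h.symm.res hle hV' :=
  adjoint_resL hle hV hV' (h.adjoint_tauL hw)

theorem TauHyp.res_mul_res_symm (h : TauHyp G μ t σ) (hle : V ≤ autL2 G (μ.withDensity w))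
    (hV : StabOp hle (h.tauL hw)) (hV' : StabOp hle (h.symm.tauL hw)) :
    h.res hle hV * h.symm.res hle hV' = 1 := by
  ext1 v
  apply Subtype.ext
  have h1 : (h.tauL hw * h.symm.tauL hw) ⟨v, hle v.2⟩ = ⟨v, hle v.2⟩ := by
    have : h.tauL hw * h.symm.tauL hw = 1 := h.tauL_tauL_symm hw
    rw [this]
    rfl
  have h2 := congrArg (fun y : autL2 G (μ.withDensity w) => (y : Lp ℂ 2 (μ.withDensity w))) h1
  exact h2

theorem TauHyp.res_symm_mul_res (h : TauHyp G μ t σ) (hle : V ≤ autL2 G (μ.withDensity w))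
    (hV : StabOp hle (h.tauL hw)) (hV' : StabOp hle (h.symm.tauL hw)) :
    h.symm.res hle hV' * h.res hle hV = 1 := by
  ext1 v
  apply Subtype.ext
  have h1 : (h.symm.tauL hw * h.tauL hw) ⟨v, hle v.2⟩ = ⟨v, hle v.2⟩ := by
    have : h.symm.tauL hw * h.tauL hw = 1 := h.tauL_symm_tauL hw
    rw [this]
    rfl
  have h2 := congrArg (fun y : autL2 G (μ.withDensity w) => (y : Lp ℂ 2 (μ.withDensity w))) h1
  exact h2

/-- **Intertwining on a stable subspace.** -/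
theorem TauHyp.res_mul_hom {M : Type*} [Monoid M]
    {ρ : M →* (autL2 G (μ.withDensity w) →L[ℂ] autL2 G (μ.withDensity w))}
    (h : TauHyp G μ t σ) (hst : StabRep ρ V) (hV : StabOp hst.le (h.tauL hw)) {m m' : M}
    (hm : h.tauL hw * ρ m = ρ m' * h.tauL hw) :
    h.res hst.le hV * hst.hom m = hst.hom m' * h.res hst.le hV :=
  resL_mul_hom hst hV hm

end Res

/-! ### The main part of the cuspidal subspace -/

section Final

open Fermat.Agent.LT.Tr

variable {F : Type*} [Field F] [NumberField F] [IsTotallyComplex F] {D : Type*}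
  [MeasurableSpace D] [MeasurableSingletonClass D] [Countable D] [MulAction (GL (Fin 2) F) D]
  [IsLevel F D] {w : Xi F × D → ℝ≥0∞} {hw : IsWeight (PG F) w}
  {hT : ∃ T : Finset D, ∀ d, ∃ g : PG F, g • d ∈ T} {τ : F ≃+* F} {tD : D ≃ D}

theorem pg_symm (h : ∀ (g : PG F) d, tD (g • d) = PG.tau τ g • tD d) (g : PG F) (d : D) :
    tD.symm (g • d) = PG.tau τ.symm g • tD.symm d := symm_equivariant h g d

theorem tauL_symm_eq (h : ∀ (g : PG F) d, tD (g • d) = PG.tau τ g • tD d) :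
    (tauHyp_tauZE h).symm.tauL hw = (tauHyp_tauZE (pg_symm h)).tauL hw :=
  TauHyp.tauL_congr _ _ hw fun _ => rfl

theorem tauL_symm_mem_cuspX (h : ∀ (g : PG F) d, tD (g • d) = PG.tau τ g • tD d) :
    StabOp (cuspX_le (hw := hw)) ((tauHyp_tauZE h).symm.tauL hw) := by
  rw [tauL_symm_eq h]
  exact tauL_mem_cuspX (pg_symm h)

variable {𝒦 : Type*} [Semigroup 𝒦] {κ : KerSg (PG F) (volume : Measure (Xi F)) 𝒦} {φ : 𝒦 → 𝒦}

/-- **`τ` preserves the main part of the cuspidal subspace.** -/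
theorem stabOp_mainPart_cusp (h : ∀ (g : PG F) d, tD (g • d) = PG.tau τ g • tD d)
    (hφ : ∀ k x x', κ.kap (φ k) x x' = κ.kap k (Xi.tau τ x) (Xi.tau τ x'))
    (hst : StabRep (symOp κ hT hw) (cuspX hw)) :
    StabOp ((hst.mainPart_le (fullS (PG F) D 𝒦)).trans hst.le) ((tauHyp_tauZE h).tauL hw) :=
  (tauHyp_tauZE h).stabOp_main h hφ hst (tauL_mem_cuspX h) (tauL_symm_mem_cuspX h)

/-- The kernels of helper37. -/
theorem kerSg_kinfTau (τ : F ≃+* F) (k : Kinf F) (x x' : Xi F) :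
    (kerSg F).kap (kinfTau τ k) x x' = (kerSg F).kap k (Xi.tau τ x) (Xi.tau τ x') :=
  ker_kinfTau τ k x x'

end Final

end Fermat.Agent.LT.Desc
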