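import Fermat.Agent.LT.Desc.Descent
import Fermat.Agent.LT.Auto.Pack
import Fermat.Agent.LT.Desc.TauV
import Fermat.Agent.LT.Level.Meas
import Fermat.Agent.LT.Level.IsLevel

/-!
# The representation of the symbols on `V(U)`

* `repV Kd hw : SymRep 𝒦 (HK (PG F) D) (Kd.V hw)`;
* `RealK 𝒦` : the self-adjoint kernels;
* `isDiag_lettL`, `isDiag_lettK` : the two families are diagonalisable;
* `tauOpV` : the operator `f ↦ f ∘ τ⁻¹` on `V(U)`.
-/

set_option autoImplicit false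
set_option linter.unusedSectionVars false

noncomputable section

open MeasureTheory ENNReal NumberField Matrix IsDedekindDomain
open scoped InnerProductSpace ComplexConjugate WithZero Pointwise

namespace Fermat.Agent.LT.Desc

open Fermat.Agent.LT.Iso Fermat.Agent.LT.Lvl Fermat.Agent.LT.HK Fermat.Agent.LT.Iwa
open Fermat.Agent.LT.Ext

/-- The self-adjoint kernels. -/
abbrev RealK (𝒦 : Type*) [Star 𝒦] : Type _ := {k : 𝒦 // star k = k}

section Rep

variable {F : Type*} [Field F] [NumberField F] [IsTotallyComplex F] {D : Type*}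
  [MeasurableSpace D] [DiscreteMeasurableSpace D] [Countable D] [MulAction (GL (Fin 2) F) D]
  [IsLevel F D] {w : Xi F × D → ℝ≥0∞} {𝒦 : Type*} [CommSemigroup 𝒦] [StarMul 𝒦]
  (Kd : KDat F D 𝒦) (hw : IsWeight (PG F) w)

/-- The representation of the symbols on `V`. -/
def repV : SymRep 𝒦 (HK (PG F) D) (Kd.V hw) where
  R := Kd.symV hw
  add := Kd.symV_add hw
  smul := Kd.symV_smul hw

theorem repV_R (s : WithOne 𝒦 × HK (PG F) D) : (repV Kd hw).R s = Kd.symV hw s := rfl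

theorem isDiag_symV {I : Type*} {A : I → Symb (PG F) D 𝒦} (hA : ∀ i, sstar (A i) = A i)
    (hcomm : ∀ i j, A i * A j = A j * A i)
    (hfull : ∀ k : 𝒦, star k = k → ∃ i, A i = fsym (PG F) D k) :
    IsDiag fun i => Kd.symV hw (A i) where
  sym i := Kd.isSymmetric_symV hw (hA i)
  fin χ := Kd.finite_jointEig hw hfull χ
  dense := Kd.dense_jointEig hw hA hcomm hfull

end Rep

section LK

variable {K L : Type*} [Field K] [NumberField K] [Field L] [NumberField L] [Algebra K L]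

theorem sstar_lettL {𝒦 : Type*} [CommSemigroup 𝒦] [StarMul 𝒦] {τ : L ≃ₐ[K] L} {U : Lev L}
    (X : SetL τ U) (i : GoodPl U ⊕ (Fin 3 ⊕ RealK 𝒦)) :
    sstar (G := PG L) (D := D U) (𝒦 := 𝒦) (X.lett.sym (Subtype.val : RealK 𝒦 → 𝒦) i) =
      X.lett.sym Subtype.val i := by
  rcases i with v | j | x
  · change sstar ((1 : WithOne 𝒦), tAt v.2 (datum v.1)) = _
    rw [sstar_one, star_tAt]
    rfl
  · change sstar ((1 : WithOne 𝒦), opC (X.q : ℂ) (eAt (X.iw j) (datum (X.u j)))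
      (wAt (X.iw j) (datum (X.u j)))) = _
    rw [sstar_one, Iwa.Datum.star_opC (star_eAt _ _) (star_wAt _ _)]
    rfl
  · change sstar (((x : 𝒦) : WithOne 𝒦), (1 : HK (PG L) (D U))) = _
    rw [sstar_coe, x.2, star_one]
    rfl

theorem sstar_lettK {𝒦 : Type*} [CommSemigroup 𝒦] [StarMul 𝒦] {UK : Lev K}
    (Y : SetK UK) (q : ℝ) (i : GoodPl UK ⊕ (Unit ⊕ RealK 𝒦)) :
    sstar (G := PG K) (D := D UK) (𝒦 := 𝒦)
      ((Y.lett q).sym (Subtype.val : RealK 𝒦 → 𝒦) i) =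
      (Y.lett q).sym Subtype.val i := by
  rcases i with v | j | x
  · change sstar ((1 : WithOne 𝒦), tAt v.2 (datum v.1)) = _
    rw [sstar_one, star_tAt]
    rfl
  · change sstar ((1 : WithOne 𝒦), opC (q : ℂ) (eAt Y.iw (datum Y.u))
      (wAt Y.iw (datum Y.u))) = _
    rw [sstar_one, Iwa.Datum.star_opC (star_eAt _ _) (star_wAt _ _)]
    rfl
  · change sstar (((x : 𝒦) : WithOne 𝒦), (1 : HK (PG K) (D UK))) = _
    rw [sstar_coe, x.2, star_one]
    rfl

section DiagL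

variable [IsTotallyComplex L] {τ : L ≃ₐ[K] L} {U : Lev L} (X : SetL τ U)
  {𝒦 : Type*} [CommSemigroup 𝒦] [StarMul 𝒦] (Kd : KDat L (D U) 𝒦)
  {w : Xi L × D U → ℝ≥0∞} (hw : IsWeight (PG L) w)

/-- **The family over `L` is diagonalisable on `V(U)`.** -/
theorem isDiag_lettL :
    IsDiag fun i => (repV Kd hw).R (X.lett.sym (Subtype.val : RealK 𝒦 → 𝒦) i) :=
  isDiag_symV Kd hw (sstar_lettL X) (fun i j => (X.lett.commute_sym _ i j).eq)
    fun k hk => ⟨.inr (.inr ⟨k, hk⟩), rfl⟩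

variable (φ : Equiv.Perm 𝒦) (hφs : ∀ k, star (φ k) = φ (star k))
  (hφ : ∀ k x x', Kd.kap (φ k) x x' = Kd.kap k (Xi.tau (τ : L ≃+* L).symm x)
    (Xi.tau (τ : L ≃+* L).symm x'))

include X in
theorem pg_tauD (g : PG L) (d : D U) :
    tauDEquiv X.hU τ (g • d) = PG.tau (τ : L ≃+* L) g • tauDEquiv X.hU τ d :=
  pg_equivariant (gl_tauD_smul X.hU τ) g d

theorem pg_tauD_symm (g : PG L) (d : D U) :
    (tauDEquiv X.hU τ).symm (g • d) =
      PG.tau (τ : L ≃+* L).symm g • (tauDEquiv X.hU τ).symm d :=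
  pg_symm (pg_tauD X) g d

/-- the permutation of the self-adjoint kernels -/
def permReal (φ : Equiv.Perm 𝒦) (hφs : ∀ k, star (φ k) = φ (star k)) :
    Equiv.Perm (RealK 𝒦) where
  toFun k := ⟨φ k.1, by rw [hφs, k.2]⟩
  invFun k := ⟨φ.symm k.1, by
    apply φ.injective
    rw [← hφs, φ.apply_symm_apply, k.2]⟩
  left_inv k := Subtype.ext (φ.symm_apply_apply _)
  right_inv k := Subtype.ext (φ.apply_symm_apply _)

include hφ in
theorem stabOp_tau : StabOp (Kd.stabV hw).le ((tauHyp_tauZE (pg_tauD_symm X)).tauL hw) :=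
  stabOp_mainPart_cusp (κ := Kd.toKerSg) (φ := φ) (pg_tauD_symm X) hφ (Kd.stabC hw)

/-- **The operator `f ↦ f ∘ τ⁻¹` on `V(U)`.** -/
def tauV : Kd.V hw →L[ℂ] Kd.V hw :=
  (tauHyp_tauZE (pg_tauD_symm X)).res (Kd.stabV hw).le (stabOp_tau X Kd hw φ hφ)

theorem tauV_mul (s : Symb (PG L) (D U) 𝒦) :
    tauV X Kd hw φ hφ * (repV Kd hw).R s =
      (repV Kd hw).R (symTau φ (pg_tauD_symm X) s) * tauV X Kd hw φ hφ :=
  (tauHyp_tauZE (pg_tauD_symm X)).res_mul_hom (Kd.stabV hw) (stabOp_tau X Kd hw φ hφ)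
    ((tauHyp_tauZE (pg_tauD_symm X)).tauL_mul_symOp' (κ := Kd.toKerSg) (pg_tauD_symm X) hφ s)

theorem tauHK_eq {b b' : HK (PG L) (D U)}
    (hb : ∀ d d', b'.ker (tauD X.hU τ d) (tauD X.hU τ d') = b.ker d d') :
    tauHK (pg_tauD_symm X) b = b' := by
  ext d d'
  rw [ker_tauHK, ← hb]
  have h1 : tauD X.hU τ ((tauDEquiv X.hU τ).symm d) = d := (tauDEquiv X.hU τ).apply_symm_apply d
  have h2 : tauD X.hU τ ((tauDEquiv X.hU τ).symm d') = d' :=
    (tauDEquiv X.hU τ).apply_symm_apply d'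
  rw [h1, h2]

theorem tauV_hk {b b' : HK (PG L) (D U)}
    (hb : ∀ d d', b'.ker (tauD X.hU τ d) (tauD X.hU τ d') = b.ker d d') :
    tauV X Kd hw φ hφ * (repV Kd hw).R (1, b) =
      (repV Kd hw).R (1, b') * tauV X Kd hw φ hφ := by
  have h1 := tauV_mul X Kd hw φ hφ ((1 : WithOne 𝒦), b)
  rw [symTau_one_left, tauHK_eq X hb] at h1
  exact h1

theorem tauV_full (k : 𝒦) :
    tauV X Kd hw φ hφ * (repV Kd hw).R ((k : WithOne 𝒦), 1) =
      (repV Kd hw).R (((φ k : 𝒦) : WithOne 𝒦), 1) * tauV X Kd hw φ hφ := by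
  have h1 := tauV_mul X Kd hw φ hφ ((k : WithOne 𝒦), 1)
  have h3 : tauHK (pg_tauD_symm X) (1 : HK (PG L) (D U)) = 1 := map_one _
  rw [symTau_coe, h3] at h1
  exact h1

/-- The structure `TauOp` on `V(U)`. -/
def tauOpV : TauOp X (Subtype.val : RealK 𝒦 → 𝒦) (repV Kd hw) where
  T := tauV X Kd hw φ hφ
  σk := permReal φ hφs
  hk _ _ hb := tauV_hk X Kd hw φ hφ hb
  full x := tauV_full X Kd hw φ hφ x.1

end DiagL

section DiagK

variable [IsTotallyComplex K] {UK : Lev K} (Y : SetK UK) (q : ℝ)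
  {𝒦 : Type*} [CommSemigroup 𝒦] [StarMul 𝒦] (Kd : KDat K (D UK) 𝒦)
  {w : Xi K × D UK → ℝ≥0∞} (hw : IsWeight (PG K) w)

/-- **The family over `K` is diagonalisable on `V(UK)`.** -/
theorem isDiag_lettK :
    IsDiag fun i => (repV Kd hw).R ((Y.lett q).sym (Subtype.val : RealK 𝒦 → 𝒦) i) :=
  isDiag_symV Kd hw (sstar_lettK Y q) (fun i j => ((Y.lett q).commute_sym _ i j).eq)
    fun k hk => ⟨.inr (.inr ⟨k, hk⟩), rfl⟩

end DiagK

end LK

end Fermat.Agent.LT.Desc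

end
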