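import Fermat.Agent.LT.Desc.Descent
import Fermat.Agent.LT.Kappa.LevTau
import Fermat.Agent.LT.Level.Std
import Fermat.Agent.LT.B8.LetterImg

/-!
# The places over `u` and the bad Hecke kernel: instances of `SetL` and `SetK`

`U = Lev.stdUp L S {u} M`, `UK = Lev.std S {u} M`, `w₀ ∣ u` with `τ w₀ ≠ w₀`.

* `pl3 τ w₀ j = τ ^ j • w₀`, the three places over `u`;
* `notMem_of_good`, `ne_of_good`, `good_iff`: the good places of the two levels;
* `setL`: `s = s_V`; `setK`: `s = pten κ'`;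
* `good_down`, `absNorm_under_eq`, `ker_setL_tauD`: the remaining hypotheses of `descent`.
-/

set_option autoImplicit false
set_option linter.unusedSectionVars false

open Matrix NumberField IsDedekindDomain WithZero
open scoped WithZero Pointwise

noncomputable section

namespace Fermat.Agent.LT.Desc

open Fermat.Agent.CFT.SUnits Fermat.Agent.LT.Ext Fermat.Agent.LT.Lvl Fermat.Agent.LT.HK
open Fermat.Agent.LT.Iwa Fermat.Agent.LT.Kap

variable {K L : Type*} [Field K] [NumberField K] [Field L] [NumberField L] [Algebra K L]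

/-! ### The three places over `u` -/

section Pl3

/-- the places `w₀, τ w₀, τ² w₀` -/
def pl3 (τ : L ≃ₐ[K] L) (w₀ : HeightOneSpectrum (𝓞 L)) (j : Fin 3) : HeightOneSpectrum (𝓞 L) :=
  τ ^ (j : ℕ) • w₀

variable {τ : L ≃ₐ[K] L} {w₀ : HeightOneSpectrum (𝓞 L)}

@[simp] theorem pl3_zero : pl3 τ w₀ 0 = w₀ := by simp [pl3]

theorem smul_pl3 (h3 : IsThree τ) (j : Fin 3) : τ • pl3 τ w₀ j = pl3 τ w₀ (j + 1) := by
  fin_cases j
  · simp [pl3]
  · simp [pl3, smul_smul, pow_two]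
  · have h : τ • (τ ^ 2 • w₀) = w₀ := by
      rw [smul_smul, pow_two, ← mul_assoc, h3.cube, one_smul]
    simpa [pl3] using h

theorem pl3_injective (h3 : IsThree τ) (hne : τ • w₀ ≠ w₀) : Function.Injective (pl3 τ w₀) := by
  have h1 : τ ^ 2 • w₀ ≠ w₀ := by
    intro h
    refine hne ?_
    have h' : τ • (τ ^ 2 • w₀) = w₀ := by
      rw [smul_smul, pow_two, ← mul_assoc, h3.cube, one_smul]
    rwa [h] at h'
  have h2 : τ ^ 2 • w₀ ≠ τ • w₀ := by
    intro h
    rw [pow_two, mul_smul] at h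
    exact hne (smul_left_cancel τ h)
  have e0 : pl3 τ w₀ 0 = w₀ := by simp [pl3]
  have e1 : pl3 τ w₀ 1 = τ • w₀ := by simp [pl3]
  have e2 : pl3 τ w₀ 2 = τ ^ 2 • w₀ := rfl
  intro i j h
  fin_cases i <;> fin_cases j <;> simp only [Fin.zero_eta, Fin.mk_one, Fin.reduceFinMk] at h ⊢
  · rw [e0, e1] at h
    exact absurd h.symm hne
  · rw [e0, e2] at h
    exact absurd h.symm h1
  · rw [e0, e1] at h
    exact absurd h hne
  · rw [e1, e2] at h
    exact absurd h.symm h2
  · rw [e0, e2] at h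
    exact absurd h h1
  · rw [e1, e2] at h
    exact absurd h h2

theorem under_pl3 [IsGalois K L] (j : Fin 3) : under K (pl3 τ w₀ j) = under K w₀ :=
  under_smul_gal _ _

/-- every place over `u` is one of the three. -/
theorem exists_pl3_eq [IsGalois K L] (h3 : IsThree τ) {w : HeightOneSpectrum (𝓞 L)}
    (hw : under K w = under K w₀) : ∃ j, w = pl3 τ w₀ j := by
  obtain ⟨g, hg'⟩ := exists_smul_above (K := K) (G := L ≃ₐ[K] L)
    (⟨w₀, (under_eq_iff K w₀ _).mp rfl⟩ : Above L (under K w₀))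
    ⟨w, (under_eq_iff K w _).mp hw⟩
  replace hg' : g • w₀ = w := hg'
  rcases h3.all g with rfl | rfl | rfl
  · exact ⟨0, by rw [← hg', one_smul, pl3_zero]⟩
  · exact ⟨1, by rw [← hg']; simp [pl3]⟩
  · exact ⟨2, by rw [← hg', ← pow_two]; rfl⟩

end Pl3

/-! ### The good places of the standard levels -/

section Good

variable {S : Finset (HeightOneSpectrum (𝓞 K))} {u : HeightOneSpectrum (𝓞 K)}
  {M : HeightOneSpectrum (𝓞 K) → ℕ}

theorem notMem_of_std_eq_GLO {F : Type*} [Field F] [NumberField F]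
    {S T : Finset (HeightOneSpectrum (𝓞 F))} {M : HeightOneSpectrum (𝓞 F) → ℕ}
    (hM : ∀ v ∈ S, M v ≠ 0) {v : HeightOneSpectrum (𝓞 F)}
    (hv : (Lev.std S T M).U v = GLO (vF v)) : v ∉ S ∧ v ∉ T := by
  have h1 : v ∉ S := by
    intro h
    rw [Lev.std_S h] at hv
    exact Iw_ne_GLO (vF v) (le_antisymm Iw_le_GLO (hv ▸ Iw_le_of_Kn (hM v h)))
  refine ⟨h1, fun h => ?_⟩
  rw [Lev.std_T h1 h] at hv
  exact Iw_ne_GLO _ hv

theorem std_eq_GLO_iff {F : Type*} [Field F] [NumberField F]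
    {S T : Finset (HeightOneSpectrum (𝓞 F))} {M : HeightOneSpectrum (𝓞 F) → ℕ}
    (hM : ∀ v ∈ S, M v ≠ 0) {v : HeightOneSpectrum (𝓞 F)} :
    (Lev.std S T M).U v = GLO (vF v) ↔ v ∉ S ∧ v ∉ T :=
  ⟨notMem_of_std_eq_GLO hM, fun h => Lev.std_off h.1 h.2⟩

theorem ramE_mul_ne_zero (hM : ∀ v ∈ S, M v ≠ 0) (w : HeightOneSpectrum (𝓞 L))
    (hw : w ∈ aboveS L S) : ramE (under K w) w * M (under K w) ≠ 0 :=
  mul_ne_zero (ramE_ne_zero _ _) (hM _ ((mem_aboveS S w).mp hw))

theorem stdUp_eq_GLO_iff {T : Finset (HeightOneSpectrum (𝓞 K))} (hM : ∀ v ∈ S, M v ≠ 0)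
    {w : HeightOneSpectrum (𝓞 L)} :
    (Lev.stdUp L S T M).U w = GLO (vF w) ↔ under K w ∉ S ∧ under K w ∉ T := by
  rw [Lev.stdUp, std_eq_GLO_iff (ramE_mul_ne_zero hM), mem_aboveS, mem_aboveS]

theorem notMem_of_good (hM : ∀ v ∈ S, M v ≠ 0) {w : HeightOneSpectrum (𝓞 L)}
    (hw : (Lev.stdUp L S {u} M).U w = GLO (vF w)) : w ∉ aboveS L S := by
  rw [mem_aboveS]
  exact ((stdUp_eq_GLO_iff hM).mp hw).1

theorem under_ne_of_good (hM : ∀ v ∈ S, M v ≠ 0) {w : HeightOneSpectrum (𝓞 L)}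
    (hw : (Lev.stdUp L S {u} M).U w = GLO (vF w)) : under K w ≠ u := by
  have h := ((stdUp_eq_GLO_iff hM).mp hw).2
  rwa [Finset.mem_singleton] at h

/-- **The good places of `L` are over the good places of `K`.** -/
theorem good_down (hM : ∀ v ∈ S, M v ≠ 0) (w : HeightOneSpectrum (𝓞 L))
    (hw : (Lev.stdUp L S {u} M).U w = GLO (vF w)) :
    (Lev.std S {u} M).U (under K w) = GLO (vF (under K w)) :=
  (std_eq_GLO_iff hM).mpr ((stdUp_eq_GLO_iff hM).mp hw)

theorem good_up (hM : ∀ v ∈ S, M v ≠ 0) (w : HeightOneSpectrum (𝓞 L))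
    (hw : (Lev.std S {u} M).U (under K w) = GLO (vF (under K w))) :
    (Lev.stdUp L S {u} M).U w = GLO (vF w) :=
  (stdUp_eq_GLO_iff hM).mpr ((std_eq_GLO_iff hM).mp hw)

theorem sStable_aboveS [IsGalois K L] : SStable (L ≃ₐ[K] L) (aboveS L S) := by
  intro g w hw
  rw [mem_aboveS] at hw ⊢
  rwa [under_smul_gal]

/-- the norm of a place with trivial decomposition group. -/
theorem absNorm_under_eq [IsGalois K L] {w : HeightOneSpectrum (𝓞 L)}
    (hw : MulAction.stabilizer (L ≃ₐ[K] L) w = ⊥) :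
    Ideal.absNorm (under K w).asIdeal = Ideal.absNorm w.asIdeal := by
  have h := B8.q_eq_q_base (K := K) (L := L) (v := under K w)
    ⟨w, (under_eq_iff K w _).mp rfl⟩ hw (datum w) (datum (under K w))
  rw [q_datum, q_datum] at h
  exact h.symm


theorem stabilizer_eq_bot_of_ne {τ : L ≃ₐ[K] L} (h3 : IsThree τ) {w : HeightOneSpectrum (𝓞 L)}
    (hne : τ • w ≠ w) : MulAction.stabilizer (L ≃ₐ[K] L) w = ⊥ := by
  rw [eq_bot_iff]
  intro g hg
  have hg' : g • w = w := hg
  rcases h3.all g with rfl | rfl | rfl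
  · exact Subgroup.mem_bot.mpr rfl
  · exact absurd hg' hne
  · exfalso
    refine hne ?_
    have h' : τ • (τ * τ) • w = w := by rw [smul_smul, ← mul_assoc, h3.cube, one_smul]
    rwa [hg'] at h'

/-- a kernel which is `1` at `v` commutes with the kernels at `v`. -/
theorem commute_pten_atPl {F : Type*} [Field F] [NumberField F] {U : Lev F} (κ : PTen U)
    {v : HeightOneSpectrum (𝓞 F)} (hv : κ.k v = 1) (a : LocH U v) :
    Commute (pten κ) (atPl U v a) := by
  rw [← pten_at]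
  refine commute_pten fun w => ?_
  by_cases h : w = v
  · subst h
    rw [hv]
    exact Commute.one_left _
  · rw [PTen.at_of_ne h]
    exact Commute.one_right _

end Good

/-! ### The instances -/

section Inst

variable {S : Finset (HeightOneSpectrum (𝓞 K))} {u : HeightOneSpectrum (𝓞 K)}
  {M : HeightOneSpectrum (𝓞 K) → ℕ} {τ : L ≃ₐ[K] L} {w₀ : HeightOneSpectrum (𝓞 L)}
  {T : ∀ w : aboveS L S, TyDat (w.1.adicCompletion L)}

/-- **The data over `L`**: the places `τ ^ j • w₀`, the kernel `s_V`. -/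
def setL [IsGalois K L] (h3 : IsThree τ) (hne : τ • w₀ ≠ w₀) (hu : under K w₀ = u) (huS : u ∉ S)
    (hM : ∀ v ∈ S, M v ≠ 0) (h : LevOK (Lev.stdUp L S {u} M) T) :
    SetL τ (Lev.stdUp L S {u} M) where
  hU := gstable_stdUp
  u := pl3 τ w₀
  step := smul_pl3 h3
  inj := pl3_injective h3 hne
  iw j := Lev.stdUp_T (by rwa [under_pl3, hu])
    (by rw [under_pl3, hu]; exact Finset.mem_singleton_self u)
  s := sV h
  s_good w hw a := commute_sV_atPl h (notMem_of_good hM hw) a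
  s_u j a := commute_sV_atPl h (by rwa [mem_aboveS, under_pl3, hu]) a

/-- **The data over `K`**: the place `u` and a pure tensor which is `1` outside `S`. -/
def setK (huS : u ∉ S) (hM : ∀ v ∈ S, M v ≠ 0) (κ' : PTen (Lev.std S {u} M))
    (hκ : ∀ v ∉ S, κ'.k v = 1) : SetK (Lev.std S {u} M) where
  u := u
  iw := Lev.std_T huS (Finset.mem_singleton_self u)
  s := pten κ'
  s_good _ hw a := commute_pten_atPl κ' (hκ _ (notMem_of_std_eq_GLO hM hw).1) a
  s_u a := commute_pten_atPl κ' (hκ _ huS) a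

section L

variable [IsGalois K L] (h3 : IsThree τ) (hne : τ • w₀ ≠ w₀) (hu : under K w₀ = u) (huS : u ∉ S)
  (hM : ∀ v ∈ S, M v ≠ 0) (h : LevOK (Lev.stdUp L S {u} M) T)

@[simp] theorem setL_s : (setL h3 hne hu huS hM h).s = sV h := rfl

@[simp] theorem setL_u (j : Fin 3) : (setL h3 hne hu huS hM h).u j = pl3 τ w₀ j := rfl

theorem setL_s_mul_s : (setL h3 hne hu huS hM h).s * (setL h3 hne hu huS hM h).s =
    (setL h3 hne hu huS hM h).s := sV_mul_sV h

theorem star_setL_s : star (setL h3 hne hu huS hM h).s = (setL h3 hne hu huS hM h).s := star_sV h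

/-- `s_V` is Galois invariant. -/
theorem ker_setL_tauD (hT : TStable (L ≃ₐ[K] L) T) (d d' : D (Lev.stdUp L S {u} M)) :
    (setL h3 hne hu huS hM h).s.ker (tauD (setL h3 hne hu huS hM h).hU τ d)
      (tauD (setL h3 hne hu huS hM h).hU τ d') = (setL h3 hne hu huS hM h).s.ker d d' :=
  ker_sV_tauD hT h _ sStable_aboveS τ d d'

/-- `q` -/
theorem absNorm_setK_u (κ' : PTen (Lev.std S {u} M)) (hκ : ∀ v ∉ S, κ'.k v = 1) :
    Ideal.absNorm (setK huS hM κ' hκ).u.asIdeal =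
      Ideal.absNorm ((setL h3 hne hu huS hM h).u 0).asIdeal := by
  rw [setL_u, pl3_zero, ← absNorm_under_eq (stabilizer_eq_bot_of_ne h3 hne), hu]
  rfl

theorem setL_q : (setL h3 hne hu huS hM h).q = Ideal.absNorm w₀.asIdeal := by
  rw [SetL.q, setL_u, pl3_zero]

/-- the places over `u` -/
theorem stdUp_eq_Iw_iff (w : HeightOneSpectrum (𝓞 L)) (hw : w ∉ aboveS L S) :
    (Lev.stdUp L S {u} M).U w = Iw (vF w) ↔ under K w = u := by
  constructor
  · intro h1
    by_contra h2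
    rw [Lev.stdUp_off (by rwa [← mem_aboveS]) (by rwa [Finset.mem_singleton])] at h1
    exact Iw_ne_GLO _ h1.symm
  · intro h1
    exact Lev.stdUp_T (by rwa [← mem_aboveS]) (by rwa [Finset.mem_singleton])

end L

end Inst

end Fermat.Agent.LT.Desc

end
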