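import Fermat.Agent.LT.Desc.ChiT
import Fermat.Agent.LT.Desc.SetInst
import Fermat.Agent.LT.Desc.RepV
import Fermat.Agent.LT.Tr.KinfL
import Fermat.Agent.LT.FormBdd

/-!
# The vector `v₀` of the descent theorem (helper7)

`U = Lev.stdUp L S {u} M`, `X = setL ..`, `ρ = repV (kdatL L (D U)) hw`.

* `exists_letter` : a self-adjoint kernel with `∏ sph 0 ≠ 0`;
* `EigF.exists_type_std` : the type and the functions of level `Lev.stdUp L S {u} M`;
* `IsChi0.exists_v0` : the vector `v₀`.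
-/

set_option autoImplicit false
set_option linter.unusedSectionVars false

noncomputable section

open Matrix NumberField MeasureTheory IsDedekindDomain WithZero
open scoped WithZero Topology ENNReal Pointwise

namespace Fermat.Agent.LT.Desc

open H3 Lvl Loc Adapt Kap Iwa Tr
open Fermat.Agent.CFT.SUnits Fermat.Agent.LT.Ext

/-! ### A letter with non-zero eigenvalue -/

section Letter

theorem Rk_bump_hpow_ne_zero : Rk (bump 1) (hpow 0) j ≠ 0 := by
  have hb := bump_integral_pos (δ := 1) one_pos j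
  have hc : Continuous fun Q : H3 => max (1 + 1 - cu j Q) 0 * Q.y :=
    ((continuous_const.sub (continuous_cu_right j)).max continuous_const).mul continuous_y
  have h1 : Rk (bump 1) (hpow 0) j = ((∫ Q : H3, max (1 + 1 - cu j Q) 0 * Q.y : ℝ) : ℂ) := by
    rw [Rk, ← integral_complex_ofReal]
    refine integral_congr_ae (Filter.Eventually.of_forall fun Q => ?_)
    simp [bump, hpow]
  rw [h1, Complex.ofReal_ne_zero]
  have hs : HasCompactSupport fun Q : H3 => max (1 + 1 - cu j Q) 0 * Q.y :=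
    HasCompactSupport.intro (isCompact_ball j (1 + 1)) fun Q hQ => by
      have h2 : 1 + 1 < cu j Q := not_le.mp hQ
      rw [max_eq_right (by linarith), zero_mul]
  have hpos : ∀ Q : H3, 0 ≤ max (1 + 1 - cu j Q) 0 * Q.y := fun Q =>
    mul_nonneg (le_max_right _ _) Q.y_pos.le
  refine ne_of_gt ?_
  rw [integral_pos_iff_support_of_nonneg hpos (hc.integrable_of_hasCompactSupport hs)]
  refine hc.isOpen_support.measure_pos _ ⟨j, ?_⟩
  rw [Function.mem_support, cu_self]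
  have h3 : (0 : ℝ) < j.y := j.y_pos
  have h4 : max (1 + 1 - 1 : ℝ) 0 = 1 := by norm_num
  rw [h4, one_mul]
  exact h3.ne'

/-- **A self-adjoint letter with non-zero eigenvalue.** -/
theorem exists_letter (F : Type*) [Field F] [NumberField F] :
    ∃ x : RealK (KinfL F), ∏ v, sph 0 ((x.1.i v).fn) ≠ 0 := by
  refine ⟨⟨KinfL.of (fun _ => bump 1) fun _ => lKer_bump 1, KinfL.star_of _ fun _ t => by
    simp [bump]⟩, Finset.prod_ne_zero_iff.mpr fun v _ h0 => ?_⟩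
  have hk : IsKer ((KinfL.of (F := F) (fun _ => bump 1) fun _ => lKer_bump 1).i v).fn :=
    (KinfL.lker _ v).toIsKer
  have h1 := Rk_hpow hk 0 j
  rw [h0, zero_mul] at h1
  refine Rk_bump_hpow_ne_zero (Eq.trans ?_ h1)
  rw [Rk, Rk]
  refine integral_congr_ae (Filter.Eventually.of_forall fun Q => ?_)
  beta_reduce
  rw [KinfL.of_cu]

end Letter

/-! ### The standard levels -/

section Std

variable {K L : Type*} [Field K] [NumberField K] [Field L] [NumberField L] [Algebra K L]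
  {S : Finset (HeightOneSpectrum (𝓞 K))} {u : HeightOneSpectrum (𝓞 K)}
  {M : HeightOneSpectrum (𝓞 K) → ℕ}

theorem stdUp_le_Kn {T : Finset (HeightOneSpectrum (𝓞 K))} {n : ℕ} (hM : ∀ v ∈ S, n ≤ M v)
    (w : HeightOneSpectrum (𝓞 L)) (hw : w ∈ aboveS L S) :
    (Lev.stdUp L S T M).U w ≤ Kn (vF w) (exp (-(n : ℤ))) := by
  rw [mem_aboveS] at hw
  rw [Lev.stdUp_S hw]
  refine Kn_mono ?_
  rw [exp_le_exp]
  have h1 := hM _ hw
  have h2 : 1 ≤ ramE (under K w) w := Nat.one_le_iff_ne_zero.mpr (ramE_ne_zero _ _)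
  have h3 : M (under K w) ≤ ramE (under K w) w * M (under K w) := Nat.le_mul_of_pos_left _ h2
  have h4 : n ≤ ramE (under K w) w * M (under K w) := h1.trans h3
  omega

variable [IsTotallyComplex L] {N : ℕ} {a : HeightOneSpectrum (𝓞 L) → ℂ}
  {h : InfinitePlace L → (ℝ → ℂ) → ℂ} {U₀ : Lev L} {f₀ : Xi L × Lvl.D U₀ → ℂ}

/-- **The type and the functions of level `Lev.stdUp L S {u} M`.** -/
theorem EigF.exists_type_std (G : Type*) [Group G] [MulSemiringAction G L]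
    (h₀ : EigF U₀ (aboveS L S) a h f₀) (hne : ∃ z, f₀ z ≠ 0) (hN1 : 1 < N)
    (hS : ∀ v, v ∈ aboveS L S ↔ (N : 𝓞 L) ∈ v.asIdeal) (hd : NumberField.discr L ∣ (N : ℤ))
    (hcl : CFT.Global.ClTrivial (aboveS L S)) (r : HeightOneSpectrum (𝓞 L) → ℕ)
    (hr : ∀ v ∈ aboveS L S, r v ≠ 0) :
    ∃ (T : TyDat (Rf (aboveS L S))) (a₀ : (Rf (aboveS L S))ˣ)
      (hT : TypeOK (sStable_of_mem G hS) T a₀),
      (∀ v : aboveS L S, (T.loc hT.prod v).Small (vF v.1) (exp (-(r v.1 : ℤ)))) ∧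
      ∃ n₁ : ℕ, ∀ (M : HeightOneSpectrum (𝓞 K) → ℕ), (∀ v ∈ S, n₁ ≤ M v) →
        ∀ (u : HeightOneSpectrum (𝓞 K)), u ∉ S →
          LevOK (Lev.stdUp L S {u} M) (T.loc hT.prod) ∧
          ∃ f : Xi L × Lvl.D (Lev.stdUp L S {u} M) → ℂ,
            IsChi0 (aboveS L S) (aboveS L {u}) (Lev.stdUp L S {u} M) a h (T.loc hT.prod) f ∧
            EqV T (toKap (aboveS L S) (Lev.stdUp L S {u} M) f) := by
  obtain ⟨T, a₀, hT, hsm, n₁, hok, hex⟩ := h₀.exists_type_chi0 G hne hN1 hS hd hcl r hr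
  refine ⟨T, a₀, hT, hsm, n₁, fun M hM u hu => ⟨hok _ (stdUp_le_Kn hM), ?_⟩⟩
  refine hex _ _ (fun v hv => ?_) (fun v hv hv' => ?_) (stdUp_le_Kn hM)
  · rw [mem_aboveS, Finset.mem_singleton] at hv
    rwa [mem_aboveS, hv]
  · rw [mem_aboveS] at hv hv'
    exact Lev.stdUp_off hv hv'

variable [IsGalois K L] {τ : L ≃ₐ[K] L} {w₀ : HeightOneSpectrum (𝓞 L)}
  {T : ∀ w : aboveS L S, TyDat (w.1.adicCompletion L)}
  {f : Xi L × Lvl.D (Lev.stdUp L S {u} M) → ℂ}
  {wt : Xi L × Lvl.D (Lev.stdUp L S {u} M) → ℝ≥0∞}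

/-- **The vector `v₀`.** -/
theorem IsChi0.exists_v0
    (hf : IsChi0 (aboveS L S) (aboveS L {u}) (Lev.stdUp L S {u} M) a h T f)
    (h3 : IsThree τ) (hne : τ • w₀ ≠ w₀) (hu : under K w₀ = u) (huS : u ∉ S)
    (hM : ∀ v ∈ S, M v ≠ 0) (hok : LevOK (Lev.stdUp L S {u} M) T)
    (hw : IsWeight (PG L) wt) {lam : HeightOneSpectrum (𝓞 L) → ℝ}
    (ha : ∀ w, under K w ∉ S → under K w ≠ u → a w = lam w)
    (hau : ∀ w, under K w = u → a w = 0)
    {yk : RealK (KinfL L) → ℝ} (hyk : ∀ x, ∏ v, h v ((x.1.i v).fn) = yk x)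
    {x₀ : RealK (KinfL L)} (h0 : yk x₀ ≠ 0) :
    ∃ v : (kdatL L (Lvl.D (Lev.stdUp L S {u} M))).V hw, v ≠ 0 ∧
      Reps (kdatL L (Lvl.D (Lev.stdUp L S {u} M))) hw v f ∧
      EigL (setL h3 hne hu huS hM hok) (Subtype.val : RealK (KinfL L) → KinfL L)
        (repV (kdatL L (Lvl.D (Lev.stdUp L S {u} M))) hw) lam yk v := by
  refine hf.exists_eigL (setL h3 hne hu huS hM hok) (fun j => ?_) rfl (fun v hv => ?_)
    (repV (kdatL L (Lvl.D (Lev.stdUp L S {u} M))) hw) (fun s => rfl) (fun v hv hv' => ?_)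
    (fun j => ?_) (fn := fun x v => (x.1.i v).fn) (fun x v => (x.1.lker v).toIsKer)
    (fun x y y' => ?_) hyk h0
  · rw [mem_aboveS, setL_u, under_pl3, hu]
    exact Finset.mem_singleton_self u
  · rw [mem_aboveS, mem_aboveS]
    exact (stdUp_eq_GLO_iff hM).mp hv
  · rw [mem_aboveS] at hv hv'
    exact ha v hv fun h => hv' (Finset.mem_singleton.mpr h)
  · exact hau _ (by rw [setL_u, under_pl3, hu])
  · rw [kdatL_kap, Kinf.ker_def]
    rfl

end Std

end Fermat.Agent.LT.Desc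

end
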