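import Fermat.Agent.LT.Desc.EigF
import Fermat.Agent.LT.Desc.Reg
import Fermat.Agent.LT.Auto.Pack
import Fermat.Agent.LT.Aleph.Eigen

/-!
# From functions to the Hilbert space `V` (helper7)

`K : KDat F D 𝒦`, `V = K.V hw` (helper29).

* `Reps K hw v f` : `f` is the regular representative of `v ∈ V`;
* `exists_reps` : a bounded, continuous, cuspidal, invariant function which is an eigenfunction of
  one full kernel, with a non-zero eigenvalue, represents a vector of `V`;
* `Reps.symV_disc`, `Reps.symV_full`, `Reps.ne_zero` : the eigen equations in `V`;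
* `EigF.opK_eq` : the eigenvalue of a product kernel.
-/

set_option autoImplicit false
set_option linter.unusedSectionVars false

noncomputable section

open MeasureTheory ENNReal ProbabilityTheory NumberField

namespace Fermat.Agent.LT.Desc

open H3 Red

section Gen

variable {F : Type*} [Field F] [NumberField F] [IsTotallyComplex F] {D : Type*}
  [MeasurableSpace D] [DiscreteMeasurableSpace D] [Countable D] [MulAction (GL (Fin 2) F) D]
  [IsLevel F D] {w : Xi F × D → ℝ≥0∞} {𝒦 : Type*} [Semigroup 𝒦] [StarMul 𝒦]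
  (K : KDat F D 𝒦) (hw : IsWeight (PG F) w)

/-- `f` is the regular representative of `v`. -/
def Reps (v : K.V hw) (f : Xi F × D → ℂ) : Prop :=
  IsRegRep (⟨v, K.V_le hw v.2⟩ :
    autL2 (PG F) ((muXD (volume : Measure (Xi F)) D).withDensity w)) f

variable {K hw}

theorem measurable_of_cont {f : Xi F × D → ℂ} (hc : ∀ d, Continuous fun x => f (x, d)) :
    Measurable f :=
  measurable_from_prod_countable_left fun d => (hc d).measurable

variable (K hw)

/-- **A function represents a vector of `V`.** -/
theorem exists_reps {f : Xi F × D → ℂ} (hi : ∀ (g : GL (Fin 2) F) z, f (g • z) = f z)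
    (hc : ∀ d, Continuous fun x => f (x, d)) (hb : ∃ B : ℝ, ∀ z, ‖f z‖ ≤ B) (hcusp : IsCusp f)
    {k₀ : 𝒦} (hk₀ : IsCBKer (K.kap k₀)) {c₀ : ℂ} (h0 : c₀ ≠ 0)
    (he : ∀ z, opK (K.kap k₀) f z = c₀ * f z) : ∃ v : K.V hw, Reps K hw v f := by
  have hfin : IsFiniteMeasure ((muXD (volume : Measure (Xi F)) D).withDensity w) :=
    isFiniteMeasure_weight F D hw
  have hm : Measurable f := measurable_of_cont hc
  have hi' : ∀ (g : PG F) (z : Xi F × D), f (g • z) = f z := by
    intro g z
    obtain ⟨g, rfl⟩ := QuotientGroup.mk_surjective g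
    exact hi g z
  obtain ⟨B, hB⟩ := hb
  have hL : MemLp f 2 ((muXD (volume : Measure (Xi F)) D).withDensity w) :=
    MemLp.of_bound hm.aestronglyMeasurable B (Filter.Eventually.of_forall hB)
  have hr := isRegRep_autMk hw hm hi' hc hL
  have he' := hr.opF_eq_of_opK K.toKerSg (exists_finset_orbits F D) hw hk₀ he
  have hcv : IsCusp (arep (autMk f hm hi' hL :
      autL2 (PG F) ((muXD (volume : Measure (Xi F)) D).withDensity w))) :=
    hr.isCusp_iff.mp hcusp
  have hV := K.mem_V_of_eig hw (s := fsym (PG F) D k₀) (coe_mem_fullS k₀ _) hcv h0 he'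
  exact ⟨⟨_, hV⟩, hr⟩

variable {K hw}
variable {v v' : K.V hw} {f f' : Xi F × D → ℂ}

/-- The vector is determined by the function. -/
theorem Reps.eq (h : Reps K hw v f) (h' : Reps K hw v' f) : v = v' := by
  have h1 := IsRegRep.eq h h'
  exact Subtype.ext (Subtype.mk.inj h1)

/-- The function is determined by the vector. -/
theorem Reps.unique (h : Reps K hw v f) (h' : Reps K hw v f') : f = f' :=
  IsRegRep.unique h h'

theorem Reps.zero : Reps K hw 0 fun _ => 0 := by
  have h1 := isRegRep_zero (X := Xi F) (D := D) (mX := (volume : Measure (Xi F))) hw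
  exact h1

theorem Reps.csmul (h : Reps K hw v f) (c : ℂ) : Reps K hw (c • v) fun z => c * f z :=
  IsRegRep.csmul hw h c

theorem Reps.add (h : Reps K hw v f) (h' : Reps K hw v' f') :
    Reps K hw (v + v') fun z => f z + f' z :=
  IsRegRep.add hw h h'

/-- A non-zero function represents a non-zero vector. -/
theorem Reps.ne_zero (h : Reps K hw v f) (hne : ∃ z, f z ≠ 0) : v ≠ 0 := by
  rintro rfl
  obtain ⟨z, hz⟩ := hne
  exact hz (congrFun (h.unique Reps.zero) z)

/-- **The eigen equation of a Hecke operator in `V`.** -/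
theorem Reps.symV_disc (h : Reps K hw v f) {a : HK (PG F) D} {c : ℂ}
    (he : ∀ x d, a.act (fun d' => f (x, d')) d = c * f (x, d)) :
    K.symV hw (1, a) v = c • v := by
  have h1 := IsRegRep.opD_eq_of_act (exists_finset_orbits F D) hw h he
  refine Subtype.ext ?_
  rw [K.coe_symV]
  exact congrArg Subtype.val h1

/-- **The eigen equation of a full kernel in `V`.** -/
theorem Reps.symV_full (h : Reps K hw v f) {k : 𝒦} (hk : IsCBKer (K.kap k)) {c : ℂ}
    (he : ∀ z, opK (K.kap k) f z = c * f z) : K.symV hw (fsym (PG F) D k) v = c • v := by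
  have h1 := IsRegRep.opF_eq_of_opK K.toKerSg (exists_finset_orbits F D) hw h hk he
  refine Subtype.ext ?_
  rw [K.coe_symV]
  exact congrArg Subtype.val h1

end Gen

section Eig

open Lvl

variable {F : Type*} [Field F] [NumberField F] [IsTotallyComplex F] {U : Lev F}
  {S : Finset (IsDedekindDomain.HeightOneSpectrum (𝓞 F))}
  {a : IsDedekindDomain.HeightOneSpectrum (𝓞 F) → ℂ}
  {h : InfinitePlace F → (ℝ → ℂ) → ℂ} {f : Xi F × Lvl.D U → ℂ}

/-- **The eigenvalue of a product kernel.** -/
theorem EigF.opK_pk (hf : EigF U S a h f) {k : InfinitePlace F → ℝ → ℂ}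
    (hk : ∀ w, IsKer (k w)) (z : Xi F × Lvl.D U) :
    opK (fun x x' => pk k x x') f z = (∏ w, h w (k w)) * f z := by
  classical
  have h1 := Aleph.integral_pk_eq_of_isEig hk (hf.cont z.2) (lam := h)
    (fun w x => hf.isEig w x z.2) z.1
  exact h1

end Eig

end Fermat.Agent.LT.Desc

end
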