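import Fermat.Agent.LT.Desc.Out
import Fermat.Agent.LT.Desc.In
import Fermat.Agent.LT.Desc.RepV
import Fermat.Agent.LT.Tr.KinfL

/-!
# The output of the descent, on `V(U)` (helper46)

* `exists_eigF_of_V`, `exists_isForm_of_V`: vectors of `Kd.V hw`;
* `EigL.exists_eigF`, `EigK.exists_isForm`: the joint eigenvectors of `Descent.lean`.
-/

set_option autoImplicit false
set_option linter.unusedSectionVars false

noncomputable section

open MeasureTheory NumberField IsDedekindDomain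
open scoped ENNReal WithZero

namespace Fermat.Agent.LT.Desc

open H3 Lvl HK Iwa

section V

variable {F : Type} [Field F] [NumberField F] [IsTotallyComplex F] {U : Lev F}
  {w : Xi F × D U → ℝ≥0∞} {hw : IsWeight (PG F) w} {𝒦 : Type*} [Semigroup 𝒦] [StarMul 𝒦]
  {Kd : KDat F (D U) 𝒦} {v : Kd.V hw}

theorem op_of_symV {s : Symb (PG F) (D U) 𝒦} {c : ℂ} (h : Kd.symV hw s v = c • v) :
    Kd.op hw s ⟨v, Kd.V_le hw v.2⟩ =
      c • (⟨v, Kd.V_le hw v.2⟩ :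
        autL2 (PG F) ((muXD (volume : Measure (Xi F)) (D U)).withDensity w)) :=
  Subtype.ext (congrArg (fun y : Kd.V hw =>
    (y : Lp ℂ 2 ((muXD (volume : Measure (Xi F)) (D U)).withDensity w))) h)

/-- **From a vector of `V` to an `EigF`.** -/
theorem exists_eigF_of_V {S : Finset (HeightOneSpectrum (𝓞 F))}
    (lev : ∀ p, p ∉ S → U.U p = GLO (Valued.v : Valuation (p.adicCompletion F) ℤᵐ⁰))
    {a : HeightOneSpectrum (𝓞 F) → ℂ}
    (hecke : ∀ p (hp : p ∉ S), ∃ 𝔡 : Datum (vF p),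
      Kd.symV hw (1, tAt (lev p hp) 𝔡) v = a p • v)
    (full : ∀ κ : Tr.Kinf F, (∀ w, LKer (κ w).fn) → (∀ w, star (κ w) = κ w) →
      ∃ k : 𝒦, Kd.kap k = κ.ker ∧ Kd.symV hw ((k : WithOne 𝒦), (1 : HK (PG F) (D U))) v =
        (∏ w, sph 0 (κ w).fn) • v) :
    ∃ F₀ : Xi F × D U → ℂ, Reps Kd hw v F₀ ∧ EigF U S a (fun _ => sph 0) F₀ :=
  exists_eigF_sph (κ := Kd.toKerSg) (hT := exists_orbits F (D U)) (hw := hw)
    (Kd.isCusp_arep hw v.2) lev
    (fun p hp => by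
      obtain ⟨𝔡, h⟩ := hecke p hp
      exact ⟨𝔡, op_of_symV h⟩)
    fun κ hL hs => by
      obtain ⟨k, hk, h⟩ := full κ hL hs
      exact ⟨k, hk, op_of_symV h⟩

/-- **From a vector of `V` to an `IsForm`.** -/
theorem exists_isForm_of_V (hv : v ≠ 0) {S : Set (HeightOneSpectrum (𝓞 F))} (hS : S.Finite)
    (lev : ∀ p, p ∉ S → U.U p = GLO (Valued.v : Valuation (p.adicCompletion F) ℤᵐ⁰))
    {a : HeightOneSpectrum (𝓞 F) → ℝ}
    (hecke : ∀ p (hp : p ∉ S), ∃ 𝔡 : Datum (vF p),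
      Kd.symV hw (1, tAt (lev p hp) 𝔡) v =
        ((√(Ideal.absNorm p.asIdeal) * a p : ℝ) : ℂ) • v)
    (full : ∀ κ : Tr.Kinf F, (∀ w, LKer (κ w).fn) → (∀ w, star (κ w) = κ w) →
      ∃ k : 𝒦, Kd.kap k = κ.ker ∧ Kd.symV hw ((k : WithOne 𝒦), (1 : HK (PG F) (D U))) v =
        (∏ w, sph 0 (κ w).fn) • v) :
    ∃ g : Xi F × D U → ℂ, Reps Kd hw v g ∧ IsForm F U S a g :=
  exists_isForm (κ := Kd.toKerSg) (hT := exists_orbits F (D U)) (hw := hw)
    (fun h => hv (Subtype.ext (congrArg (fun y : autL2 (PG F)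
      ((muXD (volume : Measure (Xi F)) (D U)).withDensity w) => y.1) h)))
    (Kd.isCusp_arep hw v.2) hS lev
    (fun p hp => by
      obtain ⟨𝔡, h⟩ := hecke p hp
      exact ⟨𝔡, op_of_symV h⟩)
    fun κ hL hs => by
      obtain ⟨k, hk, h⟩ := full κ hL hs
      exact ⟨k, hk, op_of_symV h⟩

end V

section Lip

variable {F : Type} [Field F] [NumberField F] [IsTotallyComplex F] {U : Lev F}
  {w : Xi F × D U → ℝ≥0∞} {hw : IsWeight (PG F) w} {v : (Tr.kdatL F (D U)).V hw}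

/-- The full kernels which are real. -/
theorem full_of_real {y : RealK (Tr.KinfL F) → ℝ}
    (hy : ∀ x, (y x : ℂ) = ∏ w, sph 0 (x.1.i w).fn)
    (h : ∀ x : RealK (Tr.KinfL F), (Tr.kdatL F (D U)).symV hw
      (((x.1 : Tr.KinfL F) : WithOne (Tr.KinfL F)), (1 : HK (PG F) (D U))) v = (y x : ℂ) • v)
    (κ : Tr.Kinf F) (hL : ∀ w, LKer (κ w).fn) (hs : ∀ w, star (κ w) = κ w) :
    ∃ k : Tr.KinfL F, (Tr.kdatL F (D U)).kap k = κ.ker ∧ (Tr.kdatL F (D U)).symV hw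
      ((k : WithOne (Tr.KinfL F)), (1 : HK (PG F) (D U))) v = (∏ w, sph 0 (κ w).fn) • v := by
  let k : Tr.KinfL F := ⟨κ, hL⟩
  have hst : star k = k := Tr.KinfL.star_eq_iff.mpr hs
  have h1 := h ⟨k, hst⟩
  rw [hy] at h1
  exact ⟨k, rfl, h1⟩

end Lip

section Eig

variable {K L : Type} [Field K] [NumberField K] [Field L] [NumberField L] [Algebra K L]

/-- **The function of a joint eigenvector over `L`.** -/
theorem EigL.exists_eigF [IsTotallyComplex L] {τ : L ≃ₐ[K] L} {U : Lev L} {X : SetL τ U}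
    {w : Xi L × D U → ℝ≥0∞} {hw : IsWeight (PG L) w} {v : (Tr.kdatL L (D U)).V hw}
    {lam : HeightOneSpectrum (𝓞 L) → ℝ} {y : RealK (Tr.KinfL L) → ℝ}
    (hv : EigL X (Subtype.val : RealK (Tr.KinfL L) → Tr.KinfL L)
      (repV (Tr.kdatL L (D U)) hw) lam y v)
    (hy : ∀ x, (y x : ℂ) = ∏ w, sph 0 (x.1.i w).fn)
    {S : Finset (HeightOneSpectrum (𝓞 L))}
    (lev : ∀ p, p ∉ S → U.U p = GLO (Valued.v : Valuation (p.adicCompletion L) ℤᵐ⁰)) :
    ∃ F₀ : Xi L × D U → ℂ, Reps (Tr.kdatL L (D U)) hw v F₀ ∧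
      EigF U S (fun p => (lam p : ℂ)) (fun _ => sph 0) F₀ :=
  exists_eigF_of_V lev (fun p hp => ⟨datum p, hv.t p (lev p hp)⟩) (full_of_real hy hv.k)

/-- **The form of a joint eigenvector over `K`**: the output of the descent. -/
theorem EigK.exists_isForm [IsTotallyComplex K] {UK : Lev K} {Y : SetK UK}
    {w : Xi K × D UK → ℝ≥0∞} {hw : IsWeight (PG K) w} {v : (Tr.kdatL K (D UK)).V hw}
    {lam : HeightOneSpectrum (𝓞 K) → ℝ} {y : RealK (Tr.KinfL K) → ℝ}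
    (hv : EigK Y (Subtype.val : RealK (Tr.KinfL K) → Tr.KinfL K)
      (repV (Tr.kdatL K (D UK)) hw) lam y v) (hv0 : v ≠ 0)
    (hy : ∀ x, (y x : ℂ) = ∏ w, sph 0 (x.1.i w).fn)
    {S : Set (HeightOneSpectrum (𝓞 K))} (hS : S.Finite)
    (lev : ∀ p, p ∉ S → UK.U p = GLO (Valued.v : Valuation (p.adicCompletion K) ℤᵐ⁰))
    {a : HeightOneSpectrum (𝓞 K) → ℝ}
    (ha : ∀ p, p ∉ S → √(Ideal.absNorm p.asIdeal) * a p = lam p) :
    ∃ g : Xi K × D UK → ℂ, Reps (Tr.kdatL K (D UK)) hw v g ∧ IsForm K UK S a g :=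
  exists_isForm_of_V hv0 hS lev
    (fun p hp => ⟨datum p, by rw [ha p hp]; exact hv.t p (lev p hp)⟩) (full_of_real hy hv.k)

end Eig

end Fermat.Agent.LT.Desc

end
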