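import Fermat.Agent.LT.Form
import Fermat.Agent.LT.Adapt.Fin
import Fermat.Agent.LT.Kappa.InstFam
import Fermat.Agent.LT.Kappa.Prod

/-!
# Bounded cuspidal eigenfunctions on `X_∞ × D U`

`EigF U S a h f` : `IsForm` with arbitrary complex eigenvalues `a v` of `T_v` (`v ∉ S`) and
arbitrary eigenvalues `h w` of the radial kernels at the infinite place `w`.
-/

set_option autoImplicit false
set_option linter.unusedSectionVars false

noncomputable section

open Matrix NumberField MeasureTheory IsDedekindDomain WithZero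
open scoped WithZero Topology

namespace Fermat.Agent.LT.Desc

open H3 Lvl

variable {F : Type*} [Field F] [NumberField F] [IsTotallyComplex F]

/-- A bounded cuspidal function on `X_∞ × D U`, spherical outside `S`, eigenfunction of `T_v`,
`v ∉ S`, and of the radial kernels at every infinite place. -/
structure EigF (U : Lev F) (S : Finset (HeightOneSpectrum (𝓞 F)))
    (a : HeightOneSpectrum (𝓞 F) → ℂ) (h : InfinitePlace F → (ℝ → ℂ) → ℂ)
    (f : Xi F × D U → ℂ) : Prop where
  lev : ∀ v, v ∉ S → U.U v = GLO (Valued.v : Valuation (v.adicCompletion F) ℤᵐ⁰)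
  cont : ∀ d, Continuous fun x => f (x, d)
  inv : ∀ (g : GL (Fin 2) F) (z : Xi F × D U), f (g • z) = f z
  bdd : ∃ B : ℝ, ∀ z, ‖f z‖ ≤ B
  cusp : IsCusp f
  hecke : ∀ v, v ∉ S → ∀ z : Xi F × D U,
    ∑ᶠ (d' : D U) (_ : Nbr U v z.2 d'), f (z.1, d') = a v * f z
  radial : ∀ (w : InfinitePlace F) (k : ℝ → ℂ), IsKer k → ∀ z : Xi F × D U,
    ∫ Q : H3, k (cu (z.1 w) Q) * f (z.1.upd w Q, z.2) = h w k * f z

/-- the infinite part of the Whittaker coefficient at `1` -/
def wiP (ν : InfinitePlace F → ℂ) (δ : F) (z : Xi F) : ℂ :=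
  ∏ w : InfinitePlace F, whit (ν w) (w.embedding δ) (z w)

theorem eigF_of_isForm {U : Lev F} {S : Finset (HeightOneSpectrum (𝓞 F))}
    {a : HeightOneSpectrum (𝓞 F) → ℝ} {f : Xi F × D U → ℂ} (hf : IsForm F U S a f) :
    EigF U S (fun v => ((√(Ideal.absNorm v.asIdeal) * a v : ℝ) : ℂ)) (fun _ => sph 0) f where
  lev v hv := hf.lev v (by simpa using hv)
  cont := hf.cont
  inv := hf.inv
  bdd := hf.bdd
  cusp := hf.cusp
  hecke v hv := hf.hecke v (by simpa using hv)
  radial := hf.radial

namespace EigF

variable {U : Lev F} {S S' : Finset (HeightOneSpectrum (𝓞 F))}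
  {a a' : HeightOneSpectrum (𝓞 F) → ℂ} {h : InfinitePlace F → (ℝ → ℂ) → ℂ}
  {f : Xi F × D U → ℂ}

theorem mono (hf : EigF U S a h f) (hS : S ⊆ S') : EigF U S' a h f where
  lev v hv := hf.lev v fun h => hv (hS h)
  cont := hf.cont
  inv := hf.inv
  bdd := hf.bdd
  cusp := hf.cusp
  hecke v hv := hf.hecke v fun h => hv (hS h)
  radial := hf.radial

theorem congr (hf : EigF U S a h f) (ha : ∀ v, v ∉ S → a v = a' v) : EigF U S a' h f where
  lev := hf.lev
  cont := hf.cont
  inv := hf.inv
  bdd := hf.bdd
  cusp := hf.cusp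
  hecke v hv z := by rw [hf.hecke v hv z, ha v hv]
  radial := hf.radial

theorem offS (hf : EigF U S a h f) : Adapt.OffS S U := hf.lev

/-- the eigenfunction of one variable. -/
theorem isEig [DecidableEq (InfinitePlace F)] (hf : EigF U S a h f) (w : InfinitePlace F)
    (x : Xi F) (d : D U) : H3.IsEig (fun P => f (Function.update x w P, d)) (h w) where
  cont := (hf.cont d).comp (continuous_const.update w continuous_id)
  eig k hk P := by
    have h1 := hf.radial w k hk (Function.update x w P, d)
    rw [← h1]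
    show ∫ Q : H3, k (cu P Q) * f (Function.update x w Q, d) = _
    have h2 : ∀ Q : H3, Xi.upd (Function.update x w P) w Q = Function.update x w Q := by
      intro Q
      funext w'
      unfold Xi.upd
      by_cases hw : w' = w
      · subst hw
        rw [if_pos rfl, Function.update_self]
      · rw [if_neg hw, Function.update_of_ne hw, Function.update_of_ne hw]
    simp only [h2, Function.update_self]

end EigF

end Fermat.Agent.LT.Desc

end
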