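import Fermat.Agent.LT.Desc.Old
import Fermat.Agent.LT.Desc.EigF
import Fermat.Agent.LT.HK.NbrAt

/-!
# Raising and lowering the level of an eigenfunction at one place

`U ≤ U'` levels which agree outside the place `u`, `U.U u = Iw (vF u)`, `U'.U u = GLO (vF u)`.

* `EigF.pull`: the pull back to a smaller level; `EigF.of_pull`: the converse, where the levels agree;
* `EigF.exists_lower`: an eigenfunction `f` on `X_∞ × D U` with `e_u f = f`, `C_u f = c f` is the
  pull back of an eigenfunction on `X_∞ × D U'` whose `T_u`-eigenvalue is `c`.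
-/

set_option autoImplicit false

open Matrix NumberField IsDedekindDomain MeasureTheory

noncomputable section

namespace Fermat.Agent.LT.Desc

open H3 Fermat.Agent.LT.Lvl Fermat.Agent.LT.HK Fermat.Agent.LT.Iwa

variable {F : Type*} [Field F] [NumberField F] {U U' : Lev F}

/-! ### The operators in the language of `Nbr` -/

theorem hecke_iff_tAt {X : Type*} {v : HeightOneSpectrum (𝓞 F)} (hG : U.U v = GLO (vF v))
    (𝔡 : Datum (vF v)) (f : X × Lvl.D U → ℂ) (c : ℂ) :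
    (∀ z : X × Lvl.D U, ∑ᶠ (d' : Lvl.D U) (_ : Nbr U v z.2 d'), f (z.1, d') = c * f z) ↔
      ∀ (x : X) (d : Lvl.D U), (tAt hG 𝔡).act (fun d' => f (x, d')) d = c • f (x, d) := by
  constructor
  · intro hf x d
    rw [tAt_act, hf (x, d), smul_eq_mul]
  · rintro hf ⟨x, d⟩
    have h1 := hf x d
    rw [tAt_act, smul_eq_mul] at h1
    exact h1

/-- The Hecke operators at a place where the levels are maximal. -/
theorem hecke_pull_iff (h : U ≤ U') {X : Type*} {v : HeightOneSpectrum (𝓞 F)}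
    (hv : U.U v = GLO (vF v)) (hv' : U'.U v = GLO (vF v)) (f' : X × Lvl.D U' → ℂ) (c : ℂ) :
    (∀ z : X × Lvl.D U, ∑ᶠ (d' : Lvl.D U) (_ : Nbr U v z.2 d'), pull h f' (z.1, d') =
      c * pull h f' z) ↔
    ∀ z : X × Lvl.D U', ∑ᶠ (d' : Lvl.D U') (_ : Nbr U' v z.2 d'), f' (z.1, d') = c * f' z := by
  obtain ⟨𝔡, -⟩ := exists_datum v
  rw [hecke_iff_tAt hv 𝔡, hecke_iff_tAt hv' 𝔡]
  constructor
  · exact fun hc x d => tAt_act_eq_smul' h hv hv' 𝔡 𝔡 hc x d
  · intro hc x d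
    rw [tAt_act_pull h hv hv' 𝔡 𝔡]
    exact hc x (D.map h d)

theorem radial_pull_iff [IsTotallyComplex F] (h : U ≤ U') (w : InfinitePlace F) (k : ℝ → ℂ)
    (f' : Xi F × Lvl.D U' → ℂ) (c : ℂ) :
    (∀ z : Xi F × Lvl.D U, ∫ Q : H3, k (cu (z.1 w) Q) * pull h f' (z.1.upd w Q, z.2) =
      c * pull h f' z) ↔
    ∀ z : Xi F × Lvl.D U', ∫ Q : H3, k (cu (z.1 w) Q) * f' (z.1.upd w Q, z.2) = c * f' z := by
  constructor
  · rintro hc ⟨x, d⟩
    obtain ⟨d, rfl⟩ := D.map_surjective h d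
    exact hc (x, d)
  · rintro hc ⟨x, d⟩
    exact hc (x, D.map h d)

variable [IsTotallyComplex F] {S : Finset (HeightOneSpectrum (𝓞 F))}
  {a : HeightOneSpectrum (𝓞 F) → ℂ} {ν : InfinitePlace F → (ℝ → ℂ) → ℂ}

/-- **Raising the level.** -/
theorem EigF.pull (h : U ≤ U') {f' : Xi F × Lvl.D U' → ℂ} (hf : EigF U' S a ν f')
    (hS : ∀ v, v ∉ S → U.U v = GLO (vF v)) : EigF U S a ν (Desc.pull h f') where
  lev := hS
  cont := (continuous_pull_iff h f').mpr hf.cont
  inv := (inv_pull_iff h f').mpr hf.inv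
  bdd := (bdd_pull_iff h f').mpr hf.bdd
  cusp := (isCusp_pull_iff h hf.inv).mpr hf.cusp
  hecke v hv := (hecke_pull_iff h (hS v hv) (hf.lev v hv) f' (a v)).mpr (hf.hecke v hv)
  radial w k hk := (radial_pull_iff h w k f' (ν w k)).mpr (hf.radial w k hk)

/-- The converse. -/
theorem EigF.of_pull (h : U ≤ U') {f' : Xi F × Lvl.D U' → ℂ} (hf : EigF U S a ν (Desc.pull h f')) :
    EigF U' S a ν f' where
  lev v hv := le_antisymm (U'.le v) ((hf.lev v hv).symm.le.trans (h v))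
  cont := (continuous_pull_iff h f').mp hf.cont
  inv := (inv_pull_iff h f').mp hf.inv
  bdd := (bdd_pull_iff h f').mp hf.bdd
  cusp := (isCusp_pull_iff h ((inv_pull_iff h f').mp hf.inv)).mp hf.cusp
  hecke v hv := (hecke_pull_iff h (hf.lev v hv)
    (le_antisymm (U'.le v) ((hf.lev v hv).symm.le.trans (h v))) f' (a v)).mp (hf.hecke v hv)
  radial w k hk := (radial_pull_iff h w k f' (ν w k)).mp (hf.radial w k hk)

/-- Adding a place where the `T_v`-eigenvalue is known. -/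
theorem EigF.erase [DecidableEq (HeightOneSpectrum (𝓞 F))] {u : HeightOneSpectrum (𝓞 F)}
    {f : Xi F × Lvl.D U → ℂ} (hf : EigF U (insert u S) a ν f) (hu : U.U u = GLO (vF u)) {c : ℂ}
    (hc : ∀ z : Xi F × Lvl.D U, ∑ᶠ (d' : Lvl.D U) (_ : Nbr U u z.2 d'), f (z.1, d') = c * f z) :
    EigF U S (Function.update a u c) ν f where
  lev v hv := by
    by_cases h : v = u
    · rw [h]
      exact hu
    · exact hf.lev v (by rw [Finset.mem_insert, not_or]; exact ⟨h, hv⟩)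
  cont := hf.cont
  inv := hf.inv
  bdd := hf.bdd
  cusp := hf.cusp
  hecke v hv := by
    by_cases h : v = u
    · subst h
      rw [Function.update_self]
      exact hc
    · rw [Function.update_of_ne h]
      exact hf.hecke v (by rw [Finset.mem_insert, not_or]; exact ⟨h, hv⟩)
  radial := hf.radial

/-- **Lowering the level at the place `u`.** -/
theorem EigF.exists_lower [DecidableEq (HeightOneSpectrum (𝓞 F))] {u : HeightOneSpectrum (𝓞 F)}
    (h : U ≤ U') (hI : U.U u = Iw (vF u)) (hG : U'.U u = GLO (vF u))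
    (he : ∀ w ≠ u, U.U w = U'.U w) (𝔡 : Datum (vF u)) {f : Xi F × Lvl.D U → ℂ}
    (hf : EigF U (insert u S) a ν f)
    (hef : ∀ x d, (eAt hI 𝔡).act (fun d' => f (x, d')) d = f (x, d)) {c : ℂ}
    (hc : ∀ x d, (cAt hI 𝔡).act (fun d' => f (x, d')) d = c * f (x, d)) :
    ∃ f' : Xi F × Lvl.D U' → ℂ, f = Desc.pull h f' ∧ EigF U' S (Function.update a u c) ν f' := by
  obtain ⟨f', rfl⟩ := exists_eq_pull h hI hG he 𝔡 f hef
  refine ⟨f', rfl, (EigF.of_pull h hf).erase hG ?_⟩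
  exact (hecke_iff_tAt hG 𝔡 f' c).mpr fun x d => tAt_act_eq_smul h hI hG 𝔡 𝔡 hc x d

omit [IsTotallyComplex F] in
/-- The letters at `u` on a function of level `GL₂(O_u)`. -/
theorem EigF.eAt_pull {u : HeightOneSpectrum (𝓞 F)} (h : U ≤ U') (hI : U.U u = Iw (vF u))
    (hG : U'.U u = GLO (vF u)) (𝔡 : Datum (vF u)) (f' : Xi F × Lvl.D U' → ℂ) (x : Xi F)
    (d : Lvl.D U) :
    (eAt hI 𝔡).act (fun d' => Desc.pull h f' (x, d')) d = Desc.pull h f' (x, d) :=
  eAt_act_pull h hI hG 𝔡 f' x d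

theorem EigF.cAt_pull {u : HeightOneSpectrum (𝓞 F)} (h : U ≤ U') (hI : U.U u = Iw (vF u))
    (hG : U'.U u = GLO (vF u)) (hu : u ∉ S) (𝔡 : Datum (vF u)) {f' : Xi F × Lvl.D U' → ℂ}
    (hf : EigF U' S a ν f') (x : Xi F) (d : Lvl.D U) :
    (cAt hI 𝔡).act (fun d' => Desc.pull h f' (x, d')) d = a u * Desc.pull h f' (x, d) := by
  rw [cAt_act_pull h hI hG 𝔡 𝔡]
  have h1 := (hecke_iff_tAt hG 𝔡 f' (a u)).mp (hf.hecke u hu) x (D.map h d)
  exact h1

end Fermat.Agent.LT.Desc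

end
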