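import Fermat.Agent.LT.Desc.EigF
import Fermat.Agent.LT.Nbr
import Fermat.Agent.LT.Adapt.Cusp
import Fermat.Agent.LT.Kappa.Exist
import Fermat.Agent.LT.Level.Change
import Fermat.Agent.LT.Level.Pull

/-!
# Maps between levels and right translations at `S`

* `GMap S U U' p` : `p : D U → D U'` is `GL₂(F)`-equivariant and bijective on neighbours outside `S`;
* `EigF.comp` : the pull back of an eigenfunction; `EigF.lin` : linear combinations;
* `rtD` : right translation by `k ∈ GL₂(R_f)`; `toKap_rtD`;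
* `EigF.exists_rspan` : every element of the span of the right translates of `toKap f` comes from an
  eigenfunction of a small level.
-/

set_option autoImplicit false
set_option linter.unusedSectionVars false

noncomputable section

open Matrix NumberField MeasureTheory IsDedekindDomain WithZero HeightOneSpectrum
open scoped WithZero Topology

namespace Fermat.Agent.LT.Desc

open H3 Lvl Loc Adapt Kap

/-! ### Right multiplication on coset spaces -/

section Rmul

variable {E : Type*} [Field E] {H H' : Subgroup (GL (Fin 2) E)}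

/-- right multiplication by `k`, when `k⁻¹ H k ≤ H'`. -/
def rmul (k : GL (Fin 2) E) (hk : ∀ h ∈ H, k⁻¹ * h * k ∈ H') : Cos H → Cos H' :=
  Quotient.map' (fun g => g * k) (by
    intro g g' h
    rw [QuotientGroup.leftRel_apply, mem_sup_center] at h ⊢
    obtain ⟨z, u, hu, h⟩ := h
    refine ⟨z, k⁻¹ * u * k, hk u hu, ?_⟩
    have e1 : (g * k)⁻¹ * (g' * k) = k⁻¹ * (g⁻¹ * g') * k := by group
    rw [e1, h, ← mul_assoc, ← scalar_mul_comm]
    simp only [mul_assoc])

theorem rmul_mk (k : GL (Fin 2) E) (hk : ∀ h ∈ H, k⁻¹ * h * k ∈ H') (g : GL (Fin 2) E) :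
    rmul k hk (Cos.mk H g) = Cos.mk H' (g * k) := rfl

theorem rmul_smul (k : GL (Fin 2) E) (hk : ∀ h ∈ H, k⁻¹ * h * k ∈ H') (γ : GL (Fin 2) E)
    (d : Cos H) : rmul k hk (γ • d) = γ • rmul k hk d := by
  obtain ⟨g, rfl⟩ := Cos.mk_surjective d
  rw [Cos.smul_mk, rmul_mk, rmul_mk, Cos.smul_mk, mul_assoc]

end Rmul

variable {F : Type*} [Field F] [NumberField F]

/-! ### Maps between levels -/

/-- An equivariant map between levels which is bijective on neighbours outside `S`. -/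
structure GMap (S : Finset (HeightOneSpectrum (𝓞 F))) (U U' : Lev F) (p : D U → D U') :
    Prop where
  smul : ∀ (g : GL (Fin 2) F) d, p (g • d) = g • p d
  nbr : ∀ v ∉ S, ∀ d, Set.BijOn p {d' | Nbr U v d d'} {e | Nbr U' v (p d) e}

theorem Cos.mk_eq_mk_of_eq {E : Type*} [Field E] {H H' : Subgroup (GL (Fin 2) E)} (h : H = H')
    {g g' : GL (Fin 2) E} : Cos.mk H g = Cos.mk H g' ↔ Cos.mk H' g = Cos.mk H' g' := by
  subst h
  exact Iff.rfl

theorem GMap.of_fam {S : Finset (HeightOneSpectrum (𝓞 F))} {U U' : Lev F}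
    (p : ∀ v, Dv U v → Dv U' v) (hp : {v | p v (base U v) ≠ base U' v}.Finite)
    (hs : ∀ v (g : GL (Fin 2) (v.adicCompletion F)) (d : Dv U v), p v (g • d) = g • p v d)
    (hS : ∀ v ∉ S, U.U v = U'.U v)
    (hS' : ∀ v ∉ S, ∀ g, p v (Cos.mk (U.U v) g) = Cos.mk (U'.U v) g) :
    GMap S U U' (RProd.map p hp) where
  smul g d := RProd.ext' fun v => by
    rw [RProd.map_apply, RProd.smul_apply, RProd.smul_apply, RProd.map_apply, smulF_def,
      smulF_def, hs]
  nbr v hv d := by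
    classical
    obtain ⟨g₀, hg₀⟩ := Cos.mk_surjective (d v)
    have hpd : (RProd.map p hp d : D U') v = Cos.mk (U'.U v) g₀ := by
      rw [RProd.map_apply, ← hg₀, hS' v hv]
    refine ⟨?_, ?_, ?_⟩
    · rintro d' ⟨h1, g, h, hh, hg, hgh⟩
      refine ⟨fun w hw => ?_, g, h, hh, ?_, ?_⟩
      · rw [RProd.map_apply, RProd.map_apply, h1 w hw]
      · rw [RProd.map_apply, hg, hS' v hv]
      · rw [RProd.map_apply, hgh, hS' v hv]
    · rintro d' ⟨h1, -⟩ d'' ⟨h1', -⟩ he
      refine RProd.ext' fun w => ?_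
      by_cases hw : w = v
      · subst hw
        have h2 := congrArg (fun x : D U' => x w) he
        simp only [RProd.map_apply] at h2
        obtain ⟨g', hg'⟩ := Cos.mk_surjective (d' w)
        obtain ⟨g'', hg''⟩ := Cos.mk_surjective (d'' w)
        rw [← hg', ← hg'', hS' w hv, hS' w hv] at h2
        rw [← hg', ← hg'']
        exact (Cos.mk_eq_mk_of_eq (hS w hv)).mpr h2
      · rw [h1 w hw, h1' w hw]
    · rintro e ⟨h1, g, h, hh, hg, hgh⟩
      refine ⟨HK.upd d v (Cos.mk (U.U v) (g * h)), ⟨fun w hw => HK.upd_of_ne d _ hw, g, h, hh, ?_,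
        HK.upd_self d v _⟩, ?_⟩
      · rw [← hg₀]
        exact (Cos.mk_eq_mk_of_eq (hS v hv)).mpr (hpd.symm.trans hg)
      · refine RProd.ext' fun w => ?_
        rw [RProd.map_apply]
        by_cases hw : w = v
        · subst hw
          rw [HK.upd_self, hS' w hv, hgh]
        · rw [HK.upd_of_ne _ _ hw, h1 w hw, RProd.map_apply]

theorem gMap_map {S : Finset (HeightOneSpectrum (𝓞 F))} {U U' : Lev F} (h : ∀ v, U.U v ≤ U'.U v)
    (hS : ∀ v ∉ S, U.U v = U'.U v) : GMap S U U' (D.map h) :=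
  GMap.of_fam _ _ (fun v g d => Cos.map_smul (h v) g d) hS fun _ _ _ => rfl

section RtD

variable {S : Finset (HeightOneSpectrum (𝓞 F))} {U U' : Lev F}

/-- right translation by `k ∈ GL₂(R_f)`. -/
def rtD (k : GL (Fin 2) (Rf S))
    (hk : ∀ v, ∀ h ∈ U.U v, (loc S v k)⁻¹ * h * loc S v k ∈ U'.U v) : D U → D U' :=
  RProd.map (fun v => rmul (loc S v k) (hk v)) (S.finite_toSet.subset fun v hv => by
    by_contra h
    refine hv ?_
    rw [rmul_mk, one_mul, loc_of_notMem h])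

theorem rtD_apply (k : GL (Fin 2) (Rf S))
    (hk : ∀ v, ∀ h ∈ U.U v, (loc S v k)⁻¹ * h * loc S v k ∈ U'.U v) (d : D U)
    (v : HeightOneSpectrum (𝓞 F)) : rtD k hk d v = rmul (loc S v k) (hk v) (d v) := rfl

theorem gMap_rtD (k : GL (Fin 2) (Rf S))
    (hk : ∀ v, ∀ h ∈ U.U v, (loc S v k)⁻¹ * h * loc S v k ∈ U'.U v)
    (hS : ∀ v ∉ S, U.U v = U'.U v) : GMap S U U' (rtD k hk) :=
  GMap.of_fam _ _ (fun v g d => rmul_smul _ (hk v) g d) hS fun v hv g => by
    rw [rmul_mk, loc_of_notMem hv, mul_one]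

theorem rtD_jS (k : GL (Fin 2) (Rf S))
    (hk : ∀ v, ∀ h ∈ U.U v, (loc S v k)⁻¹ * h * loc S v k ∈ U'.U v) (g : GL (Fin 2) (Rf S)) :
    rtD k hk (jS S U g) = jS S U' (g * k) :=
  RProd.ext' fun v => by rw [rtD_apply, jS_apply, jS_apply, rmul_mk, map_mul]

theorem toKap_rtD (k : GL (Fin 2) (Rf S))
    (hk : ∀ v, ∀ h ∈ U.U v, (loc S v k)⁻¹ * h * loc S v k ∈ U'.U v) (f : Xi F × D U' → ℂ) :
    toKap S U (fun z => f (z.1, rtD k hk z.2)) = rt k (toKap S U' f) := by
  funext ⟨x, g⟩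
  exact congrArg (fun d => f (x, d)) (rtD_jS k hk g)

theorem toKap_map (h : ∀ v, U.U v ≤ U'.U v) (f : Xi F × D U' → ℂ) :
    toKap S U (fun z => f (z.1, D.map h z.2)) = toKap S U' f := by
  funext ⟨x, g⟩
  rfl

/-- a conjugate of an open subgroup is open. -/
theorem exists_conj (v : HeightOneSpectrum (𝓞 F)) (H : Subgroup (GL (Fin 2) (v.adicCompletion F)))
    (hH : ∃ n : ℕ, ∀ g : GL (Fin 2) (v.adicCompletion F),
      Bd (Valued.v : Valuation (v.adicCompletion F) ℤᵐ⁰)
        ((g : Matrix (Fin 2) (Fin 2) (v.adicCompletion F)) - 1) (exp (-(n : ℤ))) → g ∈ H)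
    (k : GL (Fin 2) (v.adicCompletion F)) :
    ∃ n : ℕ, ∀ g : GL (Fin 2) (v.adicCompletion F),
      Bd (Valued.v : Valuation (v.adicCompletion F) ℤᵐ⁰)
        ((g : Matrix (Fin 2) (Fin 2) (v.adicCompletion F)) - 1) (exp (-(n : ℤ))) →
          k⁻¹ * g * k ∈ H := by
  obtain ⟨m, hm⟩ := hH
  obtain ⟨γ₁, h1, h1'⟩ := exists_bd (Valued.v : Valuation (v.adicCompletion F) ℤᵐ⁰)
    ((k⁻¹ : GL (Fin 2) (v.adicCompletion F)) : Matrix (Fin 2) (Fin 2) (v.adicCompletion F))
  obtain ⟨γ₂, h2, h2'⟩ := exists_bd (Valued.v : Valuation (v.adicCompletion F) ℤᵐ⁰)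
    (k : Matrix (Fin 2) (Fin 2) (v.adicCompletion F))
  obtain ⟨a, rfl⟩ : ∃ a : ℤ, γ₁ = exp a := ⟨_, (exp_log h1).symm⟩
  obtain ⟨b, rfl⟩ : ∃ b : ℤ, γ₂ = exp b := ⟨_, (exp_log h2).symm⟩
  refine ⟨(m + a + b).toNat, fun g hg => hm _ ?_⟩
  have e1 : ((k⁻¹ * g * k : GL (Fin 2) (v.adicCompletion F)) :
      Matrix (Fin 2) (Fin 2) (v.adicCompletion F)) - 1 =
      ((k⁻¹ : GL (Fin 2) (v.adicCompletion F)) : Matrix (Fin 2) (Fin 2) (v.adicCompletion F)) *
        ((g : Matrix (Fin 2) (Fin 2) (v.adicCompletion F)) - 1) *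
        (k : Matrix (Fin 2) (Fin 2) (v.adicCompletion F)) := by
    have h3 : ((k⁻¹ : GL (Fin 2) (v.adicCompletion F)) :
        Matrix (Fin 2) (Fin 2) (v.adicCompletion F)) *
        (k : Matrix (Fin 2) (Fin 2) (v.adicCompletion F)) = 1 := by
      rw [← Units.val_mul, inv_mul_cancel, Units.val_one]
    rw [mul_sub, sub_mul, mul_one, h3, Units.val_mul, Units.val_mul]
  rw [e1]
  refine ((h1'.mul hg).mul h2').mono ?_
  rw [← exp_add, ← exp_add, exp_le_exp]
  have := Int.self_le_toNat (m + a + b)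
  omega

/-- small levels are conjugated into a given level. -/
theorem exists_level_conj (hU' : ∀ v ∉ S, U'.U v = GLO (Valued.v : Valuation _ ℤᵐ⁰))
    (k : GL (Fin 2) (Rf S)) : ∃ n : ℕ, ∀ U : Lev F,
      (∀ v ∉ S, U.U v = GLO (Valued.v : Valuation (v.adicCompletion F) ℤᵐ⁰)) →
      (∀ v ∈ S, U.U v ≤ Kn (Valued.v : Valuation (v.adicCompletion F) ℤᵐ⁰) (exp (-(n : ℤ)))) →
      ∀ v, ∀ h ∈ U.U v, (loc S v k)⁻¹ * h * loc S v k ∈ U'.U v := by
  choose n hn using fun v => exists_conj v (U'.U v) (U'.isOpen v) (loc S v k)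
  refine ⟨S.sup n, fun U hU hUS v h hh => ?_⟩
  by_cases hv : v ∈ S
  · refine hn v h ?_
    refine (hUS v hv hh).2.mono ?_
    rw [exp_le_exp]
    have := Finset.le_sup (f := n) hv
    omega
  · rw [loc_of_notMem hv, inv_one, one_mul, mul_one, hU' v hv, ← hU v hv]
    exact hh

end RtD

/-! ### Linear combinations -/

variable [IsTotallyComplex F]

theorem continuous_pt {y : InfinitePlace F → ℝ} (hy : ∀ w, 0 < y w) :
    Continuous fun z : InfinitePlace F → ℂ => (pt z y : Xi F) :=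
  (continuousOn_pt (F := F)).comp_continuous (f := fun z : InfinitePlace F → ℂ => (y, z))
    (by fun_prop) fun _ => ⟨hy, trivial⟩

theorem integrableOn_pt {φ : Xi F → ℂ} (hφ : Continuous φ) {m : ℕ} (hm : m ≠ 0)
    {y : InfinitePlace F → ℝ} (hy : ∀ w, 0 < y w) :
    IntegrableOn (fun z : InfinitePlace F → ℂ => φ (pt z y)) (fdom F m) := by
  have h1 : IsCompact (closure (fdom F m)) := (isBounded_fdom m hm).isCompact_closure
  exact ((hφ.comp (continuous_pt hy)).continuousOn.integrableOn_compact h1).mono_set subset_closure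

theorem _root_.Fermat.Agent.LT.IsCusp.lin {D : Type*} [MulAction (GL (Fin 2) F) D]
    {f f' : Xi F × D → ℂ} (hf : IsCusp f) (hf' : IsCusp f')
    (hc : ∀ d, Continuous fun x => f (x, d)) (hc' : ∀ d, Continuous fun x => f' (x, d))
    (c c' : ℂ) : IsCusp fun z => c * f z + c' * f' z := by
  intro d m hm hd
  filter_upwards [hf d m hm hd, hf' d m hm hd] with y h1 h2 hy
  rw [integral_add ((integrableOn_pt (hc d) hm hy).const_mul c)
    ((integrableOn_pt (hc' d) hm hy).const_mul c'), integral_const_mul, integral_const_mul,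
    h1 hy, h2 hy, mul_zero, mul_zero, add_zero]

theorem continuous_upd (x : Xi F) (w : InfinitePlace F) : Continuous fun Q : H3 => x.upd w Q := by
  classical
  refine continuous_pi fun w' => ?_
  unfold Xi.upd
  by_cases h : w' = w
  · simp only [h, if_true]
    exact continuous_id
  · simp only [h, if_false]
    exact continuous_const

namespace EigF

variable {U U' : Lev F} {S S' : Finset (HeightOneSpectrum (𝓞 F))}
  {a a' : HeightOneSpectrum (𝓞 F) → ℂ} {h : InfinitePlace F → (ℝ → ℂ) → ℂ}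

/-- **Pull back.** -/
theorem comp {p : D U → D U'} (hp : GMap S U U' p)
    (hlev : ∀ v, v ∉ S → U.U v = GLO (Valued.v : Valuation (v.adicCompletion F) ℤᵐ⁰))
    {f : Xi F × D U' → ℂ} (hf : EigF U' S a h f) : EigF U S a h fun z => f (z.1, p z.2) where
  lev := hlev
  cont d := hf.cont (p d)
  inv g z := by
    rw [Prod.smul_snd, Prod.smul_fst, hp.smul]
    exact hf.inv g (z.1, p z.2)
  bdd := by
    obtain ⟨B, hB⟩ := hf.bdd
    exact ⟨B, fun z => hB _⟩
  cusp := isCusp_comp hp.smul hf.cusp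
  hecke v hv z := by
    rw [← hf.hecke v hv (z.1, p z.2)]
    exact finsum_mem_eq_of_bijOn p (hp.nbr v hv z.2) fun _ _ => rfl
  radial w k hk z := hf.radial w k hk (z.1, p z.2)

theorem zero (hlev : ∀ v, v ∉ S → U.U v = GLO (Valued.v : Valuation (v.adicCompletion F) ℤᵐ⁰)) :
    EigF U S a h fun _ => 0 where
  lev := hlev
  cont _ := continuous_const
  inv _ _ := rfl
  bdd := ⟨0, fun _ => by simp⟩
  cusp _ _ _ _ := Filter.Eventually.of_forall fun _ _ => by simp
  hecke v hv z := by simp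
  radial w k hk z := by simp

/-- **Linear combinations.** -/
theorem lin {f f' : Xi F × D U → ℂ} (hf : EigF U S a h f) (hf' : EigF U S a h f') (c c' : ℂ) :
    EigF U S a h fun z => c * f z + c' * f' z where
  lev := hf.lev
  cont d := ((hf.cont d).const_mul c).add ((hf'.cont d).const_mul c')
  inv g z := by rw [hf.inv, hf'.inv]
  bdd := by
    obtain ⟨B, hB⟩ := hf.bdd
    obtain ⟨B', hB'⟩ := hf'.bdd
    refine ⟨‖c‖ * B + ‖c'‖ * B', fun z => (norm_add_le _ _).trans ?_⟩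
    rw [norm_mul, norm_mul]
    exact add_le_add (mul_le_mul_of_nonneg_left (hB z) (norm_nonneg _))
      (mul_le_mul_of_nonneg_left (hB' z) (norm_nonneg _))
  cusp := hf.cusp.lin hf'.cusp hf.cont hf'.cont c c'
  hecke v hv z := by
    have hfin := finite_nbr (hf.lev v hv) z.2
    have h1 := finsum_mem_add_distrib (f := fun d' : D U => c * f (z.1, d'))
      (g := fun d' : D U => c' * f' (z.1, d')) hfin
    have h2 := mul_finsum_mem (s := {d' | Nbr U v z.2 d'}) (fun d' : D U => f (z.1, d')) c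
    have h3 := mul_finsum_mem (s := {d' | Nbr U v z.2 d'}) (fun d' : D U => f' (z.1, d')) c'
    have h4 := hf.hecke v hv z
    have h5 := hf'.hecke v hv z
    refine h1.trans ?_
    rw [← h2, ← h3]
    refine (congrArg₂ (fun s t => c * s + c' * t) h4 h5).trans ?_
    ring
  radial w k hk z := by
    have h1 : Integrable fun Q : H3 => k (cu (z.1 w) Q) * f (z.1.upd w Q, z.2) :=
      hk.integrable ((hf.cont z.2).comp (continuous_upd z.1 w)).locallyIntegrable (z.1 w)
    have h2 : Integrable fun Q : H3 => k (cu (z.1 w) Q) * f' (z.1.upd w Q, z.2) :=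
      hk.integrable ((hf'.cont z.2).comp (continuous_upd z.1 w)).locallyIntegrable (z.1 w)
    have h3 : ∀ Q : H3, k (cu (z.1 w) Q) * (c * f (z.1.upd w Q, z.2) + c' * f' (z.1.upd w Q, z.2)) =
        c * (k (cu (z.1 w) Q) * f (z.1.upd w Q, z.2)) +
          c' * (k (cu (z.1 w) Q) * f' (z.1.upd w Q, z.2)) := fun Q => by ring
    simp_rw [h3]
    rw [integral_add (h1.const_mul c) (h2.const_mul c'), integral_const_mul, integral_const_mul,
      hf.radial w k hk z, hf'.radial w k hk z]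
    ring

/-- **The span of the right translates.** -/
theorem exists_rspan {U₀ : Lev F} {f₀ : Xi F × D U₀ → ℂ} (h₀ : EigF U₀ S a h f₀)
    {ψ : Sp (Xi F) (Rf S) → ℂ} (hψ : ψ ∈ rspan (toKap S U₀ f₀)) :
    ∃ n₁ : ℕ, ∀ U : Lev F,
      (∀ v ∉ S, U.U v = GLO (Valued.v : Valuation (v.adicCompletion F) ℤᵐ⁰)) →
      (∀ v ∈ S, U.U v ≤ Kn (Valued.v : Valuation (v.adicCompletion F) ℤᵐ⁰) (exp (-(n₁ : ℤ)))) →
      ∃ f : Xi F × D U → ℂ, EigF U S a h f ∧ toKap S U f = ψ := by
  refine Submodule.span_induction ?_ ?_ ?_ ?_ hψ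
  · rintro - ⟨k, rfl⟩
    obtain ⟨n, hn⟩ := exists_level_conj h₀.lev k
    refine ⟨n, fun U hU hUS => ⟨_, h₀.comp (gMap_rtD k (hn U hU hUS) fun v hv => ?_) hU,
      toKap_rtD k _ f₀⟩⟩
    rw [hU v hv, h₀.lev v hv]
  · exact ⟨0, fun U hU _ => ⟨_, EigF.zero hU, rfl⟩⟩
  · rintro ψ ψ' - - ⟨n, hn⟩ ⟨n', hn'⟩
    refine ⟨n + n', fun U hU hUS => ?_⟩
    obtain ⟨f, hf, rfl⟩ := hn U hU fun v hv => (hUS v hv).trans (Kn_mono (by
      rw [exp_le_exp]; push_cast; omega))
    obtain ⟨f', hf', rfl⟩ := hn' U hU fun v hv => (hUS v hv).trans (Kn_mono (by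
      rw [exp_le_exp]; push_cast; omega))
    refine ⟨_, hf.lin hf' 1 1, ?_⟩
    funext p
    simp [toKap]
  · rintro c ψ - ⟨n, hn⟩
    refine ⟨n, fun U hU hUS => ?_⟩
    obtain ⟨f, hf, rfl⟩ := hn U hU hUS
    refine ⟨_, hf.lin hf c 0, ?_⟩
    funext p
    simp [toKap]

end EigF

end Fermat.Agent.LT.Desc

end
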