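import Fermat.Agent.LT.Desc.PosD
import Fermat.Agent.LT.Desc.OldEig
import Fermat.Agent.LT.Desc.RightD

/-!
# Multiplicity one and the Galois action with Iwahori level at several places

`U ≤ U'`, `U.U u = Iw (vF u)`, `U'.U u = GLO (vF u)` for `u ∈ T`, equal elsewhere.

* `EigF.exists_lower_finset` : an eigenfunction of level `U` with `e_u f = f`, `C_u f = c_u f` for
  all `u ∈ T` is the pull back of an eigenfunction of level `U'`;
* `IwEig`, `IwEig.exists_smul_eq`, `IwEig.tauFun_eq`.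
-/

set_option autoImplicit false
set_option linter.unusedSectionVars false

noncomputable section

open Matrix NumberField IsDedekindDomain MeasureTheory

namespace Fermat.Agent.LT.Desc

open H3 Fermat.Agent.LT.Lvl Fermat.Agent.LT.HK Fermat.Agent.LT.Iwa

variable {F : Type*} [Field F] [NumberField F]

/-- The maximal level at `u`. -/
def setGLO (U : Lev F) (u : HeightOneSpectrum (𝓞 F)) : Lev F :=
  U.replace {u} (fun v => GLO (vF v)) (fun _ _ => le_rfl) fun v _ => isOpen_GLO v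

theorem setGLO_self (U : Lev F) (u : HeightOneSpectrum (𝓞 F)) :
    (setGLO U u).U u = GLO (vF u) :=
  Lev.replace_mem (Finset.mem_singleton_self u)

theorem setGLO_of_ne (U : Lev F) {u v : HeightOneSpectrum (𝓞 F)} (h : v ≠ u) :
    (setGLO U u).U v = U.U v :=
  Lev.replace_notMem (by rwa [Finset.mem_singleton])

theorem le_setGLO (U : Lev F) (u : HeightOneSpectrum (𝓞 F)) : U ≤ setGLO U u := by
  intro v
  by_cases h : v = u
  · subst h
    rw [setGLO_self]
    exact U.le v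
  · rw [setGLO_of_ne U h]

theorem setGLO_le {U U' : Lev F} (h : U ≤ U') {u : HeightOneSpectrum (𝓞 F)}
    (hG : U'.U u = GLO (vF u)) : setGLO U u ≤ U' := by
  intro v
  by_cases hv : v = u
  · subst hv
    rw [setGLO_self, hG]
  · rw [setGLO_of_ne U hv]
    exact h v

theorem map_map {U U' U'' : Lev F} (h : U ≤ U') (h' : U' ≤ U'') (h'' : U ≤ U'') (d : Lvl.D U) :
    D.map h' (D.map h d) = D.map h'' d := by
  refine RProd.ext' fun v => ?_
  rw [D.map_apply, D.map_apply, D.map_apply]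
  obtain ⟨g, hg⟩ := Cos.mk_surjective (d v)
  rw [← hg, Cos.map_mk, Cos.map_mk, Cos.map_mk]

theorem pull_pull {X E : Type*} {U U' U'' : Lev F} (h : U ≤ U') (h' : U' ≤ U'') (h'' : U ≤ U'')
    (f : X × Lvl.D U'' → E) : pull h (pull h' f) = pull h'' f := by
  funext ⟨x, d⟩
  rw [pull_apply, pull_apply, pull_apply, map_map h h' h'']

theorem eAt_act_pull_iff {X M : Type*} [AddCommGroup M] [Module ℂ M] {U U' : Lev F} (h : U ≤ U')
    {w : HeightOneSpectrum (𝓞 F)} (hw : U.U w = Iw (vF w)) (hw' : U'.U w = Iw (vF w))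
    (𝔡 : Datum (vF w)) (f' : X × Lvl.D U' → M) (c : ℂ) :
    (∀ x d, (eAt hw 𝔡).act (fun d' => pull h f' (x, d')) d = c • pull h f' (x, d)) ↔
      ∀ x d, (eAt hw' 𝔡).act (fun d' => f' (x, d')) d = c • f' (x, d) := by
  constructor
  · intro H x d
    obtain ⟨d, rfl⟩ := D.map_surjective h d
    rw [← pull_apply h f' x d, ← H x d, pull_row, act_eAt_comp h hw hw' 𝔡 𝔡]
    rfl
  · intro H x d
    rw [pull_row, act_eAt_comp h hw hw' 𝔡 𝔡]
    exact H x (D.map h d)

theorem cAt_act_pull_iff {X M : Type*} [AddCommGroup M] [Module ℂ M] {U U' : Lev F} (h : U ≤ U')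
    {w : HeightOneSpectrum (𝓞 F)} (hw : U.U w = Iw (vF w)) (hw' : U'.U w = Iw (vF w))
    (𝔡 : Datum (vF w)) (f' : X × Lvl.D U' → M) (c : ℂ) :
    (∀ x d, (cAt hw 𝔡).act (fun d' => pull h f' (x, d')) d = c • pull h f' (x, d)) ↔
      ∀ x d, (cAt hw' 𝔡).act (fun d' => f' (x, d')) d = c • f' (x, d) := by
  constructor
  · intro H x d
    obtain ⟨d, rfl⟩ := D.map_surjective h d
    rw [← pull_apply h f' x d, ← H x d, pull_row, act_cAt_comp h hw hw' 𝔡]
    rfl
  · intro H x d
    rw [pull_row, act_cAt_comp h hw hw' 𝔡]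
    exact H x (D.map h d)

variable [IsTotallyComplex F] {ν : InfinitePlace F → (ℝ → ℂ) → ℂ}

open Classical in
/-- **Lowering the level at finitely many places.** -/
theorem EigF.exists_lower_finset (𝔡 : ∀ v : HeightOneSpectrum (𝓞 F), Datum (vF v))
    (T : Finset (HeightOneSpectrum (𝓞 F))) :
    ∀ {U U' : Lev F} (h : U ≤ U') (hI : ∀ u ∈ T, U.U u = Iw (vF u))
      (_ : ∀ u ∈ T, U'.U u = GLO (vF u)) (_ : ∀ w, w ∉ T → U.U w = U'.U w)
      (S : Finset (HeightOneSpectrum (𝓞 F))) (a c : HeightOneSpectrum (𝓞 F) → ℂ)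
      {f : Xi F × Lvl.D U → ℂ} (_ : EigF U (S ∪ T) a ν f)
      (_ : ∀ u (hu : u ∈ T), ∀ x d,
        (eAt (hI u hu) (𝔡 u)).act (fun d' => f (x, d')) d = f (x, d))
      (_ : ∀ u (hu : u ∈ T), ∀ x d,
        (cAt (hI u hu) (𝔡 u)).act (fun d' => f (x, d')) d = c u * f (x, d)),
      ∃ f' : Xi F × Lvl.D U' → ℂ, f = Desc.pull h f' ∧
        EigF U' S (fun v => if v ∈ T then c v else a v) ν f' := by
  induction T using Finset.induction_on with
  | empty =>
    intro U U' h hI hG he S a c f hf hef hcf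
    have hUU : U = U' := by
      have h1 : U.U = U'.U := funext fun w => he w (Finset.notMem_empty w)
      cases U; cases U'
      simp only [Lev.mk.injEq]
      exact h1
    subst hUU
    have hid : ∀ d : Lvl.D U, D.map h d = d := fun d => RProd.ext' fun v => by
      rw [D.map_apply]
      obtain ⟨g, hg⟩ := Cos.mk_surjective (d v)
      rw [← hg, Cos.map_mk]
    refine ⟨f, ?_, ?_⟩
    · funext ⟨x, d⟩
      rw [pull_apply, hid]
    · rw [Finset.union_empty] at hf
      exact hf.congr fun v _ => by rw [if_neg (Finset.notMem_empty v)]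
  | insert u T hu ih =>
    intro U U' h hI hG he S a c f hf hef hcf
    have hIu : U.U u = Iw (vF u) := hI u (Finset.mem_insert_self u T)
    have hGu : U'.U u = GLO (vF u) := hG u (Finset.mem_insert_self u T)
    have hTu : ∀ v ∈ T, v ≠ u := fun v hv hvu => hu (hvu ▸ hv)
    have h1 : U ≤ setGLO U u := le_setGLO U u
    have h2 : setGLO U u ≤ U' := setGLO_le h hGu
    have hS1 : S ∪ insert u T = insert u (S ∪ T) := by
      rw [Finset.union_insert]
    rw [hS1] at hf
    obtain ⟨f₁, rfl, hf₁⟩ := EigF.exists_lower h1 hIu (setGLO_self U u)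
      (fun w hw => (setGLO_of_ne U hw).symm) (𝔡 u) hf (hef u (Finset.mem_insert_self u T))
      (hcf u (Finset.mem_insert_self u T))
    have hI1 : ∀ v ∈ T, (setGLO U u).U v = Iw (vF v) := fun v hv => by
      rw [setGLO_of_ne U (hTu v hv)]
      exact hI v (Finset.mem_insert_of_mem hv)
    obtain ⟨f', rfl, hf'⟩ := ih h2 hI1 (fun v hv => hG v (Finset.mem_insert_of_mem hv))
      (fun w hw => by
        by_cases hwu : w = u
        · subst hwu
          rw [setGLO_self, hGu]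
        · rw [setGLO_of_ne U hwu]
          exact he w (by rw [Finset.mem_insert, not_or]; exact ⟨hwu, hw⟩))
      S (Function.update a u (c u)) c hf₁
      (fun v hv x d => by
        have h3 := (eAt_act_pull_iff h1 (hI v (Finset.mem_insert_of_mem hv)) (hI1 v hv) (𝔡 v) f₁
          1).mp (fun x d => by rw [one_smul]; exact hef v (Finset.mem_insert_of_mem hv) x d) x d
        rwa [one_smul] at h3)
      (fun v hv x d =>
        (cAt_act_pull_iff h1 (hI v (Finset.mem_insert_of_mem hv)) (hI1 v hv) (𝔡 v) f₁ (c v)).mp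
          (fun x d => hcf v (Finset.mem_insert_of_mem hv) x d) x d)
    refine ⟨f', pull_pull h1 h2 h f', hf'.congr fun v hv => ?_⟩
    by_cases hvT : v ∈ T
    · rw [if_pos hvT, if_pos (Finset.mem_insert_of_mem hvT)]
    · rw [if_neg hvT]
      by_cases hvu : v = u
      · subst hvu
        rw [Function.update_self, if_pos (Finset.mem_insert_self v T)]
      · rw [Function.update_of_ne hvu, if_neg (by rw [Finset.mem_insert, not_or]; exact ⟨hvu, hvT⟩)]

/-! ### The level without the Iwahori places -/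

/-- The maximal level at the places of `T`. -/
def setT (U : Lev F) (T : Finset (HeightOneSpectrum (𝓞 F))) : Lev F :=
  U.replace T (fun v => GLO (vF v)) (fun _ _ => le_rfl) fun v _ => isOpen_GLO v

theorem setT_mem (U : Lev F) {T : Finset (HeightOneSpectrum (𝓞 F))}
    {v : HeightOneSpectrum (𝓞 F)} (h : v ∈ T) : (setT U T).U v = GLO (vF v) :=
  Lev.replace_mem h

theorem setT_notMem (U : Lev F) {T : Finset (HeightOneSpectrum (𝓞 F))}
    {v : HeightOneSpectrum (𝓞 F)} (h : v ∉ T) : (setT U T).U v = U.U v :=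
  Lev.replace_notMem h

theorem le_setT (U : Lev F) (T : Finset (HeightOneSpectrum (𝓞 F))) : U ≤ setT U T := by
  intro v
  by_cases h : v ∈ T
  · rw [setT_mem U h]
    exact U.le v
  · rw [setT_notMem U h]

theorem toKap_pull {U U' : Lev F} (h : U ≤ U') (S : Finset (HeightOneSpectrum (𝓞 F)))
    (f' : Xi F × Lvl.D U' → ℂ) : Adapt.toKap S U (pull h f') = Adapt.toKap S U' f' :=
  toKap_map h f'

open Classical in
/-- An eigenfunction of Iwahori level at the places of `T`, fixed by `e_u`, eigenfunction of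
`C_u`, `u ∈ T`. -/
structure IwEig (𝔡 : ∀ v : HeightOneSpectrum (𝓞 F), Datum (vF v)) {U : Lev F}
    {T : Finset (HeightOneSpectrum (𝓞 F))} (hI : ∀ u ∈ T, U.U u = Iw (vF u))
    (S : Finset (HeightOneSpectrum (𝓞 F))) (a c : HeightOneSpectrum (𝓞 F) → ℂ)
    (ν : InfinitePlace F → (ℝ → ℂ) → ℂ) (f : Xi F × Lvl.D U → ℂ) : Prop where
  eig : EigF U (S ∪ T) a ν f
  e : ∀ u (hu : u ∈ T), ∀ x d,
    (eAt (hI u hu) (𝔡 u)).act (fun d' => f (x, d')) d = f (x, d)
  c : ∀ u (hu : u ∈ T), ∀ x d,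
    (cAt (hI u hu) (𝔡 u)).act (fun d' => f (x, d')) d = c u * f (x, d)

section Iw

variable {𝔡 : ∀ v : HeightOneSpectrum (𝓞 F), Datum (vF v)} {U : Lev F}
  {T : Finset (HeightOneSpectrum (𝓞 F))} {hI : ∀ u ∈ T, U.U u = Iw (vF u)}
  {S : Finset (HeightOneSpectrum (𝓞 F))} {a c : HeightOneSpectrum (𝓞 F) → ℂ}
  {f f' : Xi F × Lvl.D U → ℂ}

open Classical in
theorem IwEig.exists_pull (h : IwEig 𝔡 hI S a c ν f) :
    ∃ f₀ : Xi F × Lvl.D (setT U T) → ℂ, f = Desc.pull (le_setT U T) f₀ ∧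
      EigF (setT U T) S (fun v => if v ∈ T then c v else a v) ν f₀ :=
  EigF.exists_lower_finset 𝔡 T (le_setT U T) hI (fun u hu => setT_mem U hu)
    (fun w hw => (setT_notMem U hw).symm) S a c h.eig h.e h.c

open Kap in
/-- **Multiplicity one**, Iwahori level at the places of `T`. -/
theorem IwEig.exists_smul_eq {δ : F} {D : TyDat (Loc.Rf S)} {a₀ : (Loc.Rf S)ˣ}
    (hK : KapOK S δ D a₀) (h : IwEig 𝔡 hI S a c ν f)
    (hV : EqV D (Adapt.toKap S U f)) (h' : IwEig 𝔡 hI S a c ν f')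
    (hV' : EqV D (Adapt.toKap S U f')) (hne : ∃ z, f z ≠ 0) : ∃ c : ℂ, ∀ z, f' z = c * f z := by
  classical
  obtain ⟨f₀, rfl, h₀⟩ := h.exists_pull
  obtain ⟨f₀', rfl, h₀'⟩ := h'.exists_pull
  rw [toKap_pull] at hV hV'
  obtain ⟨b, hb⟩ := h₀.exists_smul_eq hK hV h₀' hV' ((exists_pull_ne_zero_iff _ f₀).mp hne)
  exact ⟨b, fun z => hb _⟩

end Iw

section Tau

open Ext Kap

variable {L : Type*} [Field L] [NumberField L] [IsTotallyComplex L] {G : Type*} [Group G]
  [MulSemiringAction G L] {S T : Finset (HeightOneSpectrum (𝓞 L))}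

theorem gstable_setT {U : Lev L} (hU : GStable G U.U) (hT : SStable G T) :
    GStable G (setT U T).U := by
  intro g w w' h x hx
  have hmem : w' ∈ T ↔ w ∈ T := by
    rw [← h]
    exact hT.mem_iff g w
  by_cases hw : w ∈ T
  · rw [setT_mem U (hmem.mpr hw)]
    rw [setT_mem U hw] at hx
    exact (mem_GLO_glExt_iff h x).mpr hx
  · rw [setT_notMem U (fun h' => hw (hmem.mp h'))]
    rw [setT_notMem U hw] at hx
    exact hU g w w' h hx

theorem map_tauD {U U' : Lev L} (h : U ≤ U') (hU : GStable G U.U) (hU' : GStable G U'.U) (g : G)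
    (d : Lvl.D U) : D.map h (tauD hU g d) = tauD hU' g (D.map h d) := by
  refine RProd.ext' fun w => ?_
  rw [D.map_apply, tauD_apply hU g d (smul_inv_smul g w),
    tauD_apply hU' g _ (smul_inv_smul g w), D.map_apply]
  obtain ⟨x, hx⟩ := Cos.mk_surjective (d (g⁻¹ • w))
  rw [← hx, Cos.map_mk]
  rfl

theorem tauFun_pull {U U' : Lev L} (h : U ≤ U') (hU : GStable G U.U) (hU' : GStable G U'.U) (g : G)
    (f : Xi L × Lvl.D U' → ℂ) : tauFun hU g (Desc.pull h f) = Desc.pull h (tauFun hU' g f) := by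
  funext ⟨x, d⟩
  rw [tauFun_apply, pull_apply, pull_apply, tauFun_apply, map_tauD h hU hU']

variable {𝔡 : ∀ v : HeightOneSpectrum (𝓞 L), Datum (vF v)} {U : Lev L}
  {hI : ∀ u ∈ T, U.U u = Iw (vF u)} {a c : HeightOneSpectrum (𝓞 L) → ℂ}
  {ν : InfinitePlace L → (ℝ → ℂ) → ℂ} {f : Xi L × Lvl.D U → ℂ}

/-- **`τ = 1`**, Iwahori level at the places of `T`. -/
theorem IwEig.tauFun_eq {δ : L} {D : TyDat (Loc.Rf S)} {a₀ : (Loc.Rf S)ˣ} (hK : KapOK S δ D a₀)
    (hS : SStable G S) (hT : SStable G T) (g : G) (hδ : g • δ = δ)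
    (hSt : (tauDat hS g hδ).Stab D a₀) (hU : GStable G U.U)
    (ha : ∀ v, v ∉ S → v ∉ T → a (g • v) = a v) (hc : ∀ v ∈ T, c (g • v) = c v)
    (hh : ∀ w : InfinitePlace L,
      ν (w.comap (MulSemiringAction.toRingEquiv G L g : L →+* L)) = ν w)
    (h : IwEig 𝔡 hI S a c ν f) (hV : EqV D (Adapt.toKap S U f)) : tauFun hU g f = f := by
  classical
  obtain ⟨f₀, rfl, h₀⟩ := h.exists_pull
  rw [toKap_pull] at hV
  have hU' := gstable_setT (G := G) hU hT
  rw [tauFun_pull _ hU hU', h₀.tauFun_eq hK hS g hδ hSt hU' (fun v hv => ?_) hh hV]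
  by_cases hvT : v ∈ T
  · rw [if_pos hvT, if_pos (hT g v hvT), hc v hvT]
  · rw [if_neg hvT, if_neg (fun h' => hvT ((hT.mem_iff g v).mp h')), ha v hv hvT]

end Tau

end Fermat.Agent.LT.Desc

end
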