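import Fermat.Agent.LT.Desc.PosR
import Fermat.Agent.LT.Desc.PosI
import Fermat.Agent.LT.Desc.RepV
import Fermat.Agent.LT.Desc.KapInst

/-!
# Multiplicity one and the Galois action on `V(U)`

`X : SetL τ U`, `X.s = sV` for a type `(V, χ)` at the places of `S`, levels maximal outside `S` and
the `u_j`.

* `EigL.exists_iwEig` : the regular representative of a joint eigenvector;
* `EigL.exists_smul_eq` : two joint eigenvectors are proportional (`hline` of `descent`);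
* `EigL.tauV_eq` : `τ` fixes the joint eigenvectors (`hτ` of `descent`).
-/

set_option autoImplicit false
set_option linter.unusedSectionVars false

noncomputable section

open MeasureTheory ENNReal NumberField Matrix IsDedekindDomain
open scoped InnerProductSpace ComplexConjugate WithZero Pointwise

namespace Fermat.Agent.LT.Desc

open H3 Fermat.Agent.LT.Iso Fermat.Agent.LT.Lvl Fermat.Agent.LT.HK Fermat.Agent.LT.Iwa
open Fermat.Agent.LT.Ext Kap Adapt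

section Pls

variable {K L : Type*} [Field K] [NumberField K] [Field L] [NumberField L] [Algebra K L]
  {τ : L ≃ₐ[K] L} {U : Lev L} (X : SetL τ U)

open Classical in
/-- The places `u_j`. -/
def SetL.pls : Finset (HeightOneSpectrum (𝓞 L)) := Finset.univ.image X.u

theorem SetL.mem_pls {v : HeightOneSpectrum (𝓞 L)} : v ∈ X.pls ↔ ∃ j, X.u j = v := by
  classical
  simp [SetL.pls]

theorem SetL.u_mem_pls (j : Fin 3) : X.u j ∈ X.pls := X.mem_pls.mpr ⟨j, rfl⟩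

theorem SetL.iw_pls : ∀ v ∈ X.pls, U.U v = Iw (vF v) := by
  intro v hv
  obtain ⟨j, rfl⟩ := X.mem_pls.mp hv
  exact X.iw j

theorem SetL.sStable_pls (h3 : IsThree τ) : SStable (L ≃ₐ[K] L) X.pls := by
  have h1 : ∀ v ∈ X.pls, τ • v ∈ X.pls := by
    intro v hv
    obtain ⟨j, rfl⟩ := X.mem_pls.mp hv
    exact X.mem_pls.mpr ⟨j + 1, (X.step j).symm⟩
  intro g v hv
  rcases h3.all g with rfl | rfl | rfl
  · rwa [one_smul]
  · exact h1 v hv
  · rw [mul_smul]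
    exact h1 _ (h1 v hv)

end Pls

section PosV

variable {K L : Type*} [Field K] [NumberField K] [Field L] [NumberField L] [Algebra K L]
  [IsTotallyComplex L] {τ : L ≃ₐ[K] L} {U : Lev L} {X : SetL τ U}
  {𝒦 : Type*} [CommSemigroup 𝒦] [StarMul 𝒦] {Kd : KDat L (Lvl.D U) 𝒦}
  {w : Xi L × Lvl.D U → ℝ≥0∞} {hw : IsWeight (PG L) w} {𝒦₀ : Type*} {k : 𝒦₀ → 𝒦} {yk : 𝒦₀ → ℝ}
  {P : (ℝ → ℂ) → Prop} {h : ℝ → ℂ} {S : Finset (HeightOneSpectrum (𝓞 L))}
  {lam : HeightOneSpectrum (𝓞 L) → ℝ} {v v' : Kd.V hw}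

theorem eq_of_vL_eq (h : vL Kd hw v = vL Kd hw v') : v = v' := by
  have h1 := congrArg Subtype.val h
  exact Subtype.ext h1

/-- **The regular representative of a joint eigenvector.** -/
theorem EigL.exists_iwEig (hC : KCls Kd k yk P h)
    (hlev : ∀ p, p ∉ S → (∀ j, X.u j ≠ p) → U.U p = GLO (vF p))
    (hv : EigL X k (repV Kd hw) lam yk v) :
    ∃ F₀ : Xi L × Lvl.D U → ℂ, IsRegRep (vL Kd hw v) F₀ ∧
      IwEig (fun p => datum p) X.iw_pls S (fun p => (lam p : ℂ)) (fun _ => 0) (fun _ => sph 0) F₀ ∧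
      ∀ x, X.s.act (fun d => F₀ (x, d)) = fun d => F₀ (x, d) := by
  classical
  obtain ⟨F₀, hF, hcusp, hbdd, hrad⟩ := hC.exists_reg hv.k
  have hlev' : ∀ p, p ∉ S ∪ X.pls → U.U p = GLO (vF p) := fun p hp => by
    rw [Finset.mem_union, not_or] at hp
    exact hlev p hp.1 fun j hj => hp.2 (X.mem_pls.mpr ⟨j, hj⟩)
  refine ⟨F₀, hF, ⟨⟨hlev', hF.cont, hF.inv_gl, hbdd, hcusp, fun p hp => ?_, hrad⟩, ?_, ?_⟩, ?_⟩
  · exact (hecke_iff_tAt (hlev' p hp) (datum p) F₀ (lam p : ℂ)).mpr fun x d =>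
      act_of_symV hF (hv.t p (hlev' p hp)) x d
  · intro u hu x d
    obtain ⟨j, rfl⟩ := X.mem_pls.mp hu
    have h1 := act_of_symV hF (c := 1) ((hv.e j).trans (one_smul ℂ v).symm) x d
    rwa [one_mul] at h1
  · intro u hu x d
    obtain ⟨j, rfl⟩ := X.mem_pls.mp hu
    exact act_of_symV hF (c := 0) ((hv.c j).trans (zero_smul ℂ v).symm) x d
  · intro x
    funext d
    have h1 := act_of_symV hF (c := 1) (hv.s.trans (one_smul ℂ v).symm) x d
    rwa [one_mul] at h1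

variable {hS : SStable (L ≃ₐ[K] L) S} {D₀ : TyDat (Loc.Rf S)} {a₀ : (Loc.Rf S)ˣ}

/-- **Multiplicity one** for joint eigenvectors in `V(U)`. -/
theorem EigL.exists_smul_eq (hC : KCls Kd k yk P h)
    (hlev : ∀ p, p ∉ S → (∀ j, X.u j ≠ p) → U.U p = GLO (vF p))
    (hTy : TypeOK hS D₀ a₀) (hL : LevOK U (D₀.loc hTy.prod)) (hs : X.s = sV hL)
    (hv : EigL X k (repV Kd hw) lam yk v) (hv' : EigL X k (repV Kd hw) lam yk v') (h0 : v ≠ 0) :
    ∃ c : ℂ, v' = c • v := by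
  obtain ⟨F₀, hF, hI, hsF⟩ := hv.exists_iwEig hC hlev
  obtain ⟨F₁, hF', hI', hsF'⟩ := hv'.exists_iwEig hC hlev
  rw [hs] at hsF hsF'
  have h1 : vL Kd hw v ≠ 0 := fun h => h0 (eq_of_vL_eq h)
  obtain ⟨c, hc⟩ := hI.exists_smul_eq hTy.kap (eqV_toKap hTy.prod hL hsF) hI'
    (eqV_toKap hTy.prod hL hsF') (hF.exists_ne_zero hw h1)
  refine ⟨c, ?_⟩
  have h2 : vL Kd hw v' = c • vL Kd hw v :=
    hF'.eq ((funext hc : F₁ = fun z => c * F₀ z) ▸ hF.csmul hw c)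
  exact eq_of_vL_eq (v' := c • v) h2

variable {φ : Equiv.Perm 𝒦} (hφs : ∀ k, star (φ k) = φ (star k))
  (hφ : ∀ k x x', Kd.kap (φ k) x x' = Kd.kap k (Xi.tau (τ : L ≃+* L).symm x)
    (Xi.tau (τ : L ≃+* L).symm x'))

theorem toRingEquiv_eq (τ : L ≃ₐ[K] L) :
    MulSemiringAction.toRingEquiv (L ≃ₐ[K] L) L τ = (τ : L ≃+* L) := RingEquiv.ext fun _ => rfl

/-- `τ` fixes a vector whose regular representative is `τ`-invariant. -/
theorem tauV_eq_of_tauFun {F₀ : Xi L × Lvl.D U → ℂ} (hF : IsRegRep (vL Kd hw v) F₀)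
    (hτ : tauFun X.hU τ F₀ = F₀) : tauV X Kd hw φ hφ v = v := by
  have h1 : ∀ z : Xi L × Lvl.D U,
      F₀ (tauZE (τ : L ≃+* L).symm (tauDEquiv X.hU τ).symm z) = F₀ z := by
    intro z
    have h2 := congrFun hτ (tauZE (τ : L ≃+* L).symm (tauDEquiv X.hU τ).symm z)
    rw [← h2, tauFun_apply, toRingEquiv_eq, tauZE_apply]
    have h3 : tauD X.hU τ ((tauDEquiv X.hU τ).symm z.2) = z.2 :=
      (tauDEquiv X.hU τ).apply_symm_apply z.2
    rw [h3, Xi.tau_tau_symm]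
  have h4 : arep (vL Kd hw (tauV X Kd hw φ hφ v)) =ᵐ[muXD (volume : Measure (Xi L)) (Lvl.D U)]
      F₀ := by
    refine ((tauHyp_tauZE (pg_tauD_symm X)).res_ae (Kd.stabV hw).le
      (stabOp_tau X Kd hw φ hφ) v).trans ?_
    have h5 := (tauHyp_tauZE (pg_tauD_symm X)).comp_ae hF.ae
    refine h5.trans (Filter.Eventually.of_forall fun z => ?_)
    exact h1 z
  have h6 : IsRegRep (vL Kd hw (tauV X Kd hw φ hφ v)) F₀ := ⟨hF.meas, hF.inv, hF.cont, h4⟩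
  exact eq_of_vL_eq (h6.eq hF)

/-- **`τ` fixes the joint eigenvectors** in `V(U)`. -/
theorem EigL.tauV_eq (h3 : IsThree τ) (hC : KCls Kd k yk P h)
    (hlev : ∀ p, p ∉ S → (∀ j, X.u j ≠ p) → U.U p = GLO (vF p))
    (hTy : TypeOK hS D₀ a₀) (hL : LevOK U (D₀.loc hTy.prod)) (hs : X.s = sV hL)
    (hlam : ∀ p, lam (τ • p) = lam p)
    (hv : EigL X k (repV Kd hw) lam yk v) : tauV X Kd hw φ hφ v = v := by
  obtain ⟨F₀, hF, hI, hsF⟩ := hv.exists_iwEig hC hlev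
  rw [hs] at hsF
  refine tauV_eq_of_tauFun hφ hF ?_
  exact hI.tauFun_eq hTy.kap hS (X.sStable_pls h3) τ (smul_one τ) (hTy.stab τ) X.hU
    (fun p _ _ => by rw [hlam]) (fun _ _ => rfl) (fun _ => rfl) (eqV_toKap hTy.prod hL hsF)

/-- `hline` of `descent`. -/
theorem hline_of (hC : KCls Kd k yk P h)
    (hlev : ∀ p, p ∉ S → (∀ j, X.u j ≠ p) → U.U p = GLO (vF p))
    (hTy : TypeOK hS D₀ a₀) (hL : LevOK U (D₀.loc hTy.prod)) (hs : X.s = sV hL) :
    ∀ lam' : HeightOneSpectrum (𝓞 L) → ℝ, (∀ p, lam' (τ • p) = lam' p) →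
      (∀ p, U.U p = GLO (vF p) → τ • p ≠ p → lam' p = lam p) →
      ∀ v v' : Kd.V hw, EigL X k (repV Kd hw) lam' yk v → EigL X k (repV Kd hw) lam' yk v' →
        v ≠ 0 → ∃ c : ℂ, v' = c • v :=
  fun _ _ _ _ _ hv hv' h0 => hv.exists_smul_eq hC hlev hTy hL hs hv' h0

/-- `hτ` of `descent`. -/
theorem htau_of {yk : RealK 𝒦 → ℝ} (h3 : IsThree τ)
    (hC : KCls Kd (Subtype.val : RealK 𝒦 → 𝒦) yk P h)
    (hlev : ∀ p, p ∉ S → (∀ j, X.u j ≠ p) → U.U p = GLO (vF p))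
    (hTy : TypeOK hS D₀ a₀) (hL : LevOK U (D₀.loc hTy.prod)) (hs : X.s = sV hL) :
    ∀ lam' : HeightOneSpectrum (𝓞 L) → ℝ, (∀ p, lam' (τ • p) = lam' p) →
      (∀ p, U.U p = GLO (vF p) → τ • p ≠ p → lam' p = lam p) →
      ∀ v : Kd.V hw, EigL X (Subtype.val : RealK 𝒦 → 𝒦) (repV Kd hw) lam' yk v →
        (tauOpV X Kd hw φ hφs hφ).T v = v :=
  fun _ h1 _ _ hv => hv.tauV_eq hφ h3 hC hlev hTy hL hs h1

end PosV

end Fermat.Agent.LT.Desc

end
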