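import Fermat.Agent.LT.Desc.Cube
import Fermat.Agent.LT.Desc.SetInst
import Fermat.Agent.LT.Desc.PosV
import Fermat.Agent.LT.Desc.ChiL
import Fermat.Agent.LT.Desc.OutK

/-!
# The descent theorem for the standard levels, the kernel `s_V` and the kernels `KinfL`

`repL`, `repK`, `tauL` : the representations on `V(U)`, `V(UK)` and the Galois operator;
`descent_std` : the remaining hypotheses are the comparison of the traces, the polynomial `P`,
multiplicity one, and the vector over `L`.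
-/

set_option autoImplicit false
set_option linter.unusedSectionVars false

noncomputable section

open MeasureTheory ENNReal NumberField Matrix IsDedekindDomain
open scoped InnerProductSpace ComplexConjugate WithZero Pointwise

namespace Fermat.Agent.LT.Desc

open Fermat.Agent.LT.Tr H3
open Fermat.Agent.CFT.SUnits Fermat.Agent.LT.Ext Fermat.Agent.LT.Lvl Fermat.Agent.LT.HK
open Fermat.Agent.LT.Iwa Fermat.Agent.LT.Kap Fermat.Agent.LT.Iso

section Rep

/-- The representation of the symbols on `V(U)`. -/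
abbrev repF {F : Type*} [Field F] [NumberField F] [IsTotallyComplex F] {U : Lev F}
    {w : Xi F × D U → ℝ≥0∞} (hw : IsWeight (PG F) w) :
    SymRep (KinfL F) (HK (PG F) (D U)) ((kdatL F (D U)).V hw) := repV (kdatL F (D U)) hw

variable {K L : Type*} [Field K] [NumberField K] [Field L] [NumberField L] [Algebra K L]
  [IsTotallyComplex L] {τ : L ≃ₐ[K] L} {U : Lev L} (X : SetL τ U)
  {w : Xi L × D U → ℝ≥0∞} (hw : IsWeight (PG L) w)

/-- The Galois operator on `V(U)`. -/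
def tauF : TauOp X (Subtype.val : RealK (KinfL L) → KinfL L) (repF hw) :=
  tauOpV X (kdatL L (D U)) hw (phiInf (τ : L ≃+* L)) (star_phiInf _)
    (kap_phiInf (D U) (τ : L ≃+* L))

theorem tauF_T : (tauF X hw).T = tauV X (kdatL L (D U)) hw (phiInf (τ : L ≃+* L))
    (kap_phiInf (D U) (τ : L ≃+* L)) := rfl

theorem yInf_tauF (x : RealK (KinfL L)) : yInf ((tauF X hw).σk x) = yInf x :=
  yInf_permReal (τ : L ≃+* L) x

end Rep

section Std

variable {K L : Type*} [Field K] [NumberField K] [Field L] [NumberField L] [Algebra K L]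
  [IsTotallyComplex K] [IsTotallyComplex L] [IsGalois K L] [Unique (InfinitePlace K)]
  {S : Finset (HeightOneSpectrum (𝓞 K))} {u : HeightOneSpectrum (𝓞 K)}
  {M : HeightOneSpectrum (𝓞 K) → ℕ} {τ : L ≃ₐ[K] L} {w₀ : HeightOneSpectrum (𝓞 L)}
  {T : ∀ w : aboveS L S, TyDat (w.1.adicCompletion L)}

/-- **The descent theorem for the standard levels.** -/
theorem descent_std (h3 : IsThree τ) (hfr : Module.finrank K L = 3) (hτ1 : τ ≠ 1)
    {s : InfinitePlace K → InfinitePlace L} (hs : Xi.IsAbove (algebraMap K L) s)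
    (hne : τ • w₀ ≠ w₀) (hu : under K w₀ = u) (huS : u ∉ S) (hM : ∀ v ∈ S, M v ≠ 0)
    (h : LevOK (Lev.stdUp L S {u} M) T) (hT : TStable (L ≃ₐ[K] L) T)
    (κ' : PTen (Lev.std S {u} M)) (hκ : ∀ v ∉ S, κ'.k v = 1)
    {wL : Xi L × D (Lev.stdUp L S {u} M) → ℝ≥0∞} (hwL : IsWeight (PG L) wL)
    {wK : Xi K × D (Lev.std S {u} M) → ℝ≥0∞} (hwK : IsWeight (PG K) wK)
    -- the comparison of the traces
    (P : List (WPl τ (Lev.stdUp L S {u} M) ⊕ RealK (KinfL L)) →₀ ℂ)
    (t : ∀ n, (isDiag_lettL (setL h3 hne hu huS hM h)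
        (kdatL L (D (Lev.stdUp L S {u} M))) hwL).Tr
      (opWL (setL h3 hne hu huS hM h) (Subtype.val : RealK (KinfL L) → KinfL L) (repF hwL) P [] n *
        (tauF (setL h3 hne hu huS hM h) hwL).T))
    (t' : ∀ n, (isDiag_lettK (setK huS hM κ' hκ) (setL h3 hne hu huS hM h).q
        (kdatL K (D (Lev.std S {u} M))) hwK).Tr
      (opWK (setK huS hM κ' hκ) (Subtype.val : RealK (KinfL K) → KinfL K) (repF hwK)
        (setL h3 hne hu huS hM h).q (good_down hM) (tI (Xi3.pl τ s)) P [] n))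
    (HT : ∀ l : List (WPl τ (Lev.stdUp L S {u} M) ⊕ RealK (KinfL L)), ∃ n₀ : ℕ, ∀ n, n₀ ≤ n →
      (isDiag_lettL (setL h3 hne hu huS hM h) (kdatL L (D (Lev.stdUp L S {u} M))) hwL).tr
        (opWL (setL h3 hne hu huS hM h) (Subtype.val : RealK (KinfL L) → KinfL L) (repF hwL)
          P l n * (tauF (setL h3 hne hu huS hM h) hwL).T) =
      (isDiag_lettK (setK huS hM κ' hκ) (setL h3 hne hu huS hM h).q
        (kdatL K (D (Lev.std S {u} M))) hwK).tr
        (opWK (setK huS hM κ' hκ) (Subtype.val : RealK (KinfL K) → KinfL K) (repF hwK)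
          (setL h3 hne hu huS hM h).q (good_down hM) (tI (Xi3.pl τ s)) P l n))
    -- the system of eigenvalues
    {lam : HeightOneSpectrum (𝓞 L) → ℝ} (hlam : ∀ w, lam (τ • w) = lam w)
    (hP : evN (yLet (τ := τ) (U := Lev.stdUp L S {u} M) lam yInf) P ≠ 0)
    -- multiplicity one
    (hline : ∀ lam' : HeightOneSpectrum (𝓞 L) → ℝ, (∀ w, lam' (τ • w) = lam' w) →
      (∀ w, (Lev.stdUp L S {u} M).U w = GLO (vF w) → τ • w ≠ w → lam' w = lam w) →
      ∀ v v' : (kdatL L (D (Lev.stdUp L S {u} M))).V hwL,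
        EigL (setL h3 hne hu huS hM h) Subtype.val (repF hwL) lam' yInf v →
        EigL (setL h3 hne hu huS hM h) Subtype.val (repF hwL) lam' yInf v' → v ≠ 0 →
        ∃ c : ℂ, v' = c • v)
    (hτ : ∀ lam' : HeightOneSpectrum (𝓞 L) → ℝ, (∀ w, lam' (τ • w) = lam' w) →
      (∀ w, (Lev.stdUp L S {u} M).U w = GLO (vF w) → τ • w ≠ w → lam' w = lam w) →
      ∀ v : (kdatL L (D (Lev.stdUp L S {u} M))).V hwL,
        EigL (setL h3 hne hu huS hM h) Subtype.val (repF hwL) lam' yInf v →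
        (tauF (setL h3 hne hu huS hM h) hwL).T v = v)
    -- existence over `L`
    {v₀ : (kdatL L (D (Lev.stdUp L S {u} M))).V hwL}
    (hv₀ : EigL (setL h3 hne hu huS hM h) Subtype.val (repF hwL) lam yInf v₀) (h0 : v₀ ≠ 0) :
    ∃ (a : HeightOneSpectrum (𝓞 K) → ℝ) (v' : (kdatL K (D (Lev.std S {u} M))).V hwK),
      v' ≠ 0 ∧ EigK (setK huS hM κ' hκ) Subtype.val (repF hwK) a yInf v' ∧
      ∀ w, (Lev.stdUp L S {u} M).U w = GLO (vF w) → τ • w ≠ w → a (under K w) = lam w :=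
  descent (setK huS hM κ' hκ) Subtype.val (repF hwK) (good_down hM) (absNorm_setK_u h3 hne hu huS hM h κ' hκ)
    (tauF (setL h3 hne hu huS hM h) hwL) (tI (Xi3.pl τ s))
    (isDiag_lettL (setL h3 hne hu huS hM h) (kdatL L (D (Lev.stdUp L S {u} M))) hwL)
    (isDiag_lettK (setK huS hM κ' hκ) (setL h3 hne hu huS hM h).q
      (kdatL K (D (Lev.std S {u} M))) hwK)
    P t t' HT (setL_s_mul_s h3 hne hu huS hM h) (ker_setL_tauD h3 hne hu huS hM h hT)
    hlam (fun x => yInf_tauF _ hwL x) hP hline hτ hv₀ h0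
    (cube_inf (card_places_eq_three hfr hτ1 hs) (Xi3.pl τ s))

end Std

section Form

variable {K L : Type} [Field K] [NumberField K] [Field L] [NumberField L] [Algebra K L]
  [IsTotallyComplex K] [IsTotallyComplex L] [IsGalois K L] [Unique (InfinitePlace K)]
  {S : Finset (HeightOneSpectrum (𝓞 K))} {u : HeightOneSpectrum (𝓞 K)}
  {M : HeightOneSpectrum (𝓞 K) → ℕ} {τ : L ≃ₐ[K] L} {w₀ : HeightOneSpectrum (𝓞 L)}
  {hG : SStable (L ≃ₐ[K] L) (aboveS L S)} {D₀ : TyDat (Loc.Rf (aboveS L S))}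
  {a₀ : (Loc.Rf (aboveS L S))ˣ}

/-- **The descent of forms.** The remaining hypotheses are the polynomial `P` and the comparison
of the traces. -/
theorem descent_form (h3 : IsThree τ) (hfr : Module.finrank K L = 3) (hτ1 : τ ≠ 1)
    {s : InfinitePlace K → InfinitePlace L} (hs : Xi.IsAbove (algebraMap K L) s)
    (hne : τ • w₀ ≠ w₀) (hu : under K w₀ = u) (huS : u ∉ S) (hM : ∀ v ∈ S, M v ≠ 0)
    (hTy : TypeOK hG D₀ a₀) (h : LevOK (Lev.stdUp L S {u} M) (D₀.loc hTy.prod))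
    (κ' : PTen (Lev.std S {u} M)) (hκ : ∀ v ∉ S, κ'.k v = 1)
    {wL : Xi L × D (Lev.stdUp L S {u} M) → ℝ≥0∞} (hwL : IsWeight (PG L) wL)
    {wK : Xi K × D (Lev.std S {u} M) → ℝ≥0∞} (hwK : IsWeight (PG K) wK)
    {Pk : (ℝ → ℂ) → Prop} {hk : ℝ → ℂ}
    (hC : KCls (kdatL L (D (Lev.stdUp L S {u} M))) (Subtype.val : RealK (KinfL L) → KinfL L)
      yInf Pk hk)
    -- the function over `L`
    {a : HeightOneSpectrum (𝓞 L) → ℂ} {f : Xi L × Lvl.D (Lev.stdUp L S {u} M) → ℂ}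
    (hf : IsChi0 (aboveS L S) (aboveS L {u}) (Lev.stdUp L S {u} M) a (fun _ => sph 0)
      (D₀.loc hTy.prod) f)
    {lam : HeightOneSpectrum (𝓞 L) → ℝ} (hlam : ∀ w, lam (τ • w) = lam w)
    (ha : ∀ w, under K w ∉ S → under K w ≠ u → a w = lam w)
    (hau : ∀ w, under K w = u → a w = 0)
    -- the comparison of the traces
    (P : List (WPl τ (Lev.stdUp L S {u} M) ⊕ RealK (KinfL L)) →₀ ℂ)
    (hP : evN (yLet (τ := τ) (U := Lev.stdUp L S {u} M) lam yInf) P ≠ 0)
    (t : ∀ n, (isDiag_lettL (setL h3 hne hu huS hM h)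
        (kdatL L (D (Lev.stdUp L S {u} M))) hwL).Tr
      (opWL (setL h3 hne hu huS hM h) (Subtype.val : RealK (KinfL L) → KinfL L) (repF hwL) P [] n *
        (tauF (setL h3 hne hu huS hM h) hwL).T))
    (t' : ∀ n, (isDiag_lettK (setK huS hM κ' hκ) (setL h3 hne hu huS hM h).q
        (kdatL K (D (Lev.std S {u} M))) hwK).Tr
      (opWK (setK huS hM κ' hκ) (Subtype.val : RealK (KinfL K) → KinfL K) (repF hwK)
        (setL h3 hne hu huS hM h).q (good_down hM) (tI (Xi3.pl τ s)) P [] n))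
    (HT : ∀ l : List (WPl τ (Lev.stdUp L S {u} M) ⊕ RealK (KinfL L)), ∃ n₀ : ℕ, ∀ n, n₀ ≤ n →
      (isDiag_lettL (setL h3 hne hu huS hM h) (kdatL L (D (Lev.stdUp L S {u} M))) hwL).tr
        (opWL (setL h3 hne hu huS hM h) (Subtype.val : RealK (KinfL L) → KinfL L) (repF hwL)
          P l n * (tauF (setL h3 hne hu huS hM h) hwL).T) =
      (isDiag_lettK (setK huS hM κ' hκ) (setL h3 hne hu huS hM h).q
        (kdatL K (D (Lev.std S {u} M))) hwK).tr
        (opWK (setK huS hM κ' hκ) (Subtype.val : RealK (KinfL K) → KinfL K) (repF hwK)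
          (setL h3 hne hu huS hM h).q (good_down hM) (tI (Xi3.pl τ s)) P l n)) :
    ∃ (b : HeightOneSpectrum (𝓞 K) → ℝ) (g : Xi K × Lvl.D (Lev.std S {u} M) → ℂ),
      IsForm K (Lev.std S {u} M) (insert u (S : Set (HeightOneSpectrum (𝓞 K)))) b g ∧
      ∀ w, (Lev.stdUp L S {u} M).U w = GLO (vF w) → τ • w ≠ w →
        √(Ideal.absNorm w.asIdeal) * b (under K w) = lam w := by
  obtain ⟨x₀, hx₀⟩ := exists_letter L
  have hx₀' : yInf x₀ ≠ 0 := by
    intro h0
    apply hx₀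
    rw [← coe_yInf', h0, Complex.ofReal_zero]
  obtain ⟨v₀, hv0, -, hv₀⟩ := hf.exists_v0 h3 hne hu huS hM h hwL ha hau
    (fun x => (coe_yInf' x).symm) hx₀'
  have hlev : ∀ p, p ∉ aboveS L S → (∀ j, (setL h3 hne hu huS hM h).u j ≠ p) →
      (Lev.stdUp L S {u} M).U p = GLO (vF p) := by
    intro p hp hj
    rw [mem_aboveS] at hp
    refine Lev.stdUp_off hp fun hp' => ?_
    rw [Finset.mem_singleton, ← hu] at hp'
    obtain ⟨j, hj'⟩ := exists_pl3_eq h3 hp'
    exact hj j hj'.symm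
  obtain ⟨c, v', hv'0, hv', hc⟩ := descent_std h3 hfr hτ1 hs hne hu huS hM h hTy.tst κ' hκ hwL hwK P t t'
    HT hlam hP (hline_of hC hlev hTy h rfl)
    (htau_of (star_phiInf (τ : L ≃+* L)) (kap_phiInf _ (τ : L ≃+* L)) h3 hC hlev hTy h rfl)
    hv₀ hv0
  have hN : ∀ v : HeightOneSpectrum (𝓞 K), (√(Ideal.absNorm v.asIdeal) : ℝ) ≠ 0 := by
    intro v
    have h1 : Ideal.absNorm v.asIdeal ≠ 0 := by
      rw [Ne, Ideal.absNorm_eq_zero_iff]
      exact v.ne_bot
    exact Real.sqrt_ne_zero'.mpr (Nat.cast_pos.2 (Nat.pos_of_ne_zero h1))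
  obtain ⟨g, -, hg⟩ := hv'.exists_isForm hv'0 (fun x => coe_yInf' x)
    (S := insert u (S : Set (HeightOneSpectrum (𝓞 K)))) (S.finite_toSet.insert u)
    (fun p hp => by
      rw [Set.mem_insert_iff, not_or] at hp
      exact Lev.std_off hp.2 fun h' => hp.1 (Finset.mem_singleton.mp h'))
    (a := fun p => c p / √(Ideal.absNorm p.asIdeal)) (fun p _ => mul_div_cancel₀ _ (hN p))
  refine ⟨_, g, hg, fun w hw hw' => ?_⟩
  have h1 : Ideal.absNorm (under K w).asIdeal = Ideal.absNorm w.asIdeal :=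
    absNorm_under_eq (stabilizer_eq_bot_of_ne h3 hw')
  rw [← h1, mul_div_cancel₀ _ (hN _)]
  exact hc w hw hw'

end Form

end Fermat.Agent.LT.Desc

end
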