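import Fermat.Agent.LT.HK.Place
import Fermat.Agent.LT.Level.PullK
import Fermat.Agent.LT.Red.Lattice

/-!
# Lowering the level at one place

`U ≤ U'` levels which agree outside the place `u`, `U.U u = Iw (vF u)`, `U'.U u = GLO (vF u)`.

* `castHK_cH_act_comp`: the local statement;
* `lifts_atPl`, `act_atPl_comp`: kernels at a place where the levels agree;
* `act_iwAt_comp`, `act_spAt_comp`, `act_tAt_comp`, `act_eAt_comp`, `act_wAt_comp`, ...;
* `eAt_act_eq_iff`: `e_u f = f` iff `f = f' ∘ D.map h`; `cAt_act_comp`: `C_u (f' ∘ p) = (T_u f') ∘ p`;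
* `pull h f' (x, d) = f' (x, D.map h d)`: invariance, continuity, measurability, boundedness,
  cuspidality of `pull h f'` and of `f'` are equivalent (`isCusp_pull_iff`).
-/

set_option autoImplicit false

open Matrix NumberField IsDedekindDomain MeasureTheory
open scoped Pointwise

noncomputable section

namespace Fermat.Agent.LT.Desc

open Fermat.Agent.LT.Lvl Fermat.Agent.LT.HK Fermat.Agent.LT.Iwa

/-! ### The local statement -/

section Local

variable {E Γ₀ : Type*} [Field E] [LinearOrderedCommGroupWithZero Γ₀] {v : Valuation E Γ₀}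
  {H H' : Subgroup (GL (Fin 2) E)} {M : Type*} [AddCommGroup M] [Module ℂ M]

theorem castHK_eH_act_eq_iff (𝔡 : Datum v) (hI : H = Iw v) (hG : H' = GLO v) (h : H ≤ H')
    (f : Cos H → M) : (castHK hI.symm 𝔡.eH).act f = f ↔ ∃ f₀ : Cos H' → M, f = f₀ ∘ Cos.map h := by
  subst hI hG
  rw [castHK_rfl]
  exact 𝔡.act_eH_eq_iff f

theorem castHK_eH_act_comp (𝔡 : Datum v) (hI : H = Iw v) (hG : H' = GLO v) (h : H ≤ H')
    (f₀ : Cos H' → M) : (castHK hI.symm 𝔡.eH).act (f₀ ∘ Cos.map h) = f₀ ∘ Cos.map h :=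
  (castHK_eH_act_eq_iff 𝔡 hI hG h _).mpr ⟨f₀, rfl⟩

theorem castHK_cH_act_comp (𝔡 𝔡' : Datum v) (hI : H = Iw v) (hG : H' = GLO v) (h : H ≤ H')
    (f₀ : Cos H' → M) : (castHK hI.symm 𝔡.cH).act (f₀ ∘ Cos.map h) =
      ((castHK hG.symm 𝔡'.tH).act f₀) ∘ Cos.map h := by
  subst hI hG
  rw [castHK_rfl, castHK_rfl, 𝔡'.tH_eq_tH 𝔡]
  exact 𝔡.act_cH_comp_pr f₀

end Local

/-! ### Kernels at a place where the levels agree -/

section Agree

theorem act_congr {G X M : Type*} [Group G] [MulAction G X] [AddCommGroup M] [Module ℂ M]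
    (a : HK G X) {f g : X → M} (hfg : ∀ y, f y = g y) (x : X) : a.act f x = a.act g x := by
  rw [funext hfg]

variable {F : Type*} [Field F] [NumberField F] {U U' : Lev F} {M : Type*} [AddCommGroup M]
  [Module ℂ M]

theorem map_upd (h : U ≤ U') (x : D U) (v : HeightOneSpectrum (𝓞 F)) (y : Dv U v)
    [DecidableEq (HeightOneSpectrum (𝓞 F))] :
    D.map h (upd x v y) = upd (D.map h x) v (Cos.map (h v) y) := by
  refine RProd.ext' fun w => ?_
  rw [D.map_apply]
  by_cases hw : w = v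
  · subst hw; rw [upd_self, upd_self]
  · rw [upd_of_ne _ _ hw, upd_of_ne _ _ hw, D.map_apply]

theorem ker_castHK_map (h : U ≤ U') {w : HeightOneSpectrum (𝓞 F)} (he : U.U w = U'.U w)
    (a : LocH U w) (x y : Dv U w) :
    (castHK he a).ker (Cos.map (h w) x) (Cos.map (h w) y) = a.ker x y := by
  rw [← ker_castHK he a x y, castCos_eq_map, castCos_eq_map]

theorem act_castHK_comp {w : HeightOneSpectrum (𝓞 F)} (h : U ≤ U') (he : U.U w = U'.U w)
    (a : LocH U w) (f : Dv U' w → M) :
    a.act (f ∘ Cos.map (h w)) = ((castHK he a).act f) ∘ Cos.map (h w) := by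
  funext x
  have h1 := act_castHK he a f x
  rw [Function.comp_apply, ← castCos_eq_map he x, h1]
  exact act_congr a (fun y => by rw [Function.comp_apply, castCos_eq_map he y]) x

/-- **Kernels at a place where the levels agree.** -/
theorem act_atPl_comp (h : U ≤ U') {w : HeightOneSpectrum (𝓞 F)} (he : U.U w = U'.U w)
    (a : LocH U w) (f' : D U' → M) :
    (atPl U w a).act (f' ∘ D.map h) = ((atPl U' w (castHK he a)).act f') ∘ D.map h := by
  classical
  funext x
  rw [Function.comp_apply, act_atPl, act_atPl, D.map_apply]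
  have h1 := congrFun (act_castHK_comp h he a fun y => f' (upd (D.map h x) w y)) (x w)
  rw [Function.comp_apply] at h1
  rw [← h1]
  exact act_congr a (fun y => by rw [Function.comp_apply, Function.comp_apply, map_upd]) _

/-- More generally: two local kernels compatible with the change of level. -/
theorem act_atPl_comp_of (h : U ≤ U') {w : HeightOneSpectrum (𝓞 F)}
    (a : LocH U w) (a' : LocH U' w)
    (ha : ∀ f : Dv U' w → M, a.act (f ∘ Cos.map (h w)) = (a'.act f) ∘ Cos.map (h w))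
    (f' : D U' → M) :
    (atPl U w a).act (f' ∘ D.map h) = ((atPl U' w a').act f') ∘ D.map h := by
  classical
  funext x
  rw [Function.comp_apply, act_atPl, act_atPl, D.map_apply]
  have h1 := congrFun (ha fun y => f' (upd (D.map h x) w y)) (x w)
  rw [Function.comp_apply] at h1
  rw [← h1]
  exact act_congr a (fun y => by rw [Function.comp_apply, Function.comp_apply, map_upd]) _

theorem castHK_trans {E : Type*} [Field E] {H H' H'' : Subgroup (GL (Fin 2) E)} (h : H = H')
    (h' : H' = H'') (a : HK (GL (Fin 2) E) (Cos H)) :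
    castHK h' (castHK h a) = castHK (h.trans h') a := by
  subst h h'
  simp only [castHK_rfl]

theorem act_iwAt_comp (h : U ≤ U') {w : HeightOneSpectrum (𝓞 F)} (hw : U.U w = Iw (vF w))
    (hw' : U'.U w = Iw (vF w)) (a : HK (GL (Fin 2) (w.adicCompletion F)) (Cos (Iw (vF w))))
    (f' : D U' → M) :
    (iwAt hw a).act (f' ∘ D.map h) = ((iwAt hw' a).act f') ∘ D.map h := by
  rw [iwAt_apply, iwAt_apply, act_atPl_comp h (hw.trans hw'.symm), castHK_trans]

theorem act_spAt_comp (h : U ≤ U') {w : HeightOneSpectrum (𝓞 F)} (hw : U.U w = GLO (vF w))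
    (hw' : U'.U w = GLO (vF w)) (a : HK (GL (Fin 2) (w.adicCompletion F)) (Cos (GLO (vF w))))
    (f' : D U' → M) :
    (spAt hw a).act (f' ∘ D.map h) = ((spAt hw' a).act f') ∘ D.map h := by
  rw [spAt_apply, spAt_apply, act_atPl_comp h (hw.trans hw'.symm), castHK_trans]

theorem act_tAt_comp (h : U ≤ U') {w : HeightOneSpectrum (𝓞 F)} (hw : U.U w = GLO (vF w))
    (hw' : U'.U w = GLO (vF w)) (𝔡 𝔡' : Datum (vF w)) (f' : D U' → M) :
    (tAt hw 𝔡).act (f' ∘ D.map h) = ((tAt hw' 𝔡').act f') ∘ D.map h := by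
  rw [tAt_eq_tAt 𝔡 hw 𝔡']
  exact act_spAt_comp h hw hw' _ f'

theorem act_eAt_comp (h : U ≤ U') {w : HeightOneSpectrum (𝓞 F)} (hw : U.U w = Iw (vF w))
    (hw' : U'.U w = Iw (vF w)) (𝔡 𝔡' : Datum (vF w)) (f' : D U' → M) :
    (eAt hw 𝔡).act (f' ∘ D.map h) = ((eAt hw' 𝔡').act f') ∘ D.map h := by
  rw [eAt_eq_eAt hw 𝔡 𝔡']
  exact act_iwAt_comp h hw hw' _ f'

theorem act_wAt_comp (h : U ≤ U') {w : HeightOneSpectrum (𝓞 F)} (hw : U.U w = Iw (vF w))
    (hw' : U'.U w = Iw (vF w)) (𝔡 𝔡' : Datum (vF w)) (f' : D U' → M) :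
    (wAt hw 𝔡).act (f' ∘ D.map h) = ((wAt hw' 𝔡').act f') ∘ D.map h := by
  rw [wAt_eq_wAt hw 𝔡 𝔡']
  exact act_iwAt_comp h hw hw' _ f'

theorem act_cAt_comp (h : U ≤ U') {w : HeightOneSpectrum (𝓞 F)} (hw : U.U w = Iw (vF w))
    (hw' : U'.U w = Iw (vF w)) (𝔡 : Datum (vF w)) (f' : D U' → M) :
    (cAt hw 𝔡).act (f' ∘ D.map h) = ((cAt hw' 𝔡).act f') ∘ D.map h :=
  act_iwAt_comp h hw hw' _ f'

end Agree

/-! ### The place `u` -/

section AtU

variable {F : Type*} [Field F] [NumberField F] {U U' : Lev F} {M : Type*} [AddCommGroup M]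
  [Module ℂ M] {u : HeightOneSpectrum (𝓞 F)}

/-- **On functions of level `GL₂(O_u)` the operator `C_u` is `T_u`.** -/
theorem cAt_act_comp (h : U ≤ U') (hI : U.U u = Iw (vF u)) (hG : U'.U u = GLO (vF u))
    (𝔡 𝔡' : Datum (vF u)) (f' : D U' → M) :
    (cAt hI 𝔡).act (f' ∘ D.map h) = ((tAt hG 𝔡').act f') ∘ D.map h := by
  rw [cAt, tAt, iwAt_apply, spAt_apply]
  exact act_atPl_comp_of h _ _ (fun f => castHK_cH_act_comp 𝔡 𝔡' hI hG (h u) f) f'

/-- Functions of level `GL₂(O_u)` are fixed by `e_u`. -/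
theorem eAt_act_comp (h : U ≤ U') (hI : U.U u = Iw (vF u)) (hG : U'.U u = GLO (vF u))
    (𝔡 : Datum (vF u)) (f' : D U' → M) :
    (eAt hI 𝔡).act (f' ∘ D.map h) = f' ∘ D.map h := by
  rw [eAt, iwAt_apply, act_atPl_comp_of h _ 1 (fun f => ?_) f', map_one, HK.act_one]
  · rfl
  · rw [HK.act_one]
    exact castHK_eH_act_comp 𝔡 hI hG (h u) f

/-- The functions which are fixed by `e_u` are the functions of level `GL₂(O_u)`. -/
theorem eAt_act_eq_iff (h : U ≤ U') (hI : U.U u = Iw (vF u)) (hG : U'.U u = GLO (vF u))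
    (he : ∀ w ≠ u, U.U w = U'.U w) (𝔡 : Datum (vF u)) (f : D U → M) :
    (eAt hI 𝔡).act f = f ↔ ∃ f' : D U' → M, f = f' ∘ D.map h := by
  classical
  constructor
  · intro hf
    -- `f` is constant on the fibres of `D.map h`
    have key : ∀ x x' : D U, D.map h x = D.map h x' → f x = f x' := by
      intro x x' hxx
      have h1 : (castHK hI.symm 𝔡.eH).act (fun y : Dv U u => f (upd x u y)) =
          fun y => f (upd x u y) := by
        funext y
        have h2 := congrFun hf (upd x u y)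
        rw [eAt, iwAt_apply, act_atPl, upd_self] at h2
        rw [← h2]
        refine act_congr _ (fun z => ?_) _
        congr 1
        refine RProd.ext' fun w => ?_
        by_cases hw : w = u
        · subst hw; rw [upd_self, upd_self]
        · rw [upd_of_ne _ _ hw, upd_of_ne _ _ hw, upd_of_ne _ _ hw]
      obtain ⟨f₀, h3⟩ := (castHK_eH_act_eq_iff 𝔡 hI hG (h u) _).mp h1
      have h4 : ∀ w ≠ u, x w = x' w := fun w hw =>
        Cos.map_injective_of_eq (h w) (he w hw) (congrArg (fun z : D U' => z w) hxx)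
      have h5 : Cos.map (h u) (x u) = Cos.map (h u) (x' u) :=
        congrArg (fun z : D U' => z u) hxx
      have h6 := congrFun h3 (x u)
      have h7 := congrFun h3 (x' u)
      rw [Function.comp_apply] at h6 h7
      rw [upd_eq (z := x) fun w _ => rfl] at h6
      rw [upd_eq (z := x') h4] at h7
      rw [h6, h7, h5]
    obtain ⟨s, hs⟩ := (D.map_surjective h).hasRightInverse
    exact ⟨fun d => f (s d), funext fun x => key _ _ (hs (D.map h x)).symm⟩
  · rintro ⟨f', rfl⟩
    exact eAt_act_comp h hI hG 𝔡 f'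

end AtU

/-! ### Periodic functions and multiples of a lattice -/

section Index

variable {ι V E : Type*} [Fintype ι] [NormedAddCommGroup V] [NormedSpace ℝ V]
  [MeasurableSpace V] [BorelSpace V] {μ : Measure V}
  [μ.IsAddLeftInvariant] [NormedAddCommGroup E] [NormedSpace ℝ E]

/-- The integral of a periodic function over `n` times a fundamental domain. -/
theorem setIntegral_smul_fundamentalDomain (b : Module.Basis ι ℝ V) {n : ℕ} (hn : n ≠ 0)
    {g : V → E} (hg : ∀ v ∈ Submodule.span ℤ (Set.range b), ∀ x, g (v + x) = g x)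
    (hint : IntegrableOn g (ZSpan.fundamentalDomain b) μ) :
    ∫ x in (n : ℝ) • ZSpan.fundamentalDomain b, g x ∂μ =
      (n ^ Fintype.card ι) • ∫ x in ZSpan.fundamentalDomain b, g x ∂μ := by
  classical
  have : FiniteDimensional ℝ V := b.finiteDimensional_of_finite
  have hn0 : (n : ℝ) ≠ 0 := Nat.cast_ne_zero.mpr hn
  have hnp : (0 : ℝ) < n := Nat.cast_pos.mpr (Nat.pos_of_ne_zero hn)
  set v : (ι → ℕ) → V := fun c => ∑ i, (c i : ℤ) • b i with hv
  have hvmem : ∀ c, -v c ∈ Submodule.span ℤ (Set.range b) := fun c =>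
    neg_mem (Submodule.sum_mem _ fun i _ => Submodule.smul_mem _ _ (Submodule.subset_span ⟨i, rfl⟩))
  have hrepr : ∀ (c : ι → ℕ) (x : V) (i : ι), b.repr (-v c + x) i = b.repr x i - c i := by
    intro c x i
    have h1 : b.repr (v c) i = c i := by
      have h2 : v c = ∑ i, (c i : ℝ) • b i := by
        rw [hv]
        refine Finset.sum_congr rfl fun i _ => ?_
        rw [← Int.cast_smul_eq_zsmul ℝ, Int.cast_natCast]
      rw [h2, b.repr_sum_self]
    rw [map_add, map_neg, Finsupp.add_apply, Finsupp.neg_apply, h1]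
    ring
  set T : (ι → ℕ) → Set V := fun c => (fun x => -v c + x) ⁻¹' ZSpan.fundamentalDomain b with hT
  have hmem : ∀ c x, x ∈ T c ↔ ∀ i, (c i : ℝ) ≤ b.repr x i ∧ b.repr x i < c i + 1 := by
    intro c x
    rw [hT, Set.mem_preimage, ZSpan.mem_fundamentalDomain]
    refine forall_congr' fun i => ?_
    rw [hrepr, Set.mem_Ico, sub_nonneg, sub_lt_iff_lt_add, add_comm (1 : ℝ)]
  set R : Finset (ι → ℕ) := Fintype.piFinset fun _ => Finset.range n with hR
  have hU : (n : ℝ) • ZSpan.fundamentalDomain b = ⋃ c ∈ R, T c := by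
    ext x
    rw [Set.mem_smul_set_iff_inv_smul_mem₀ hn0, ZSpan.mem_fundamentalDomain]
    simp only [Set.mem_iUnion, hmem, exists_prop]
    have h1 : ∀ i, b.repr ((n : ℝ)⁻¹ • x) i = (n : ℝ)⁻¹ * b.repr x i := fun i => by
      rw [map_smul, Finsupp.smul_apply, smul_eq_mul]
    simp only [h1, Set.mem_Ico]
    constructor
    · intro h
      have h0 : ∀ i, 0 ≤ b.repr x i := fun i => by
        have := (h i).1
        exact nonneg_of_mul_nonneg_right this (inv_pos.mpr hnp)
      refine ⟨fun i => ⌊b.repr x i⌋₊, ?_, fun i => ⟨Nat.floor_le (h0 i), Nat.lt_floor_add_one _⟩⟩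
      rw [hR, Fintype.mem_piFinset]
      intro i
      rw [Finset.mem_range, Nat.floor_lt (h0 i)]
      have := (h i).2
      rwa [inv_mul_lt_iff₀ hnp, mul_one] at this
    · rintro ⟨c, hc, h⟩ i
      rw [hR, Fintype.mem_piFinset] at hc
      have h2 : (c i : ℝ) + 1 ≤ n := by
        have := Finset.mem_range.mp (hc i)
        exact_mod_cast this
      have h3 : (0 : ℝ) ≤ c i := Nat.cast_nonneg _
      refine ⟨mul_nonneg (inv_pos.mpr hnp).le (h3.trans (h i).1), ?_⟩
      rw [inv_mul_lt_iff₀ hnp, mul_one]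
      exact (h i).2.trans_le h2
  have hmp : ∀ c, MeasurePreserving (fun x => -v c + x) μ μ := fun c =>
    measurePreserving_add_left μ _
  have hme : ∀ c, MeasurableEmbedding (fun x => -v c + x) := fun c =>
    (MeasurableEquiv.addLeft (-v c)).measurableEmbedding
  have hTm : ∀ c, MeasurableSet (T c) := fun c =>
    (hmp c).measurable (ZSpan.fundamentalDomain_measurableSet b)
  have hTi : ∀ c, ∫ x in T c, g x ∂μ = ∫ x in ZSpan.fundamentalDomain b, g x ∂μ := by
    intro c
    have h1 := (hmp c).setIntegral_preimage_emb (hme c) g (ZSpan.fundamentalDomain b)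
    simp only [hg _ (hvmem c)] at h1
    exact h1
  have hTint : ∀ c, IntegrableOn g (T c) μ := by
    intro c
    have h1 := ((hmp c).integrableOn_comp_preimage (hme c)).mpr hint
    have h2 : g ∘ (fun x => -v c + x) = g := funext fun x => hg _ (hvmem c) x
    rwa [h2] at h1
  rw [hU, integral_biUnion_finset R (fun c _ => hTm c) _ fun c _ => hTint c,
    Finset.sum_congr rfl fun c _ => hTi c, Finset.sum_const, hR, Fintype.card_piFinset]
  · simp
  · intro c _ c' _ hne
    rw [Function.onFun, Set.disjoint_left]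
    intro x hx hx'
    refine hne (funext fun i => ?_)
    have h1 := (hmem c x).mp hx i
    have h2 := (hmem c' x).mp hx' i
    have h3 : (c i : ℝ) < c' i + 1 := h1.1.trans_lt h2.2
    have h4 : (c' i : ℝ) < c i + 1 := h2.1.trans_lt h1.2
    have h5 : c i < c' i + 1 := by exact_mod_cast h3
    have h6 : c' i < c i + 1 := by exact_mod_cast h4
    omega

end Index

/-! ### Functions on `X × D U` -/

section Pull

variable {F : Type*} [Field F] [NumberField F] {U U' : Lev F} {X E : Type*}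

/-- The pull back of a function on `X × D U'` to `X × D U`. -/
def pull (h : U ≤ U') (f' : X × Lvl.D U' → E) : X × Lvl.D U → E :=
  fun z => f' (z.1, D.map h z.2)

@[simp] theorem pull_apply (h : U ≤ U') (f' : X × Lvl.D U' → E) (x : X) (d : Lvl.D U) :
    pull h f' (x, d) = f' (x, D.map h d) := rfl

theorem pull_row (h : U ≤ U') (f' : X × Lvl.D U' → E) (x : X) :
    (fun d => pull h f' (x, d)) = (fun d => f' (x, d)) ∘ D.map h := rfl

theorem pull_injective (h : U ≤ U') : Function.Injective (pull (X := X) (E := E) h) := by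
  intro f g hfg
  funext ⟨x, d⟩
  obtain ⟨d, rfl⟩ := D.map_surjective h d
  exact congrFun hfg (x, d)

theorem forall_pull_iff (h : U ≤ U') (f' : X × Lvl.D U' → E) (P : E → Prop) :
    (∀ z, P (pull h f' z)) ↔ ∀ z, P (f' z) := by
  constructor
  · rintro hP ⟨x, d⟩
    obtain ⟨d, rfl⟩ := D.map_surjective h d
    exact hP (x, d)
  · exact fun hP z => hP _

theorem exists_pull_ne_zero_iff [Zero E] (h : U ≤ U') (f' : X × Lvl.D U' → E) :
    (∃ z, pull h f' z ≠ 0) ↔ ∃ z, f' z ≠ 0 := by
  have h1 := not_congr (forall_pull_iff h f' fun e => e = 0)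
  push Not at h1
  exact h1

theorem bdd_pull_iff [Norm E] (h : U ≤ U') (f' : X × Lvl.D U' → E) :
    (∃ B : ℝ, ∀ z, ‖pull h f' z‖ ≤ B) ↔ ∃ B : ℝ, ∀ z, ‖f' z‖ ≤ B :=
  exists_congr fun B => forall_pull_iff h f' fun e => ‖e‖ ≤ B

theorem continuous_pull_iff [TopologicalSpace X] [TopologicalSpace E] (h : U ≤ U')
    (f' : X × Lvl.D U' → E) :
    (∀ d, Continuous fun x => pull h f' (x, d)) ↔ ∀ d, Continuous fun x => f' (x, d) := by
  constructor
  · intro hc d
    obtain ⟨d, rfl⟩ := D.map_surjective h d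
    exact hc d
  · exact fun hc d => hc (D.map h d)

theorem measurable_pull_iff [MeasurableSpace X] [MeasurableSpace E] (h : U ≤ U')
    (f' : X × Lvl.D U' → E) : Measurable (pull h f') ↔ Measurable f' := by
  have h1 : ∀ {V : Lev F} (f : X × Lvl.D V → E),
      Measurable f ↔ ∀ d, Measurable fun x => f (x, d) := by
    intro V f
    constructor
    · intro hf d
      exact hf.comp (measurable_id.prodMk measurable_const)
    · intro hf
      exact measurable_from_prod_countable_left hf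
  rw [h1, h1]
  constructor
  · intro hc d
    obtain ⟨d, rfl⟩ := D.map_surjective h d
    exact hc d
  · exact fun hc d => hc (D.map h d)

/-- invariance under `GL₂(F)` -/
theorem inv_pull_iff [MulAction (GL (Fin 2) F) X] (h : U ≤ U') (f' : X × Lvl.D U' → E) :
    (∀ (g : GL (Fin 2) F) (z : X × Lvl.D U), pull h f' (g • z) = pull h f' z) ↔
      ∀ (g : GL (Fin 2) F) (z : X × Lvl.D U'), f' (g • z) = f' z := by
  constructor
  · rintro hf g ⟨x, d⟩
    obtain ⟨d, rfl⟩ := D.map_surjective h d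
    have h1 := hf g (x, d)
    rw [Prod.smul_mk, pull_apply, pull_apply, D.map_smul] at h1
    exact h1
  · rintro hf g ⟨x, d⟩
    rw [Prod.smul_mk, pull_apply, pull_apply, D.map_smul]
    exact hf g (x, D.map h d)

theorem pull_smul [MulAction (GL (Fin 2) F) X] (h : U ≤ U') (f' : X × Lvl.D U' → E)
    (g : GL (Fin 2) F) (z : X × Lvl.D U) :
    pull h f' (g • z) = pull h (fun z' => f' (g • z')) z := by
  obtain ⟨x, d⟩ := z
  rw [Prod.smul_mk, pull_apply, pull_apply, D.map_smul, Prod.smul_mk]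

end Pull

/-! ### Lowering the level of a function -/

section Lower

variable {F : Type*} [Field F] [NumberField F] {U U' : Lev F} {X M : Type*} [AddCommGroup M]
  [Module ℂ M] {u : HeightOneSpectrum (𝓞 F)}

/-- **Functions on `X × D U` fixed by `e_u` come from `X × D U'`.** -/
theorem exists_eq_pull (h : U ≤ U') (hI : U.U u = Iw (vF u)) (hG : U'.U u = GLO (vF u))
    (he : ∀ w ≠ u, U.U w = U'.U w) (𝔡 : Datum (vF u)) (f : X × Lvl.D U → M)
    (hf : ∀ x d, (eAt hI 𝔡).act (fun d' => f (x, d')) d = f (x, d)) :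
    ∃ f' : X × Lvl.D U' → M, f = pull h f' := by
  have h1 : ∀ x, ∃ f₀ : Lvl.D U' → M, (fun d => f (x, d)) = f₀ ∘ D.map h := fun x =>
    (eAt_act_eq_iff h hI hG he 𝔡 _).mp (funext fun d => hf x d)
  choose f₀ hf₀ using h1
  exact ⟨fun z => f₀ z.1 z.2, funext fun ⟨x, d⟩ => congrFun (hf₀ x) d⟩

theorem eAt_act_pull (h : U ≤ U') (hI : U.U u = Iw (vF u)) (hG : U'.U u = GLO (vF u))
    (𝔡 : Datum (vF u)) (f' : X × Lvl.D U' → M) (x : X) (d : Lvl.D U) :
    (eAt hI 𝔡).act (fun d' => pull h f' (x, d')) d = pull h f' (x, d) :=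
  congrFun (eAt_act_comp h hI hG 𝔡 fun d' => f' (x, d')) d

theorem cAt_act_pull (h : U ≤ U') (hI : U.U u = Iw (vF u)) (hG : U'.U u = GLO (vF u))
    (𝔡 𝔡' : Datum (vF u)) (f' : X × Lvl.D U' → M) (x : X) (d : Lvl.D U) :
    (cAt hI 𝔡).act (fun d' => pull h f' (x, d')) d =
      pull h (fun z => (tAt hG 𝔡').act (fun d' => f' (z.1, d')) z.2) (x, d) :=
  congrFun (cAt_act_comp h hI hG 𝔡 𝔡' fun d' => f' (x, d')) d

/-- **`C_u f = c f` on the level `U` gives `T_u f' = c f'` on the level `U'`.** -/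
theorem tAt_act_eq_smul (h : U ≤ U') (hI : U.U u = Iw (vF u)) (hG : U'.U u = GLO (vF u))
    (𝔡 𝔡' : Datum (vF u)) {f' : X × Lvl.D U' → M} {c : ℂ}
    (hc : ∀ x d, (cAt hI 𝔡).act (fun d' => pull h f' (x, d')) d = c • pull h f' (x, d))
    (x : X) (d : Lvl.D U') : (tAt hG 𝔡').act (fun d' => f' (x, d')) d = c • f' (x, d) := by
  obtain ⟨d, rfl⟩ := D.map_surjective h d
  have h1 := hc x d
  rw [cAt_act_pull h hI hG 𝔡 𝔡'] at h1
  exact h1

/-- the kernels at the places where the levels agree -/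
theorem atPl_act_pull (h : U ≤ U') {w : HeightOneSpectrum (𝓞 F)} (he : U.U w = U'.U w)
    (a : LocH U w) (f' : X × Lvl.D U' → M) (x : X) (d : Lvl.D U) :
    (atPl U w a).act (fun d' => pull h f' (x, d')) d =
      pull h (fun z => (atPl U' w (castHK he a)).act (fun d' => f' (z.1, d')) z.2) (x, d) :=
  congrFun (act_atPl_comp h he a fun d' => f' (x, d')) d

theorem tAt_act_pull (h : U ≤ U') {w : HeightOneSpectrum (𝓞 F)} (hw : U.U w = GLO (vF w))
    (hw' : U'.U w = GLO (vF w)) (𝔡 𝔡' : Datum (vF w)) (f' : X × Lvl.D U' → M) (x : X)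
    (d : Lvl.D U) :
    (tAt hw 𝔡).act (fun d' => pull h f' (x, d')) d =
      pull h (fun z => (tAt hw' 𝔡').act (fun d' => f' (z.1, d')) z.2) (x, d) :=
  congrFun (act_tAt_comp h hw hw' 𝔡 𝔡' fun d' => f' (x, d')) d

theorem tAt_act_eq_smul' (h : U ≤ U') {w : HeightOneSpectrum (𝓞 F)} (hw : U.U w = GLO (vF w))
    (hw' : U'.U w = GLO (vF w)) (𝔡 𝔡' : Datum (vF w)) {f' : X × Lvl.D U' → M} {c : ℂ}
    (hc : ∀ x d, (tAt hw 𝔡).act (fun d' => pull h f' (x, d')) d = c • pull h f' (x, d))
    (x : X) (d : Lvl.D U') : (tAt hw' 𝔡').act (fun d' => f' (x, d')) d = c • f' (x, d) := by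
  obtain ⟨d, rfl⟩ := D.map_surjective h d
  have h1 := hc x d
  rw [tAt_act_pull h hw hw' 𝔡 𝔡'] at h1
  exact h1

end Lower

/-! ### Cuspidality -/

section Cusp

variable {F : Type*} [Field F] [NumberField F] [IsTotallyComplex F]

theorem fdom_mul {m : ℕ} (hm : m ≠ 0) (n : ℕ) :
    fdom F (m * n) = (n : ℝ) • ZSpan.fundamentalDomain (mBasis F hm) := by
  rw [← fdom_eq hm, fdom, fdom, smul_smul, Nat.cast_mul, mul_comm (n : ℝ)]

/-- the vanishing of the integral of a periodic function does not depend on the lattice -/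
theorem setIntegral_fdom_eq_zero {E : Type*} [NormedAddCommGroup E] [NormedSpace ℝ E] {m n : ℕ}
    (hm : m ≠ 0) (hn : n ≠ 0) {g : (InfinitePlace F → ℂ) → E}
    (hg : ∀ ξ ∈ mLat F hm, ∀ z, g (ξ + z) = g z)
    (h0 : ∫ z in fdom F (m * n), g z = 0) : ∫ z in fdom F m, g z = 0 := by
  by_cases hint : IntegrableOn g (fdom F m)
  · rw [fdom_eq hm] at hint ⊢
    rw [fdom_mul hm, setIntegral_smul_fundamentalDomain (mBasis F hm) hn hg hint,
      ← Nat.cast_smul_eq_nsmul ℝ, smul_eq_zero] at h0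
    refine h0.resolve_left ?_
    exact_mod_cast pow_ne_zero _ hn
  · exact integral_undef hint

variable {U U' : Lev F}

/-- **An invariant function is cuspidal iff its pull back is.** -/
theorem isCusp_pull_iff (h : U ≤ U') {f' : Xi F × Lvl.D U' → ℂ}
    (hf : ∀ (g : GL (Fin 2) F) z, f' (g • z) = f' z) : IsCusp (pull h f') ↔ IsCusp f' := by
  constructor
  · intro hc d' m hm hd'
    obtain ⟨d, rfl⟩ := D.map_surjective h d'
    obtain ⟨n, hn⟩ := exists_isMod F d
    have h1 : ∀ a : 𝓞 F, nb (((m * n : ℕ) : F) * a) • d = d := by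
      intro a
      have h2 : ((m * n : ℕ) : F) * a = (n : F) * ((m : F) * a) := by
        push_cast
        ring
      rw [h2]
      exact hn.nb_smul ((isIntegral_natCast m).mul (RingOfIntegers.isIntegral_coe a))
    filter_upwards [hc d (m * n) (mul_ne_zero hm hn.1) h1] with y hy hpos
    refine setIntegral_fdom_eq_zero hm hn.1 (fun ξ hξ z => ?_) (hy hpos)
    exact periodic_of_inv hf hm hd' hpos ⟨ξ, hξ⟩ z
  · exact isCusp_comp (D.map_smul h)

end Cusp

end Fermat.Agent.LT.Desc

end
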