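import Fermat.Agent.LT.Desc.Phi
import Fermat.Agent.LT.Desc.InW
import Fermat.Agent.LT.Desc.Old
import Fermat.Agent.LT.HK.NbrAt
import Fermat.Agent.LT.Kappa.LevKap

/-!
# The function `f₁` of level `U` attached to an eigenfunction `f₀` of some level

`U` : small principal at `S`, Iwahori at `T`, maximal elsewhere.

* `EigF.tAt_act`, `EigF.eAt_act_map`, `EigF.cAt_act_map`, `act_sV_map`;
* `IsChi0 ..` : `f` is an eigenfunction on `X_∞ × D U`, fixed by `e_u` (`u ∈ T`), `C_u f = a_u f`,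
  `s_V f = f`, `(V, χ)`-equivariant, not zero;
* `EigF.exists_chi0` : its existence.
-/

set_option autoImplicit false
set_option linter.unusedSectionVars false

noncomputable section

open Matrix NumberField MeasureTheory IsDedekindDomain WithZero HeightOneSpectrum
open scoped WithZero Topology

namespace Fermat.Agent.LT.Desc

open H3 Lvl Loc Adapt Kap Iwa
open Fermat.Agent.LT.Chr hiding Rf
open HK (eAt cAt tAt)

variable {F : Type*} [Field F] [NumberField F]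

/-! ### Letters -/

section Map

variable {S : Finset (HeightOneSpectrum (𝓞 F))} {U U' : Lev F}
  {T : ∀ v : S, TyDat (v.1.adicCompletion F)}

/-- `s_V` and the change of level. -/
theorem act_sV_map (hle : U ≤ U') (h : LevOK U T) (h' : LevOK U' T) {φ : Lvl.D U' → ℂ}
    (hφ : (sV h').act φ = φ) :
    (sV h).act (fun d => φ (D.map hle d)) = fun d => φ (D.map hle d) := by
  classical
  rw [act_sV_eq_iff] at hφ ⊢
  intro v x g k hk
  rw [map_upd, map_upd, Cos.map_mk, Cos.map_mk]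
  exact hφ v _ g k hk

end Map

variable [IsTotallyComplex F]

namespace EigF

variable {S T : Finset (HeightOneSpectrum (𝓞 F))}
  {a : HeightOneSpectrum (𝓞 F) → ℂ} {h : InfinitePlace F → (ℝ → ℂ) → ℂ}
  {U U' : Lev F}

theorem tAt_act {f : Xi F × Lvl.D U → ℂ} (hf : EigF U S a h f) {v : HeightOneSpectrum (𝓞 F)}
    (hv : v ∉ S) (hG : U.U v = GLO (vF v)) (𝔡 : Datum (vF v)) (x : Xi F) :
    (tAt hG 𝔡).act (fun d => f (x, d)) = fun d => a v * f (x, d) := by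
  funext d
  rw [HK.tAt_act]
  exact hf.hecke v hv (x, d)

theorem eAt_act_map (hle : U ≤ U') (f' : Xi F × Lvl.D U' → ℂ) {u : HeightOneSpectrum (𝓞 F)}
    (hI : U.U u = Iw (vF u)) (hG : U'.U u = GLO (vF u)) (𝔡 : Datum (vF u)) (x : Xi F) :
    (eAt hI 𝔡).act (fun d => f' (x, D.map hle d)) = fun d => f' (x, D.map hle d) :=
  eAt_act_comp hle hI hG 𝔡 fun d => f' (x, d)

theorem cAt_act_map (hle : U ≤ U') {f' : Xi F × Lvl.D U' → ℂ} (hf : EigF U' S a h f')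
    {u : HeightOneSpectrum (𝓞 F)} (hu : u ∉ S)
    (hI : U.U u = Iw (vF u)) (hG : U'.U u = GLO (vF u)) (𝔡 : Datum (vF u)) (x : Xi F) :
    (cAt hI 𝔡).act (fun d => f' (x, D.map hle d)) = fun d => a u * f' (x, D.map hle d) := by
  have h1 := cAt_act_comp hle hI hG 𝔡 𝔡 (fun d => f' (x, d))
  refine h1.trans ?_
  rw [hf.tAt_act hu hG 𝔡 x]
  rfl

end EigF

/-! ### The level `U' ≥ U`, maximal outside `S` -/

/-- `U` at `S`, maximal elsewhere. -/
def Lev.offT (S : Finset (HeightOneSpectrum (𝓞 F))) (U : Lev F) : Lev F :=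
  (Lev.full F).replace S U.U (fun v _ => U.le v) (fun v _ => U.isOpen v)

omit [IsTotallyComplex F] in
theorem Lev.offT_S {S : Finset (HeightOneSpectrum (𝓞 F))} {U : Lev F}
    {v : HeightOneSpectrum (𝓞 F)} (h : v ∈ S) : (Lev.offT S U).U v = U.U v := if_pos h

omit [IsTotallyComplex F] in
theorem Lev.offT_off {S : Finset (HeightOneSpectrum (𝓞 F))} {U : Lev F}
    {v : HeightOneSpectrum (𝓞 F)} (h : v ∉ S) : (Lev.offT S U).U v = GLO (vF v) := if_neg h

omit [IsTotallyComplex F] in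
theorem Lev.le_offT {S : Finset (HeightOneSpectrum (𝓞 F))} {U : Lev F} : U ≤ Lev.offT S U := by
  intro v
  by_cases h : v ∈ S
  · rw [Lev.offT_S h]
  · rw [Lev.offT_off h]
    exact U.le v

/-! ### The function -/

/-- The properties of the function of level `U`. -/
structure IsChi0 (S T : Finset (HeightOneSpectrum (𝓞 F))) (U : Lev F)
    (a : HeightOneSpectrum (𝓞 F) → ℂ) (h : InfinitePlace F → (ℝ → ℂ) → ℂ)
    (ty : ∀ v : S, TyDat (v.1.adicCompletion F)) (f : Xi F × Lvl.D U → ℂ) : Prop where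
  eig : ∀ S' : Finset (HeightOneSpectrum (𝓞 F)), S ⊆ S' → T ⊆ S' → EigF U S' a h f
  ne : ∃ z, f z ≠ 0
  ok : LevOK U ty
  tAt : ∀ v, v ∉ S → v ∉ T → ∀ (hG : U.U v = GLO (vF v)) (𝔡 : Datum (vF v)) (x : Xi F),
    (HK.tAt hG 𝔡).act (fun d => f (x, d)) = fun d => a v * f (x, d)
  eAt : ∀ u ∈ T, ∀ (hI : U.U u = Iw (vF u)) (𝔡 : Datum (vF u)) (x : Xi F),
    (HK.eAt hI 𝔡).act (fun d => f (x, d)) = fun d => f (x, d)
  cAt : ∀ u ∈ T, ∀ (hI : U.U u = Iw (vF u)) (𝔡 : Datum (vF u)) (x : Xi F),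
    (HK.cAt hI 𝔡).act (fun d => f (x, d)) = fun d => a u * f (x, d)
  sV : ∀ (hok : LevOK U ty) (x : Xi F), (sV hok).act (fun d => f (x, d)) = fun d => f (x, d)

/-- a neighbourhood which makes the local data small -/
theorem small_mem_nhds (S : Finset (HeightOneSpectrum (𝓞 F))) :
    {x : Rf S | ∀ v : S, Valued.v (x v) ≤ exp (-1 : ℤ)} ∈ 𝓝 (0 : Rf S) := by
  have : {x : Rf S | ∀ v : S, Valued.v (x v) ≤ exp (-1 : ℤ)} ⊇
      Set.univ.pi fun v : S => {y : v.1.adicCompletion F | Valued.v (y - 0) < exp (-1 : ℤ)} := by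
    intro x hx v
    have := hx v (Set.mem_univ v)
    simp only [sub_zero, Set.mem_ofPred_eq] at this
    exact this.le
  refine Filter.mem_of_superset ?_ this
  refine (isOpen_set_pi Set.finite_univ fun v _ =>
    Loc.isOpen_ball v.1 0 exp_ne_zero).mem_nhds ?_
  intro v _
  simp

theorem exp_neg_one_lt_one : (exp (-1 : ℤ) : ℤᵐ⁰) < 1 := by
  rw [← exp_zero, exp_lt_exp]
  omega

namespace EigF

variable {S : Finset (HeightOneSpectrum (𝓞 F))}
  {a : HeightOneSpectrum (𝓞 F) → ℂ} {h : InfinitePlace F → (ℝ → ℂ) → ℂ}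
  {U₀ : Lev F} {f₀ : Xi F × Lvl.D U₀ → ℂ} [IsPrincipalIdealRing (OS S)]

/-- **(S4g)** -/
theorem exists_chi0 (hcl : CFT.Global.ClTrivial S) (hS : S.Nonempty) {δ : F} (hδ : δ ≠ 0)
    (hθ : SelfDual (OS S) (thetaA S δ))
    (B : FBase (Ri := Rinf F) (Rf := Rf S) (thetaA S δ)) (hB : ∀ v : S, inj v 1 ∈ B.Of)
    (h₀ : EigF U₀ S a h f₀) (hne : ∃ z, f₀ z ≠ 0) {ν : InfinitePlace F → ℂ}
    (hν : ∀ (w : InfinitePlace F) (f : H3 → ℂ), H3.IsEig f (h w) → H3.IsEig f (sph (ν w)))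
    {nb : Set (Rf S)} (hnb : nb ∈ 𝓝 (0 : Rf S)) (n₀ : ℕ) :
    ∃ (m k M : ℕ) (hadm : B.Adm (B.N ^ m) (B.N ^ k) (B.N ^ M)), n₀ ≤ m ∧ n₀ ≤ k - m ∧ m ≤ k ∧
      n₀ ≤ M ∧ m ≤ M ∧
      (∀ x ∈ (B.dat _ _ _ hadm).α, x ∈ nb) ∧ (∀ x ∈ (B.dat _ _ _ hadm).β, x ∈ nb) ∧
      (∀ x ∈ (B.dat _ _ _ hadm).γ, x ∈ nb) ∧
      ∃ n₁ : ℕ, ∀ (T : Finset (HeightOneSpectrum (𝓞 F))) (U : Lev F), (∀ v ∈ T, v ∉ S) →
        (∀ v ∈ S, ∃ n : ℕ, n₁ ≤ n ∧ U.U v = Kn (vF v) (exp (-(n : ℤ)))) →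
        (∀ v ∈ T, U.U v = Iw (vF v)) → (∀ v, v ∉ S → v ∉ T → U.U v = GLO (vF v)) →
        ∃ f : Xi F × Lvl.D U → ℂ,
          IsChi0 S T U a h ((B.dat _ _ _ hadm).loc (FBase.isProd_dat hB hadm)) f ∧
          EqV (B.dat _ _ _ hadm) (toKap S U f) ∧
          InW (OS S) (thetaA S δ) (lamS S a) (wiP ν δ) (toKap S U f) := by
  have : Nontrivial (Rf S) := nontrivial_Rf S hS
  have hW := h₀.inW hδ hθ hν
  obtain ⟨m, k, M, hadm, h1, h2, h3, h4, h5, hα, hβ, hγ, n₁, hn₁⟩ :=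
    h₀.exists_eqV hcl hθ B hW hne (Filter.inter_mem hnb (small_mem_nhds S)) n₀
  obtain ⟨n₂, hn₂⟩ := FBase.exists_Kn_le hB hadm
  refine ⟨m, k, M, hadm, h1, h2, h3, h4, h5, fun x hx => (hα x hx).1, fun x hx => (hβ x hx).1,
    fun x hx => (hγ x hx).1, max n₁ n₂, fun T U hT hUS hUT hUoff => ?_⟩
  set U' : Lev F := Lev.offT S U with hU'
  have hok' : LevOK U' ((B.dat _ _ _ hadm).loc (FBase.isProd_dat hB hadm)) := by
    refine levOK_of_small (FBase.isProd_dat hB hadm) (r := fun _ => exp (-1 : ℤ))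
      (fun _ => exp_neg_one_lt_one) (fun x hx => (hα x hx).2) (fun x hx => (hβ x hx).2)
      (fun x hx => (hγ x hx).2) fun v => ?_
    obtain ⟨n, hn, he⟩ := hUS v.1 v.2
    rw [hU', Lev.offT_S v.2, he]
    exact hn₂ v n ((le_max_right _ _).trans hn)
  obtain ⟨f', hf', hne', hV, hW'⟩ := hn₁ U' (fun v hv => Lev.offT_off hv) fun v hv => by
    obtain ⟨n, hn, he⟩ := hUS v hv
    rw [hU', Lev.offT_S hv, he]
    refine Kn_mono ?_
    rw [exp_le_exp]
    have := (le_max_left n₁ n₂).trans hn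
    omega
  have hle : U ≤ U' := Lev.le_offT
  have heig : ∀ S' : Finset (HeightOneSpectrum (𝓞 F)), S ⊆ S' → T ⊆ S' →
      EigF U S' a h fun z => f' (z.1, D.map hle z.2) := by
    intro S' hS' hT'
    have hmap : GMap S' U U' (D.map hle) := gMap_map hle fun v hv => by
      rw [hUoff v (fun h => hv (hS' h)) (fun h => hv (hT' h)), hU',
        Lev.offT_off fun h => hv (hS' h)]
    exact (hf'.mono hS').comp hmap fun v hv =>
      hUoff v (fun h => hv (hS' h)) (fun h => hv (hT' h))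
  refine ⟨fun z => f' (z.1, D.map hle z.2), ⟨heig, ?_, hok'.anti hle, ?_, ?_, ?_, ?_⟩, ?_, ?_⟩
  · obtain ⟨⟨x, d⟩, hz⟩ := hne'
    obtain ⟨d, rfl⟩ := D.map_surjective hle d
    exact ⟨(x, d), hz⟩
  · intro v hv hvT hG 𝔡 x
    classical
    exact (heig (S ∪ T) Finset.subset_union_left Finset.subset_union_right).tAt_act
      (by rw [Finset.mem_union, not_or]; exact ⟨hv, hvT⟩) hG 𝔡 x
  · intro u hu hI 𝔡 x
    exact eAt_act_map hle f' hI (Lev.offT_off (hT u hu)) 𝔡 x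
  · intro u hu hI 𝔡 x
    exact cAt_act_map hle hf' (hT u hu) hI (Lev.offT_off (hT u hu)) 𝔡 x
  · intro hok x
    exact act_sV_map hle hok hok' (act_sV_of_eqV (FBase.isProd_dat hB hadm) hok' hcl hf'.offS
      hf'.inv hV x)
  · rw [toKap_map]
    exact hV
  · rw [toKap_map]
    exact hW'

end EigF

end Fermat.Agent.LT.Desc

end
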