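import Fermat.Agent.LT.Desc.ChiV
import Fermat.Agent.LT.Desc.KapInst

/-!
# The function of type `(V, χ)` with Iwahori level at finitely many places (helper7)

* `EigF.isChi0` : the pull back to a level with Iwahori component at `T`;
* `EigF.exists_type_chi0` : the type of `KapInst`, and for every small level with Iwahori
  component at `R` the function `f` with `IsChi0 S R U a h _ f`.
-/

set_option autoImplicit false
set_option linter.unusedSectionVars false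

noncomputable section

open Matrix NumberField MeasureTheory IsDedekindDomain WithZero HeightOneSpectrum
open scoped WithZero Topology

namespace Fermat.Agent.LT.Desc

open H3 Lvl Loc Adapt Kap Iwa
open Fermat.Agent.LT.Chr hiding Rf
open HK (eAt cAt tAt)

section Chi

variable {F : Type*} [Field F] [NumberField F] [IsTotallyComplex F]
  {S T : Finset (HeightOneSpectrum (𝓞 F))} {a : HeightOneSpectrum (𝓞 F) → ℂ}
  {h : InfinitePlace F → (ℝ → ℂ) → ℂ} {U U' : Lev F} {f' : Xi F × Lvl.D U' → ℂ}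
  {Td : TyDat (Rf S)}

/-- **Iwahori level at `T`.** -/
theorem EigF.isChi0 (hf' : EigF U' S a h f') (hne : ∃ z, f' z ≠ 0)
    (hcl : CFT.Global.ClTrivial S) (hprod : Td.IsProd) (hV : EqV Td (toKap S U' f'))
    (hok' : LevOK U' (Td.loc hprod)) (hle : U ≤ U') (hT : ∀ v ∈ T, v ∉ S)
    (hUoff : ∀ v, v ∉ S → v ∉ T → U.U v = GLO (vF v)) :
    IsChi0 S T U a h (Td.loc hprod) (fun z => f' (z.1, D.map hle z.2)) := by
  have heig : ∀ S' : Finset (HeightOneSpectrum (𝓞 F)), S ⊆ S' → T ⊆ S' →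
      EigF U S' a h fun z => f' (z.1, D.map hle z.2) := by
    intro S' hS' hT'
    have hmap : GMap S' U U' (D.map hle) := gMap_map hle fun v hv => by
      rw [hUoff v (fun h => hv (hS' h)) (fun h => hv (hT' h)), hf'.lev v fun h => hv (hS' h)]
    exact (hf'.mono hS').comp hmap fun v hv =>
      hUoff v (fun h => hv (hS' h)) (fun h => hv (hT' h))
  refine ⟨heig, ?_, hok'.anti hle, ?_, ?_, ?_, ?_⟩
  · obtain ⟨⟨x, d⟩, hz⟩ := hne
    obtain ⟨d, rfl⟩ := D.map_surjective hle d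
    exact ⟨(x, d), hz⟩
  · intro v hv hvT hG 𝔡 x
    classical
    exact (heig (S ∪ T) Finset.subset_union_left Finset.subset_union_right).tAt_act
      (by rw [Finset.mem_union, not_or]; exact ⟨hv, hvT⟩) hG 𝔡 x
  · intro u hu hI 𝔡 x
    exact eAt_act_map hle f' hI (hf'.lev u (hT u hu)) 𝔡 x
  · intro u hu hI 𝔡 x
    exact cAt_act_map hle hf' (hT u hu) hI (hf'.lev u (hT u hu)) 𝔡 x
  · intro hok x
    exact act_sV_map hle hok hok' (act_sV_of_eqV hprod hok' hcl hf'.offS hf'.inv hV x)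

end Chi

section Types

variable {L : Type*} [Field L] [NumberField L] [IsTotallyComplex L]
  {S : Finset (HeightOneSpectrum (𝓞 L))} {N : ℕ} {a : HeightOneSpectrum (𝓞 L) → ℂ}
  {h : InfinitePlace L → (ℝ → ℂ) → ℂ} {U₀ : Lev L} {f₀ : Xi L × Lvl.D U₀ → ℂ}

/-- **The type and the function.** `r v` prescribes the radius of `V` at `v`. -/
theorem EigF.exists_type_chi0 (G : Type*) [Group G] [MulSemiringAction G L]
    (h₀ : EigF U₀ S a h f₀) (hne : ∃ z, f₀ z ≠ 0) (hN1 : 1 < N)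
    (hS : ∀ v, v ∈ S ↔ (N : 𝓞 L) ∈ v.asIdeal) (hd : NumberField.discr L ∣ (N : ℤ))
    (hcl : CFT.Global.ClTrivial S) (r : HeightOneSpectrum (𝓞 L) → ℕ) (hr : ∀ v ∈ S, r v ≠ 0) :
    ∃ (T : TyDat (Rf S)) (a₀ : (Rf S)ˣ) (hT : TypeOK (sStable_of_mem G hS) T a₀),
      (∀ v : S, (T.loc hT.prod v).Small (vF v.1) (exp (-(r v.1 : ℤ)))) ∧
      ∃ n₁ : ℕ, (∀ U : Lev L, (∀ v ∈ S, U.U v ≤ Kn (vF v) (exp (-(n₁ : ℤ)))) →
          LevOK U (T.loc hT.prod)) ∧
        ∀ (R : Finset (HeightOneSpectrum (𝓞 L))) (U : Lev L), (∀ v ∈ R, v ∉ S) →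
          (∀ v, v ∉ S → v ∉ R → U.U v = GLO (vF v)) →
          (∀ v ∈ S, U.U v ≤ Kn (vF v) (exp (-(n₁ : ℤ)))) →
          ∃ f : Xi L × Lvl.D U → ℂ, IsChi0 S R U a h (T.loc hT.prod) f ∧
            EqV T (toKap S U f) := by
  obtain ⟨T, a₀, hT, hsm, n₁, hok, hex⟩ := h₀.exists_type G hne hN1 hS hd hcl r hr
  refine ⟨T, a₀, hT, hsm, n₁, hok, fun R U hR hUoff hU => ?_⟩
  have hU' : ∀ v ∈ S, (Lev.offT S U).U v ≤ Kn (vF v) (exp (-(n₁ : ℤ))) := fun v hv => by
    rw [Lev.offT_S hv]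
    exact hU v hv
  obtain ⟨f', hf', hne', hV⟩ := hex (Lev.offT S U) (fun v hv => Lev.offT_off hv) hU'
  refine ⟨_, hf'.isChi0 hne' hcl hT.prod hV (hok _ hU') Lev.le_offT hR hUoff, ?_⟩
  rw [toKap_map]
  exact hV

end Types

end Fermat.Agent.LT.Desc

end
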