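import Fermat.Agent.LT.Desc.Chi0
import Fermat.Agent.LT.Desc.In
import Fermat.Agent.LT.Desc.Descent

/-!
# The vector `v₀` (helper7)

* `Kn_ne_GLO`;
* `IsChi0.exists_reps` : the function of level `U` represents a non-zero vector of `V`;
* `IsChi0.eigL` : the vector is a joint eigenvector in the form of the descent theorem;
* `IsChi0.exists_eigL` : the two together.
-/

set_option autoImplicit false
set_option linter.unusedSectionVars false

noncomputable section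

open Matrix NumberField MeasureTheory IsDedekindDomain WithZero HeightOneSpectrum
open ENNReal ProbabilityTheory
open scoped WithZero Topology

namespace Fermat.Agent.LT.Desc

open H3 Red Lvl Adapt Kap Iwa
open HK (eAt cAt tAt)

theorem Kn_ne_GLO {E : Type*} [Field E] {Γ₀ : Type*} [LinearOrderedCommGroupWithZero Γ₀]
    (v : Valuation E Γ₀) {γ : Γ₀} (hγ : γ < 1) : Kn v γ ≠ GLO v := by
  intro h
  have h1 : (gl2 1 1 0 1 (by simp) : GL (Fin 2) E) ∈ GLO v := by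
    rw [mem_GLO_iff_isHyper]
    refine ⟨fun i j => ?_, ?_⟩
    · fin_cases i <;> fin_cases j <;> simp [gl2]
    · simp [gl2, Matrix.det_fin_two]
  rw [← h, mem_Kn] at h1
  have h2 := h1.2 0 1
  simp [gl2] at h2
  exact absurd hγ (not_lt.2 h2)

/-- The good places of the level are not in `S`, `T`. -/
theorem notMem_of_GLO {F : Type*} [Field F] [NumberField F] {U : Lev F}
    {S T : Finset (HeightOneSpectrum (𝓞 F))}
    (hS : ∀ v ∈ S, ∃ n : ℕ, 1 ≤ n ∧ U.U v = Kn (vF v) (exp (-(n : ℤ))))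
    (hT : ∀ v ∈ T, U.U v = Iw (vF v)) (v : HeightOneSpectrum (𝓞 F)) (hv : U.U v = GLO (vF v)) :
    v ∉ S ∧ v ∉ T := by
  refine ⟨fun h => ?_, fun h => Iw_ne_GLO _ ((hT v h).symm.trans hv)⟩
  obtain ⟨n, hn, h1⟩ := hS v h
  refine Kn_ne_GLO _ ?_ (h1.symm.trans hv)
  rw [← exp_zero, exp_lt_exp]
  omega

section Pk

variable {F : Type*} [Field F] [NumberField F] {k : InfinitePlace F → ℝ → ℂ}
  {κ : Xi F → Xi F → ℂ}

theorem isCBKer_of_pk (hk : ∀ v, IsKer (k v)) (hκ : ∀ x x', κ x x' = pk k x x') : IsCBKer κ := by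
  rw [show κ = fun x x' => pk k x x' from funext fun x => funext (hκ x)]
  exact isCBKer_pk hk

theorem EigF.opK_eq [IsTotallyComplex F] {U : Lev F} {S : Finset (HeightOneSpectrum (𝓞 F))}
    {a : HeightOneSpectrum (𝓞 F) → ℂ} {h : InfinitePlace F → (ℝ → ℂ) → ℂ}
    {f : Xi F × Lvl.D U → ℂ} (hf : EigF U S a h f) (hk : ∀ v, IsKer (k v))
    (hκ : ∀ x x', κ x x' = pk k x x') (z : Xi F × Lvl.D U) :
    opK κ f z = (∏ v, h v (k v)) * f z := by
  rw [show κ = fun x x' => pk k x x' from funext fun x => funext (hκ x)]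
  exact hf.opK_pk hk z

end Pk

section Main

variable {L : Type*} [Field L] [NumberField L] [IsTotallyComplex L]
  {S T : Finset (HeightOneSpectrum (𝓞 L))} {U : Lev L} {a : HeightOneSpectrum (𝓞 L) → ℂ}
  {h : InfinitePlace L → (ℝ → ℂ) → ℂ} {ty : ∀ v : S, TyDat (v.1.adicCompletion L)}
  {f : Xi L × Lvl.D U → ℂ} {w : Xi L × Lvl.D U → ℝ≥0∞}
  {𝒦 : Type*} [CommSemigroup 𝒦] [StarMul 𝒦] {K : KDat L (Lvl.D U) 𝒦} {hw : IsWeight (PG L) w}

/-- **The vector.** -/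
theorem IsChi0.exists_reps (hf : IsChi0 S T U a h ty f) {k₀ : 𝒦} {fn : InfinitePlace L → ℝ → ℂ}
    (hfn : ∀ v, IsKer (fn v)) (hk₀ : ∀ x x', K.kap k₀ x x' = pk fn x x')
    (h0 : ∏ v, h v (fn v) ≠ 0) : ∃ v : K.V hw, v ≠ 0 ∧ Reps K hw v f := by
  classical
  have he := hf.eig (S ∪ T) Finset.subset_union_left Finset.subset_union_right
  obtain ⟨v, hv⟩ := Desc.exists_reps K hw he.inv he.cont he.bdd he.cusp (k₀ := k₀)
    (isCBKer_of_pk hfn hk₀) h0 (he.opK_eq hfn hk₀)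
  exact ⟨v, hv.ne_zero hf.ne, hv⟩

variable {K₀ : Type*} [Field K₀] [NumberField K₀] [Algebra K₀ L] {τ : L ≃ₐ[K₀] L}

/-- **The vector is a joint eigenvector.** -/
theorem IsChi0.eigL (hf : IsChi0 S T U a h ty f) (X : SetL τ U) (hu : ∀ j, X.u j ∈ T)
    (hs : X.s = Kap.sV hf.ok) (hG : ∀ v, U.U v = GLO (vF v) → v ∉ S ∧ v ∉ T)
    (ρ : SymRep 𝒦 (HK (PG L) (Lvl.D U)) (K.V hw)) (hρ : ∀ s, ρ.R s = K.symV hw s)
    {lam : HeightOneSpectrum (𝓞 L) → ℝ} (ha : ∀ v, v ∉ S → v ∉ T → a v = lam v)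
    (hau : ∀ j, a (X.u j) = 0) {𝒦₀ : Type*} {k : 𝒦₀ → 𝒦} {fn : 𝒦₀ → InfinitePlace L → ℝ → ℂ}
    (hfn : ∀ x v, IsKer (fn x v)) (hk : ∀ x y y', K.kap (k x) y y' = pk (fn x) y y')
    {yk : 𝒦₀ → ℝ} (hyk : ∀ x, ∏ v, h v (fn x v) = yk x) {v : K.V hw} (hv : Reps K hw v f) :
    EigL X k ρ lam yk v where
  t v' hv' := by
    rw [hρ]
    refine hv.symV_disc fun x d => ?_
    rw [hf.tAt v' (hG v' hv').1 (hG v' hv').2 hv' (datum v') x]
    beta_reduce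
    rw [ha v' (hG v' hv').1 (hG v' hv').2]
  c j := by
    rw [hρ, ← zero_smul ℂ v]
    refine hv.symV_disc fun x d => ?_
    rw [hf.cAt (X.u j) (hu j) (X.iw j) (datum (X.u j)) x, hau j]
  k x := by
    classical
    rw [hρ]
    have he := hf.eig (S ∪ T) Finset.subset_union_left Finset.subset_union_right
    refine hv.symV_full (k := k x) (isCBKer_of_pk (hfn x) (hk x)) fun z => ?_
    rw [he.opK_eq (hfn x) (hk x) z, hyk]
  e j := by
    rw [hρ]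
    conv_rhs => rw [← one_smul ℂ v]
    refine hv.symV_disc fun x d => ?_
    rw [hf.eAt (X.u j) (hu j) (X.iw j) (datum (X.u j)) x, one_mul]
  s := by
    rw [hρ, hs]
    conv_rhs => rw [← one_smul ℂ v]
    refine hv.symV_disc fun x d => ?_
    rw [hf.sV hf.ok x, one_mul]

/-- **The vector `v₀`.** -/
theorem IsChi0.exists_eigL (hf : IsChi0 S T U a h ty f) (X : SetL τ U) (hu : ∀ j, X.u j ∈ T)
    (hs : X.s = Kap.sV hf.ok) (hG : ∀ v, U.U v = GLO (vF v) → v ∉ S ∧ v ∉ T)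
    (ρ : SymRep 𝒦 (HK (PG L) (Lvl.D U)) (K.V hw)) (hρ : ∀ s, ρ.R s = K.symV hw s)
    {lam : HeightOneSpectrum (𝓞 L) → ℝ} (ha : ∀ v, v ∉ S → v ∉ T → a v = lam v)
    (hau : ∀ j, a (X.u j) = 0) {𝒦₀ : Type*} {k : 𝒦₀ → 𝒦} {fn : 𝒦₀ → InfinitePlace L → ℝ → ℂ}
    (hfn : ∀ x v, IsKer (fn x v)) (hk : ∀ x y y', K.kap (k x) y y' = pk (fn x) y y')
    {yk : 𝒦₀ → ℝ} (hyk : ∀ x, ∏ v, h v (fn x v) = yk x) {x₀ : 𝒦₀} (h0 : yk x₀ ≠ 0) :
    ∃ v : K.V hw, v ≠ 0 ∧ Reps K hw v f ∧ EigL X k ρ lam yk v := by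
  obtain ⟨v, hv0, hv⟩ := hf.exists_reps (hw := hw) (hfn x₀) (hk x₀)
    (by rw [hyk]; exact Complex.ofReal_ne_zero.2 h0)
  exact ⟨v, hv0, hv, hf.eigL X hu hs hG ρ hρ ha hau hfn hk hyk hv⟩

end Main

end Fermat.Agent.LT.Desc

end
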