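import Fermat.Agent.LT.Desc.SetInst
import Fermat.Agent.LT.NormPull

/-!
# Places of relative degree one

`L / K` cyclic of degree three: an unramified place `w` of `L` with `N w = N (w ∩ K)` is moved by
`τ`, and conversely. The good places of the levels `Lev.stdUp L S {u} M`, `Lev.std S {u} M` and
the places not dividing `N * q`.
-/

set_option autoImplicit false
set_option linter.unusedSectionVars false

open NumberField IsDedekindDomain
open scoped Pointwise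

namespace Fermat.Agent.LT.Desc

open Fermat.Agent.CFT.SUnits Fermat.Agent.LT.Ext Fermat.Agent.LT.Lvl Fermat.Agent.LT.NV
open Fermat.Agent.LT.Iwa

variable {K L : Type*} [Field K] [NumberField K] [Field L] [NumberField L] [Algebra K L]

theorem under_eq_under (w : HeightOneSpectrum (𝓞 L)) : under K w = w.under (𝓞 K) :=
  HeightOneSpectrum.ext rfl

theorem one_lt_absNorm {F : Type*} [Field F] [NumberField F] (v : HeightOneSpectrum (𝓞 F)) :
    1 < Ideal.absNorm v.asIdeal := by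
  have h0 : Ideal.absNorm v.asIdeal ≠ 0 := by
    rw [Ne, Ideal.absNorm_eq_zero_iff]
    exact v.ne_bot
  have h1 : Ideal.absNorm v.asIdeal ≠ 1 := by
    rw [Ne, Ideal.absNorm_eq_one_iff]
    exact v.isPrime.ne_top
  omega

section Deg

variable [IsGalois K L]

theorem fdeg_eq_one_of_absNorm {w : HeightOneSpectrum (𝓞 L)}
    (hd : Ideal.absNorm w.asIdeal = Ideal.absNorm (w.under (𝓞 K)).asIdeal) : fdeg K w = 1 := by
  have h1 := Ideal.absNorm_eq_pow_inertiaDeg'_of_liesOver (P := w.asIdeal)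
    (p := (w.under (𝓞 K)).asIdeal) (w.under (𝓞 K)).isPrime (w.under (𝓞 K)).ne_bot
  rw [hd] at h1
  have h3 : Ideal.absNorm (w.under (𝓞 K)).asIdeal ^ 1 =
    Ideal.absNorm (w.under (𝓞 K)).asIdeal ^ (fdeg K w) := by
    rw [pow_one]
    exact h1
  exact (Nat.pow_right_injective (one_lt_absNorm _) h3).symm

/-- **An unramified place of relative degree one has trivial decomposition group.** -/
theorem stabilizer_eq_bot_of_deg1 {w : HeightOneSpectrum (𝓞 L)}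
    (he : (w.under (𝓞 K)).asIdeal.ramificationIdx' w.asIdeal = 1)
    (hd : Ideal.absNorm w.asIdeal = Ideal.absNorm (w.under (𝓞 K)).asIdeal) :
    MulAction.stabilizer (L ≃ₐ[K] L) w = ⊥ := by
  have hc := card_stab (K := K) w
  rw [fdeg_eq_one_of_absNorm hd, mul_one, edeg, he, Nat.card_eq_one_iff_unique] at hc
  obtain ⟨hc, -⟩ := hc
  rw [eq_bot_iff]
  intro σ hσ
  have hσ' : σ • w = w := hσ
  have h1 : ∀ σ : L ≃ₐ[K] L, σ • w = w → Fermat.Agent.CFT.Places.conj σ w = w := by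
    intro σ h
    refine HeightOneSpectrum.ext ?_
    rw [← Fermat.Agent.CFT.Global2.Unr.smul_asIdeal]
    exact congrArg HeightOneSpectrum.asIdeal h
  have h2 := @Subsingleton.elim _ hc ⟨σ, h1 σ hσ'⟩ ⟨1, h1 1 (one_smul _ w)⟩
  exact Subgroup.mem_bot.mpr (congrArg Subtype.val h2)

theorem smul_ne_of_deg1 {τ : L ≃ₐ[K] L} (hτ : τ ≠ 1) {w : HeightOneSpectrum (𝓞 L)}
    (he : (w.under (𝓞 K)).asIdeal.ramificationIdx' w.asIdeal = 1)
    (hd : Ideal.absNorm w.asIdeal = Ideal.absNorm (w.under (𝓞 K)).asIdeal) : τ • w ≠ w := by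
  intro h
  have h1 : τ ∈ MulAction.stabilizer (L ≃ₐ[K] L) w := h
  rw [stabilizer_eq_bot_of_deg1 he hd, Subgroup.mem_bot] at h1
  exact hτ h1

/-- a place moved by `τ` is of relative degree one. -/
theorem absNorm_eq_of_smul_ne {τ : L ≃ₐ[K] L} (h3 : IsThree τ) {w : HeightOneSpectrum (𝓞 L)}
    (hne : τ • w ≠ w) : Ideal.absNorm w.asIdeal = Ideal.absNorm (w.under (𝓞 K)).asIdeal := by
  rw [← under_eq_under, absNorm_under_eq (stabilizer_eq_bot_of_ne h3 hne)]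

end Deg

/-! ### The places dividing `N * q` -/

section Bad

theorem natCast_mem_under_iff (w : HeightOneSpectrum (𝓞 L)) (n : ℕ) :
    ((n : ℕ) : 𝓞 K) ∈ (under K w).asIdeal ↔ ((n : ℕ) : 𝓞 L) ∈ w.asIdeal := by
  rw [under_asIdeal, Ideal.mem_comap, map_natCast]

theorem absNorm_mem_under (w : HeightOneSpectrum (𝓞 L)) :
    ((Ideal.absNorm w.asIdeal : ℕ) : 𝓞 K) ∈ (under K w).asIdeal := by
  rw [natCast_mem_under_iff]
  exact Ideal.absNorm_mem _

variable {S : Finset (HeightOneSpectrum (𝓞 K))} {u : HeightOneSpectrum (𝓞 K)}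
  {M : HeightOneSpectrum (𝓞 K) → ℕ} {N q : ℕ}

theorem mem_aboveS_iff_natCast (hS : ∀ v, v ∈ S ↔ (N : 𝓞 K) ∈ v.asIdeal)
    (w : HeightOneSpectrum (𝓞 L)) : w ∈ aboveS L S ↔ (N : 𝓞 L) ∈ w.asIdeal := by
  rw [mem_aboveS, hS, natCast_mem_under_iff]

theorem natCast_mul_notMem {F : Type*} [Field F] [NumberField F] {v : HeightOneSpectrum (𝓞 F)}
    (h : ((N * q : ℕ) : 𝓞 F) ∉ v.asIdeal) : (N : 𝓞 F) ∉ v.asIdeal ∧ (q : 𝓞 F) ∉ v.asIdeal := by
  rw [Nat.cast_mul] at h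
  exact ⟨fun h' => h (Ideal.mul_mem_right _ _ h'), fun h' => h (Ideal.mul_mem_left _ _ h')⟩

/-- the level over `K` is maximal at the places not dividing `N * q`. -/
theorem std_good_of_notMem (hS : ∀ v, v ∈ S ↔ (N : 𝓞 K) ∈ v.asIdeal)
    (hq : (q : 𝓞 K) ∈ u.asIdeal) {v : HeightOneSpectrum (𝓞 K)}
    (hv : ((N * q : ℕ) : 𝓞 K) ∉ v.asIdeal) : (Lev.std S {u} M).U v = GLO (vF v) := by
  obtain ⟨h1, h2⟩ := natCast_mul_notMem hv
  refine Lev.std_off (fun h => h1 ((hS v).mp h)) fun h => h2 ?_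
  rw [Finset.mem_singleton.mp h]
  exact hq

/-- the level over `L` is maximal at the places not dividing `N * q`. -/
theorem stdUp_good_of_notMem (hS : ∀ v, v ∈ S ↔ (N : 𝓞 K) ∈ v.asIdeal)
    (hq : (q : 𝓞 K) ∈ u.asIdeal) {w : HeightOneSpectrum (𝓞 L)}
    (hw : ((N * q : ℕ) : 𝓞 L) ∉ w.asIdeal) : (Lev.stdUp L S {u} M).U w = GLO (vF w) := by
  obtain ⟨h1, h2⟩ := natCast_mul_notMem hw
  refine Lev.stdUp_off (fun h => h1 ?_) fun h => h2 ?_
  · rwa [← mem_aboveS_iff_natCast hS, mem_aboveS]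
  · rw [← natCast_mem_under_iff (K := K), Finset.mem_singleton.mp h]
    exact hq

/-- **The junction at the end of step B.** -/
theorem eq_of_deg1 [IsGalois K L] {τ : L ≃ₐ[K] L} (hτ : τ ≠ 1)
    (hS : ∀ v, v ∈ S ↔ (N : 𝓞 K) ∈ v.asIdeal) (hq : (q : 𝓞 K) ∈ u.asIdeal)
    (hunr : ∀ w : HeightOneSpectrum (𝓞 L), (N : 𝓞 L) ∉ w.asIdeal →
      (w.under (𝓞 K)).asIdeal.ramificationIdx' w.asIdeal = 1)
    {a : HeightOneSpectrum (𝓞 K) → ℝ} {lam : HeightOneSpectrum (𝓞 L) → ℝ}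
    (h : ∀ w, (Lev.stdUp L S {u} M).U w = GLO (vF w) → τ • w ≠ w → a (under K w) = lam w)
    {w : HeightOneSpectrum (𝓞 L)} (hw : ((N * q : ℕ) : 𝓞 L) ∉ w.asIdeal)
    (hd : Ideal.absNorm w.asIdeal = Ideal.absNorm (w.under (𝓞 K)).asIdeal) :
    a (w.under (𝓞 K)) = lam w := by
  rw [← under_eq_under]
  exact h w (stdUp_good_of_notMem hS hq hw)
    (smul_ne_of_deg1 hτ (hunr w (natCast_mul_notMem hw).1) hd)

/-- `a v / √(N v)` -/
noncomputable def unsq {F : Type*} [Field F] [NumberField F] (a : HeightOneSpectrum (𝓞 F) → ℝ)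
    (v : HeightOneSpectrum (𝓞 F)) : ℝ := a v / √(Ideal.absNorm v.asIdeal : ℝ)

theorem sqrt_absNorm_ne_zero {F : Type*} [Field F] [NumberField F]
    (v : HeightOneSpectrum (𝓞 F)) : √(Ideal.absNorm v.asIdeal : ℝ) ≠ 0 :=
  (Real.sqrt_pos.mpr (Nat.cast_pos.mpr ((one_lt_absNorm v).trans' one_pos))).ne'

theorem sqrt_mul_unsq {F : Type*} [Field F] [NumberField F] (a : HeightOneSpectrum (𝓞 F) → ℝ)
    (v : HeightOneSpectrum (𝓞 F)) : √(Ideal.absNorm v.asIdeal : ℝ) * unsq a v = a v :=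
  mul_div_cancel₀ _ (sqrt_absNorm_ne_zero v)

/-- **The junction at the end of step B**, normalised. -/
theorem unsq_eq_of_deg1 [IsGalois K L] {τ : L ≃ₐ[K] L} (hτ : τ ≠ 1)
    (hS : ∀ v, v ∈ S ↔ (N : 𝓞 K) ∈ v.asIdeal) (hq : (q : 𝓞 K) ∈ u.asIdeal)
    (hunr : ∀ w : HeightOneSpectrum (𝓞 L), (N : 𝓞 L) ∉ w.asIdeal →
      (w.under (𝓞 K)).asIdeal.ramificationIdx' w.asIdeal = 1)
    {a : HeightOneSpectrum (𝓞 K) → ℝ} {x : HeightOneSpectrum (𝓞 L) → ℝ}
    (h : ∀ w, (Lev.stdUp L S {u} M).U w = GLO (vF w) → τ • w ≠ w →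
      a (under K w) = √(Ideal.absNorm w.asIdeal : ℝ) * x w)
    {w : HeightOneSpectrum (𝓞 L)} (hw : ((N * q : ℕ) : 𝓞 L) ∉ w.asIdeal)
    (hd : Ideal.absNorm w.asIdeal = Ideal.absNorm (w.under (𝓞 K)).asIdeal) :
    unsq a (w.under (𝓞 K)) = x w := by
  have h1 := eq_of_deg1 (lam := fun w => √(Ideal.absNorm w.asIdeal : ℝ) * x w) hτ hS hq hunr h
    hw hd
  rw [unsq, h1]
  change √(Ideal.absNorm w.asIdeal : ℝ) * x w / _ = _
  rw [← hd, mul_div_cancel_left₀ _ (sqrt_absNorm_ne_zero w)]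

end Bad

end Fermat.Agent.LT.Desc
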