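import Fermat.Agent.LT.Desc.RepV
import Fermat.Agent.LT.Tr.KinfL
import Fermat.Agent.LT.Tr.SymGeom
import Fermat.Agent.LT.H3.Separate

/-!
# The kernels at infinity in step B

* `yInf x` : the eigenvalue of the self-adjoint kernel `x` on functions with spherical parameter
  `0` at every place;
* `tI p` : the transfer of self-adjoint kernels;
* `cube_inf` : the cube of every self-adjoint kernel over `K` is a transfer;
* `phiInf τ` : the action of the Galois automorphism on the kernels.
-/

set_option autoImplicit false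
set_option linter.unusedSectionVars false

noncomputable section

open MeasureTheory ENNReal NumberField Matrix IsDedekindDomain
open scoped InnerProductSpace ComplexConjugate WithZero Pointwise

namespace Fermat.Agent.LT.Desc

open Fermat.Agent.LT.Tr H3

section Ev

variable {F : Type*} [Field F] [NumberField F]

/-- The eigenvalue of a family of radial kernels on functions with spherical parameter `0`. -/
def ev0 (k : Kinf F) : ℂ := ∏ w, sph 0 (k w).fn

theorem sph_rad_mul (k l : Rad) (ν : ℂ) : sph ν (k * l).fn = sph ν k.fn * sph ν l.fn :=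
  sph_comp k.isKer l.isKer (Rad.abel_mul k l) ν

theorem ev0_mul (k l : Kinf F) : ev0 (k * l) = ev0 k * ev0 l := by
  rw [ev0, ev0, ev0, ← Finset.prod_mul_distrib]
  exact Finset.prod_congr rfl fun w _ => sph_rad_mul (k w) (l w) 0

/-- The eigenvalue of a self-adjoint kernel. -/
def yInf (x : RealK (KinfL F)) : ℝ := (ev0 x.1.i).re

theorem im_fn_eq_zero (x : RealK (KinfL F)) (w : InfinitePlace F) (t : ℝ) :
    ((x.1.i w).fn t).im = 0 := by
  have h1 : star (x.1.i w) = x.1.i w := KinfL.star_eq_iff.mp x.2 w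
  rw [← Complex.conj_eq_iff_im, ← Rad.star_fn, h1]

theorem im_sph_eq_zero (x : RealK (KinfL F)) (w : InfinitePlace F) :
    (sph 0 (x.1.i w).fn).im = 0 :=
  sph_real (by norm_num) (im_fn_eq_zero x w)

theorem coe_sph (x : RealK (KinfL F)) (w : InfinitePlace F) :
    (((sph 0 (x.1.i w).fn).re : ℝ) : ℂ) = sph 0 (x.1.i w).fn :=
  Complex.conj_eq_iff_re.mp (Complex.conj_eq_iff_im.mpr (im_sph_eq_zero x w))

theorem ev0_eq_coe (x : RealK (KinfL F)) :
    ev0 x.1.i = ((∏ w, (sph 0 (x.1.i w).fn).re : ℝ) : ℂ) := by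
  rw [ev0, Complex.ofReal_prod]
  exact Finset.prod_congr rfl fun w _ => (coe_sph x w).symm

theorem coe_yInf (x : RealK (KinfL F)) : ((yInf x : ℝ) : ℂ) = ev0 x.1.i := by
  rw [yInf, ev0_eq_coe, Complex.ofReal_re]

theorem coe_yInf' (x : RealK (KinfL F)) :
    ((yInf x : ℝ) : ℂ) = ∏ w, sph 0 (x.1.i w).fn := coe_yInf x

end Ev

section Tau

variable {F : Type*} [Field F]

/-- The action of an automorphism on the kernels. -/
def kinfLTau (τ : F ≃+* F) (k : KinfL F) : KinfL F := ⟨kinfTau τ k.i, fun _ => k.lker _⟩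

theorem i_kinfLTau (τ : F ≃+* F) (k : KinfL F) : (kinfLTau τ k).i = kinfTau τ k.i := rfl

theorem kinfLTau_mul (τ : F ≃+* F) (k l : KinfL F) :
    kinfLTau τ (k * l) = kinfLTau τ k * kinfLTau τ l := rfl

/-- The permutation of the kernels. -/
def phiInf (τ : F ≃+* F) : Equiv.Perm (KinfL F) where
  toFun := kinfLTau τ.symm
  invFun := kinfLTau τ
  left_inv k := KinfL.ext (kinfTau_symm_kinfTau τ.symm k.i)
  right_inv k := KinfL.ext (kinfTau_symm_kinfTau τ k.i)

theorem phiInf_apply (τ : F ≃+* F) (k : KinfL F) : phiInf τ k = kinfLTau τ.symm k := rfl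

theorem star_phiInf (τ : F ≃+* F) (k : KinfL F) : star (phiInf τ k) = phiInf τ (star k) := rfl

theorem phiInf_mul (τ : F ≃+* F) (k l : KinfL F) :
    phiInf τ (k * l) = phiInf τ k * phiInf τ l := rfl

variable [NumberField F]

theorem ker_phiInf (τ : F ≃+* F) (k : KinfL F) (x x' : Xi F) :
    (phiInf τ k).i.ker x x' = k.i.ker (Xi.tau τ.symm x) (Xi.tau τ.symm x') :=
  ker_kinfTau τ.symm k.i x x'

theorem kap_phiInf [IsTotallyComplex F] (D : Type*) [MeasurableSpace D]
    [DiscreteMeasurableSpace D] [Countable D] [MulAction (GL (Fin 2) F) D] [IsLevel F D]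
    (τ : F ≃+* F) (k : KinfL F) (x x' : Xi F) :
    (kdatL F D).kap (phiInf τ k) x x' =
      (kdatL F D).kap k (Xi.tau τ.symm x) (Xi.tau τ.symm x') :=
  ker_phiInf τ k x x'

theorem ev0_kinfTau (τ : F ≃+* F) (k : Kinf F) : ev0 (kinfTau τ k) = ev0 k :=
  (Xi.placePerm τ).symm.prod_comp fun w => sph 0 (k w).fn

/-- The eigenvalues are invariant under the automorphism. -/
theorem yInf_permReal (τ : F ≃+* F) (x : RealK (KinfL F)) :
    yInf (permReal (phiInf τ) (star_phiInf τ) x) = yInf x := by
  rw [yInf, yInf]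
  exact congrArg Complex.re (ev0_kinfTau τ.symm x.1.i)

end Tau

section Down

variable {K L : Type*} [Field K] [Field L]

/-- The transfer of self-adjoint kernels. -/
def tI (p : Fin 3 × InfinitePlace K → InfinitePlace L) (x : RealK (KinfL L)) :
    RealK (KinfL K) := ⟨tinfL p x.1, by rw [← tinfL_star, x.2]⟩

theorem coe_tI (p : Fin 3 × InfinitePlace K → InfinitePlace L) (x : RealK (KinfL L)) :
    (tI p x : KinfL K) = tinfL p x.1 := rfl

variable [NumberField K] [NumberField L]

/-- **The cubes of the kernels over `K` are transfers.** -/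
theorem cube_inf [Unique (InfinitePlace K)] (hc : Fintype.card (InfinitePlace L) = 3)
    (p : Fin 3 × InfinitePlace K → InfinitePlace L) (x' : RealK (KinfL K)) :
    ∃ x : RealK (KinfL L), (tI p x : KinfL K) = x'.1 * x'.1 * x'.1 ∧ yInf x = yInf x' ^ 3 := by
  have hs : star (x'.1.i default) = x'.1.i default := KinfL.star_eq_iff.mp x'.2 default
  refine ⟨⟨KinfL.const (x'.1.i default) (x'.1.lker default),
    KinfL.star_eq_iff.mpr fun w => hs⟩, ?_, ?_⟩
  · rw [coe_tI, tinfL_const]
    have h1 : (KinfL.const (x'.1.i default) (x'.1.lker default) : KinfL K) = x'.1 :=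
      KinfL.ext (funext fun v => by rw [KinfL.i_const, Subsingleton.elim v default])
    rw [h1]
  · apply Complex.ofReal_injective
    have h2 : ((yInf x' : ℝ) : ℂ) = sph 0 (x'.1.i default).fn := by
      rw [coe_yInf', Fintype.prod_unique]
    rw [Complex.ofReal_pow, coe_yInf', h2]
    change (∏ w : InfinitePlace L, sph 0 (x'.1.i default).fn) = _
    rw [Finset.prod_const, Finset.card_univ, hc]

variable [Algebra K L] [IsGalois K L] [IsTotallyComplex K]

/-- `L` has three infinite places. -/
theorem card_places_eq_three [Unique (InfinitePlace K)] (h3 : Module.finrank K L = 3)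
    {τ : L ≃ₐ[K] L} (hτ : τ ≠ 1) {s : InfinitePlace K → InfinitePlace L}
    (hs : Xi.IsAbove (algebraMap K L) s) : Fintype.card (InfinitePlace L) = 3 := by
  rw [← Fintype.card_congr (Dict.placesE h3 hτ hs), Fintype.card_fin]

end Down

end Fermat.Agent.LT.Desc

end
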