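import Fermat.Agent.LT.Aleph.Common
import Fermat.Agent.LT.Aleph.FacHS
import Fermat.Agent.LT.Aleph.Exist
import Fermat.Agent.LT.Aleph.SyK
import Fermat.Agent.LT.Desc.Deg1
import Fermat.Agent.LT.Desc.Cube

/-!
# The common factor `P` of the two trace formulas in the letters of the descent theorem

* `FacP Kd hw W P` : the properties of the polynomial `P` in the words `W`: every word contains a
  full kernel, the operator is self-adjoint, has cuspidal bounded values, kills the orthogonal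
  complement of `V`, is a Hilbert-Schmidt operator on `V`;
* `exists_P_of_data`: the polynomial for any levels `U`, `UK`;
* `exists_P`: the polynomial for the tower.
-/

set_option autoImplicit false
set_option linter.unusedSectionVars false

noncomputable section

open MeasureTheory NumberField IsDedekindDomain
open scoped ENNReal ComplexConjugate BigOperators InnerProductSpace Pointwise

namespace Fermat.Agent.LT.Desc

open Fermat.Agent.LT.Iso Fermat.Agent.LT.Tr Fermat.Agent.LT.Lvl Fermat.Agent.LT.HK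
open Fermat.Agent.LT.Iwa Fermat.Agent.LT.Ext Fermat.Agent.CFT.SUnits
open Fermat.Agent.LT.Aleph (Bdry Data bdry rep_bdry pC pC_ray lettS IsFac opP opP_eq_linS
  exists_common sstar_lettS commute_lettS C0)

/-! ### One side -/

section One

variable {F : Type*} [Field F] [NumberField F] [IsTotallyComplex F] {D : Type*}
  [MeasurableSpace D] [DiscreteMeasurableSpace D] [Countable D] [MulAction (GL (Fin 2) F) D]
  [IsLevel F D] {w : Xi F × D → ℝ≥0∞} {𝒦 : Type*} [Semigroup 𝒦] [StarMul 𝒦]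

/-- **The properties of the common factor** on one side. `W l` is the symbol of the word `l`. -/
structure FacP (Kd : KDat F D 𝒦) (hw : IsWeight (PG F) w) {ι : Type*}
    (W : List ι → Symb (PG F) D 𝒦) (P : List ι →₀ ℂ) : Prop where
  full : ∀ l ∈ P.support, W l ∈ fullS (PG F) D 𝒦
  adj : ContinuousLinearMap.adjoint
      (linS Kd.toKerSg (exists_orbits F D) hw P.support (fun l => P l) W) =
    linS Kd.toKerSg (exists_orbits F D) hw P.support (fun l => P l) W
  cusp : ∀ f, (linS Kd.toKerSg (exists_orbits F D) hw P.support (fun l => P l) W f :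
    Lp ℂ 2 ((muXD (volume : Measure (Xi F)) D).withDensity w)) ∈ cuspX hw
  sup : ∃ C : ℝ, 0 ≤ C ∧ ∀ f, ∀ᵐ z ∂muXD (volume : Measure (Xi F)) D,
    ‖arep (linS Kd.toKerSg (exists_orbits F D) hw P.support (fun l => P l) W f) z‖ ≤ C * ‖f‖
  mem : ∀ f, (linS Kd.toKerSg (exists_orbits F D) hw P.support (fun l => P l) W f :
    Lp ℂ 2 ((muXD (volume : Measure (Xi F)) D).withDensity w)) ∈ Kd.V hw
  kill : ∀ f : autL2 (PG F) ((muXD (volume : Measure (Xi F)) D).withDensity w),
    (f : Lp ℂ 2 ((muXD (volume : Measure (Xi F)) D).withDensity w)) ∈ (Kd.V hw)ᗮ →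
      linS Kd.toKerSg (exists_orbits F D) hw P.support (fun l => P l) W f = 0
  hs : IsHS (homS (Kd.stabV hw) P.support (fun l => P l) W)

/-- From the letters to the words. -/
theorem FacP.of_isFac {Kd : KDat F D 𝒦} {hw : IsWeight (PG F) w} {ι : Type*}
    {φ : ι → Symb (PG F) D 𝒦} {W : List ι → Symb (PG F) D 𝒦} {P : List ι →₀ ℂ}
    (hc : ∀ i j, Commute (φ i) (φ j)) (hs : ∀ i, sstar (φ i) = φ i)
    (hW : ∀ l, W l = (l.map φ).prod)
    (h : IsFac Kd.toKerSg (exists_orbits F D) hw φ P) : FacP Kd hw W P := by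
  obtain rfl : W = fun l => (l.map φ).prod := funext hW
  have hO : opP Kd.toKerSg (exists_orbits F D) hw φ P =
      linS Kd.toKerSg (exists_orbits F D) hw P.support (fun l => P l)
        fun l => (l.map φ).prod := opP_eq_linS
  refine ⟨fun l hl => h.full l (Finsupp.mem_support_iff.1 hl), ?_, ?_, ?_, ?_, ?_,
    h.isHS (Kd.stabV hw)⟩
  · rw [← hO]
    exact h.adjoint Kd.kap_star hc hs
  · rw [← hO]
    exact h.cusp
  · rw [← hO]
    exact h.sup
  · rw [← hO]
    exact h.mem_main Kd.kap_star (Kd.stabC hw)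
  · intro f hf
    rw [← hO]
    exact h.eq_zero Kd.kap_star hc hs (Kd.stabC hw) fun v hv =>
      (Submodule.mem_orthogonal _ _).1 hf v hv

end One

/-! ### The letters -/

section letters

variable {K L : Type*} [Field K] [NumberField K] [Field L] [NumberField L] [Algebra K L]
  {τ : L ≃ₐ[K] L} {U : Lev L} {UK : Lev K}

/-- the Hecke letters over `L` -/
def tL : WPl τ U → HK (PG L) (D U) := fun w => tAt w.1.2 (datum w.1.1)

/-- the Hecke letters over `K` -/
def tK (hdown : ∀ w : HeightOneSpectrum (𝓞 L), U.U w = GLO (vF w) →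
    UK.U (under K w) = GLO (vF (under K w))) : WPl τ U → HK (PG K) (D UK) :=
  fun w => tAt (hdown w.1.1 w.1.2) (datum (under K w.1.1))

theorem commute_tL (v v' : WPl τ U) : Commute (tL v) (tL v') := commute_tAt v.1.2 v'.1.2 _ _

theorem commute_tK (hdown : ∀ w : HeightOneSpectrum (𝓞 L), U.U w = GLO (vF w) →
    UK.U (under K w) = GLO (vF (under K w))) (v v' : WPl τ U) :
    Commute (tK hdown v) (tK hdown v') := commute_tAt (hdown _ v.1.2) (hdown _ v'.1.2) _ _

theorem star_tL (v : WPl τ U) : star (tL v) = tL v := star_tAt _ v.1.2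

theorem star_tK (hdown : ∀ w : HeightOneSpectrum (𝓞 L), U.U w = GLO (vF w) →
    UK.U (under K w) = GLO (vF (under K w))) (v : WPl τ U) :
    star (tK hdown v) = tK hdown v := star_tAt _ (hdown _ v.1.2)

theorem symL_eq_prod (X : SetL τ U) {𝒦 : Type*} [CommSemigroup 𝒦] {𝒦₀ : Type*} (k : 𝒦₀ → 𝒦)
    (l : List (WPl τ U ⊕ 𝒦₀)) : symL X k l = (l.map (lettS tL k)).prod := by
  unfold symL LetL.symW
  congr 1
  refine List.map_congr_left fun c _ => ?_
  rcases c with v | x <;> rfl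

theorem symK_eq_prod (Y : SetK UK) {𝒦' : Type*} [CommSemigroup 𝒦'] {𝒦₀ 𝒦₀' : Type*}
    (k' : 𝒦₀' → 𝒦') (q : ℝ) (hdown : ∀ w : HeightOneSpectrum (𝓞 L), U.U w = GLO (vF w) →
    UK.U (under K w) = GLO (vF (under K w))) (tI : 𝒦₀ → 𝒦₀') (l : List (WPl τ U ⊕ 𝒦₀)) :
    symK Y k' q hdown tI l = (l.map (lettS (tK hdown) fun x => k' (tI x))).prod := by
  unfold symK LetK.symW
  congr 1
  refine List.map_congr_left fun c _ => ?_
  rcases c with v | x <;> rfl

end letters

/-! ### The two sides -/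

section Two

variable {K L : Type} [Field K] [NumberField K] [IsTotallyComplex K] [Field L] [NumberField L]
  [IsTotallyComplex L] [Algebra K L] {τ : L ≃ₐ[K] L} {U : Lev L} {UK : Lev K}

variable (τ U) in
/-- the boundary over `L` with the common letters -/
def bdryL : Bdry L (D U) (WPl τ U) := (bdry U).comap fun w => ⟨w.1.1, w.1.2⟩

/-- the boundary over `K` with the common letters -/
def bdryK (hdown : ∀ w : HeightOneSpectrum (𝓞 L), U.U w = GLO (vF w) →
    UK.U (under K w) = GLO (vF (under K w))) : Bdry K (D UK) (WPl τ U) :=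
  (bdry UK).comap fun w => ⟨under K w.1.1, hdown w.1.1 w.1.2⟩

theorem rep_bdryL : (bdryL τ U).Rep tL := (rep_bdry U datum).comap _

theorem rep_bdryK (hdown : ∀ w : HeightOneSpectrum (𝓞 L), U.U w = GLO (vF w) →
    UK.U (under K w) = GLO (vF (under K w))) :
    (bdryK (τ := τ) hdown).Rep (tK hdown) := (rep_bdry UK datum).comap _

theorem bdryL_q (w : WPl τ U) : (bdryL τ U).q w = Ideal.absNorm w.1.1.asIdeal := rfl

theorem bdryK_q (hdown : ∀ w : HeightOneSpectrum (𝓞 L), U.U w = GLO (vF w) →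
    UK.U (under K w) = GLO (vF (under K w))) (w : WPl τ U) :
    (bdryK (τ := τ) hdown).q w = Ideal.absNorm (under K w.1.1).asIdeal := rfl

/-- **The common factor**, for arbitrary levels. -/
theorem exists_P_of_data [IsGalois K L] (h3 : IsThree τ)
    {p : Fin 3 × InfinitePlace K → InfinitePlace L} (hp : Function.Bijective p)
    (X : SetL τ U) (Y : SetK UK)
    (hdown : ∀ w : HeightOneSpectrum (𝓞 L), U.U w = GLO (vF w) →
      UK.U (under K w) = GLO (vF (under K w)))
    {wL : Xi L × D U → ℝ≥0∞} (hwL : IsWeight (PG L) wL)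
    {wK : Xi K × D UK → ℝ≥0∞} (hwK : IsWeight (PG K) wK)
    {x lam : HeightOneSpectrum (𝓞 L) → ℝ}
    (hlam : ∀ w, U.U w = GLO (vF w) → τ • w ≠ w →
      lam w = Real.sqrt (Ideal.absNorm w.asIdeal) * x w)
    (A : Data (bdryL τ U).E (bdryL τ U).pc fun w => ((x w.1.1 : ℝ) : ℂ))
    (A' : Data (bdryK (τ := τ) hdown).E (bdryK (τ := τ) hdown).pc fun w => ((x w.1.1 : ℝ) : ℂ)) :
    ∃ P : List (WPl τ U ⊕ RealK (KinfL L)) →₀ ℂ,
      evN (yLet (τ := τ) (U := U) lam yInf) P ≠ 0 ∧ RealW P ∧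
      FacP (kdatL L (D U)) hwL (symL X (Subtype.val : RealK (KinfL L) → KinfL L)) P ∧
      FacP (kdatL K (D UK)) hwK
        (symK Y (Subtype.val : RealK (KinfL K) → KinfL K) X.q hdown (tI p)) P := by
  obtain ⟨P, h1, -, h2, h3'⟩ := exists_common hp (kdatL L (D U)) (kdatL K (D UK)) hwL hwK A A'
    rep_bdryL commute_tL (rep_bdryK hdown) (commute_tK hdown)
    (𝒦₀ := RealK (KinfL L)) (kL := Subtype.val) (kK := fun x => (tI p x : KinfL K))
    (i := fun x => x.1.i) (fun _ => rfl) (fun _ => rfl)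
    (fun k hs hk => ⟨⟨⟨k, hk⟩, KinfL.ext hs⟩, rfl⟩)
    (y := yLet (τ := τ) (U := U) lam yInf)
    (fun v => hlam v.1.1 v.1.2 v.2)
    (fun v => by rw [bdryK_q, bdryL_q, absNorm_under_eq (stabilizer_eq_bot_of_ne h3 v.2)])
    (fun x => coe_yInf' x)
  refine ⟨P, h1, h2.real, ?_, ?_⟩
  · exact FacP.of_isFac (commute_lettS commute_tL)
      (sstar_lettS star_tL fun k => k.2) (symL_eq_prod X _) h2
  · exact FacP.of_isFac (commute_lettS (commute_tK hdown))
      (sstar_lettS (star_tK hdown) fun k => (tI p k).2) (symK_eq_prod Y _ _ hdown _) h3'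

end Two

/-! ### The tower -/

section Tower

variable {ρ : (AlgebraicClosure ℚ ≃ₐ[ℚ] AlgebraicClosure ℚ) →*
  Matrix.GeneralLinearGroup (Fin 2) (ZMod 3)} {T : Tower.TowerFields ρ} {N : ℕ}
  {x : HeightOneSpectrum (𝓞 T.L) → ℝ}

/-- **The common factor `P`** for the tower. -/
theorem exists_P (hT : TSys T N x) {τ : T.L ≃ₐ[T.K] T.L} (h3 : IsThree τ) (hτ : τ ≠ 1)
    {p : Fin 3 × InfinitePlace T.K → InfinitePlace T.L} (hp : Function.Bijective p)
    {S : Finset (HeightOneSpectrum (𝓞 T.K))} {u : HeightOneSpectrum (𝓞 T.K)}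
    {M : HeightOneSpectrum (𝓞 T.K) → ℕ} {q : ℕ}
    (hS : ∀ v, v ∈ S ↔ (N : 𝓞 T.K) ∈ v.asIdeal) (hq0 : q ≠ 0) (hq : (q : 𝓞 T.K) ∈ u.asIdeal)
    (X : SetL τ (Lev.stdUp T.L S {u} M)) (Y : SetK (Lev.std S {u} M))
    (hdown : ∀ w : HeightOneSpectrum (𝓞 T.L), (Lev.stdUp T.L S {u} M).U w = GLO (vF w) →
      (Lev.std S {u} M).U (under T.K w) = GLO (vF (under T.K w)))
    {wL : Xi T.L × D (Lev.stdUp T.L S {u} M) → ℝ≥0∞} (hwL : IsWeight (PG T.L) wL)
    {wK : Xi T.K × D (Lev.std S {u} M) → ℝ≥0∞} (hwK : IsWeight (PG T.K) wK)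
    {lam : HeightOneSpectrum (𝓞 T.L) → ℝ}
    (hlam : ∀ w, (Lev.stdUp T.L S {u} M).U w = GLO (vF w) → τ • w ≠ w →
      lam w = Real.sqrt (Ideal.absNorm w.asIdeal) * x w) :
    ∃ P : List (WPl τ (Lev.stdUp T.L S {u} M) ⊕ RealK (KinfL T.L)) →₀ ℂ,
      evN (yLet (τ := τ) (U := Lev.stdUp T.L S {u} M) lam yInf) P ≠ 0 ∧ RealW P ∧
      FacP (kdatL T.L (D (Lev.stdUp T.L S {u} M))) hwL
        (symL X (Subtype.val : RealK (KinfL T.L) → KinfL T.L)) P ∧
      FacP (kdatL T.K (D (Lev.std S {u} M))) hwK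
        (symK Y (Subtype.val : RealK (KinfL T.K) → KinfL T.K) X.q hdown (tI p)) P := by
  have hk : N * q ≠ 0 := mul_ne_zero hT.N_ne hq0
  have key : ∀ w : HeightOneSpectrum (𝓞 T.L), ((N * q : ℕ) : 𝓞 T.L) ∉ w.asIdeal →
      Deg1 (K := T.K) w → ∃ v : WPl τ (Lev.stdUp T.L S {u} M), v.1.1 = w := by
    intro w hw hd
    have h1 := stdUp_good_of_notMem (M := M) hS hq hw
    have h2 : τ • w ≠ w := smul_ne_of_deg1 hτ (hT.unr w (natCast_mul_notMem hw).1) hd
    exact ⟨⟨⟨w, h1⟩, h2⟩, rfl⟩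
  obtain ⟨A⟩ := Aleph.Bdry.exists_data_L hT (bdryL τ (Lev.stdUp T.L S {u} M))
    (pC (Lev.stdUp T.L S {u} M)) (pC_ray _) hk (fun w => x w.1.1) (by
      intro w h1 h2
      obtain ⟨v, rfl⟩ := key w h2 (Aleph.deg1_of_prime h1)
      exact ⟨v, rfl, rfl⟩)
  obtain ⟨A'⟩ := Aleph.Bdry.exists_data_K hT (bdryK (τ := τ) hdown)
    (pC (Lev.std S {u} M)) (pC_ray _) hk (fun w => x w.1.1) (by
      intro w h1 h2 hd
      obtain ⟨v, rfl⟩ := key w h2 hd
      refine ⟨v, ?_, rfl⟩
      rw [← under_eq_under]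
      rfl)
  exact exists_P_of_data h3 hp X Y hdown hwL hwK hlam A A'

end Tower

end Fermat.Agent.LT.Desc

end
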