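import Fermat.Agent.LT.Desc.Dic
import Fermat.Agent.LT.Desc.Reg
import Fermat.Agent.LT.Desc.EigF
import Fermat.Agent.LT.Red.CuspK
import Fermat.Agent.LT.HK.NbrAt
import Fermat.Agent.LT.Tr.SymKer
import Fermat.Agent.LT.Level.Meas

/-!
# The output of the descent (helper46)

`IsRegRep.eigF`, `exists_eigF`: a non-zero cuspidal eigenvector of the Hecke operators `T_v`,
`v ∉ S`, and of the full kernels, gives an `EigF`; `exists_isForm`: if the eigenvalues of the full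
kernels are `∏ w, sph 0 (k w)`, it gives an `IsForm`.
-/

set_option autoImplicit false
set_option linter.unusedSectionVars false

noncomputable section

open MeasureTheory NumberField IsDedekindDomain
open scoped ENNReal ComplexConjugate WithZero

namespace Fermat.Agent.LT.Desc

open H3 Lvl HK

/-! ### Kernels -/

/-- The Lipschitz kernels form an ideal. -/
theorem lKer_kap0 {k₁ k₂ : ℝ → ℂ} (h₁ : IsKer k₁) (h₂ : LKer k₂) : LKer (kap0 k₁ k₂) := by
  refine ⟨isKer_kap0 h₁ h₂.toIsKer, ?_⟩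
  obtain ⟨L, hL0, hL⟩ := h₂.lip
  obtain ⟨C, hC⟩ := h₁.bdd
  have hint : ∀ P : H3, Integrable fun W : H3 => k₁ (cu P W) := fun P =>
    integrable_of_support (h₁.cont.comp (continuous_cu_right P)) (isCompact_ball P C) fun W hW =>
      hC _ (not_le.1 hW).le
  have hmass : ∀ P : H3, ∫ W : H3, ‖k₁ (cu P W)‖ = ∫ W : H3, ‖k₁ (cu j W)‖ := fun P =>
    integral_radial_eq (fun t => ‖k₁ t‖) P j
  have hint2 : ∀ P Q : H3, Integrable fun W : H3 => k₁ (cu P W) * k₂ (cu W Q) := fun P Q => by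
    refine integrable_of_support ((h₁.cont.comp (continuous_cu_right P)).mul
      (h₂.cont.comp ?_)) (isCompact_ball P C) fun W hW => ?_
    · simp_rw [cu_comm _ Q]
      exact continuous_cu_right Q
    · rw [hC _ (not_le.1 hW).le, zero_mul]
  refine ⟨(∫ W : H3, ‖k₁ (cu j W)‖) * L, mul_nonneg (integral_nonneg fun _ => norm_nonneg _) hL0,
    fun P Q Q' => ?_⟩
  rw [← kap_eq_kap0, ← kap_eq_kap0, kap, kap, ← integral_sub (hint2 P Q) (hint2 P Q')]
  calc ‖∫ W : H3, (k₁ (cu P W) * k₂ (cu W Q) - k₁ (cu P W) * k₂ (cu W Q'))‖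
      ≤ ∫ W : H3, ‖k₁ (cu P W)‖ * (L * √(cu Q Q' - 1)) := by
        refine norm_integral_le_of_norm_le ((hint P).norm.mul_const _)
          (Filter.Eventually.of_forall fun W => ?_)
        rw [← mul_sub, norm_mul]
        exact mul_le_mul_of_nonneg_left (hL W Q Q') (norm_nonneg _)
    _ = (∫ W : H3, ‖k₁ (cu j W)‖) * L * √(cu Q Q' - 1) := by
        rw [integral_mul_const, hmass, mul_assoc]

theorem im_kap0_real {k₁ k₂ : ℝ → ℂ} (h₁ : ∀ t, (k₁ t).im = 0) (h₂ : ∀ t, (k₂ t).im = 0) (t : ℝ) :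
    (kap0 k₁ k₂ t).im = 0 := by
  rw [← Complex.conj_eq_iff_im, kap0, kap, ← integral_conj]
  refine integral_congr_ae (Filter.Eventually.of_forall fun W => ?_)
  simp only [map_mul]
  rw [Complex.conj_eq_iff_im.mpr (h₁ _), Complex.conj_eq_iff_im.mpr (h₂ _)]

theorem im_bump (δ t : ℝ) : (bump δ t).im = 0 := by
  rw [bump]
  exact Complex.ofReal_im _

theorem lKer_bump (δ : ℝ) : LKer (bump δ) := by
  refine lKer_of_lipschitz (K := 1) (fun s t _ _ => ?_) (isKer_bump δ)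
  rw [bump, bump, ← Complex.ofReal_sub, Complex.norm_real, one_mul, Real.norm_eq_abs]
  refine (abs_max_sub_max_le_abs _ _ _).trans (le_of_eq ?_)
  rw [abs_sub_comm s t]
  congr 1
  ring

theorem lKer_radOf {k : ℝ → ℂ} (h : LKer k) : LKer (Tr.Rad.of k h.toIsKer).fn := by
  refine ⟨(Tr.Rad.of k h.toIsKer).isKer, ?_⟩
  obtain ⟨L, h0, hL⟩ := h.lip
  refine ⟨L, h0, fun P Q Q' => ?_⟩
  rw [Tr.Rad.of_cu, Tr.Rad.of_cu]
  exact hL P Q Q'

theorem star_radOf {k : ℝ → ℂ} (h : IsKer k) (hre : ∀ t, (k t).im = 0) :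
    star (Tr.Rad.of k h) = Tr.Rad.of k h := by
  refine Tr.Rad.ext_fn (funext fun t => ?_)
  rw [Tr.Rad.star_fn]
  exact Complex.conj_eq_iff_im.mpr (hre _)

section Kinf

variable {F : Type*} [Field F] [NumberField F]

/-- the element of `Kinf F` with given kernels -/
def ofKer (κ : InfinitePlace F → ℝ → ℂ) (h : ∀ w, IsKer (κ w)) : Tr.Kinf F :=
  fun w => Tr.Rad.of (κ w) (h w)

theorem ker_ofKer (κ : InfinitePlace F → ℝ → ℂ) (h : ∀ w, IsKer (κ w)) (x x' : Xi F) :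
    (ofKer κ h).ker x x' = pk κ x x' :=
  Finset.prod_congr rfl fun w _ => Tr.Rad.of_cu (h w) (x w) (x' w)

theorem sph_radOf (ν : ℂ) {k : ℝ → ℂ} (h : IsKer k) : sph ν (Tr.Rad.of k h).fn = sph ν k := by
  rw [sph, sph, Tr.Rad.abel_of]

theorem isCBKer_kinf (k : Tr.Kinf F) : IsCBKer k.ker := isCBKer_pk fun w => (k w).isKer

theorem opK_ofKer {D : Type*} (κ : InfinitePlace F → ℝ → ℂ) (h : ∀ w, IsKer (κ w))
    (f : Xi F × D → ℂ) : opK (ofKer κ h).ker f = opK (fun x x' => pk κ x x') f := by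
  funext z
  unfold opK
  simp only [ker_ofKer]

theorem upd_eq_updateX [DecidableEq (InfinitePlace F)] (x : Xi F) (w : InfinitePlace F) (Q : H3) :
    x.upd w Q = Function.update (x : InfinitePlace F → H3) w Q := by
  funext w'
  by_cases hw : w' = w
  · subst hw
    exact (if_pos rfl).trans
      (Function.update_self (f := (x : InfinitePlace F → H3)) w' Q).symm
  · exact (if_neg hw).trans
      (Function.update_of_ne (f := (x : InfinitePlace F → H3)) hw Q).symm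

end Kinf

/-! ### The regular representative -/

section Main

variable {F : Type} [Field F] [NumberField F] [IsTotallyComplex F] {U : Lev F}
  {w : Xi F × D U → ℝ≥0∞} {hw : IsWeight (PG F) w}
  {f : autL2 (PG F) ((muXD (volume : Measure (Xi F)) (D U)).withDensity w)}
  {F₀ : Xi F × D U → ℂ} {hT : ∃ T : Finset (D U), ∀ d, ∃ g : PG F, g • d ∈ T}

/-- The Hecke equation of a regular representative. -/
theorem IsRegRep.nbr_eq (hF : IsRegRep f F₀) {v : HeightOneSpectrum (𝓞 F)}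
    (hU : U.U v = GLO (Valued.v : Valuation (v.adicCompletion F) ℤᵐ⁰)) (𝔡 : Iwa.Datum (vF v))
    {c : ℂ} (h : Fermat.Agent.LT.opD hT hw (tAt hU 𝔡) f = c • f) (z : Xi F × D U) :
    ∑ᶠ (d' : D U) (_ : Nbr U v z.2 d'), F₀ (z.1, d') = c * F₀ z := by
  rw [← tAt_act hU 𝔡 (fun d' => F₀ (z.1, d')) z.2]
  exact hF.act_eq hT hw h z.1 z.2

/-- **A regular representative of a cuspidal eigenvector is an `EigF`.** -/
theorem IsRegRep.eigF (hF : IsRegRep f F₀)
    (hc : IsCusp (arep f))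
    {S : Finset (HeightOneSpectrum (𝓞 F))}
    (lev : ∀ v, v ∉ S → U.U v = GLO (Valued.v : Valuation (v.adicCompletion F) ℤᵐ⁰))
    {a : HeightOneSpectrum (𝓞 F) → ℂ}
    (hecke : ∀ v (hv : v ∉ S), ∃ 𝔡 : Iwa.Datum (vF v),
      Fermat.Agent.LT.opD hT hw (tAt (lev v hv) 𝔡) f = a v • f)
    {κ : InfinitePlace F → ℝ → ℂ} (hκ : ∀ w, LKer (κ w)) {c : ℂ} (h0 : c ≠ 0)
    (he : ∀ z, opK (fun x x' => pk κ x x') F₀ z = c * F₀ z)
    {h : InfinitePlace F → (ℝ → ℂ) → ℂ}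
    (hr : ∀ (w : InfinitePlace F) (k : ℝ → ℂ), IsKer k → ∀ z : Xi F × D U,
      ∫ Q : H3, k (cu (z.1 w) Q) * F₀ (z.1.upd w Q, z.2) = h w k * F₀ z) :
    EigF U S a h F₀ where
  lev := lev
  cont := hF.cont
  inv := hF.inv_gl
  bdd := hF.exists_bound hw (hF.isCusp_iff.mpr hc) (Red.isCKer_pk hκ) h0 he
  cusp := hF.isCusp_iff.mpr hc
  hecke v hv z := by
    obtain ⟨𝔡, h1⟩ := hecke v hv
    exact hF.nbr_eq (lev v hv) 𝔡 h1 z
  radial := hr

/-- The full kernels which are real and Lipschitz, with eigenvalues `∏ w, sph 0 (k w)`. -/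
theorem IsRegRep.pk_eq {G : Xi F × D U → ℂ}
    (full : ∀ κ : Tr.Kinf F, (∀ w, LKer (κ w).fn) → (∀ w, star (κ w) = κ w) →
      ∀ z, opK κ.ker G z = (∏ w, sph 0 (κ w).fn) * G z)
    (κ : InfinitePlace F → ℝ → ℂ) (hκ : ∀ w, LKer (κ w) ∧ ∀ t, (κ w t).im = 0)
    (z : Xi F × D U) : opK (fun x x' => pk κ x x') G z = (∏ w, sph 0 (κ w)) * G z := by
  have h2 := full (ofKer κ fun w => (hκ w).1.toIsKer) (fun w => lKer_radOf (hκ w).1)
    (fun w => star_radOf (hκ w).1.toIsKer (hκ w).2) z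
  rw [opK_ofKer] at h2
  rw [h2]
  congr 1
  exact Finset.prod_congr rfl fun w _ => sph_radOf 0 (hκ w).1.toIsKer

/-- The radial equations at `ν = 0`. -/
theorem radial_sph_of_full {G : Xi F × D U → ℂ} (hG : ∀ d, Continuous fun x => G (x, d))
    (full : ∀ κ : Tr.Kinf F, (∀ w, LKer (κ w).fn) → (∀ w, star (κ w) = κ w) →
      ∀ z, opK κ.ker G z = (∏ w, sph 0 (κ w).fn) * G z) (w : InfinitePlace F) (k : ℝ → ℂ)
    (hk : IsKer k) (z : Xi F × D U) :
    ∫ Q : H3, k (cu (z.1 w) Q) * G (z.1.upd w Q, z.2) = sph 0 k * G z := by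
  classical
  have h1 := radial_of_pk (P := fun k => LKer k ∧ ∀ t, (k t).im = 0) ⟨lKer_bump 1, im_bump 1⟩
    (isKer_bump 1) (sph_zero_bump_ne one_pos) (fun k hk hre => ⟨lKer_kap0 hk (lKer_bump 1),
      im_kap0_real hre (im_bump 1)⟩) (f := fun x : Xi F => G (x, z.2)) (hG z.2)
    (fun κ hκ x => IsRegRep.pk_eq full κ hκ (x, z.2)) w hk z.1
  refine Eq.trans ?_ h1
  refine integral_congr_ae (Filter.Eventually.of_forall fun Q => ?_)
  simp only [upd_eq_updateX]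

/-- **The regular representative of a cuspidal eigenvector with the eigenvalues `∏ sph 0 (k w)`
of the real Lipschitz kernels.** -/
theorem IsRegRep.eigF_sph (hF : IsRegRep f F₀)
    (hc : IsCusp (arep f))
    {S : Finset (HeightOneSpectrum (𝓞 F))}
    (lev : ∀ v, v ∉ S → U.U v = GLO (Valued.v : Valuation (v.adicCompletion F) ℤᵐ⁰))
    {a : HeightOneSpectrum (𝓞 F) → ℂ}
    (hecke : ∀ v (hv : v ∉ S), ∃ 𝔡 : Iwa.Datum (vF v),
      Fermat.Agent.LT.opD hT hw (tAt (lev v hv) 𝔡) f = a v • f)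
    (full : ∀ κ : Tr.Kinf F, (∀ w, LKer (κ w).fn) → (∀ w, star (κ w) = κ w) →
      ∀ z, opK κ.ker F₀ z = (∏ w, sph 0 (κ w).fn) * F₀ z) :
    EigF U S a (fun _ => sph 0) F₀ :=
  hF.eigF hc lev hecke (κ := fun _ => bump 1) (fun _ => lKer_bump 1)
    (c := ∏ _w : InfinitePlace F, sph 0 (bump 1))
    (Finset.prod_ne_zero_iff.mpr fun _ _ => sph_zero_bump_ne one_pos)
    (IsRegRep.pk_eq full _ fun _ => ⟨lKer_bump 1, im_bump 1⟩)
    fun w k hk z => radial_sph_of_full hF.cont full w k hk z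

/-- **From a vector to an `EigF`.** -/
theorem exists_eigF_sph {𝒦 : Type*} [Semigroup 𝒦]
    {κ : KerSg (PG F) (volume : Measure (Xi F)) 𝒦}
    (hc : IsCusp (arep f))
    {S : Finset (HeightOneSpectrum (𝓞 F))}
    (lev : ∀ v, v ∉ S → U.U v = GLO (Valued.v : Valuation (v.adicCompletion F) ℤᵐ⁰))
    {a : HeightOneSpectrum (𝓞 F) → ℂ}
    (hecke : ∀ v (hv : v ∉ S), ∃ 𝔡 : Iwa.Datum (vF v),
      symOp κ hT hw (1, tAt (lev v hv) 𝔡) f = a v • f)
    (full : ∀ κ' : Tr.Kinf F, (∀ w, LKer (κ' w).fn) → (∀ w, star (κ' w) = κ' w) →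
      ∃ k : 𝒦, κ.kap k = κ'.ker ∧ symOp κ hT hw ((k : WithOne 𝒦), (1 : HK (PG F) (D U))) f =
        (∏ w, sph 0 (κ' w).fn) • f) :
    ∃ F₀ : Xi F × D U → ℂ, IsRegRep f F₀ ∧ EigF U S a (fun _ => sph 0) F₀ := by
  have hex : ∃ F₀ : Xi F × D U → ℂ, IsRegRep f F₀ := by
    obtain ⟨k, hk, h1⟩ := full (ofKer (fun _ => bump 1) fun _ => isKer_bump 1)
      (fun w => lKer_radOf (lKer_bump 1)) fun w => star_radOf (isKer_bump 1) (im_bump 1)
    refine exists_isRegRep κ hT hw (k := k) (hk ▸ isCBKer_kinf _) ?_ h1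
    refine Finset.prod_ne_zero_iff.mpr fun w _ => ?_
    rw [ofKer, sph_radOf]
    exact sph_zero_bump_ne one_pos
  obtain ⟨F₀, hF⟩ := hex
  refine ⟨F₀, hF, hF.eigF_sph (hw := hw) (hT := hT) hc lev hecke fun κ' hL hs z => ?_⟩
  obtain ⟨k, hk, h1⟩ := full κ' hL hs
  have h2 := hF.opK_eq κ hT hw (k := k) (hk ▸ isCBKer_kinf _) h1 z
  rw [hk] at h2
  exact h2

/-- **Output of the descent.** -/
theorem exists_isForm {𝒦 : Type*} [Semigroup 𝒦]
    {κ : KerSg (PG F) (volume : Measure (Xi F)) 𝒦} (hf0 : f ≠ 0)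
    (hc : IsCusp (arep f))
    {S : Set (HeightOneSpectrum (𝓞 F))} (hS : S.Finite)
    (lev : ∀ v, v ∉ S → U.U v = GLO (Valued.v : Valuation (v.adicCompletion F) ℤᵐ⁰))
    {a : HeightOneSpectrum (𝓞 F) → ℝ}
    (hecke : ∀ v (hv : v ∉ S), ∃ 𝔡 : Iwa.Datum (vF v), symOp κ hT hw (1, tAt (lev v hv) 𝔡) f =
      ((√(Ideal.absNorm v.asIdeal) * a v : ℝ) : ℂ) • f)
    (full : ∀ κ' : Tr.Kinf F, (∀ w, LKer (κ' w).fn) → (∀ w, star (κ' w) = κ' w) →
      ∃ k : 𝒦, κ.kap k = κ'.ker ∧ symOp κ hT hw ((k : WithOne 𝒦), (1 : HK (PG F) (D U))) f =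
        (∏ w, sph 0 (κ' w).fn) • f) :
    ∃ g : Xi F × D U → ℂ, IsRegRep f g ∧ IsForm F U S a g := by
  have hS' : ∀ v, v ∉ hS.toFinset ↔ v ∉ S := fun v => not_congr hS.mem_toFinset
  obtain ⟨g, hg, he⟩ := exists_eigF_sph (a := fun v => ((√(Ideal.absNorm v.asIdeal) * a v : ℝ) : ℂ))
    hc (S := hS.toFinset) (fun v hv => lev v ((hS' v).mp hv))
    (fun v hv => hecke v ((hS' v).mp hv)) full
  exact ⟨g, hg, hS, lev, he.cont, he.inv, he.bdd, he.cusp,
    fun v hv z => he.hecke v ((hS' v).mpr hv) z, he.radial, hg.exists_ne_zero hw hf0⟩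

end Main

end Fermat.Agent.LT.Desc

end
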