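import Fermat.Agent.LT.Desc.PosV
import Fermat.Agent.LT.Desc.Out
import Fermat.Agent.LT.Desc.SetInst
import Fermat.Agent.LT.Tr.KinfL

/-!
# Multiplicity one and the Galois action on `V(U)` for the real Lipschitz kernels

`𝒦 = KinfL L`, the letters at infinity being the self-adjoint elements `x` of `KinfL L` with
eigenvalues `yk x = ∏ w, sph 0 (x w)`.
-/

set_option autoImplicit false
set_option linter.unusedSectionVars false

noncomputable section

open MeasureTheory ENNReal NumberField Matrix IsDedekindDomain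
open scoped InnerProductSpace ComplexConjugate WithZero Pointwise

namespace Fermat.Agent.LT.Desc

open H3 Tr Fermat.Agent.LT.Iso Fermat.Agent.LT.Lvl Fermat.Agent.LT.HK Fermat.Agent.LT.Iwa
open Fermat.Agent.LT.Ext Kap Adapt Fermat.Agent.CFT.SUnits

section Cls

variable {F : Type*} [Field F] [NumberField F] [IsTotallyComplex F] {D : Type*}
  [MeasurableSpace D] [DiscreteMeasurableSpace D] [Countable D] [MulAction (GL (Fin 2) F) D]
  [IsLevel F D]

/-- **The real Lipschitz kernels.** -/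
theorem kCls_kdatL {yk : RealK (KinfL F) → ℝ}
    (hyk : ∀ x, (yk x : ℂ) = ∏ w, sph 0 (x.1.i w).fn) :
    KCls (kdatL F D) (Subtype.val : RealK (KinfL F) → KinfL F) yk
      (fun k => LKer k ∧ ∀ t, (k t).im = 0) (bump 1) where
  ker _ hk := hk.1.toIsKer
  mem := ⟨lKer_bump 1, im_bump 1⟩
  lker := lKer_bump 1
  ne := sph_zero_bump_ne one_pos
  mul _ hk hre := ⟨lKer_kap0 hk (lKer_bump 1), im_kap0_real hre (im_bump 1)⟩
  ex κ hκ := by
    refine ⟨⟨KinfL.of κ fun w => (hκ w).1,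
      KinfL.star_of _ fun w t => Complex.conj_eq_iff_im.mpr ((hκ w).2 t)⟩, ?_, ?_⟩
    · funext z z'
      exact Finset.prod_congr rfl fun w _ => KinfL.of_cu κ (fun w => (hκ w).1) w (z w) (z' w)
    · rw [hyk]
      exact Finset.prod_congr rfl fun w _ => sph_radOf 0 (hκ w).1.toIsKer

end Cls

section Main

variable {K L : Type*} [Field K] [NumberField K] [Field L] [NumberField L] [Algebra K L]
  [IsTotallyComplex L] {τ : L ≃ₐ[K] L} {U : Lev L} {X : SetL τ U}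
  {w : Xi L × Lvl.D U → ℝ≥0∞} {hw : IsWeight (PG L) w} {yk : RealK (KinfL L) → ℝ}
  {S : Finset (HeightOneSpectrum (𝓞 L))} {lam : HeightOneSpectrum (𝓞 L) → ℝ}
  {hS : SStable (L ≃ₐ[K] L) S} {D₀ : TyDat (Loc.Rf S)} {a₀ : (Loc.Rf S)ˣ}

/-- **`hline` of `descent`**, `𝒦 = KinfL L`. -/
theorem hline_kdatL (hyk : ∀ x, (yk x : ℂ) = ∏ w, sph 0 (x.1.i w).fn)
    (hlev : ∀ p, p ∉ S → (∀ j, X.u j ≠ p) → U.U p = GLO (vF p))
    (hTy : TypeOK hS D₀ a₀) (hL : LevOK U (D₀.loc hTy.prod)) (hs : X.s = sV hL) :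
    ∀ lam' : HeightOneSpectrum (𝓞 L) → ℝ, (∀ p, lam' (τ • p) = lam' p) →
      (∀ p, U.U p = GLO (vF p) → τ • p ≠ p → lam' p = lam p) →
      ∀ v v' : (kdatL L (Lvl.D U)).V hw,
        EigL X (Subtype.val : RealK (KinfL L) → KinfL L) (repV (kdatL L (Lvl.D U)) hw) lam' yk v →
        EigL X (Subtype.val : RealK (KinfL L) → KinfL L) (repV (kdatL L (Lvl.D U)) hw) lam' yk v' →
        v ≠ 0 → ∃ c : ℂ, v' = c • v :=
  hline_of (kCls_kdatL hyk) hlev hTy hL hs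

/-- **`hτ` of `descent`**, `𝒦 = KinfL L`. -/
theorem htau_kdatL (h3 : IsThree τ) (hyk : ∀ x, (yk x : ℂ) = ∏ w, sph 0 (x.1.i w).fn)
    (hlev : ∀ p, p ∉ S → (∀ j, X.u j ≠ p) → U.U p = GLO (vF p))
    (hTy : TypeOK hS D₀ a₀) (hL : LevOK U (D₀.loc hTy.prod)) (hs : X.s = sV hL)
    {φ : Equiv.Perm (KinfL L)} (hφs : ∀ k, star (φ k) = φ (star k))
    (hφ : ∀ k x x', (kdatL L (Lvl.D U)).kap (φ k) x x' =
      (kdatL L (Lvl.D U)).kap k (Xi.tau (τ : L ≃+* L).symm x) (Xi.tau (τ : L ≃+* L).symm x')) :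
    ∀ lam' : HeightOneSpectrum (𝓞 L) → ℝ, (∀ p, lam' (τ • p) = lam' p) →
      (∀ p, U.U p = GLO (vF p) → τ • p ≠ p → lam' p = lam p) →
      ∀ v : (kdatL L (Lvl.D U)).V hw,
        EigL X (Subtype.val : RealK (KinfL L) → KinfL L) (repV (kdatL L (Lvl.D U)) hw) lam' yk v →
        (tauOpV X (kdatL L (Lvl.D U)) hw φ hφs hφ).T v = v :=
  htau_of hφs hφ h3 (kCls_kdatL hyk) hlev hTy hL hs

end Main

section Inst

variable {K L : Type*} [Field K] [NumberField K] [Field L] [NumberField L] [Algebra K L]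
  [IsGalois K L] {S : Finset (HeightOneSpectrum (𝓞 K))} {u : HeightOneSpectrum (𝓞 K)}
  {M : HeightOneSpectrum (𝓞 K) → ℕ} {τ : L ≃ₐ[K] L} {w₀ : HeightOneSpectrum (𝓞 L)}
  {T : ∀ w : aboveS L S, TyDat (w.1.adicCompletion L)}

/-- The hypothesis `hlev` for `setL`. -/
theorem setL_lev (h3 : IsThree τ) (hne : τ • w₀ ≠ w₀) (hu : under K w₀ = u) (huS : u ∉ S)
    (hM : ∀ v ∈ S, M v ≠ 0) (h : LevOK (Lev.stdUp L S {u} M) T) :
    ∀ p, p ∉ aboveS L S → (∀ j, (setL h3 hne hu huS hM h).u j ≠ p) →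
      (Lev.stdUp L S {u} M).U p = GLO (vF p) := by
  intro p hp hj
  rw [mem_aboveS] at hp
  refine (stdUp_eq_GLO_iff hM).mpr ⟨hp, fun hpu => ?_⟩
  rw [Finset.mem_singleton, ← hu] at hpu
  obtain ⟨j, rfl⟩ := exists_pl3_eq h3 hpu
  exact hj j rfl

end Inst

end Fermat.Agent.LT.Desc

end
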