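import Fermat.Agent.LT.Desc.Setup
import Fermat.Agent.LT.Desc.ChiL
import Fermat.Agent.LT.Desc.PosK
import Fermat.Agent.LT.Desc.OutK
import Fermat.Agent.LT.Desc.Apply
import Fermat.Agent.LT.Desc.Deg1
import Fermat.Agent.LT.Desc.FactorP
import Fermat.Agent.LT.B8.GeomSym
import Fermat.Agent.LT.Tr.HT
import Fermat.Agent.LT.Red.Weight

/-!
# The descent for the tower of fields

`Inp.core`: the form over `K`.
-/

set_option autoImplicit false
set_option linter.unusedSectionVars false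

noncomputable section

open MeasureTheory ENNReal NumberField Matrix IsDedekindDomain
open scoped InnerProductSpace ComplexConjugate WithZero Pointwise

namespace Fermat.Agent.LT.Desc

open Fermat.Agent.LT.Tr H3
open Fermat.Agent.CFT.SUnits Fermat.Agent.LT.Ext Fermat.Agent.LT.Lvl Fermat.Agent.LT.HK
open Fermat.Agent.LT.Iwa Fermat.Agent.LT.Kap Fermat.Agent.LT.Iso

theorem card_places_eq_one {K : Type*} [Field K] [NumberField K] [IsTotallyComplex K]
    (hK : Module.finrank ℚ K = 2) : Fintype.card (InfinitePlace K) = 1 := by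
  have h5 : InfinitePlace.nrComplexPlaces K = 1 := by
    have := IsTotallyComplex.finrank K
    omega
  rw [InfinitePlace.card_eq_nrRealPlaces_add_nrComplexPlaces,
    IsTotallyComplex.nrRealPlaces_eq_zero, h5]

/-- an imaginary quadratic field has one infinite place -/
@[reducible] def uniquePlace {K : Type*} [Field K] [NumberField K] [IsTotallyComplex K]
    (hK : Module.finrank ℚ K = 2) : Unique (InfinitePlace K) :=
  Classical.choice (Fintype.card_eq_one_iff_nonempty_unique.mp (card_places_eq_one hK))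

theorem exists_isAbove (K L : Type*) [Field K] [Field L] [NumberField K] [NumberField L]
    [Algebra K L] : ∃ s : InfinitePlace K → InfinitePlace L, Xi.IsAbove (algebraMap K L) s := by
  choose s hs using InfinitePlace.comap_surjective (k := K) (K := L)
  exact ⟨s, hs⟩

section Core

variable {K L : Type} [Field K] [Field L] [NumberField K] [NumberField L] [Algebra K L]
  [IsTotallyComplex K] [IsTotallyComplex L] [IsGalois K L] {I : Inp K L}

open Classical in
/-- the eigenvalues, stable under the Galois group -/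
def Inp.lam (I : Inp K L) (w : HeightOneSpectrum (𝓞 L)) : ℝ :=
  if w ∈ aboveS L I.S then 0 else √(Ideal.absNorm w.asIdeal) * I.x w

theorem Inp.lam_of_notMem (I : Inp K L) {w : HeightOneSpectrum (𝓞 L)} (hw : w ∉ aboveS L I.S) :
    I.lam w = √(Ideal.absNorm w.asIdeal) * I.x w := if_neg hw

theorem Inp.lam_smul (I : Inp K L) (g : L ≃ₐ[K] L) (w : HeightOneSpectrum (𝓞 L)) :
    I.lam (g • w) = I.lam w := by
  by_cases hw : w ∈ aboveS L I.S
  · rw [Inp.lam, Inp.lam, if_pos hw, if_pos ((I.smul_mem_iff g w).mpr hw)]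
  · rw [I.lam_of_notMem hw, I.lam_of_notMem fun h => hw ((I.smul_mem_iff g w).mp h),
      absNorm_smul_place, I.x_smul g hw]

theorem Inp.x_over_u (I : Inp K L) {w : HeightOneSpectrum (𝓞 L)} (hw : under K w = I.u) :
    I.x w = 0 := by
  rw [I.inv I.w₀ w I.w₀_notMem hw, I.x_w₀]

/-- the data over `L` -/
abbrev Inp.Choice.X (C : I.Choice) : SetL I.τ (I.UL C.M) :=
  setL I.isThree I.τ_smul_w₀ rfl I.u_notMem C.hM C.ok

/-- the data over `K` -/
abbrev Inp.Choice.Y (C : I.Choice) : SetK (I.UK C.M) :=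
  setK I.u_notMem C.hM C.κ' C.κ'_off

end Core

section Tower

variable {ρ : (AlgebraicClosure ℚ ≃ₐ[ℚ] AlgebraicClosure ℚ) →*
    Matrix.GeneralLinearGroup (Fin 2) (ZMod 3)} {T : Tower.TowerFields ρ} {N : ℕ}
  {x : HeightOneSpectrum (𝓞 T.L) → ℝ}

set_option maxHeartbeats 2000000 in
/-- **The descent.** -/
theorem Inp.core (hT : TSys T N x) (I : Inp T.K T.L) (hx : I.x = x)
    (hS : ∀ v, v ∈ I.S ↔ v ∈ bad T.K N) {U₀ : Lev T.L} {f₀ : Xi T.L × Lvl.D U₀ → ℂ}
    (hf₀ : IsForm T.L U₀ (aboveS T.L I.S) I.x f₀) :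
    ∃ (UK : Lev T.K) (a : HeightOneSpectrum (𝓞 T.K) → ℝ) (g : Xi T.K × Lvl.D UK → ℂ),
      IsForm T.K UK (insert I.u (I.S : Set (HeightOneSpectrum (𝓞 T.K)))) a g ∧
      ∀ w : HeightOneSpectrum (𝓞 T.L), w ∉ aboveS T.L I.S → under T.K w ≠ I.u →
        Ideal.absNorm w.asIdeal = Ideal.absNorm (w.under (𝓞 T.K)).asIdeal →
        a (w.under (𝓞 T.K)) = I.x w := by
  obtain ⟨C⟩ := I.exists_choice hf₀
  have := uniquePlace I.finrank_K
  obtain ⟨s, hs⟩ := exists_isAbove T.K T.L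
  obtain ⟨-, -, wL, -, hwL, -, -⟩ := Fermat.Agent.LT.exists_weight T.L (Lvl.D (I.UL C.M))
  obtain ⟨-, -, wK, -, hwK, -, -⟩ := Fermat.Agent.LT.exists_weight T.K (Lvl.D (I.UK C.M))
  have hq : (I.q : 𝓞 T.K) ∈ I.u.asIdeal := by
    rw [I.q_eq]
    exact Ideal.absNorm_mem _
  obtain ⟨P, hP, -, hFL, hFK⟩ := exists_P hT I.isThree I.τ_ne_one
    (Xi3.bijective_pl I.finrank_eq I.τ_ne_one hs) hS I.w₀_prime.ne_zero hq C.X C.Y
    (good_down C.hM) hwL hwK (lam := I.lam) (fun w hw _ => by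
      rw [← hx]
      exact I.lam_of_notMem fun h => notMem_of_good C.hM hw h)
  have hGL : GoodP (kdatL T.L (Lvl.D (I.UL C.M))) hwL
      (symL C.X (Subtype.val : RealK (KinfL T.L) → KinfL T.L)) P :=
    ⟨hFL.full, hFL.adj, hFL.kill, hFL.hs⟩
  have hGK : GoodP (kdatL T.K (Lvl.D (I.UK C.M))) hwK
      (symK C.Y (Subtype.val : RealK (KinfL T.K) → KinfL T.K) C.X.q (good_down C.hM)
        (tI (Xi3.pl I.τ s))) P :=
    ⟨hFK.full, hFK.adj, hFK.kill, hFK.hs⟩
  have key := HT_main C.X C.Y (good_down C.hM) hwL hwK hGL hGL hGK hGK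
    (fun k l => B8.exists_geom_std I.isThree I.τ_smul_w₀ rfl I.u_notMem C.hM C.ok C.κ' C.κ'_off
      I.hζ I.cyc3 I.finrank_eq hs I.hα I.adjoin_α C.trans C.good Subtype.val Subtype.val _
      (tI (Xi3.pl I.τ s)) k l)
    (phiInf (I.τ : T.L ≃+* T.L)) (kap_phiInf _ _) (isDiag_lettL C.X _ hwL)
    (isDiag_lettK C.Y C.X.q _ hwK)
  obtain ⟨b, g, hg, hb⟩ := descent_form I.isThree I.finrank_eq I.τ_ne_one hs I.τ_smul_w₀
    (u := I.u) rfl I.u_notMem C.hM C.ty C.ok C.κ' C.κ'_off hwL hwK (kCls_kdatL coe_yInf')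
    C.chi0 (lam := I.lam) (I.lam_smul I.τ)
    (fun w hw _ => by
      rw [I.lam_of_notMem fun h => hw ((mem_aboveS _ _).mp h)]
      rfl)
    (fun w hw => by
      rw [Inp.aL, I.x_over_u hw, mul_zero, Complex.ofReal_zero])
    (mulW P P) (by rw [evN_mulW]; exact mul_ne_zero hP hP) key.1 key.2.1 key.2.2
  refine ⟨_, b, g, hg, fun w hw hwu hd => ?_⟩
  have h1 := hb w (Lev.stdUp_off (fun h => hw ((mem_aboveS _ _).mpr h))
    fun h => hwu (Finset.mem_singleton.mp h)) (smul_ne_of_deg1 I.τ_ne_one (I.unr w hw) hd)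
  rw [I.lam_of_notMem hw] at h1
  exact mul_left_cancel₀ (sqrt_absNorm_ne_zero w) h1

end Tower

end Fermat.Agent.LT.Desc

end
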