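import Fermat.Agent.LT.H3.Spherical
import Fermat.Agent.LT.H3.Pi
import Fermat.Agent.LT.H3.RealKer
import Fermat.Agent.LT.Red.Local

/-!
# One radial kernel from the product kernels (helper46)

`integral_one_of_pk`: if a continuous function on `ι → H3` is an eigenfunction of the two product
kernels `∏ h` and `∏ h` with `k * h` at the place `i`, then it is an eigenfunction of `k` in the
variable `i`. `radial_of_pk`: the version for a class of kernels and for the eigenvalues
`∏ i, sph 0 (κ i)`.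
-/

set_option autoImplicit false

noncomputable section

namespace Fermat.Agent.LT.Desc

open MeasureTheory NumberField H3

section One

variable {ι : Type*} [Fintype ι] [DecidableEq ι]

theorem pk_update_left (κ : ι → ℝ → ℂ) (x x' : ι → H3) (i : ι) (Q : H3) :
    pk κ (Function.update x i Q) x' =
      κ i (cu Q (x' i)) * ∏ j ∈ Finset.univ.erase i, κ j (cu (x j) (x' j)) := by
  unfold pk
  rw [← Finset.mul_prod_erase _ _ (Finset.mem_univ i), Function.update_self]
  congr 1
  refine Finset.prod_congr rfl fun j hj => ?_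
  rw [Function.update_of_ne (Finset.ne_of_mem_erase hj)]

theorem pk_update_ker (κ : ι → ℝ → ℂ) (x x' : ι → H3) (i : ι) (k : ℝ → ℂ) :
    pk (Function.update κ i k) x x' =
      k (cu (x i) (x' i)) * ∏ j ∈ Finset.univ.erase i, κ j (cu (x j) (x' j)) := by
  unfold pk
  rw [← Finset.mul_prod_erase _ _ (Finset.mem_univ i), Function.update_self]
  congr 1
  refine Finset.prod_congr rfl fun j hj => ?_
  rw [Function.update_of_ne (Finset.ne_of_mem_erase hj)]

omit [Fintype ι] in
theorem continuous_update_left (x : ι → H3) (i : ι) :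
    Continuous fun Q : H3 => (Function.update x i Q : ι → H3) :=
  continuous_const.update i continuous_id

/-- the double integrand -/
def dbl (κ : ι → ℝ → ℂ) (k : ℝ → ℂ) (f : (ι → H3) → ℂ) (x : ι → H3) (i : ι) (p : H3 × (ι → H3)) :
    ℂ := k (cu (x i) p.1) * (pk κ (Function.update x i p.1) p.2 * f p.2)

theorem continuous_dbl {κ : ι → ℝ → ℂ} (hκ : ∀ i, IsKer (κ i)) {k : ℝ → ℂ} (hk : IsKer k)
    {f : (ι → H3) → ℂ} (hf : Continuous f) (x : ι → H3) (i : ι) :
    Continuous (dbl κ k f x i) := by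
  have h0 : Continuous fun Q : H3 => k (cu (x i) Q) := hk.continuous_cu (x i)
  have h1 : Continuous fun p : H3 × (ι → H3) => k (cu (x i) p.1) := h0.comp continuous_fst
  have h2 : Continuous fun p : H3 × (ι → H3) => κ i (cu p.1 (p.2 i)) :=
    (hκ i).cont.comp (continuous_cu' continuous_fst ((continuous_apply i).comp continuous_snd))
  have h3 : ∀ j, Continuous fun p : H3 × (ι → H3) => κ j (cu (x j) (p.2 j)) := fun j =>
    ((hκ j).continuous_cu (x j)).comp ((continuous_apply j).comp continuous_snd)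
  have h4 : Continuous fun p : H3 × (ι → H3) => pk κ (Function.update x i p.1) p.2 := by
    simp only [pk_update_left]
    exact h2.mul (continuous_finsetProd _ fun j _ => h3 j)
  exact h1.mul (h4.mul (hf.comp continuous_snd))

theorem hasCompactSupport_dbl {κ : ι → ℝ → ℂ} (hκ : ∀ i, IsKer (κ i)) {k : ℝ → ℂ}
    (hk : IsKer k) (f : (ι → H3) → ℂ) (x : ι → H3) (i : ι) :
    HasCompactSupport (dbl κ k f x i) := by
  obtain ⟨R, hR⟩ := hk.bdd
  choose C hC using fun i => (hκ i).bdd
  have hc : IsCompact ({Q : H3 | cu (x i) Q ≤ R} ×ˢ {x' : ι → H3 | ∀ j, cu (x j) (x' j) ≤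
      max (C j) (12 * (max R 1 * max (C j) 1))}) :=
    (isCompact_ball (x i) R).prod (isCompact_pi_ball x _)
  refine HasCompactSupport.intro hc fun p hp => ?_
  by_contra h0
  have h1 : k (cu (x i) p.1) ≠ 0 := left_ne_zero_of_mul h0
  have h2 : pk κ (Function.update x i p.1) p.2 ≠ 0 :=
    left_ne_zero_of_mul (right_ne_zero_of_mul h0)
  have h3 : cu (x i) p.1 ≤ R := by
    by_contra h
    exact h1 (hR _ (not_le.mp h).le)
  have h4 : ∀ j, cu ((Function.update x i p.1 : ι → H3) j) (p.2 j) ≤ C j := by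
    intro j
    by_contra h
    exact h2 (Finset.prod_eq_zero (Finset.mem_univ j) (hC j _ (not_le.mp h).le))
  refine hp ⟨h3, fun j => ?_⟩
  by_cases hj : j = i
  · subst hj
    have h5 := h4 j
    rw [Function.update_self] at h5
    exact (Red.cu_le_of_le (h3.trans (le_max_left R 1)) (h5.trans (le_max_left _ 1))).trans
      (le_max_right _ _)
  · have h5 := h4 j
    rw [Function.update_of_ne hj] at h5
    exact h5.trans (le_max_left _ _)

theorem integrable_dbl {κ : ι → ℝ → ℂ} (hκ : ∀ i, IsKer (κ i)) {k : ℝ → ℂ} (hk : IsKer k)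
    {f : (ι → H3) → ℂ} (hf : Continuous f) (x : ι → H3) (i : ι) :
    Integrable (dbl κ k f x i) ((volume : Measure H3).prod (volume : Measure (ι → H3))) := by
  have := (continuous_dbl hκ hk hf x i).integrable_of_hasCompactSupport
    (μ := (volume : Measure (H3 × (ι → H3)))) (hasCompactSupport_dbl hκ hk f x i)
  rwa [Measure.volume_eq_prod] at this

/-- **Eigenfunction in one variable.** -/
theorem integral_one_of_pk {κ : ι → ℝ → ℂ} (hκ : ∀ i, IsKer (κ i)) {k : ℝ → ℂ} (hk : IsKer k)
    {f : (ι → H3) → ℂ} (hf : Continuous f) {c c' : ℂ} (hc : c ≠ 0) (i : ι)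
    (e₁ : ∀ x, ∫ x', pk κ x x' * f x' = c * f x)
    (e₂ : ∀ x, ∫ x', pk (Function.update κ i (kap0 k (κ i))) x x' * f x' = c' * f x)
    (x : ι → H3) : ∫ Q, k (cu (x i) Q) * f (Function.update x i Q) = c' / c * f x := by
  have h1 : ∀ Q, k (cu (x i) Q) * f (Function.update x i Q) =
      c⁻¹ * ∫ x', dbl κ k f x i (Q, x') := by
    intro Q
    simp only [dbl]
    rw [integral_const_mul, e₁]
    field_simp
  have h2 : ∀ x', ∫ Q, dbl κ k f x i (Q, x') =
      pk (Function.update κ i (kap0 k (κ i))) x x' * f x' := by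
    intro x'
    simp only [dbl, pk_update_left]
    rw [pk_update_ker, ← kap_eq_kap0, kap, mul_assoc, ← integral_mul_const]
    refine integral_congr_ae (Filter.Eventually.of_forall fun Q => ?_)
    simp only
    ring
  have h3 := integral_integral_swap (f := fun Q x' => dbl κ k f x i (Q, x'))
    (integrable_dbl hκ hk hf x i)
  calc ∫ Q, k (cu (x i) Q) * f (Function.update x i Q)
      = ∫ Q, c⁻¹ * ∫ x', dbl κ k f x i (Q, x') :=
        integral_congr_ae (Filter.Eventually.of_forall h1)
    _ = c⁻¹ * ∫ Q, ∫ x', dbl κ k f x i (Q, x') := integral_const_mul _ _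
    _ = c⁻¹ * ∫ x', ∫ Q, dbl κ k f x i (Q, x') := by rw [h3]
    _ = c⁻¹ * ∫ x', pk (Function.update κ i (kap0 k (κ i))) x x' * f x' := by
        congr 1
        exact integral_congr_ae (Filter.Eventually.of_forall h2)
    _ = c' / c * f x := by
        rw [e₂]
        field_simp

theorem isKer_re {k : ℝ → ℂ} (hk : IsKer k) : IsKer fun t => ((k t).re : ℂ) := by
  obtain ⟨C, hC⟩ := hk.bdd
  exact ⟨Complex.continuous_ofReal.comp (Complex.continuous_re.comp hk.cont), C, fun t ht => by
    rw [hC t ht, Complex.zero_re, Complex.ofReal_zero]⟩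

theorem isKer_im {k : ℝ → ℂ} (hk : IsKer k) : IsKer fun t => ((k t).im : ℂ) := by
  obtain ⟨C, hC⟩ := hk.bdd
  exact ⟨Complex.continuous_ofReal.comp (Complex.continuous_im.comp hk.cont), C, fun t ht => by
    rw [hC t ht, Complex.zero_im, Complex.ofReal_zero]⟩

/-- An eigenfunction of the real kernels is an eigenfunction of all kernels. -/
theorem radial_of_real {g : H3 → ℂ} (hg : Continuous g) {P₀ : H3} {c : ℂ}
    (h : ∀ k, IsKer k → (∀ t, (k t).im = 0) → ∫ Q, k (cu P₀ Q) * g Q = sph 0 k * c)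
    {k : ℝ → ℂ} (hk : IsKer k) : ∫ Q, k (cu P₀ Q) * g Q = sph 0 k * c := by
  have e1 := h _ (isKer_re hk) fun t => Complex.ofReal_im _
  have e2 := h _ (isKer_im hk) fun t => Complex.ofReal_im _
  have h1 : k = fun t => ((k t).re : ℂ) + Complex.I * ((k t).im : ℂ) := funext fun t => by
    rw [mul_comm]; exact (Complex.re_add_im (k t)).symm
  have hI : IsKer fun t => Complex.I * ((k t).im : ℂ) := (isKer_im hk).smul Complex.I
  have h2 : sph 0 k = sph 0 (fun t => ((k t).re : ℂ)) + Complex.I * sph 0 fun t => ((k t).im : ℂ) := by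
    conv_lhs => rw [h1]
    rw [sph_add (isKer_re hk) hI, sph_const_mul]
  have h3 := Rk_add (isKer_re hk) hI hg.locallyIntegrable P₀
  rw [Rk_const_mul] at h3
  have h4 : ∫ Q, k (cu P₀ Q) * g Q =
      Rk (fun t => ((k t).re : ℂ) + Complex.I * ((k t).im : ℂ)) g P₀ := by
    conv_lhs => rw [h1]
    rfl
  rw [h4, h3, h2]
  change (∫ Q, ((k (cu P₀ Q)).re : ℂ) * g Q) + Complex.I * (∫ Q, ((k (cu P₀ Q)).im : ℂ) * g Q) = _
  rw [e1, e2]
  ring

theorem sph_zero_bump_ne {δ : ℝ} (hδ : 0 < δ) : sph 0 (bump δ) ≠ 0 := by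
  have h1 := Rk_hpow (isKer_bump δ) 0 j
  intro h0
  rw [h0, zero_mul] at h1
  have h2 : ∀ Q : H3, bump δ (cu j Q) * hpow 0 Q = ((max (1 + δ - cu j Q) 0 * Q.y : ℝ) : ℂ) := by
    intro Q
    rw [hpow, bump, zero_mul, Complex.exp_zero, mul_one]
    push_cast
    rfl
  have h3 : ∫ Q : H3, max (1 + δ - cu j Q) 0 * Q.y = 0 := by
    have h4 : ∫ Q : H3, ((max (1 + δ - cu j Q) 0 * Q.y : ℝ) : ℂ) = 0 := by
      rw [← h1, Rk]
      exact integral_congr_ae (Filter.Eventually.of_forall fun Q => (h2 Q).symm)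
    rw [integral_complex_ofReal] at h4
    exact_mod_cast h4
  have hc : Continuous fun Q : H3 => max (1 + δ - cu j Q) 0 * Q.y :=
    ((continuous_const.sub (continuous_cu_right j)).max continuous_const).mul continuous_y
  have hs : HasCompactSupport fun Q : H3 => max (1 + δ - cu j Q) 0 * Q.y :=
    HasCompactSupport.intro (isCompact_ball j (1 + δ)) fun Q hQ => by
      have : 1 + δ < cu j Q := not_le.mp hQ
      rw [max_eq_right (by linarith), zero_mul]
  have hpos : ∀ Q : H3, 0 ≤ max (1 + δ - cu j Q) 0 * Q.y := fun Q =>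
    mul_nonneg (le_max_right _ _) Q.y_pos.le
  have h5 : 0 < ∫ Q : H3, max (1 + δ - cu j Q) 0 * Q.y := by
    rw [integral_pos_iff_support_of_nonneg hpos (hc.integrable_of_hasCompactSupport hs)]
    refine hc.isOpen_support.measure_pos _ ⟨j, ?_⟩
    rw [Function.mem_support, cu_self, add_sub_cancel_left, max_eq_left hδ.le]
    exact mul_ne_zero hδ.ne' j.y_pos.ne'
  exact h5.ne' h3

/-- **The eigenvalues in one variable**, for a class `P` of kernels. -/
theorem radial_of_pk {P : (ℝ → ℂ) → Prop} {h : ℝ → ℂ} (hP : P h) (hh : IsKer h)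
    (h0 : sph 0 h ≠ 0) (hmul : ∀ k, IsKer k → (∀ t, (k t).im = 0) → P (kap0 k h))
    {f : (ι → H3) → ℂ} (hf : Continuous f)
    (heig : ∀ κ : ι → ℝ → ℂ, (∀ i, P (κ i)) → ∀ x, ∫ x', pk κ x x' * f x' =
      (∏ i, sph 0 (κ i)) * f x) (i : ι) {k : ℝ → ℂ} (hk : IsKer k) (x : ι → H3) :
    ∫ Q, k (cu (x i) Q) * f (Function.update x i Q) = sph 0 k * f x := by
  refine radial_of_real (hf.comp (continuous_update_left x i)) (fun k hk hre => ?_) hk
  have h1 := integral_one_of_pk (κ := fun _ => h) (fun _ => hh) hk hf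
    (c := ∏ _i : ι, sph 0 h) (c' := ∏ j, sph 0 (Function.update (fun _ => h) i (kap0 k h) j))
    (Finset.prod_ne_zero_iff.mpr fun _ _ => h0) i (heig _ fun _ => hP)
    (heig _ fun j => by
      by_cases hj : j = i
      · subst hj
        rw [Function.update_self]
        exact hmul k hk hre
      · rw [Function.update_of_ne hj]
        exact hP) x
  refine h1.trans ?_
  congr 1
  rw [← Finset.mul_prod_erase _ _ (Finset.mem_univ i), Function.update_self,
    ← Finset.mul_prod_erase _ _ (Finset.mem_univ i),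
    sph_comp hk hh (abel_kap0 hk hh) 0]
  have h2 : ∏ j ∈ Finset.univ.erase i, sph 0 (Function.update (fun _ => h) i (kap0 k h) j) =
      ∏ _j ∈ Finset.univ.erase i, sph 0 h :=
    Finset.prod_congr rfl fun j hj => by
      rw [Function.update_of_ne (Finset.ne_of_mem_erase hj)]
  have h3 : ∏ _j ∈ Finset.univ.erase i, sph 0 h ≠ 0 := Finset.prod_ne_zero_iff.mpr fun _ _ => h0
  rw [h2]
  field_simp

end One

end Fermat.Agent.LT.Desc

end
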