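import Fermat.Agent.LT.Desc.TauKap
import Fermat.Agent.LT.Adapt.Hecke

/-!
# Automorphisms and Hecke eigenvalues: `lamS_tauO`
-/

set_option autoImplicit false
set_option linter.unusedSectionVars false

noncomputable section

open NumberField IsDedekindDomain HeightOneSpectrum WithZero Matrix
open scoped WithZero Topology

namespace Fermat.Agent.LT.Desc

open Lvl Ext Kap Adapt H3

section Lam

variable {L : Type*} [Field L] [NumberField L] {G : Type*} [Group G] [MulSemiringAction G L]
  {S : Finset (HeightOneSpectrum (𝓞 L))}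

theorem smul_notMem (hS : SStable G S) (g : G) {v : HeightOneSpectrum (𝓞 L)} (hv : v ∉ S) :
    g • v ∉ S := fun h => hv ((hS.mem_iff g v).mp h)

theorem valuation_lt_one_smul (g : G) (v : HeightOneSpectrum (𝓞 L)) (x : L) :
    (g • v).valuation L x < 1 ↔ v.valuation L (g⁻¹ • x) < 1 := by
  have h1 : (g • v).valuation L (g • (g⁻¹ • x)) = v.valuation L (g⁻¹ • x) :=
    valuation_smul (R := 𝓞 L) g v (g⁻¹ • x)
  rw [smul_inv_smul] at h1
  rw [h1]

/-- the generator of the place `g v` -/
theorem placeIdeal_tauO (hS : SStable G S) (g : G) {v : HeightOneSpectrum (𝓞 L)} {hv : v ∉ S}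
    {p : Loc.OS S} (h : placeIdeal v hv = Ideal.span {p}) :
    placeIdeal (g • v) (smul_notMem hS g hv) = Ideal.span {tauO hS g p} := by
  ext b
  rw [mem_placeIdeal, valuation_lt_one_smul, Ideal.mem_span_singleton]
  have h1 : v.valuation L (g⁻¹ • (b : L)) < 1 ↔ p ∣ (tauO hS g).symm b :=
    (span_dvd_iff h ((tauO hS g).symm b)).symm
  rw [h1]
  constructor
  · rintro ⟨c, hc⟩
    refine ⟨tauO hS g c, ?_⟩
    rw [← map_mul, ← hc, RingEquiv.apply_symm_apply]
  · rintro ⟨c, hc⟩
    refine ⟨(tauO hS g).symm c, ?_⟩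
    rw [hc, map_mul, RingEquiv.symm_apply_apply]

/-- **stability of the system of eigenvalues.** -/
theorem lamS_tauO [IsPrincipalIdealRing (Loc.OS S)] (hS : SStable G S) (g : G)
    {a : HeightOneSpectrum (𝓞 L) → ℂ} (ha : ∀ v, v ∉ S → a (g • v) = a v) {p : Loc.OS S}
    (hp : Prime p) : lamS S a (tauO hS g p) = lamS S a p := by
  obtain ⟨v, hv, h⟩ := exists_place hp
  rw [lamS_eq h, lamS_eq (placeIdeal_tauO hS g h), ha v hv]

end Lam

end Fermat.Agent.LT.Desc

end
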