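import Fermat.Agent.LT.Desc.InW
import Fermat.Agent.LT.Kappa.InstTau
import Fermat.Agent.LT.Desc.EigTau

/-!
# Multiplicity one and the Galois action for bounded cuspidal eigenfunctions
-/

set_option autoImplicit false
set_option linter.unusedSectionVars false

noncomputable section

open Matrix NumberField MeasureTheory IsDedekindDomain WithZero
open scoped WithZero Topology

namespace Fermat.Agent.LT.Desc

open H3 Lvl Kap Adapt Loc Ext
open Fermat.Agent.LT.Chr hiding Rf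

/-- a parameter for every system of eigenvalues of radial kernels. -/
theorem exists_nuOf : ∃ n : ((ℝ → ℂ) → ℂ) → ℂ, ∀ (l : (ℝ → ℂ) → ℂ) (f : H3 → ℂ),
    H3.IsEig f l → H3.IsEig f (sph (n l)) :=
  exists_nu_all (fun l : (ℝ → ℂ) → ℂ => l)

/-- the parameter of a system of eigenvalues of radial kernels. -/
def nuOf : ((ℝ → ℂ) → ℂ) → ℂ := exists_nuOf.choose

theorem isEig_nuOf {l : (ℝ → ℂ) → ℂ} {f : H3 → ℂ} (hf : H3.IsEig f l) :
    H3.IsEig f (sph (nuOf l)) :=
  exists_nuOf.choose_spec l f hf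

section One

variable {F : Type*} [Field F] [NumberField F] [IsTotallyComplex F]
  {S : Finset (HeightOneSpectrum (𝓞 F))}

/-- The hypotheses of the theory of `κ` at `S`. -/
structure KapOK (S : Finset (HeightOneSpectrum (𝓞 F))) (δ : F) (D : TyDat (Rf S))
    (a₀ : (Rf S)ˣ) : Prop where
  cl : CFT.Global.ClTrivial S
  ne : S.Nonempty
  δ0 : δ ≠ 0
  dual : SelfDual (OS S) (thetaA S δ)
  compat : D.Compat (thetaA S δ) a₀

variable {U : Lev F} {a : HeightOneSpectrum (𝓞 F) → ℂ} {h : InfinitePlace F → (ℝ → ℂ) → ℂ}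
  {f f' : Xi F × D U → ℂ} {δ : F} {T : TyDat (Rf S)} {a₀ : (Rf S)ˣ}

theorem EigF.inW_nuOf [IsPrincipalIdealRing (OS S)] (hf : EigF U S a h f) (hδ : δ ≠ 0)
    (hθ : SelfDual (OS S) (thetaA S δ)) :
    InW (OS S) (thetaA S δ) (lamS S a) (wiP (fun w => nuOf (h w)) δ) (toKap S U f) :=
  hf.inW hδ hθ fun _ _ => isEig_nuOf

/-- **Multiplicity one.** -/
theorem EigF.exists_smul_eq (hK : KapOK S δ T a₀) (hf : EigF U S a h f)
    (hV : EqV T (toKap S U f)) (hf' : EigF U S a h f') (hV' : EqV T (toKap S U f'))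
    (hne : ∃ z, f z ≠ 0) : ∃ c : ℂ, ∀ z, f' z = c * f z := by
  have hpid : IsPrincipalIdealRing (OS S) := isPrincipalIdealRing_OS S hK.cl
  have hnt : Nontrivial (Rf S) := nontrivial_Rf S hK.ne
  have hne' : ∃ x, toKap S U f x ≠ 0 := by
    by_contra hcon
    push Not at hcon
    obtain ⟨z, hz⟩ := hne
    exact hz (((forall_toKap hK.cl hf.offS hf.inv fun y => y = 0).mpr hcon) z)
  obtain ⟨c, hc⟩ := S_exists_smul_eq hK.dual hK.compat (hf.inW_nuOf hK.δ0 hK.dual) hV
    (hf'.inW_nuOf hK.δ0 hK.dual) hV' hne'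
  refine ⟨c, ?_⟩
  have h1 : f' = fun z => c * f z := by
    refine eq_of_toKap_eq hK.cl hf.offS hf'.inv (fun γ z => ?_) ?_
    · show c * f (γ • z) = c * f z
      rw [hf.inv]
    · funext x
      exact hc x
  exact fun z => congrFun h1 z

end One

section Tau

variable {L : Type*} [Field L] [NumberField L] [IsTotallyComplex L] {G : Type*} [Group G]
  [MulSemiringAction G L] {S : Finset (HeightOneSpectrum (𝓞 L))}

variable {U : Lev L} {a : HeightOneSpectrum (𝓞 L) → ℂ} {h : InfinitePlace L → (ℝ → ℂ) → ℂ}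
  {f : Xi L × D U → ℂ} {δ : L} {T : TyDat (Rf S)} {a₀ : (Rf S)ˣ}

theorem tauFun_smul (hU : GStable G U.U) (g : G)
    (hf : ∀ (γ : GL (Fin 2) L) (z : Xi L × D U), f (γ • z) = f z) (γ : GL (Fin 2) L)
    (z : Xi L × D U) : tauFun hU g f (γ • z) = tauFun hU g f z := by
  rw [tauFun_apply, tauFun_apply, Prod.smul_fst, Prod.smul_snd, Xi.tau_smul, tauD_smul]
  exact hf _ (_, _)

/-- **`τ = 1`** on the functions of type `(V, χ)` of a `τ`-stable system of eigenvalues. -/
theorem EigF.tauFun_eq (hK : KapOK S δ T a₀) (hS : SStable G S) (g : G) (hδ : g • δ = δ)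
    (hSt : (tauDat hS g hδ).Stab T a₀) (hU : GStable G U.U)
    (ha : ∀ v, v ∉ S → a (g • v) = a v)
    (hh : ∀ w : InfinitePlace L,
      h (w.comap (MulSemiringAction.toRingEquiv G L g : L →+* L)) = h w)
    (hf : EigF U S a h f) (hV : EqV T (toKap S U f)) : tauFun hU g f = f := by
  have hpid : IsPrincipalIdealRing (OS S) := isPrincipalIdealRing_OS S hK.cl
  have hnt : Nontrivial (Rf S) := nontrivial_Rf S hK.ne
  set ν : InfinitePlace L → ℂ := fun w => nuOf (h w) with hν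
  obtain ⟨y, hy, hne⟩ := exists_wiP_vert_ne_zero ν hK.δ0
  have hwi : ∀ z, wiP ν δ ((tauDat hS g hδ).x z) = wiP ν δ z := fun z =>
    wiP_tau (MulSemiringAction.toRingEquiv G L g) (fun w => by rw [hν]; simp only [hh w]) hδ z
  refine eq_of_toKap_eq hK.cl hf.offS (tauFun_smul hU g hf.inv) hf.inv ?_
  rw [← tw_toKap hU hS g hδ f]
  funext p
  exact S_tw_eq_self hK.dual (tauDat hS g hδ) hK.compat hSt (lam := lamS S a) (wi := wiP ν δ)
    (fun p hp => lamS_tauO hS g ha hp) ⟨1, fun z => by rw [hwi z, one_mul]⟩ hne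
    (tau_vert _ y hy) (hf.inW_nuOf hK.δ0 hK.dual) hV p

end Tau

end Fermat.Agent.LT.Desc

end
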