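import Fermat.Agent.LT.Desc.Reg
import Fermat.Agent.LT.Desc.Dic
import Fermat.Agent.LT.Auto.Pack
import Fermat.Agent.LT.Red.CuspK
import Fermat.Agent.LT.Form

/-!
# The regular representative of a vector of `V` with the radial eigenvalues `∏ sph 0`
-/

set_option autoImplicit false
set_option linter.unusedSectionVars false

noncomputable section

open MeasureTheory ENNReal ProbabilityTheory NumberField

namespace Fermat.Agent.LT.Desc

open H3 Red

variable {F : Type*} [Field F] [NumberField F] [IsTotallyComplex F] {D : Type*}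
  [MeasurableSpace D] [DiscreteMeasurableSpace D] [Countable D] [MulAction (GL (Fin 2) F) D]
  [IsLevel F D] {w : Xi F × D → ℝ≥0∞} {𝒦 : Type*} [Semigroup 𝒦] [StarMul 𝒦]
  (K : KDat F D 𝒦) (hw : IsWeight (PG F) w)

/-- a vector of `V` as an element of `L²`. -/
abbrev vL (v : K.V hw) :
    autL2 (PG F) ((muXD (volume : Measure (Xi F)) D).withDensity w) := ⟨v, K.V_le hw v.2⟩

/-- A class `P` of kernels in one variable such that all product kernels occur in `𝒦`, with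
eigenvalues `∏ sph 0`. -/
structure KCls {𝒦₀ : Type*} (i : 𝒦₀ → 𝒦) (yk : 𝒦₀ → ℝ) (P : (ℝ → ℂ) → Prop) (h : ℝ → ℂ) :
    Prop where
  ker : ∀ k, P k → IsKer k
  mem : P h
  lker : LKer h
  ne : sph 0 h ≠ 0
  mul : ∀ k, IsKer k → (∀ t, (k t).im = 0) → P (kap0 k h)
  ex : ∀ κ : InfinitePlace F → ℝ → ℂ, (∀ w, P (κ w)) → ∃ x : 𝒦₀,
    K.kap (i x) = (fun z z' => pk κ z z') ∧ (yk x : ℂ) = ∏ w, sph 0 (κ w)

variable {K hw} {𝒦₀ : Type*} {i : 𝒦₀ → 𝒦} {yk : 𝒦₀ → ℝ} {P : (ℝ → ℂ) → Prop} {h : ℝ → ℂ}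

theorem opD_of_symV {b : HK (PG F) D} {v : K.V hw} {c : ℂ} (hv : K.symV hw (1, b) v = c • v) :
    opD (exists_orbits F D) hw b (vL K hw v) = c • vL K hw v := by
  have h1 := congrArg (fun u : K.V hw => vL K hw u) hv
  exact h1

theorem opF_of_symV {k : 𝒦} {v : K.V hw} {c : ℂ}
    (hv : K.symV hw ((k : WithOne 𝒦), 1) v = c • v) :
    opF K.toKerSg (exists_orbits F D) hw k (1 : HK (PG F) D) (vL K hw v) = c • vL K hw v := by
  have h1 := congrArg (fun u : K.V hw => vL K hw u) hv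
  exact h1

/-- **The regular representative.** -/
theorem KCls.exists_reg (hC : KCls K i yk P h) {v : K.V hw}
    (hv : ∀ x, K.symV hw ((i x : WithOne 𝒦), 1) v = (yk x : ℂ) • v) :
    ∃ F₀ : Xi F × D → ℂ, IsRegRep (vL K hw v) F₀ ∧ IsCusp F₀ ∧ (∃ B : ℝ, ∀ z, ‖F₀ z‖ ≤ B) ∧
      ∀ (u : InfinitePlace F) (k : ℝ → ℂ), IsKer k → ∀ z : Xi F × D,
        ∫ Q : H3, k (cu (z.1 u) Q) * F₀ (z.1.upd u Q, z.2) = sph 0 k * F₀ z := by
  classical
  obtain ⟨x₀, hx₀, hy₀⟩ := hC.ex (fun _ => h) (fun _ => hC.mem)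
  have h0 : (yk x₀ : ℂ) ≠ 0 := by
    rw [hy₀]
    exact Finset.prod_ne_zero_iff.mpr fun _ _ => hC.ne
  have hcb : ∀ κ : InfinitePlace F → ℝ → ℂ, (∀ w, P (κ w)) →
      IsCBKer (F := F) fun z z' => pk κ z z' := fun κ hκ => isCBKer_pk fun w => hC.ker _ (hκ w)
  obtain ⟨F₀, hF₀⟩ := exists_isRegRep K.toKerSg (exists_orbits F D) hw (k := i x₀)
    (by rw [hx₀]; exact hcb _ fun _ => hC.mem) h0 (opF_of_symV (hv x₀))
  have hcusp : IsCusp F₀ := hF₀.isCusp_iff.mpr (K.isCusp_arep hw v.2)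
  have heig : ∀ κ : InfinitePlace F → ℝ → ℂ, (∀ w, P (κ w)) → ∀ z : Xi F × D,
      opK (fun z z' => pk κ z z') F₀ z = (∏ w, sph 0 (κ w)) * F₀ z := by
    intro κ hκ z
    obtain ⟨x, hx, hy⟩ := hC.ex κ hκ
    have h1 := hF₀.opK_eq K.toKerSg (exists_orbits F D) hw (k := i x)
      (by rw [hx]; exact hcb κ hκ) (opF_of_symV (hv x)) z
    rw [hx, hy] at h1
    exact h1
  refine ⟨F₀, hF₀, hcusp, ?_, ?_⟩
  · exact hF₀.exists_bound hw hcusp (isCKer_pk (D := D) fun _ => hC.lker)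
      (Finset.prod_ne_zero_iff.mpr fun _ _ => hC.ne) (heig (fun _ => h) fun _ => hC.mem)
  · intro u k hk z
    have h2 := radial_of_pk (ι := InfinitePlace F) hC.mem (hC.ker _ hC.mem) hC.ne hC.mul
      (f := fun x => F₀ (x, z.2)) (hF₀.cont z.2) (fun κ hκ x => heig κ hκ (x, z.2)) u hk z.1
    refine Eq.trans (integral_congr_ae (Filter.Eventually.of_forall fun Q => ?_)) h2
    have h3 : z.1.upd u Q = Function.update z.1 u Q := by
      funext w'
      unfold Xi.upd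
      by_cases hw' : w' = u
      · subst hw'
        rw [if_pos rfl, Function.update_self]
      · rw [if_neg hw', Function.update_of_ne hw']
    simp only [h3]

/-- the eigen equation of a Hecke operator at every point. -/
theorem act_of_symV {F₀ : Xi F × D → ℂ} {v : K.V hw} (hF₀ : IsRegRep (vL K hw v) F₀)
    {b : HK (PG F) D} {c : ℂ} (hv : K.symV hw (1, b) v = c • v) (x : Xi F) (d : D) :
    b.act (fun d' => F₀ (x, d')) d = c * F₀ (x, d) :=
  hF₀.act_eq (exists_orbits F D) hw (opD_of_symV hv) x d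

end Fermat.Agent.LT.Desc

end
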