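import Fermat.Agent.LT.Desc.Inp
import Fermat.Agent.LT.Desc.Chi0
import Fermat.Agent.LT.Desc.PosD
import Fermat.Agent.LT.Desc.SetInst
import Fermat.Agent.LT.Desc.KapInst
import Fermat.Agent.LT.B8.Good

/-!
# The choice of the data of the descent

`Inp.exists_setup`: the type `D₀` at the bad places, the levels, the transfer `κ'` of the
idempotent of the type and the form `f` of the type `D₀`.
-/

set_option autoImplicit false
set_option linter.unusedSectionVars false

noncomputable section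

open Matrix NumberField IsDedekindDomain WithZero HeightOneSpectrum
open scoped WithZero Topology Pointwise

namespace Fermat.Agent.LT.Desc

open Fermat.Agent.CFT.SUnits (aboveS mem_aboveS)
open H3 Lvl Loc Adapt Kap Ext HK
open Fermat.Agent.LT.Chr hiding Rf

section Ball

variable {F : Type*} [Field F] [NumberField F]

theorem box_mem_nhds (S : Finset (HeightOneSpectrum (𝓞 F))) (n : HeightOneSpectrum (𝓞 F) → ℕ) :
    {x : Rf S | ∀ v : S, (Valued.v (x v) : ℤᵐ⁰) ≤ exp (-(n v.1 : ℤ))} ∈ 𝓝 (0 : Rf S) := by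
  have : {x : Rf S | ∀ v : S, (Valued.v (x v) : ℤᵐ⁰) ≤ exp (-(n v.1 : ℤ))} ⊇
      Set.univ.pi fun v : S =>
        {y : v.1.adicCompletion F | (Valued.v (y - 0) : ℤᵐ⁰) < exp (-(n v.1 : ℤ))} := by
    intro x hx v
    have := hx v (Set.mem_univ v)
    simp only [sub_zero, Set.mem_ofPred_eq] at this
    exact this.le
  refine Filter.mem_of_superset ?_ this
  refine (isOpen_set_pi Set.finite_univ fun v _ =>
    Loc.isOpen_ball v.1 0 exp_ne_zero).mem_nhds ?_
  intro v _
  simp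

end Ball

section Main

variable {K L : Type} [Field K] [Field L] [NumberField K] [NumberField L] [Algebra K L]
  [IsTotallyComplex K] [IsTotallyComplex L] [IsGalois K L]

/-- the bad places of `L` -/
abbrev Inp.SL (I : Inp K L) : Finset (HeightOneSpectrum (𝓞 L)) := aboveS L I.S

/-- the level over `L` -/
abbrev Inp.UL (I : Inp K L) (M : HeightOneSpectrum (𝓞 K) → ℕ) : Lev L :=
  Lev.stdUp L I.S {I.u} M

/-- the level over `K` -/
abbrev Inp.UK (I : Inp K L) (M : HeightOneSpectrum (𝓞 K) → ℕ) : Lev K :=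
  Lev.std I.S {I.u} M

/-- the eigenvalues of the Hecke operators -/
def Inp.aL (I : Inp K L) (w : HeightOneSpectrum (𝓞 L)) : ℂ :=
  ((√(Ideal.absNorm w.asIdeal) * I.x w : ℝ) : ℂ)

/-- **The choices.** -/
structure Inp.Choice (I : Inp K L) where
  /-- the type -/
  D₀ : TyDat (Rf I.SL)
  /-- the base point of the Whittaker function -/
  a₀ : (Rf I.SL)ˣ
  ty : TypeOK I.sstable D₀ a₀
  /-- the exponents of the levels -/
  M : HeightOneSpectrum (𝓞 K) → ℕ
  hM : ∀ v ∈ I.S, M v ≠ 0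
  ok : LevOK (I.UL M) (D₀.loc ty.prod)
  /-- the transfer of the idempotent of the type -/
  κ' : PTen (I.UK M)
  trans : B8.Trans (U := I.UL M) gstable_stdUp B8.baseLevel_std I.τ (B8.svT ok) κ'
  κ'_off : ∀ v ∉ I.S, κ'.k v = 1
  good : ∀ v, Fermat.Agent.LT.GoodAt I.c v (κ'.k v).ker
  /-- the form over `L` -/
  f : Xi L × Lvl.D (I.UL M) → ℂ
  chi0 : IsChi0 I.SL (aboveS L {I.u}) (I.UL M) I.aL (fun _ => sph 0) (D₀.loc ty.prod) f

theorem Inp.exists_choice (I : Inp K L) {U₀ : Lev L} {f₀ : Xi L × Lvl.D U₀ → ℂ}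
    (hf₀ : IsForm L U₀ (aboveS L I.S) I.x f₀) : Nonempty I.Choice := by
  classical
  have hpid : IsPrincipalIdealRing (OS I.SL) := isPrincipalIdealRing_OS _ I.clL
  have hnt : Nontrivial (Rf I.SL) := nontrivial_Rf _ I.ne_above
  have hN0 : ((I.N : ℕ) : 𝓞 L) ≠ 0 := Nat.cast_ne_zero.mpr I.N_ne
  have hNv : ∀ w ∈ I.SL, w.valuation L (((I.N : ℕ) : 𝓞 L) : L) < 1 := fun w hw =>
    (w.valuation_lt_one_iff_mem _).mpr (I.N_mem_above w hw)
  have hθ : SelfDual (OS I.SL) (thetaA I.SL (1 : L)) := selfDual_A_one _ I.diff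
  have hE := eigF_of_isForm hf₀
  have hBO : ∀ v : I.SL, inj v 1 ∈ (fbase1 I.SL hN0 hNv).Of := fun v => inj_one_mem_Of v
  obtain ⟨m, k, M', hadm, -, -, -, -, -, hα, hβ, hγ, n₁, hU⟩ :=
    hE.exists_chi0 I.clL I.ne_above one_ne_zero hθ (fbase1 I.SL hN0 hNv) hBO hf₀.ne
      (ν := fun _ => 0) (fun _ _ h => h) (box_mem_nhds I.SL fun w => B8.r₀ w) 0
  set D₀ : TyDat (Rf I.SL) := (fbase1 I.SL hN0 hNv).dat _ _ _ hadm with hD₀
  have hD : D₀.IsProd := FBase.isProd_dat hBO hadm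
  have hgN : ∀ g : L ≃ₐ[K] L, g • (((I.N : ℕ) : 𝓞 L) : L) = (((I.N : ℕ) : 𝓞 L) : L) :=
    fun g => smul_natCast_coe g I.N
  have hTy : TypeOK I.sstable D₀ ((fbase1 I.SL hN0 hNv).N ^ k)⁻¹ :=
    { kap := ⟨I.clL, I.ne_above, one_ne_zero, hθ, hadm.compat⟩
      stab := fun g => stab_fbase I.sstable g (smul_one g) one_ne_zero (one_mem_condF _) hN0 hNv
        (hgN g) hadm
      prod := hD
      tst := tStable_fbase I.sstable (fun g => smul_one g) one_ne_zero (one_mem_condF _) hN0 hNv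
        hgN hadm
      le := FBase.exists_Kn_le inj_one_mem_Of hadm }
  have hunr : ∀ v ∉ I.S, ∀ w : Above L v, v.asIdeal.ramificationIdx' w.1.asIdeal = 1 := by
    intro v hv w
    have hv' : w.1 ∉ aboveS L I.S := by
      rw [mem_aboveS, B8.under_above w]
      exact hv
    have h1 := I.unr w.1 hv'
    have h2 : w.1.under (𝓞 K) = v := B8.under_above w
    rwa [h2] at h1
  have hspl : ∀ v ∈ ({I.u} : Finset (HeightOneSpectrum (𝓞 K))), v ∉ I.S → ∀ w : Above L v,
      MulAction.stabilizer (L ≃ₐ[K] L) w.1 = ⊥ := by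
    intro v hv _ w
    rw [Finset.mem_singleton] at hv
    exact I.stab_above_u w.1 (by rw [B8.under_above w, hv])
  have hr1 : ∀ w : I.SL, exp (-(B8.r₀ w.1 : ℤ)) < 1 := fun w => by
    rw [← exp_zero, exp_lt_exp]
    have h1 := B8.one_le_of_r₀ (w := w.1) le_rfl
    omega
  obtain ⟨M₀, hM₀⟩ := B8.exists_trans_sV (K := K) (L := L) (S := I.S) (T₀ := {I.u}) I.card_gal
    I.τ_ne_one hunr hspl (D₀.loc hD)
    (fun w => small_loc hD (hr1 w) (fun x hx => hα x hx w) (fun x hx => hβ x hx w)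
      (fun x hx => hγ x hx w))
    (fun w => comap_inj_mem_nhds (FBase.α_mem_nhds hadm) w)
    (fun w => comap_inj_mem_nhds hadm.κ_mem_nhds w)
    (fun w => comap_inj_mem_nhds (FBase.γ_mem_nhds hadm) w)
  have hMne : ∀ v ∈ I.S, (fun v => M₀ v + n₁ + 1) v ≠ 0 := fun v _ => by simp
  obtain ⟨hok, κ', htr, hoff, hrel⟩ := hM₀ (fun v => M₀ v + n₁ + 1) fun v _ => by omega
  obtain ⟨f, hf, -, -⟩ := hU (aboveS L {I.u}) (I.UL fun v => M₀ v + n₁ + 1)
    (fun w hw hw' => by
      rw [mem_aboveS, Finset.mem_singleton] at hw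
      rw [mem_aboveS, hw] at hw'
      exact I.u_notMem hw')
    (fun w hw => by
      refine ⟨_, ?_, Lev.stdUp_S ((mem_aboveS _ w).mp hw)⟩
      have h1 : 1 ≤ ramE (Fermat.Agent.CFT.SUnits.under K w) w :=
        Nat.one_le_iff_ne_zero.mpr (ramE_ne_zero _ _)
      nlinarith)
    (fun w hw => by
      rw [mem_aboveS, Finset.mem_singleton] at hw
      exact Lev.stdUp_T (by rw [hw]; exact I.u_notMem)
        (by rw [hw]; exact Finset.mem_singleton_self _))
    (fun w hw hw' => by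
      rw [mem_aboveS] at hw hw'
      exact Lev.stdUp_off hw hw')
  exact ⟨{
    D₀ := D₀
    a₀ := ((fbase1 I.SL hN0 hNv).N ^ k)⁻¹
    ty := hTy
    M := _
    hM := hMne
    ok := hok
    κ' := κ'
    trans := htr
    κ'_off := hoff
    good := B8.goodAt_trans (L := L) I.card_gal I.hα
      (fun v hv => ⟨I.three v hv, I.ordc v hv⟩) hoff hrel
    f := f
    chi0 := hf }⟩

end Main

end Fermat.Agent.LT.Desc

end
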