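import Fermat.Agent.LT.Iso.Core

/-!
# The two sides of the comparison, from symbols

`SymRep 𝒦 B H` : a representation of the monoid of symbols `WithOne 𝒦 × B`, linear in `B`.
`LetL q B J` : Hecke letters over `L` (good places `t`, the three places above `u`: `e j`, `w j`,
the bad places `s`, the automorphism `τ`). `LetK q B J` : over `K`.
`LetL.core`, `LetK.core` : the structures `Iso.CoreL`, `Iso.CoreK`.
`LetL.word_eq`, `LetK.word_eq` : the operators whose traces are compared, as linear combinations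
of operators of symbols.
-/

set_option autoImplicit false
set_option linter.unusedSectionVars false

noncomputable section

open Module
open scoped InnerProductSpace

namespace Fermat.Agent.LT.Desc

open Fermat.Agent.LT Fermat.Agent.LT.Iso

/-- A representation of the monoid of symbols, linear in the Hecke variable. -/
structure SymRep (𝒦 : Type*) [Semigroup 𝒦] (B : Type*) [Ring B] [Algebra ℂ B] (H : Type*)
    [NormedAddCommGroup H] [InnerProductSpace ℂ H] [CompleteSpace H] where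
  R : WithOne 𝒦 × B →* (H →L[ℂ] H)
  add : ∀ x a b, R (x, a + b) = R (x, a) + R (x, b)
  smul : ∀ x (c : ℂ) a, R (x, c • a) = c • R (x, a)

namespace SymRep

variable {𝒦 : Type*} [Semigroup 𝒦] {B : Type*} [Ring B] [Algebra ℂ B] {H : Type*}
  [NormedAddCommGroup H] [InnerProductSpace ℂ H] [CompleteSpace H] (ρ : SymRep 𝒦 B H)

/-- the restriction to the Hecke algebra. -/
def hk : B →ₐ[ℂ] (H →L[ℂ] H) :=
  AlgHom.ofLinearMap
    { toFun := fun a => ρ.R (1, a)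
      map_add' := ρ.add 1
      map_smul' := ρ.smul 1 } (map_one ρ.R) fun a b => by
        change ρ.R (1, a * b) = ρ.R (1, a) * ρ.R (1, b)
        rw [← map_mul, Prod.mk_mul_mk, one_mul]

theorem hk_apply (a : B) : ρ.hk a = ρ.R (1, a) := rfl

theorem full_mul_hk (k : 𝒦) (a : B) :
    ρ.R ((k : WithOne 𝒦), 1) * ρ.hk a = ρ.hk a * ρ.R ((k : WithOne 𝒦), 1) := by
  rw [hk_apply, ← map_mul, ← map_mul, Prod.mk_mul_mk, Prod.mk_mul_mk, one_mul, mul_one, one_mul,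
    mul_one]

end SymRep

theorem opU_map {A B : Type*} [Ring A] [Algebra ℂ A] [Ring B] [Algebra ℂ B] (φ : A →ₐ[ℂ] B)
    (q : ℂ) (e w : A) : φ (opU q e w) = opU q (φ e) (φ w) := by
  simp only [opU, map_mul, map_sub, map_smul, map_one]

theorem opC_map {A B : Type*} [Ring A] [Algebra ℂ A] [Ring B] [Algebra ℂ B] (φ : A →ₐ[ℂ] B)
    (q : ℂ) (e w : A) : φ (opC q e w) = opC q (φ e) (φ w) := by
  simp only [opC, map_mul, map_sub, map_smul, map_add]

theorem iwaRel_map {A B : Type*} [Ring A] [Algebra ℂ A] [Ring B] [Algebra ℂ B] (φ : A →ₐ[ℂ] B)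
    {e w : A} (h : IwaRel e w) : IwaRel (φ e) (φ w) where
  e_sq := by rw [← map_mul, h.e_sq]
  w_sq := by rw [← map_mul, h.w_sq, map_one]

section

variable {A : Type*} [Ring A] [Algebra ℂ A]

theorem commute_opU {a e w : A} {q : ℂ} (he : Commute a e) (hw : Commute a w) :
    Commute a (opU q e w) :=
  ((he.smul_right _).sub_right (Commute.one_right _)).mul_right hw

theorem commute_opC {a e w : A} {q : ℂ} (he : Commute a e) (hw : Commute a w) :
    Commute a (opC q e w) :=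
  (((he.mul_right hw).add_right (hw.mul_right he)).sub_right hw).smul_right _

end

/-- Hecke letters over `L`. -/
structure LetL (q : ℝ) (B : Type*) [Ring B] [Algebra ℂ B] (J : Type*) where
  t : J → B
  e : Fin 3 → B
  w : Fin 3 → B
  s : B
  rel : ∀ j, IwaRel (e j) (w j)
  tt : ∀ i j, Commute (t i) (t j)
  te : ∀ i j, Commute (t i) (e j)
  tw : ∀ i j, Commute (t i) (w j)
  ts : ∀ i, Commute (t i) s
  ee : ∀ i j, i ≠ j → Commute (e i) (e j)
  ew : ∀ i j, i ≠ j → Commute (e i) (w j)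
  ww : ∀ i j, i ≠ j → Commute (w i) (w j)
  se : ∀ j, Commute s (e j)
  sw : ∀ j, Commute s (w j)

/-- Hecke letters over `K`. -/
structure LetK (q : ℝ) (B : Type*) [Ring B] [Algebra ℂ B] (J : Type*) where
  t : J → B
  e : B
  w : B
  s : B
  rel : IwaRel e w
  tt : ∀ i j, Commute (t i) (t j)
  te : ∀ i, Commute (t i) e
  tw : ∀ i, Commute (t i) w
  ts : ∀ i, Commute (t i) s
  se : Commute s e
  sw : Commute s w

variable {q : ℝ} {B : Type*} [Ring B] [Algebra ℂ B] {J : Type*} {𝒦 : Type*} [CommSemigroup 𝒦]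
  {𝒦₀ : Type*} {H : Type*} [NormedAddCommGroup H] [InnerProductSpace ℂ H] [CompleteSpace H]

namespace LetL

variable (Λ : LetL q B J) (k : 𝒦₀ → 𝒦)

/-- the symbols of the commuting family -/
def sym : J ⊕ (Fin 3 ⊕ 𝒦₀) → WithOne 𝒦 × B
  | .inl v => (1, Λ.t v)
  | .inr (.inl j) => (1, opC (q : ℂ) (Λ.e j) (Λ.w j))
  | .inr (.inr x) => ((k x : WithOne 𝒦), 1)

theorem commute_c_e (i j : Fin 3) : Commute (opC (q : ℂ) (Λ.e i) (Λ.w i)) (Λ.e j) := by
  by_cases h : i = j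
  · subst h
    exact (Λ.rel i).commute_opC_e
  · exact (commute_opC (Λ.ee j i (Ne.symm h)) (Λ.ew j i (Ne.symm h))).symm

theorem commute_c_w (i j : Fin 3) : Commute (opC (q : ℂ) (Λ.e i) (Λ.w i)) (Λ.w j) := by
  by_cases h : i = j
  · subst h
    exact (Λ.rel i).commute_opC_w
  · exact (commute_opC (Λ.ew i j h).symm (Λ.ww j i (Ne.symm h))).symm

theorem sym_snd_commute_e (i : J ⊕ (Fin 3 ⊕ 𝒦₀)) (j : Fin 3) :
    Commute (Λ.sym k i).2 (Λ.e j) := by
  rcases i with v | i | x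
  · exact Λ.te v j
  · exact Λ.commute_c_e i j
  · exact Commute.one_left _

theorem sym_snd_commute_w (i : J ⊕ (Fin 3 ⊕ 𝒦₀)) (j : Fin 3) :
    Commute (Λ.sym k i).2 (Λ.w j) := by
  rcases i with v | i | x
  · exact Λ.tw v j
  · exact Λ.commute_c_w i j
  · exact Commute.one_left _

theorem sym_snd_commute_s (i : J ⊕ (Fin 3 ⊕ 𝒦₀)) : Commute (Λ.sym k i).2 Λ.s := by
  rcases i with v | i | x
  · exact Λ.ts v
  · exact (commute_opC (Λ.se i) (Λ.sw i)).symm
  · exact Commute.one_left _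

/-- the symbols of the family commute -/
theorem commute_sym (i j : J ⊕ (Fin 3 ⊕ 𝒦₀)) : Commute (Λ.sym k i) (Λ.sym k j) := by
  have h2 : Commute (Λ.sym k i).2 (Λ.sym k j).2 := by
    rcases j with v | j | x
    · rcases i with v' | i | x
      · exact Λ.tt v' v
      · exact (commute_opC (Λ.te v i) (Λ.tw v i)).symm
      · exact Commute.one_left _
    · exact commute_opC (Λ.sym_snd_commute_e k i j) (Λ.sym_snd_commute_w k i j)
    · exact Commute.one_right _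
  exact Prod.ext (mul_comm _ _) h2

/-- Commutation of a symbol with a Hecke operator. -/
theorem comm_of_snd (ρ : SymRep 𝒦 B H) {x : WithOne 𝒦 × B} {b : B} (h : Commute x.2 b) :
    ρ.R x * ρ.R (1, b) = ρ.R (1, b) * ρ.R x := by
  rw [← map_mul, ← map_mul]
  congr 1
  exact Prod.ext (mul_comm _ _) h

/-- The compatibility of the Galois automorphism with the letters. -/
structure Tau (ρ : SymRep 𝒦 B H) where
  T : H →L[ℂ] H
  σ : Equiv.Perm J
  σk : Equiv.Perm 𝒦₀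
  t : ∀ i, T * ρ.R (1, Λ.t i) = ρ.R (1, Λ.t (σ i)) * T
  e : ∀ j, T * ρ.R (1, Λ.e j) = ρ.R (1, Λ.e (j + 1)) * T
  w : ∀ j, T * ρ.R (1, Λ.w j) = ρ.R (1, Λ.w (j + 1)) * T
  k : ∀ x, T * ρ.R ((k x : WithOne 𝒦), 1) = ρ.R ((k (σk x) : WithOne 𝒦), 1) * T

variable {Λ k}

theorem Tau.c {ρ : SymRep 𝒦 B H} (τ : Λ.Tau k ρ) (j : Fin 3) :
    τ.T * ρ.R (1, opC (q : ℂ) (Λ.e j) (Λ.w j)) =
      ρ.R (1, opC (q : ℂ) (Λ.e (j + 1)) (Λ.w (j + 1))) * τ.T := by
  have he : τ.T * ρ.hk (Λ.e j) = ρ.hk (Λ.e (j + 1)) * τ.T := τ.e j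
  have hw : τ.T * ρ.hk (Λ.w j) = ρ.hk (Λ.w (j + 1)) * τ.T := τ.w j
  have hew : τ.T * (ρ.hk (Λ.e j) * ρ.hk (Λ.w j)) =
      ρ.hk (Λ.e (j + 1)) * ρ.hk (Λ.w (j + 1)) * τ.T := by
    rw [← mul_assoc, he, mul_assoc, hw, mul_assoc]
  have hwe : τ.T * (ρ.hk (Λ.w j) * ρ.hk (Λ.e j)) =
      ρ.hk (Λ.w (j + 1)) * ρ.hk (Λ.e (j + 1)) * τ.T := by
    rw [← mul_assoc, hw, mul_assoc, he, mul_assoc]
  rw [← ρ.hk_apply, ← ρ.hk_apply, opC_map, opC_map]
  unfold opC
  rw [mul_smul_comm, mul_sub, mul_add, hew, hwe, hw, smul_mul_assoc, sub_mul, add_mul]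

variable (Λ k)

/-- **The `L`-side.** -/
def core (ρ : SymRep 𝒦 B H) (τ : Λ.Tau k ρ)
    (diag : IsDiag fun i => ρ.R (Λ.sym k i)) : CoreL q H (J ⊕ (Fin 3 ⊕ 𝒦₀)) where
  A i := ρ.R (Λ.sym k i)
  e j := ρ.R (1, Λ.e j)
  w j := ρ.R (1, Λ.w j)
  S := ρ.R (1, Λ.s)
  τ := τ.T
  σ := Equiv.sumCongr τ.σ (Equiv.sumCongr (Equiv.addRight 1) τ.σk)
  c j := .inr (.inl j)
  diag := diag
  rel j := iwaRel_map ρ.hk (Λ.rel j)
  hC j := opC_map ρ.hk _ _ _
  ee i j h := ((Λ.ee i j h).map ρ.hk).eq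
  ew i j h := ((Λ.ew i j h).map ρ.hk).eq
  ww i j h := ((Λ.ww i j h).map ρ.hk).eq
  Ae i j := comm_of_snd ρ (Λ.sym_snd_commute_e k i j)
  Aw i j := comm_of_snd ρ (Λ.sym_snd_commute_w k i j)
  AS i := comm_of_snd ρ (Λ.sym_snd_commute_s k i)
  Se j := ((Λ.se j).map ρ.hk).eq
  Sw j := ((Λ.sw j).map ρ.hk).eq
  τA := by
    rintro (v | j | x)
    · exact τ.t v
    · exact τ.c j
    · exact τ.k x
  τe := τ.e
  τw := τ.w
  σc _ := rfl

/-- the symbol of a word -/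
def symW {κ : Type*} (a : κ → J ⊕ (Fin 3 ⊕ 𝒦₀)) (l : List κ) : WithOne 𝒦 × B :=
  (l.map fun c => Λ.sym k (a c)).prod

theorem symW_append {κ : Type*} (a : κ → J ⊕ (Fin 3 ⊕ 𝒦₀)) (l l' : List κ) :
    Λ.symW k a (l ++ l') = Λ.symW k a l * Λ.symW k a l' := by
  rw [symW, symW, symW, List.map_append, List.prod_append]

/-- **The operators whose traces are compared**, as linear combinations of operators of symbols. -/
theorem word_eq (ρ : SymRep 𝒦 B H) (τ : Λ.Tau k ρ) (diag : IsDiag fun i => ρ.R (Λ.sym k i))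
    {κ : Type*} (a : κ → J ⊕ (Fin 3 ⊕ 𝒦₀)) (P : List κ →₀ ℂ) (l : List κ) (n : ℕ) :
    (l.map fun c => (Λ.core k ρ τ diag).A (a c)).prod *
      (evW (Λ.core k ρ τ diag).A a P *
        (opU (q : ℂ) ((Λ.core k ρ τ diag).e 0) ((Λ.core k ρ τ diag).w 0) ^ n *
          ((Λ.core k ρ τ diag).S * (Λ.core k ρ τ diag).τ))) =
    (P.sum fun m c => c • ρ.R (Λ.symW k a (l ++ m) *
      (1, opU (q : ℂ) (Λ.e 0) (Λ.w 0) ^ n * Λ.s))) * τ.T := by
  have h1 : ∀ l : List κ, (l.map fun c => (Λ.core k ρ τ diag).A (a c)).prod =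
      ρ.R (Λ.symW k a l) := by
    intro l
    rw [symW, map_list_prod, List.map_map]
    rfl
  have h2 : opU (q : ℂ) ((Λ.core k ρ τ diag).e 0) ((Λ.core k ρ τ diag).w 0) ^ n *
      (Λ.core k ρ τ diag).S = ρ.R (1, opU (q : ℂ) (Λ.e 0) (Λ.w 0) ^ n * Λ.s) := by
    change opU (q : ℂ) (ρ.hk (Λ.e 0)) (ρ.hk (Λ.w 0)) ^ n * ρ.hk Λ.s = ρ.hk _
    rw [map_mul, map_pow, opU_map]
  rw [← mul_assoc (opU (q : ℂ) _ _ ^ n), h2, evW, Finsupp.sum, Finsupp.sum]
  change _ * (_ * (_ * τ.T)) = _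
  rw [← mul_assoc, ← mul_assoc, mul_assoc (List.prod _)]
  congr 1
  rw [Finset.sum_mul, Finset.mul_sum]
  refine Finset.sum_congr rfl fun m _ => ?_
  rw [smul_mul_assoc, mul_smul_comm, h1, h1, ← mul_assoc, ← map_mul, ← map_mul, ← symW_append]

end LetL

namespace LetK

variable (Λ : LetK q B J) (k : 𝒦₀ → 𝒦)

/-- the symbols of the commuting family -/
def sym : J ⊕ (Unit ⊕ 𝒦₀) → WithOne 𝒦 × B
  | .inl v => (1, Λ.t v)
  | .inr (.inl _) => (1, opC (q : ℂ) Λ.e Λ.w)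
  | .inr (.inr x) => ((k x : WithOne 𝒦), 1)

theorem sym_snd_commute_e (i : J ⊕ (Unit ⊕ 𝒦₀)) : Commute (Λ.sym k i).2 Λ.e := by
  rcases i with v | i | x
  · exact Λ.te v
  · exact Λ.rel.commute_opC_e
  · exact Commute.one_left _

theorem sym_snd_commute_w (i : J ⊕ (Unit ⊕ 𝒦₀)) : Commute (Λ.sym k i).2 Λ.w := by
  rcases i with v | i | x
  · exact Λ.tw v
  · exact Λ.rel.commute_opC_w
  · exact Commute.one_left _

theorem sym_snd_commute_s (i : J ⊕ (Unit ⊕ 𝒦₀)) : Commute (Λ.sym k i).2 Λ.s := by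
  rcases i with v | i | x
  · exact Λ.ts v
  · exact (commute_opC Λ.se Λ.sw).symm
  · exact Commute.one_left _

/-- the symbols of the family commute -/
theorem commute_sym (i j : J ⊕ (Unit ⊕ 𝒦₀)) : Commute (Λ.sym k i) (Λ.sym k j) := by
  have h2 : Commute (Λ.sym k i).2 (Λ.sym k j).2 := by
    rcases j with v | j | x
    · rcases i with v' | i | x
      · exact Λ.tt v' v
      · exact (commute_opC (Λ.te v) (Λ.tw v)).symm
      · exact Commute.one_left _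
    · exact commute_opC (Λ.sym_snd_commute_e k i) (Λ.sym_snd_commute_w k i)
    · exact Commute.one_right _
  exact Prod.ext (mul_comm _ _) h2

/-- **The `K`-side.** -/
def core (ρ : SymRep 𝒦 B H) (diag : IsDiag fun i => ρ.R (Λ.sym k i)) :
    CoreK q H (J ⊕ (Unit ⊕ 𝒦₀)) where
  A i := ρ.R (Λ.sym k i)
  e := ρ.R (1, Λ.e)
  w := ρ.R (1, Λ.w)
  S := ρ.R (1, Λ.s)
  c := .inr (.inl ())
  diag := diag
  rel := iwaRel_map ρ.hk Λ.rel
  hC := opC_map ρ.hk _ _ _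
  Ae i := LetL.comm_of_snd ρ (Λ.sym_snd_commute_e k i)
  Aw i := LetL.comm_of_snd ρ (Λ.sym_snd_commute_w k i)
  AS i := LetL.comm_of_snd ρ (Λ.sym_snd_commute_s k i)
  Se := (Λ.se.map ρ.hk).eq
  Sw := (Λ.sw.map ρ.hk).eq

/-- the symbol of a word -/
def symW {κ : Type*} (a : κ → J ⊕ (Unit ⊕ 𝒦₀)) (l : List κ) : WithOne 𝒦 × B :=
  (l.map fun c => Λ.sym k (a c)).prod

theorem symW_append {κ : Type*} (a : κ → J ⊕ (Unit ⊕ 𝒦₀)) (l l' : List κ) :
    Λ.symW k a (l ++ l') = Λ.symW k a l * Λ.symW k a l' := by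
  rw [symW, symW, symW, List.map_append, List.prod_append]

/-- **The operators whose traces are compared**, as linear combinations of operators of symbols. -/
theorem word_eq (ρ : SymRep 𝒦 B H) (diag : IsDiag fun i => ρ.R (Λ.sym k i))
    {κ : Type*} (a : κ → J ⊕ (Unit ⊕ 𝒦₀)) (P : List κ →₀ ℂ) (l : List κ) (n : ℕ) :
    (l.map fun c => (Λ.core k ρ diag).A (a c)).prod *
      (evW (Λ.core k ρ diag).A a P *
        (opU (q : ℂ) (Λ.core k ρ diag).e (Λ.core k ρ diag).w ^ n * (Λ.core k ρ diag).S)) =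
    P.sum fun m c => c • ρ.R (Λ.symW k a (l ++ m) *
      (1, opU (q : ℂ) Λ.e Λ.w ^ n * Λ.s)) := by
  have h1 : ∀ l : List κ, (l.map fun c => (Λ.core k ρ diag).A (a c)).prod =
      ρ.R (Λ.symW k a l) := by
    intro l
    rw [symW, map_list_prod, List.map_map]
    rfl
  have h2 : opU (q : ℂ) (Λ.core k ρ diag).e (Λ.core k ρ diag).w ^ n *
      (Λ.core k ρ diag).S = ρ.R (1, opU (q : ℂ) Λ.e Λ.w ^ n * Λ.s) := by
    change opU (q : ℂ) (ρ.hk Λ.e) (ρ.hk Λ.w) ^ n * ρ.hk Λ.s = ρ.hk _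
    rw [map_mul, map_pow, opU_map]
  rw [h2, evW, Finsupp.sum, Finsupp.sum, Finset.sum_mul, Finset.mul_sum]
  refine Finset.sum_congr rfl fun m _ => ?_
  rw [smul_mul_assoc, mul_smul_comm, h1, h1, ← mul_assoc, ← map_mul, ← map_mul, ← symW_append]

end LetK

end Fermat.Agent.LT.Desc

end
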