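import Fermat.Agent.LT.Auto.Disc

/-!
# The operator `τ` on `L²(G \ Z)`

`t : Z ≃ᵐ Z` preserves `μ` and `t (g • z) = σ g • t z` for an automorphism `σ` of `G`
(`TauHyp G μ t σ`).  The weight `w` is arbitrary.

* `TauHyp.tauL h hw : autL2 G ν →L[ℂ] autL2 G ν`, `f ↦ f ∘ t`; `tauL_ae`, `norm_tauL`,
  `inner_tauL`, `tauL_tauL_symm`, `adjoint_tauL`, `tauL_trans`, `tauL_refl`;
* `KerHyp.tau`, `TauHyp.tauL_comp_opL`: `τ ∘ op c = op c^t ∘ τ`, `c^t z z' = c (t z) (t z')`;
* `DiscHyp.tau`, `FullHyp.tau`, `TauHyp.tauL_comp_disc`, `TauHyp.tauL_comp_full`: the case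
  `t = tX × tD`.
-/

set_option autoImplicit false

noncomputable section

open MeasureTheory ENNReal MulAction ProbabilityTheory
open scoped InnerProductSpace ComplexConjugate

namespace Fermat.Agent.LT.Desc

/-- `t` is a measure preserving automorphism of `Z`, equivariant with respect to the automorphism
`σ` of `G`. -/
structure TauHyp (G : Type*) {Z : Type*} [Group G] [MeasurableSpace Z] [MulAction G Z]
    (μ : Measure Z) (t : Z ≃ᵐ Z) (σ : G ≃* G) : Prop where
  mp : MeasurePreserving t μ μ
  smul : ∀ (g : G) z, t (g • z) = σ g • t z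

namespace TauHyp

section Basic

variable {G Z : Type*} [Group G] [MeasurableSpace Z] [MulAction G Z] {μ : Measure Z}
  {t t' : Z ≃ᵐ Z} {σ σ' : G ≃* G} {w : Z → ℝ≥0∞}

theorem symm (h : TauHyp G μ t σ) : TauHyp G μ t.symm σ.symm where
  mp := h.mp.symm t
  smul g z := by
    have h1 : g • z = t (σ.symm g • t.symm z) := by
      rw [h.smul, MulEquiv.apply_symm_apply, t.apply_symm_apply]
    rw [h1, t.symm_apply_apply]

theorem refl : TauHyp G μ (MeasurableEquiv.refl Z) (MulEquiv.refl G) where
  mp := MeasurePreserving.id μ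
  smul _ _ := rfl

theorem trans (h : TauHyp G μ t σ) (h' : TauHyp G μ t' σ') :
    TauHyp G μ (t.trans t') (σ.trans σ') where
  mp := h'.mp.comp h.mp
  smul g z := by
    change t' (t (g • z)) = σ' (σ g) • t' (t z)
    rw [h.smul, h'.smul]

theorem inv_comp (h : TauHyp G μ t σ) {A : Type*} {F : Z → A}
    (hi : ∀ (g : G) z, F (g • z) = F z) (g : G) (z : Z) : F (t (g • z)) = F (t z) := by
  rw [h.smul, hi]

theorem isWeight (h : TauHyp G μ t σ) (hw : IsWeight G w) : IsWeight G fun z => w (t z) where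
  meas := hw.meas.comp t.measurable
  sum_eq z := by
    rw [← hw.sum_eq (t z)]
    rw [← σ.toEquiv.tsum_eq fun g => w (g • t z)]
    refine tsum_congr fun g => ?_
    rw [h.smul]
    rfl

/-- `t` preserves `μ`-null sets. -/
theorem comp_ae (h : TauHyp G μ t σ) {A : Type*} {F F' : Z → A} (hF : F =ᵐ[μ] F') :
    (fun z => F (t z)) =ᵐ[μ] fun z => F' (t z) :=
  h.mp.quasiMeasurePreserving.ae_eq_comp hF

theorem map_withDensity (h : TauHyp G μ t σ) (hw : Measurable w) :
    (μ.withDensity w).map t = μ.withDensity fun z => w (t.symm z) := by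
  ext s hs
  have h1 := h.mp.setLIntegral_comp_preimage hs (hw.comp t.symm.measurable)
  simp only [t.symm_apply_apply, Function.comp_apply] at h1
  rw [Measure.map_apply t.measurable hs, withDensity_apply _ (t.measurable hs),
    withDensity_apply _ hs, h1]

variable [MeasurableConstSMul G Z] [SMulInvariantMeasure G Z μ] [Countable G]

theorem lintegral_comp (h : TauHyp G μ t σ) (hw : IsWeight G w) {Φ : Z → ℝ≥0∞}
    (hΦ : Measurable Φ) (hi : ∀ (g : G) z, Φ (g • z) = Φ z) :
    ∫⁻ z, Φ (t z) ∂μ.withDensity w = ∫⁻ z, Φ z ∂μ.withDensity w := by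
  rw [← lintegral_map hΦ t.measurable, h.map_withDensity hw.meas]
  exact (h.symm.isWeight hw).lintegral_eq hw hΦ hi

theorem integral_comp (h : TauHyp G μ t σ) (hw : IsWeight G w) {Φ : Z → ℂ}
    (hΦ : Measurable Φ) (hi : ∀ (g : G) z, Φ (g • z) = Φ z) :
    ∫ z, Φ (t z) ∂μ.withDensity w = ∫ z, Φ z ∂μ.withDensity w := by
  rw [← integral_map t.measurable.aemeasurable hΦ.aestronglyMeasurable,
    h.map_withDensity hw.meas]
  exact (h.symm.isWeight hw).integral_eq hw hΦ hi

theorem memLp_comp (h : TauHyp G μ t σ) (hw : IsWeight G w) {F : Z → ℂ} (hF : Measurable F)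
    (hi : ∀ (g : G) z, F (g • z) = F z) (hF2 : MemLp F 2 (μ.withDensity w)) :
    MemLp (fun z => F (t z)) 2 (μ.withDensity w) := by
  refine memLp_of_lintegral_sq (hF.comp t.measurable) ?_
  rw [h.lintegral_comp hw (Φ := fun z => ‖F z‖ₑ ^ 2) (hF.enorm.pow_const 2)
    fun g z => by rw [hi g z]]
  exact lintegral_sq_ne_top hF2

/-- `τ f = f ∘ t` -/
def tauFun (h : TauHyp G μ t σ) (hw : IsWeight G w) (f : autL2 G (μ.withDensity w)) :
    autL2 G (μ.withDensity w) :=
  autMk (fun z => arep f (t z)) ((measurable_arep f).comp t.measurable)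
    (h.inv_comp (arep_smul f)) (h.memLp_comp hw (measurable_arep f) (arep_smul f) (memLp_arep f))

theorem tauFun_ae (h : TauHyp G μ t σ) (hw : IsWeight G w) (f : autL2 G (μ.withDensity w)) :
    arep (h.tauFun hw f) =ᵐ[μ.withDensity w] fun z => arep f (t z) :=
  arep_autMk _ _ _ _

/-- The value may be computed from any invariant representative. -/
theorem tauFun_ae' (h : TauHyp G μ t σ) (hw : IsWeight G w) (f : autL2 G (μ.withDensity w))
    {F : Z → ℂ} (hF : Measurable F) (hi : ∀ (g : G) z, F (g • z) = F z)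
    (hfF : arep f =ᵐ[μ.withDensity w] F) :
    arep (h.tauFun hw f) =ᵐ[μ] fun z => F (t z) := by
  have h1 : arep f =ᵐ[μ] F := hw.ae_eq_of_inv (measurable_arep f) hF (arep_smul f) hi hfF
  have h2 : arep (h.tauFun hw f) =ᵐ[μ] fun z => arep f (t z) :=
    hw.ae_eq_of_inv (measurable_arep _) ((measurable_arep f).comp t.measurable) (arep_smul _)
      (h.inv_comp (arep_smul f)) (h.tauFun_ae hw f)
  exact h2.trans (h.comp_ae h1)

theorem norm_tauFun (h : TauHyp G μ t σ) (hw : IsWeight G w) (f : autL2 G (μ.withDensity w)) :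
    ‖h.tauFun hw f‖ = ‖f‖ := by
  have h1 : ‖h.tauFun hw f‖ₑ ^ 2 = ‖f‖ₑ ^ 2 := by
    rw [tauFun, enorm_sq_autMk, enorm_sq_autL2,
      h.lintegral_comp hw (Φ := fun z => ‖arep f z‖ₑ ^ 2) ((measurable_arep f).enorm.pow_const 2)
        fun g z => by rw [arep_smul]]
  have h2 : ‖h.tauFun hw f‖ₑ = ‖f‖ₑ :=
    le_antisymm ((ENNReal.pow_le_pow_left_iff two_ne_zero).mp h1.le)
      ((ENNReal.pow_le_pow_left_iff two_ne_zero).mp h1.ge)
  rw [← toReal_enorm, h2, toReal_enorm]

/-- **The operator `τ`** on `L²(G \ Z)`. -/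
def tauL (h : TauHyp G μ t σ) (hw : IsWeight G w) :
    autL2 G (μ.withDensity w) →L[ℂ] autL2 G (μ.withDensity w) :=
  LinearMap.mkContinuous
    { toFun := h.tauFun hw
      map_add' := by
        intro f g
        apply autL2_ext
        refine (withDensity_ac μ w).ae_eq ?_
        refine (h.tauFun_ae' hw (f + g) (F := arep f + arep g)
          ((measurable_arep f).add (measurable_arep g))
          (fun g' z => by rw [Pi.add_apply, arep_smul, arep_smul]; rfl) (arep_add f g)).trans ?_
        have h1 := h.tauFun_ae' hw f (measurable_arep f) (arep_smul f) (Filter.EventuallyEq.refl _ _)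
        have h2 := h.tauFun_ae' hw g (measurable_arep g) (arep_smul g) (Filter.EventuallyEq.refl _ _)
        have h3 : arep (h.tauFun hw f + h.tauFun hw g) =ᵐ[μ]
            arep (h.tauFun hw f) + arep (h.tauFun hw g) :=
          hw.ae_eq_of_inv (measurable_arep _) ((measurable_arep _).add (measurable_arep _))
            (arep_smul _) (fun g' z => by rw [Pi.add_apply, arep_smul, arep_smul]; rfl)
            (arep_add _ _)
        filter_upwards [h1, h2, h3] with z hz1 hz2 hz3
        rw [hz3, Pi.add_apply, Pi.add_apply, hz1, hz2]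
      map_smul' := by
        intro a f
        apply autL2_ext
        refine (withDensity_ac μ w).ae_eq ?_
        refine (h.tauFun_ae' hw (a • f) (F := a • arep f) ((measurable_arep f).const_smul a)
          (fun g' z => by rw [Pi.smul_apply, arep_smul]; rfl) (arep_csmul a f)).trans ?_
        have h1 := h.tauFun_ae' hw f (measurable_arep f) (arep_smul f) (Filter.EventuallyEq.refl _ _)
        have h3 : arep (a • h.tauFun hw f) =ᵐ[μ] a • arep (h.tauFun hw f) :=
          hw.ae_eq_of_inv (measurable_arep _) ((measurable_arep _).const_smul a)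
            (arep_smul _) (fun g' z => by rw [Pi.smul_apply, arep_smul]; rfl)
            (arep_csmul _ _)
        filter_upwards [h1, h3] with z hz1 hz3
        rw [RingHom.id_apply, hz3, Pi.smul_apply, Pi.smul_apply, hz1] }
    1 fun f => by
      rw [one_mul]
      exact (h.norm_tauFun hw f).le

theorem tauL_apply (h : TauHyp G μ t σ) (hw : IsWeight G w) (f : autL2 G (μ.withDensity w)) :
    h.tauL hw f = h.tauFun hw f := rfl

theorem tauL_ae (h : TauHyp G μ t σ) (hw : IsWeight G w) (f : autL2 G (μ.withDensity w)) :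
    arep (h.tauL hw f) =ᵐ[μ] fun z => arep f (t z) :=
  h.tauFun_ae' hw f (measurable_arep f) (arep_smul f) (Filter.EventuallyEq.refl _ _)

/-- The value may be computed from any invariant representative. -/
theorem tauL_ae' (h : TauHyp G μ t σ) (hw : IsWeight G w) (f : autL2 G (μ.withDensity w))
    {F : Z → ℂ} (hF : Measurable F) (hi : ∀ (g : G) z, F (g • z) = F z)
    (hfF : arep f =ᵐ[μ.withDensity w] F) :
    arep (h.tauL hw f) =ᵐ[μ] fun z => F (t z) :=
  h.tauFun_ae' hw f hF hi hfF

theorem norm_tauL (h : TauHyp G μ t σ) (hw : IsWeight G w) (f : autL2 G (μ.withDensity w)) :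
    ‖h.tauL hw f‖ = ‖f‖ :=
  h.norm_tauFun hw f

theorem inner_tauL (h : TauHyp G μ t σ) (hw : IsWeight G w) (f g : autL2 G (μ.withDensity w)) :
    ⟪h.tauL hw f, h.tauL hw g⟫_ℂ = ⟪f, g⟫_ℂ := by
  rw [inner_autL2, inner_autL2]
  have h1 : ∫ z, conj (arep (h.tauL hw f) z) * arep (h.tauL hw g) z ∂μ.withDensity w =
      ∫ z, conj (arep f (t z)) * arep g (t z) ∂μ.withDensity w := by
    apply integral_congr_ae
    filter_upwards [(withDensity_ac μ w).ae_eq (h.tauL_ae hw f),
      (withDensity_ac μ w).ae_eq (h.tauL_ae hw g)] with z hz1 hz2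
    rw [hz1, hz2]
  rw [h1, h.integral_comp hw (Φ := fun z => conj (arep f z) * arep g z)
    ((Complex.continuous_conj.measurable.comp (measurable_arep f)).mul (measurable_arep g))
    fun g' z => by rw [arep_smul, arep_smul]]

theorem tauL_refl (hw : IsWeight G w) :
    (TauHyp.refl (G := G) (μ := μ)).tauL hw = ContinuousLinearMap.id ℂ _ := by
  refine ContinuousLinearMap.ext fun f => autL2_ext ((withDensity_ac μ w).ae_eq ?_)
  exact TauHyp.refl.tauL_ae hw f

/-- `τ_t (τ_{t'} f) = τ_{t' ∘ t} f` -/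
theorem tauL_trans (h : TauHyp G μ t σ) (h' : TauHyp G μ t' σ') (hw : IsWeight G w) :
    h.tauL hw ∘L h'.tauL hw = (h.trans h').tauL hw := by
  refine ContinuousLinearMap.ext fun f => autL2_ext ((withDensity_ac μ w).ae_eq ?_)
  rw [ContinuousLinearMap.comp_apply]
  have h1 := h.tauL_ae hw (h'.tauL hw f)
  have h2 := h.comp_ae (h'.tauL_ae hw f)
  exact (h1.trans h2).trans ((h.trans h').tauL_ae hw f).symm

/-- The operator depends only on `t`. -/
theorem tauL_congr (h : TauHyp G μ t σ) (h' : TauHyp G μ t' σ') (hw : IsWeight G w)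
    (htt : ∀ z, t z = t' z) : h.tauL hw = h'.tauL hw := by
  refine ContinuousLinearMap.ext fun f => autL2_ext ((withDensity_ac μ w).ae_eq ?_)
  refine (h.tauL_ae hw f).trans (Filter.EventuallyEq.trans ?_ (h'.tauL_ae hw f).symm)
  exact Filter.Eventually.of_forall fun z => congrArg (arep f) (htt z)

theorem tauL_symm_tauL (h : TauHyp G μ t σ) (hw : IsWeight G w) :
    h.symm.tauL hw ∘L h.tauL hw = ContinuousLinearMap.id ℂ _ := by
  rw [tauL_trans, ← tauL_refl hw]
  exact tauL_congr _ _ hw fun z => t.apply_symm_apply z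

theorem tauL_tauL_symm (h : TauHyp G μ t σ) (hw : IsWeight G w) :
    h.tauL hw ∘L h.symm.tauL hw = ContinuousLinearMap.id ℂ _ := by
  rw [tauL_trans, ← tauL_refl hw]
  exact tauL_congr _ _ hw fun z => t.symm_apply_apply z

theorem adjoint_tauL (h : TauHyp G μ t σ) (hw : IsWeight G w) :
    ContinuousLinearMap.adjoint (h.tauL hw) = h.symm.tauL hw := by
  symm
  rw [ContinuousLinearMap.eq_adjoint_iff]
  intro x y
  have h1 := h.inner_tauL hw (h.symm.tauL hw x) y
  rw [← ContinuousLinearMap.comp_apply, h.tauL_tauL_symm hw, ContinuousLinearMap.id_apply] at h1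
  exact h1.symm

end Basic

/-! ### Kernels -/

section Ker

variable {G Z : Type*} [Group G] [MeasurableSpace Z] [MulAction G Z] {μ : Measure Z}
  {t : Z ≃ᵐ Z} {σ : G ≃* G} {w : Z → ℝ≥0∞} {κ : Kernel Z Z} {c : Z → Z → ℂ} {C C' : ℝ≥0∞}

/-- The transported kernel. -/
theorem _root_.Fermat.Agent.LT.KerHyp.tau (hc : KerHyp G μ κ c C) (h : TauHyp G μ t σ)
    (hκ : ∀ z, κ (t z) = (κ z).map t) : KerHyp G μ κ (fun z z' => c (t z) (t z')) C where
  rev := hc.rev
  meas := hc.meas.comp ((t.measurable.comp measurable_fst).prodMk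
    (t.measurable.comp measurable_snd))
  inv g z z' := by rw [h.smul, h.smul, hc.inv]
  ne_top := hc.ne_top
  row z := by
    refine le_trans (le_of_eq ?_) (hc.row (t z))
    have hm : Measurable fun z' => ‖c (t z) z'‖ₑ := (hc.meas_left _).enorm
    rw [hκ, lintegral_map hm t.measurable]
  col z := by
    refine le_trans (le_of_eq ?_) (hc.col (t z))
    have hm : Measurable fun z' => ‖c z' (t z)‖ₑ := (hc.meas_right _).enorm
    rw [hκ, lintegral_map hm t.measurable]

theorem kop_comp (hc : KerHyp G μ κ c C) {F : Z → ℂ} (hF : Measurable F)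
    (hκ : ∀ z, κ (t z) = (κ z).map t) (z : Z) :
    kop κ c F (t z) = kop κ (fun z z' => c (t z) (t z')) (fun z => F (t z)) z := by
  unfold kop
  have hm : Measurable fun z' => c (t z) z' * F z' := (hc.meas_left _).mul hF
  rw [hκ, integral_map t.measurable.aemeasurable hm.aestronglyMeasurable]

variable [MeasurableConstSMul G Z] [SMulInvariantMeasure G Z μ] [Countable G] [SFinite μ]
  [IsSFiniteKernel κ]

/-- **`τ ∘ op c = op c^t ∘ τ`** -/
theorem tauL_comp_opL (h : TauHyp G μ t σ) (hc : KerHyp G μ κ c C)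
    (hκ : ∀ z, κ (t z) = (κ z).map t)
    (hc' : KerHyp G μ κ (fun z z' => c (t z) (t z')) C') (hw : IsWeight G w) :
    h.tauL hw ∘L hc.opL hw = hc'.opL hw ∘L h.tauL hw := by
  refine ContinuousLinearMap.ext fun f => autL2_ext ((withDensity_ac μ w).ae_eq ?_)
  rw [ContinuousLinearMap.comp_apply, ContinuousLinearMap.comp_apply]
  have hF := measurable_arep f
  have hi := arep_smul f
  have h1 := h.tauL_ae' hw (hc.opL hw f) (measurable_kop hc.meas hF) (kop_smul hc hF hi)
    (hc.opL_apply_ae hw f)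
  have h2 := hc'.opL_ae hw (h.tauL hw f) (hF.comp t.measurable) (h.inv_comp hi)
    ((withDensity_ac μ w).ae_eq (h.tauL_ae hw f))
  refine h1.trans (Filter.EventuallyEq.trans ?_ h2.symm)
  exact Filter.Eventually.of_forall fun z => kop_comp hc hF hκ z

end Ker

/-! ### Products `X × D` -/

section Prod

variable {G X D : Type*} [Group G] [MulAction G X] [MulAction G D] [MeasurableSpace X]
  [MeasurableSpace D] [MeasurableSingletonClass D] [Countable D] {mX : Measure X} [SFinite mX]
  {tX : X ≃ᵐ X} {tD : D ≃ D} {σ : G ≃* G}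

/-- A bijection of a countable discrete space as a measurable equivalence. -/
def discEquiv (tD : D ≃ D) : D ≃ᵐ D where
  toEquiv := tD
  measurable_toFun := Measurable.of_discrete
  measurable_invFun := Measurable.of_discrete

variable (tX tD) in
/-- The automorphism `tX × tD` of `X × D`. -/
def tProd : X × D ≃ᵐ X × D := tX.prodCongr (discEquiv tD)

omit [Group G] [MulAction G X] [MulAction G D] in
@[simp] theorem tProd_apply (z : X × D) : tProd tX tD z = (tX z.1, tD z.2) := rfl

omit [Group G] [MulAction G X] [MulAction G D] in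
@[simp] theorem tProd_symm_apply (z : X × D) :
    (tProd tX tD).symm z = (tX.symm z.1, tD.symm z.2) := rfl

theorem measurePreserving_count (tD : D ≃ D) :
    MeasurePreserving tD Measure.count Measure.count := by
  refine ⟨Measurable.of_discrete, ?_⟩
  ext s hs
  rw [Measure.map_apply Measurable.of_discrete hs, Measure.count_apply MeasurableSet.of_discrete,
    Measure.count_apply hs]
  exact congrArg _ (Set.encard_preimage_of_bijective tD.bijective s)

theorem prod (hX : MeasurePreserving tX mX mX) (hXs : ∀ (g : G) x, tX (g • x) = σ g • tX x)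
    (hDs : ∀ (g : G) d, tD (g • d) = σ g • tD d) :
    TauHyp G (muXD mX D) (tProd tX tD) σ where
  mp := hX.prod (measurePreserving_count tD)
  smul g z := Prod.ext (hXs g z.1) (hDs g z.2)

variable {a : D → D → ℂ} {k : X → X → ℂ} {C C' : ℝ≥0∞}

omit [MeasurableSpace D] [MeasurableSingletonClass D] [Countable D] in
theorem _root_.Fermat.Agent.LT.DiscHyp.tau (ha : DiscHyp G a C)
    (hDs : ∀ (g : G) d, tD (g • d) = σ g • tD d) :
    DiscHyp G (fun d d' => a (tD d) (tD d')) C where
  inv g d d' := by rw [hDs, hDs, ha.inv]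
  ne_top := ha.ne_top
  row d := by
    rw [tD.tsum_eq fun d' => ‖a (tD d) d'‖ₑ]
    exact ha.row _
  col d' := by
    rw [tD.tsum_eq fun d => ‖a d (tD d')‖ₑ]
    exact ha.col _

omit [SFinite mX] in
theorem _root_.Fermat.Agent.LT.FullHyp.tau (hk : FullHyp G mX k C)
    (hX : MeasurePreserving tX mX mX) (hXs : ∀ (g : G) x, tX (g • x) = σ g • tX x) :
    FullHyp G mX (fun x x' => k (tX x) (tX x')) C where
  meas := hk.meas.comp ((tX.measurable.comp measurable_fst).prodMk
    (tX.measurable.comp measurable_snd))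
  inv g x x' := by rw [hXs, hXs, hk.inv]
  ne_top := hk.ne_top
  row x := by
    refine le_trans (le_of_eq ?_) (hk.row (tX x))
    exact hX.lintegral_comp_emb tX.measurableEmbedding fun x' => ‖k (tX x) x'‖ₑ
  col x := by
    refine le_trans (le_of_eq ?_) (hk.col (tX x))
    exact hX.lintegral_comp_emb tX.measurableEmbedding fun x' => ‖k x' (tX x)‖ₑ

variable [MeasurableConstSMul G (X × D)] [SMulInvariantMeasure G (X × D) (muXD mX D)]
  [Countable G] {w : X × D → ℝ≥0∞}

omit [Group G] [MulAction G X] [MulAction G D] [MeasurableConstSMul G (X × D)]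
  [SMulInvariantMeasure G (X × D) (muXD mX D)] [Countable G] in
theorem kapD_tProd (z : X × D) :
    kapD X D (tProd tX tD z) = (kapD X D z).map (tProd tX tD) := by
  rw [kapD, fibKer_apply, fibKer_apply, Measure.map_map (tProd tX tD).measurable
    (measurable_rs_right _ _)]
  conv_lhs => rw [← (measurePreserving_count tD).map_eq]
  rw [Measure.map_map (measurable_rs_right _ _) Measurable.of_discrete]
  rfl

/-- **`τ` and discrete kernels.** -/
theorem tauL_comp_disc (h : TauHyp G (muXD mX D) (tProd tX tD) σ) (ha : DiscHyp G a C)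
    (ha' : DiscHyp G (fun d d' => a (tD d) (tD d')) C') (hw : IsWeight G w) :
    h.tauL hw ∘L ha.op hw = ha'.op hw ∘L h.tauL hw :=
  h.tauL_comp_opL (kerHyp_disc (mX := mX) ha) kapD_tProd (kerHyp_disc (mX := mX) ha') hw

/-- **`τ` and full kernels.** -/
theorem tauL_comp_full (h : TauHyp G (muXD mX D) (tProd tX tD) σ) {C₁ C₁' : ℝ≥0∞}
    (hk : FullHyp G mX k C) (hb : DiscHyp G a C')
    (hk' : FullHyp G mX (fun x x' => k (tX x) (tX x')) C₁)
    (hb' : DiscHyp G (fun d d' => a (tD d) (tD d')) C₁') (hw : IsWeight G w) :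
    h.tauL hw ∘L hk.op hb hw = hk'.op hb' hw ∘L h.tauL hw :=
  h.tauL_comp_opL (kerHyp_full hk hb) (fun z => by
    rw [Kernel.const_apply, Kernel.const_apply, h.mp.map_eq]) (kerHyp_full hk' hb') hw

end Prod

end TauHyp

end Fermat.Agent.LT.Desc
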