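import Fermat.Agent.LT.Desc.TauZ
import Fermat.Agent.LT.Aleph.Mean

/-!
# `τ` preserves cuspidality

`IsCusp f`, `f` measurable and `GL₂(F)`-invariant ⟹ `IsCusp fun z => f (Xi.tau τ z.1, tD z.2)`.
-/

set_option autoImplicit false
set_option linter.unusedSectionVars false

noncomputable section

open MeasureTheory ENNReal MulAction NumberField Matrix
open scoped ComplexConjugate Pointwise

namespace Fermat.Agent.LT.Desc

open H3

section Coord

variable {F : Type*} [Field F]

open Classical in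
/-- The effect of `H3.cmp` on the coordinate `z`. -/
def cz (φ ψ : F →+* ℂ) (z : ℂ) : ℂ := if φ = ψ then z else conj z

theorem z_cmp (φ ψ : F →+* ℂ) (P : H3) : (H3.cmp φ ψ P).z = cz φ ψ P.z := by
  unfold H3.cmp cz
  split_ifs <;> rfl

theorem cz_add (φ ψ : F →+* ℂ) (z z' : ℂ) : cz φ ψ (z + z') = cz φ ψ z + cz φ ψ z' := by
  unfold cz
  split_ifs
  · rfl
  · exact map_add _ _ _

theorem cz_smul (φ ψ : F →+* ℂ) (r : ℝ) (z : ℂ) : cz φ ψ (r • z) = r • cz φ ψ z := by
  unfold cz
  split_ifs
  · rfl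
  · rw [Complex.real_smul, Complex.real_smul, map_mul, Complex.conj_ofReal]

/-- `Xi.tau τ` in the coordinate `z`. -/
def az (τ : F ≃+* F) (z : InfinitePlace F → ℂ) : InfinitePlace F → ℂ := fun w =>
  cz (w.embedding.comp (τ : F →+* F)) (w.comap (τ : F →+* F)).embedding (z (w.comap (τ : F →+* F)))

/-- `Xi.tau τ` in the coordinate `y`. -/
def ay (τ : F ≃+* F) (y : InfinitePlace F → ℝ) : InfinitePlace F → ℝ := fun w =>
  y (w.comap (τ : F →+* F))

theorem tau_pt (τ : F ≃+* F) {z : InfinitePlace F → ℂ} {y : InfinitePlace F → ℝ}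
    (hy : ∀ w, 0 < y w) : Xi.tau τ (pt z y) = pt (az τ z) (ay τ y) := by
  funext w
  have hy' : ∀ w, 0 < ay τ y w := fun w => hy _
  refine H3.ext ?_ ?_
  · rw [pt_z hy', Xi.tau_apply, z_cmp, pt_z hy]
    rfl
  · rw [pt_y hy', Xi.y_tau, pt_y hy]
    rfl

theorem az_emb (τ : F ≃+* F) (a : F) : az τ (emb F a) = emb F (τ a) := by
  funext w
  rw [emb_apply]
  unfold az cz
  rw [emb_apply]
  have h := Xi.mk_comp_eq (τ : F →+* F) w
  split_ifs with h1
  · rw [← h1]
    rfl
  · have h2 := (InfinitePlace.mk_eq_iff.mp h).resolve_left h1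
    rw [← h2]
    change conj (conj (w.embedding (τ a))) = _
    rw [Complex.conj_conj]

variable [IsTotallyComplex F]

theorem az_symm_az (τ : F ≃+* F) (z : InfinitePlace F → ℂ) : az τ.symm (az τ z) = z := by
  have hy : ∀ w : InfinitePlace F, 0 < (fun _ : InfinitePlace F => (1 : ℝ)) w := fun _ => one_pos
  have h := Xi.tau_symm_tau τ (pt z fun _ => 1)
  rw [tau_pt τ hy] at h
  have h2 : Xi.tau τ.symm (pt (az τ z) (ay τ fun _ => 1)) =
      pt (az τ.symm (az τ z)) (ay τ.symm (ay τ fun _ => 1)) := tau_pt τ.symm fun _ => one_pos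
  rw [h2] at h
  funext w
  have h3 := congrArg (fun x : Xi F => (x w).z) h
  simp only at h3
  have h4 : (pt (az τ.symm (az τ z)) (ay τ.symm (ay τ fun _ => 1)) w).z =
      az τ.symm (az τ z) w := pt_z (fun _ => one_pos) w
  have h5 : (pt z (fun _ => 1) w).z = z w := pt_z (fun _ => one_pos) w
  exact h4.symm.trans (h3.trans h5)

theorem az_az_symm (τ : F ≃+* F) (z : InfinitePlace F → ℂ) : az τ (az τ.symm z) = z :=
  az_symm_az τ.symm z

/-- The real linear automorphism `az τ`. -/
def azL (τ : F ≃+* F) : (InfinitePlace F → ℂ) ≃ₗ[ℝ] (InfinitePlace F → ℂ) where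
  toFun := az τ
  invFun := az τ.symm
  map_add' _ _ := funext fun _ => cz_add _ _ _ _
  map_smul' _ _ := funext fun _ => cz_smul _ _ _ _
  left_inv := az_symm_az τ
  right_inv := az_az_symm τ

variable [NumberField F]

/-- The real linear homeomorphism `az τ`. -/
def azC (τ : F ≃+* F) : (InfinitePlace F → ℂ) ≃L[ℝ] (InfinitePlace F → ℂ) :=
  (azL τ).toContinuousLinearEquiv

theorem azC_apply (τ : F ≃+* F) (z : InfinitePlace F → ℂ) : azC τ z = az τ z := rfl

/-- The basis `m • embBasis`. -/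
def mBasis (F : Type*) [Field F] [NumberField F] [IsTotallyComplex F] (m : ℕ) (hm : m ≠ 0) :
    Module.Basis (Module.Free.ChooseBasisIndex ℤ (𝓞 F)) ℝ (InfinitePlace F → ℂ) :=
  (embBasis F).map (LinearEquiv.smulOfNeZero ℝ _ (m : ℝ) (Nat.cast_ne_zero.mpr hm))

theorem fdom_eq (m : ℕ) (hm : m ≠ 0) :
    fdom F m = ZSpan.fundamentalDomain (mBasis F m hm) := by
  rw [mBasis, ← ZSpan.map_fundamentalDomain]
  rfl

theorem mem_span_mBasis {m : ℕ} (hm : m ≠ 0) {x : InfinitePlace F → ℂ}
    (hx : x ∈ Submodule.span ℤ (Set.range (mBasis F m hm))) :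
    ∃ a : 𝓞 F, x = emb F ((m : F) * a) := by
  have h1 : Set.range (mBasis F m hm) =
      ((LinearEquiv.smulOfNeZero ℝ (InfinitePlace F → ℂ) (m : ℝ)
        (Nat.cast_ne_zero.mpr hm)).toLinearMap.restrictScalars ℤ) '' Set.range (embBasis F) := by
    rw [← Set.range_comp]
    rfl
  rw [h1, ← Submodule.map_span] at hx
  obtain ⟨y, hy, rfl⟩ := hx
  obtain ⟨a, rfl⟩ := (mem_span_embBasis F).mp hy
  refine ⟨a, ?_⟩
  change (m : ℝ) • emb F (a : F) = _
  rw [map_mul]
  funext w
  rw [Pi.smul_apply, Pi.mul_apply, emb_apply, emb_apply, map_natCast, Complex.real_smul]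
  norm_cast

theorem emb_mem_span_embBasis (a : 𝓞 F) :
    emb F (a : F) ∈ Submodule.span ℤ (Set.range (embBasis F)) :=
  (mem_span_embBasis F).mpr ⟨a, rfl⟩

theorem measurePreserving_ay (τ : F ≃+* F) :
    MeasurePreserving (ay τ) (volume : Measure (InfinitePlace F → ℝ)) volume := by
  have := volume_measurePreserving_piCongrLeft (fun _ : InfinitePlace F => ℝ)
    (Xi.placePerm τ).symm
  convert this using 1
  funext x w
  rw [MeasurableEquiv.coe_piCongrLeft, Equiv.piCongrLeft_apply_eq_cast]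
  simp
  rfl

end Coord

/-! ### The integral over the fundamental domain -/

section Int

variable {F : Type*} [Field F] [NumberField F] [IsTotallyComplex F]

theorem integral_az (τ : F ≃+* F) {m : ℕ} (hm : m ≠ 0) {g : (InfinitePlace F → ℂ) → ℂ}
    (hg : Measurable g) (hper : ∀ (a : 𝓞 F) z, g (z + emb F ((m : F) * a)) = g z) :
    ∫ z in fdom F m, g (az τ z) = ∫ z in fdom F m, g z := by
  have hb : Aleph.IsPer (mBasis F m hm) g := by
    intro l hl z
    obtain ⟨a, rfl⟩ := mem_span_mBasis hm hl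
    exact hper a z
  have hb' : Aleph.IsPer ((mBasis F m hm).map (azC τ).toLinearEquiv) g := by
    intro l hl z
    have h1 : Set.range ((mBasis F m hm).map (azC τ).toLinearEquiv) =
        ((azC τ).toLinearEquiv.toLinearMap.restrictScalars ℤ) '' Set.range (mBasis F m hm) := by
      rw [← Set.range_comp]
      rfl
    rw [h1, ← Submodule.map_span] at hl
    obtain ⟨y, hy, rfl⟩ := hl
    obtain ⟨a, rfl⟩ := mem_span_mBasis hm hy
    have h2 : (((azC τ).toLinearEquiv.toLinearMap.restrictScalars ℤ) (emb F ((m : F) * a))) =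
        emb F ((m : F) * (RingOfIntegers.mapRingEquiv τ a : 𝓞 F)) := by
      change az τ (emb F ((m : F) * a)) = _
      rw [az_emb, map_mul, map_natCast]
      rfl
    rw [h2]
    exact hper _ z
  rw [fdom_eq m hm]
  have h1 := Aleph.integral_change (volume : Measure (InfinitePlace F → ℂ)) hb hb' hg
  have h2 := Aleph.integral_map_basis (volume : Measure (InfinitePlace F → ℂ)) (mBasis F m hm)
    (azC τ) g
  rw [h1] at h2
  have h3 : ((volume : Measure (InfinitePlace F → ℂ)).real
      (ZSpan.fundamentalDomain ((mBasis F m hm).map (azC τ).toLinearEquiv)) : ℂ) ≠ 0 := by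
    rw [Complex.ofReal_ne_zero, measureReal_def]
    exact (ENNReal.toReal_pos (Aleph.measure_fd_ne_zero _ _) (Aleph.measure_fd_ne_top _ _)).ne'
  exact (mul_left_cancel₀ h3 h2).symm

end Int

section Main

variable {F : Type*} [Field F] [NumberField F] [IsTotallyComplex F] {D : Type*}
  [MeasurableSpace D] [MulAction (GL (Fin 2) F) D]

theorem map_nb' (τ : F ≃+* F) (b : F) :
    GeneralLinearGroup.map (n := Fin 2) (τ : F →+* F) (nb b) = nb (τ b) := by
  apply Units.ext
  ext i j
  fin_cases i <;> fin_cases j <;> simp [GeneralLinearGroup.map]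

theorem measurable_pt_left' (y : InfinitePlace F → ℝ) :
    Measurable fun z : InfinitePlace F → ℂ => pt z y := by
  have h : ∀ w : InfinitePlace F, Measurable fun z : InfinitePlace F → ℂ => ofPair (z w, y w) :=
    fun w => measurable_ofPair.comp ((measurable_pi_apply w).prodMk measurable_const)
  exact measurable_pi_lambda _ h

/-- **`τ` preserves cuspidality.** -/
theorem isCusp_comp {τ : F ≃+* F} {tD : D → D}
    (htD : ∀ (g : GL (Fin 2) F) d, tD (g • d) =
      GeneralLinearGroup.map (n := Fin 2) (τ : F →+* F) g • tD d)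
    {f : Xi F × D → ℂ} (hf : Measurable f) (hinv : ∀ (g : GL (Fin 2) F) z, f (g • z) = f z)
    (hc : IsCusp f) : IsCusp fun z : Xi F × D => f (Xi.tau τ z.1, tD z.2) := by
  intro d m hm hfix
  have hfix' : ∀ a : 𝓞 F, nb ((m : F) * a) • tD d = tD d := by
    intro a
    have h1 := congrArg tD (hfix (RingOfIntegers.mapRingEquiv τ.symm a))
    rw [htD, map_nb', map_mul, map_natCast] at h1
    have h2 : τ ((RingOfIntegers.mapRingEquiv τ.symm a : 𝓞 F) : F) = a :=
      τ.apply_symm_apply (a : F)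
    rwa [h2] at h1
  have hae := hc (tD d) m hm hfix'
  have hae' := (measurePreserving_ay τ).quasiMeasurePreserving.ae hae
  filter_upwards [hae'] with y hy hpos
  have hpos' : ∀ w, 0 < ay τ y w := fun w => hpos _
  have h1 : ∀ z : InfinitePlace F → ℂ, f (Xi.tau τ (pt z y), tD d) =
      (fun z' => f (pt z' (ay τ y), tD d)) (az τ z) := fun z => by rw [tau_pt τ hpos]
  simp only [h1]
  rw [integral_az τ hm (g := fun z' => f (pt z' (ay τ y), tD d))
    (hf.comp ((measurable_pt_left' _).prodMk measurable_const))]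
  · exact hy hpos'
  · intro a z
    have h2 := hinv (nb ((m : F) * a)) (pt z (ay τ y), tD d)
    have h3 : nb ((m : F) * a) • ((pt z (ay τ y), tD d) : Xi F × D) =
        (pt (z + emb F ((m : F) * a)) (ay τ y), tD d) :=
      Prod.ext (nb_smul_pt _ hpos') (hfix' a)
    rw [h3] at h2
    exact h2

end Main

end Fermat.Agent.LT.Desc
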