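import Fermat.Agent.LT.Desc.EigF
import Fermat.Agent.LT.Kappa.InstTau
import Fermat.Agent.LT.TauD

/-!
# Automorphisms of `L` and the passage from `X_∞ × D U` to `X_∞ × GL₂(∏_{w ∈ S} L_w)`

* `tauD_jS : tauD hU g (jS S U x) = jS S U (GL.map (tauFe hS g) x)`, `tw_toKap`;
* `wiP_tau`, `exists_wiP_vert_ne_zero` for the infinite part `wiP ν δ` of the first Whittaker
  coefficient.
-/

set_option autoImplicit false
set_option linter.unusedSectionVars false

noncomputable section

open NumberField IsDedekindDomain HeightOneSpectrum WithZero Matrix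
open scoped WithZero Topology ComplexConjugate

namespace Fermat.Agent.LT.Desc

open Lvl Ext Kap Adapt H3

/-! ### the finite part -/

section Fin

variable {L : Type*} [Field L] [NumberField L] {G : Type*} [Group G] [MulSemiringAction G L]
  {S : Finset (HeightOneSpectrum (𝓞 L))} {U : Lev L}

theorem glExt_loc (hS : SStable G S) (g : G) (x : GL (Fin 2) (Loc.Rf S))
    {w w' : HeightOneSpectrum (𝓞 L)} (h : g • w = w') :
    glExt h (loc S w x) =
      loc S w' (GeneralLinearGroup.map (n := Fin 2) (tauFe hS g : Loc.Rf S →+* Loc.Rf S) x) := by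
  by_cases hw : w ∈ S
  · have hw' : w' ∈ S := h ▸ hS g w hw
    refine gl_ext fun i j => ?_
    rw [glExt_apply, loc_apply_of_mem hw, loc_apply_of_mem hw']
    exact (tauF_apply_smul hS g (x i j) (w := ⟨w, hw⟩) (w' := ⟨w', hw'⟩) h).symm
  · have hw' : w' ∉ S := fun h' => hw ((hS.mem_iff g w).mp (h ▸ h'))
    rw [loc_of_notMem hw, loc_of_notMem hw', map_one]

/-- **the action of `g` on `D U` and on `GL₂(∏_{w ∈ S} L_w)`.** -/
theorem tauD_jS (hU : GStable G U.U) (hS : SStable G S) (g : G) (x : GL (Fin 2) (Loc.Rf S)) :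
    tauD hU g (jS S U x) =
      jS S U (GeneralLinearGroup.map (n := Fin 2) (tauFe hS g : Loc.Rf S →+* Loc.Rf S) x) := by
  refine RProd.ext' fun w => ?_
  rw [tauD_apply hU g _ (smul_inv_smul g w), jS_apply, jS_apply]
  refine (dvMap_mk hU (smul_inv_smul g w) _).trans ?_
  rw [glExt_loc hS g x (smul_inv_smul g w)]

/-- the action of `g` on functions on `X_∞ × D U`. -/
def tauFun (hU : GStable G U.U) (g : G) (f : Xi L × D U → ℂ) : Xi L × D U → ℂ :=
  fun z => f (Xi.tau (MulSemiringAction.toRingEquiv G L g) z.1, tauD hU g z.2)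

theorem tauFun_apply (hU : GStable G U.U) (g : G) (f : Xi L × D U → ℂ) (z : Xi L × D U) :
    tauFun hU g f z = f (Xi.tau (MulSemiringAction.toRingEquiv G L g) z.1, tauD hU g z.2) := rfl

/-- **`toKap` commutes with the automorphism.** -/
theorem tw_toKap (hU : GStable G U.U) (hS : SStable G S) (g : G) {δ : L} (hδ : g • δ = δ)
    (f : Xi L × D U → ℂ) :
    (tauDat hS g hδ).tw (toKap S U f) = toKap S U (tauFun hU g f) := by
  funext p
  show f (_, jS S U _) = f (_, tauD hU g (jS S U p.f))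
  rw [tauD_jS hU hS]
  rfl

end Fin

/-! ### the infinite part -/

section Inf

theorem e2_conj (c z : ℂ) : e2 (conj c) (conj z) = e2 c z := by
  unfold e2
  rw [← map_mul, Complex.conj_re]

theorem whit_cj (ν c : ℂ) (P : H3) : whit ν (conj c) (cj P) = whit ν c P := by
  unfold whit
  rw [z_cj, y_cj, e2_conj, Complex.norm_conj]

variable {F : Type*} [Field F]

theorem whit_cmp (φ ψ : F →+* ℂ) (ν c : ℂ) (P : H3) :
    whit ν (cmpC φ ψ c) (cmp φ ψ P) = whit ν c P := by
  by_cases h : φ = ψ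
  · subst h
    rw [cmpC_self, cmp_self]
  · rw [cmpC_of_ne h, cmp_of_ne h, whit_cj]

variable [NumberField F]

theorem wiP_apply (ν : InfinitePlace F → ℂ) (δ : F) (z : Xi F) :
    wiP ν δ z = ∏ w : InfinitePlace F, whit (ν w) (w.embedding δ) (z w) := rfl

theorem wiP_tau {ν : InfinitePlace F → ℂ} {δ : F} (τ : F ≃+* F)
    (hν : ∀ w : InfinitePlace F, ν (w.comap (τ : F →+* F)) = ν w) (hδ : τ δ = δ) (z : Xi F) :
    wiP ν δ (Xi.tau τ z) = wiP ν δ z := by
  rw [wiP_apply, wiP_apply,
    ← (Xi.placePerm τ).prod_comp fun w => whit (ν w) (w.embedding δ) (z w)]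
  refine Finset.prod_congr rfl fun w _ => ?_
  show whit (ν w) (w.embedding δ) (Xi.tau τ z w) =
    whit (ν (w.comap (τ : F →+* F))) ((w.comap (τ : F →+* F)).embedding δ)
      (z (w.comap (τ : F →+* F)))
  have h1 : w.embedding δ = cmpC (w.embedding.comp (τ : F →+* F))
      (w.comap (τ : F →+* F)).embedding ((w.comap (τ : F →+* F)).embedding δ) := by
    rw [cmpC_apply (Xi.mk_comp_eq _ w)]
    show _ = w.embedding (τ δ)
    rw [hδ]
  rw [h1, Xi.tau_apply, whit_cmp, hν]

theorem embedding_ne_zero {δ : F} (hδ : δ ≠ 0) (w : InfinitePlace F) : w.embedding δ ≠ 0 :=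
  (map_ne_zero w.embedding).mpr hδ

theorem continuous_wiP (ν : InfinitePlace F → ℂ) {δ : F} (hδ : δ ≠ 0) :
    Continuous (wiP ν δ) :=
  continuous_prod_whit ν fun w => embedding_ne_zero hδ w

/-- `wiP` does not vanish at some `τ`-fixed point. -/
theorem exists_wiP_vert_ne_zero (ν : InfinitePlace F → ℂ) {δ : F} (hδ : δ ≠ 0) :
    ∃ (y : ℝ) (hy : 0 < y), wiP ν δ (vert y hy) ≠ 0 := by
  obtain ⟨Y, hY, h⟩ := exists_prod_whit_ne_zero (ν := ν)
    (c := fun w : InfinitePlace F => w.embedding δ) fun w => embedding_ne_zero hδ w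
  exact ⟨Y, hY, h (vert Y hY) fun _ => le_rfl⟩

end Inf

end Fermat.Agent.LT.Desc

end
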