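import Fermat.Agent.LT.Desc.Tau
import Fermat.Agent.LT.Auto.Sym

/-!
# `τ` and the operators of symbols

* `tauHK hDs : HK G D →ₐ[ℂ] HK G D`, `(tauHK hDs a).ker d d' = a.ker (tD d) (tD d')`;
* `TauHyp.tauL_mul_opD`, `tauL_mul_opF`, `tauL_mul_symOp`, in terms of the kernels.
-/

set_option autoImplicit false

noncomputable section

open MeasureTheory ENNReal MulAction ProbabilityTheory
open scoped InnerProductSpace ComplexConjugate

namespace Fermat.Agent.LT.Desc

section HK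

variable {G D : Type*} [Group G] [MulAction G D] {tD : D ≃ D} {σ : G ≃* G}

theorem symm_equivariant (hDs : ∀ (g : G) d, tD (g • d) = σ g • tD d) (g : G) (d : D) :
    tD.symm (g • d) = σ.symm g • tD.symm d := by
  rw [Equiv.symm_apply_eq, hDs, MulEquiv.apply_symm_apply, Equiv.apply_symm_apply]

/-- The transported Hecke kernel `(d, d') ↦ a (t d) (t d')`. -/
def tauHK (hDs : ∀ (g : G) d, tD (g • d) = σ g • tD d) : HK G D →ₐ[ℂ] HK G D :=
  HK.map tD.symm fun g => ⟨σ g, fun d => by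
    rw [symm_equivariant hDs, MulEquiv.symm_apply_apply]⟩

@[simp] theorem ker_tauHK (hDs : ∀ (g : G) d, tD (g • d) = σ g • tD d) (a : HK G D) (d d' : D) :
    (tauHK hDs a).ker d d' = a.ker (tD d) (tD d') := by
  rw [tauHK, HK.ker_map, Equiv.symm_symm]

theorem tauHK_star (hDs : ∀ (g : G) d, tD (g • d) = σ g • tD d) (a : HK G D) :
    tauHK hDs (star a) = star (tauHK hDs a) :=
  HK.map_star _ _ a

theorem tauHK_symm_tauHK (hDs : ∀ (g : G) d, tD (g • d) = σ g • tD d) (a : HK G D) :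
    tauHK (symm_equivariant hDs) (tauHK hDs a) = a := by
  ext d d'
  rw [ker_tauHK, ker_tauHK, Equiv.apply_symm_apply, Equiv.apply_symm_apply]

theorem tauHK_tauHK_symm (hDs : ∀ (g : G) d, tD (g • d) = σ g • tD d) (a : HK G D) :
    tauHK hDs (tauHK (symm_equivariant hDs) a) = a := by
  ext d d'
  rw [ker_tauHK, ker_tauHK, Equiv.symm_apply_apply, Equiv.symm_apply_apply]

end HK

namespace TauHyp

section Op

variable {G X D : Type*} [Group G] [MulAction G X] [MulAction G D] [MeasurableSpace X]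
  [MeasurableSpace D] [MeasurableSingletonClass D] [Countable D] {mX : Measure X} [SFinite mX]
  {tX : X ≃ᵐ X} {tD : D ≃ D} {σ : G ≃* G}
  [MeasurableConstSMul G (X × D)] [SMulInvariantMeasure G (X × D) (muXD mX D)] [Countable G]
  {w : X × D → ℝ≥0∞} (hT : ∃ T : Finset D, ∀ d, ∃ g : G, g • d ∈ T) (hw : IsWeight G w)

/-- **`τ` and Hecke kernels.** -/
theorem tauL_mul_opD (h : TauHyp G (muXD mX D) (tProd tX tD) σ) {a a' : HK G D}
    (haa : ∀ d d', a'.ker d d' = a.ker (tD d) (tD d')) :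
    h.tauL hw * opD hT hw a = opD hT hw a' * h.tauL hw := by
  obtain ⟨C, ha⟩ := HK.exists_discHyp hT a
  obtain ⟨C', ha'⟩ := HK.exists_discHyp hT a'
  have hk : a'.ker = fun d d' => a.ker (tD d) (tD d') := by
    funext d d'
    exact haa d d'
  have hb : DiscHyp G (fun d d' => a.ker (tD d) (tD d')) C' := hk ▸ ha'
  rw [opD_eq hT hw ha rfl, opD_eq hT hw hb hk]
  exact h.tauL_comp_disc ha hb hw

variable {𝒦 : Type*}

section

variable [Mul 𝒦] (κ : KerSg G mX 𝒦)

/-- **`τ` and full kernels.** -/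
theorem tauL_mul_opF (h : TauHyp G (muXD mX D) (tProd tX tD) σ) {a a' : HK G D} {k k' : 𝒦}
    (hkk : ∀ x x', κ.kap k' x x' = κ.kap k (tX x) (tX x'))
    (haa : ∀ d d', a'.ker d d' = a.ker (tD d) (tD d')) :
    h.tauL hw * opF κ hT hw k a = opF κ hT hw k' a' * h.tauL hw := by
  obtain ⟨C, ha⟩ := HK.exists_discHyp hT a
  obtain ⟨C', ha'⟩ := HK.exists_discHyp hT a'
  obtain ⟨B, hk⟩ := κ.hyp k
  obtain ⟨B', hk'⟩ := κ.hyp k'
  have h1 : a'.ker = fun d d' => a.ker (tD d) (tD d') := by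
    funext d d'
    exact haa d d'
  have h2 : κ.kap k' = fun x x' => κ.kap k (tX x) (tX x') := by
    funext x x'
    exact hkk x x'
  have hb : DiscHyp G (fun d d' => a.ker (tD d) (tD d')) C' := h1 ▸ ha'
  have hl : FullHyp G mX (fun x x' => κ.kap k (tX x) (tX x')) B' := h2 ▸ hk'
  rw [opF_eq κ hT hw hk ha rfl rfl, opF_eq κ hT hw hl hb h2 h1]
  exact h.tauL_comp_full hk ha hl hb hw

end

variable [Semigroup 𝒦] (κ : KerSg G mX 𝒦)

/-- **`τ` and symbols.** -/
theorem tauL_mul_symOp (h : TauHyp G (muXD mX D) (tProd tX tD) σ) {φ : 𝒦 → 𝒦}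
    (hφ : ∀ k x x', κ.kap (φ k) x x' = κ.kap k (tX x) (tX x')) (x : WithOne 𝒦) {a a' : HK G D}
    (haa : ∀ d d', a'.ker d d' = a.ker (tD d) (tD d')) :
    h.tauL hw * symOp κ hT hw (x, a) = symOp κ hT hw (Option.map φ x, a') * h.tauL hw := by
  induction x using WithOne.recOneCoe with
  | one => exact h.tauL_mul_opD hT hw haa
  | coe k => exact h.tauL_mul_opF hT hw κ (hφ k) haa

end Op

end TauHyp

end Fermat.Agent.LT.Desc
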