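import Fermat.Agent.LT.Desc.TauSym
import Fermat.Agent.LT.TauXi
import Fermat.Agent.LT.TauD
import Fermat.Agent.LT.CT

/-!
# The operator `τ` on `L²(PGL₂(L) \ (X_∞ × D U))`

* `xiTau τ : Xi F ≃ᵐ Xi F` (helper66's `Xi.tau`), `tauZE τ tD : Xi F × D ≃ᵐ Xi F × D`;
* `tauHyp_tauZE : TauHyp (PG F) (muZ F D) (tauZE τ tD) (PG.tau τ)` as soon as
  `tD (g • d) = τ g • tD d` for `g : PG F`;
* `pg_tauD_smul`: this holds for helper85's `tauDEquiv hU g`.
-/

set_option autoImplicit false
set_option linter.unusedSectionVars false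

noncomputable section

open MeasureTheory ENNReal MulAction ProbabilityTheory NumberField Matrix
open scoped InnerProductSpace ComplexConjugate

namespace Fermat.Agent.LT.Desc

section Xi

variable {F : Type*} [Field F] [NumberField F] [IsTotallyComplex F]

/-- `Xi.tau τ` as a measurable equivalence. -/
def xiTau (τ : F ≃+* F) : Xi F ≃ᵐ Xi F where
  toFun := Xi.tau τ
  invFun := Xi.tau τ.symm
  left_inv := Xi.tau_symm_tau τ
  right_inv := Xi.tau_tau_symm τ
  measurable_toFun := (Xi.continuous_tau τ).measurable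
  measurable_invFun := (Xi.continuous_tau τ.symm).measurable

@[simp] theorem xiTau_apply (τ : F ≃+* F) (x : Xi F) : xiTau τ x = Xi.tau τ x := rfl

@[simp] theorem xiTau_symm_apply (τ : F ≃+* F) (x : Xi F) :
    (xiTau τ).symm x = Xi.tau τ.symm x := rfl

theorem measurePreserving_xiTau (τ : F ≃+* F) :
    MeasurePreserving (xiTau τ) (volume : Measure (Xi F)) volume :=
  Xi.measurePreserving_tau τ

variable {D : Type*} [MeasurableSpace D] [MeasurableSingletonClass D] [Countable D]

/-- The automorphism `τ × tD` of `Xi F × D`. -/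
def tauZE (τ : F ≃+* F) (tD : D ≃ D) : Xi F × D ≃ᵐ Xi F × D := TauHyp.tProd (xiTau τ) tD

@[simp] theorem tauZE_apply (τ : F ≃+* F) (tD : D ≃ D) (z : Xi F × D) :
    tauZE τ tD z = (Xi.tau τ z.1, tD z.2) := rfl

@[simp] theorem tauZE_symm_apply (τ : F ≃+* F) (tD : D ≃ D) (z : Xi F × D) :
    (tauZE τ tD).symm z = (Xi.tau τ.symm z.1, tD.symm z.2) := rfl

variable [MulAction (GL (Fin 2) F) D] [TrivScalar F D]

/-- The hypothesis on `tD` may be checked on `GL₂(F)`. -/
theorem pg_equivariant {τ : F ≃+* F} {tD : D → D}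
    (h : ∀ (g : GL (Fin 2) F) d, tD (g • d) =
      GeneralLinearGroup.map (n := Fin 2) (τ : F →+* F) g • tD d) (g : PG F) (d : D) :
    tD (g • d) = PG.tau τ g • tD d := by
  obtain ⟨g, rfl⟩ := QuotientGroup.mk_surjective g
  rw [PG.tau_mk, pg_smul, pg_smul]
  exact h g d

theorem tauHyp_tauZE {τ : F ≃+* F} {tD : D ≃ D}
    (h : ∀ (g : PG F) d, tD (g • d) = PG.tau τ g • tD d) :
    TauHyp (PG F) (muXD (volume : Measure (Xi F)) D) (tauZE τ tD) (PG.tau τ) :=
  TauHyp.prod (measurePreserving_xiTau τ) (fun g x => PG.xi_tau_smul τ g x) h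

end Xi

section DU

open IsDedekindDomain Fermat.Agent.LT.Lvl Fermat.Agent.LT.Ext

variable {L : Type*} [Field L] [NumberField L] {G' : Type*} [Group G'] [MulSemiringAction G' L]
  {U : Lev L}

theorem gl_tauD_smul (hU : GStable G' U.U) (g : G') (γ : GL (Fin 2) L) (d : D U) :
    tauDEquiv hU g (γ • d) = GeneralLinearGroup.map (n := Fin 2)
      (MulSemiringAction.toRingEquiv G' L g : L →+* L) γ • tauDEquiv hU g d :=
  tauD_smul hU g γ d

end DU

end Fermat.Agent.LT.Desc
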